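import Fermat.Agent.FlatTangent.Cocycle
import Fermat.Agent.TW.OrdinaryLine

/-!
# The flat local condition in the ordinary case

Upper triangular cocycles whose off-diagonal Kummer elements are units give at most
`h⁰(ad⁰) + 1` dimensions.
-/

set_option autoImplicit false
set_option linter.unusedSectionVars false
set_option linter.style.haveILetI false
set_option maxSynthPendingDepth 3

noncomputable section

namespace Fermat.Agent.FlatTangent

open CategoryTheory groupCohomology ExtCitation Module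
open TW (ad0 cocycleEnd ad0_rho_coe locPrime adZeroSpace)

variable {p : ℕ} [Fact p.Prime]

/-- A unit Kummer element for a functional of an extension by a twist of `ℤ/p (1)`. -/
theorem lev_one_of_ext {d n : ℕ} (hT : TameLevel p n d) {M A : Type} [AddCommGroup M]
    [Module (ZMod p) M] [Fintype M] [DecidableEq M] [AddCommGroup A] [Module (ZMod p) A] [Fintype A]
    [DecidableEq A] {act : Gal → M → M} (R : Model p M act) (L : A →+ M) (P : M)
    (hLP : ∀ (a : A) (y : ZMod p), L a + y • P = 0 → a = 0 ∧ y = 0) (γ : Gal → A)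
    (hL : ∀ σ ∈ inert p, ∀ a, act σ (L a) = L (cyc p σ • a))
    (hP : ∀ σ ∈ inert p, act σ P = P + L (γ σ)) (l : A →+ ZMod p) {f : Gal → ZMod p}
    (hfl : ∀ σ ∈ Kn p n, f σ = l (γ σ))
    (hf : ∀ σ ∈ Kn p n, ∀ τ ∈ Kn p n, f (σ * τ) = f σ + f τ)
    (F : IntermediateField ℚ Qb) [FiniteDimensional ℚ F]
    (hlev : ∀ σ ∈ Kn p n, σ ∈ F.fixingSubgroup → f σ = 0) : Lev p n 1 f := by
  classical
  by_cases hl0 : ∀ a, l a = 0
  · exact Lev.zero 1 fun σ hσ => by rw [hfl σ hσ, hl0]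
  push Not at hl0
  obtain ⟨a₀, ha₀⟩ := hl0
  let i : A × ZMod p →+ M := AddMonoidHom.mk' (fun w => L w.1 + w.2 • P) fun u v => by
    simp only [Prod.fst_add, Prod.snd_add, map_add, add_smul]; abel
  have hi : Function.Injective i := by
    rw [injective_iff_map_eq_zero]
    rintro ⟨a, y⟩ h
    obtain ⟨rfl, rfl⟩ := hLP a y h
    rfl
  let actN : Gal → A × ZMod p → A × ZMod p := fun σ w =>
    if σ ∈ inert p then (cyc p σ • w.1 + w.2 • γ σ, w.2) else w
  have hyl : ∀ (y : ZMod p) (a : A), L (y • a) = y • L a := fun y a => by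
    exact (L.toZModLinearMap p).map_smul y a
  have hcompat : ∀ σ ∈ inert p, ∀ w, i (actN σ w) = act σ (i w) := by
    intro σ hσ w
    have hlin : act σ (w.2 • P) = w.2 • act σ P := by
      exact ((AddMonoidHom.mk' (act σ) (R.isAct.map_add σ hσ)).toZModLinearMap p).map_smul w.2 P
    simp only [i, actN, if_pos hσ, AddMonoidHom.mk'_apply, map_add]
    rw [R.isAct.map_add σ hσ, hL σ hσ, hlin, hP σ hσ, smul_add]
    simp only [hyl]
    abel
  have hγ1 : γ 1 = 0 := by
    have h := hP 1 (one_mem _)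
    rw [R.isAct.map_one, left_eq_add] at h
    exact (hLP _ 0 (by rw [h, zero_smul, add_zero])).1
  obtain ⟨R₁, -, -⟩ := R.exists_restrict (actN := actN) i hi hcompat fun w => by
    simp [actN, cyc_one, hγ1]
  let π : A × ZMod p →+ ZMod p × ZMod p := AddMonoidHom.mk' (fun w => (l w.1, w.2)) fun u v => by
    simp
  let actQ : Gal → ZMod p × ZMod p → ZMod p × ZMod p := fun σ w =>
    if σ ∈ inert p then (cyc p σ * w.1 + w.2 * l (γ σ), w.2) else w
  have hπ : Function.Surjective π := by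
    rintro ⟨a, y⟩
    refine ⟨((a * (l a₀)⁻¹) • a₀, y), Prod.ext ?_ rfl⟩
    show l ((a * (l a₀)⁻¹) • a₀) = a
    rw [show l ((a * (l a₀)⁻¹) • a₀) = (a * (l a₀)⁻¹) • l a₀ from
      (l.toZModLinearMap p).map_smul _ _, smul_eq_mul, inv_mul_cancel_right₀ ha₀]
  obtain ⟨R₂, -, -⟩ := R₁.exists_quotient (actQ := actQ) π hπ (fun σ hσ w => by
    simp only [π, actN, actQ, if_pos hσ, AddMonoidHom.mk'_apply, map_add]
    refine Prod.ext ?_ rfl
    show l (cyc p σ • w.1) + l (w.2 • γ σ) = _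
    rw [show l (cyc p σ • w.1) = cyc p σ • l w.1 from (l.toZModLinearMap p).map_smul _ _,
      show l (w.2 • γ σ) = w.2 • l (γ σ) from (l.toZModLinearMap p).map_smul _ _]
    rfl) fun w => by simp [actQ, cyc_one, hγ1]
  refine lev_one_of_model hT R₂ (P := (0, 1)) (h := (1, 0)) (by simp) hf F hlev fun σ hσ => ?_
  simp [actQ, (mem_Kn.mp hσ).1, hfl σ hσ]

variable {k : Type} [Field k] [CharP k p] {ρbar : ResidualGaloisRep k} (O : OrdData p ρbar)

theorem tameLevel_one : TameLevel p (p - 1) 1 := by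
  refine ⟨fun h => ?_, (mul_one _).symm⟩
  have h2 := (Fact.out : p.Prime).two_le
  have := Nat.le_of_dvd (by omega) h
  omega

namespace OrdData

/-- The character on the line. -/
def x (σ : Gal) : k := O.b.coord 0 (ρbar.ρ σ (O.b 0))

/-- The extension class. -/
def e (σ : Gal) : k := O.b.coord 0 (ρbar.ρ σ (O.b 1))

/-- The character on the quotient. -/
def z (σ : Gal) : k := O.b.coord 1 (ρbar.ρ σ (O.b 1))

theorem coord_b (i j : Fin 2) : O.b.coord i (O.b j) = if j = i then 1 else 0 := by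
  rw [Basis.coord_apply, Basis.repr_self, Finsupp.single_apply]

theorem rho₀ {σ : Gal} (hσ : σ ∈ dec p) : ρbar.ρ σ (O.b 0) = O.x σ • O.b 0 := by
  obtain ⟨t, ht⟩ := Submodule.mem_span_singleton.1 (O.stable σ hσ)
  rw [x, ← ht, map_smul, coord_b, if_pos rfl, smul_eq_mul, mul_one]

theorem rho₁ (σ : Gal) : ρbar.ρ σ (O.b 1) = O.e σ • O.b 0 + O.z σ • O.b 1 :=
  basis_decomp O.b _

theorem x_inert {σ : Gal} (hσ : σ ∈ inert p) : O.x σ = cycIn p k σ := by
  rw [x, O.inert_sub σ hσ, map_smul, coord_b, if_pos rfl, smul_eq_mul, mul_one]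

theorem z_inert {σ : Gal} (hσ : σ ∈ inert p) : O.z σ = 1 := by
  obtain ⟨t, ht⟩ := Submodule.mem_span_singleton.1 (O.inert_quot σ hσ (O.b 1))
  have h := congrArg (O.b.coord 1) ht
  rw [map_smul, map_sub, coord_b, coord_b, if_pos rfl, if_neg (by decide), smul_eq_mul,
    mul_zero, eq_comm, sub_eq_zero] at h
  exact h

theorem x_ne {σ : Gal} (hσ : σ ∈ dec p) : O.x σ ≠ 0 := fun h => by
  have h1 := O.rho₀ hσ
  rw [h, zero_smul] at h1
  exact O.b.ne_zero 0 (TW.ρ_injective ρbar σ (h1.trans (map_zero _).symm))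

theorem z_ne {σ : Gal} (hσ : σ ∈ dec p) : O.z σ ≠ 0 := fun h => by
  have h1 : ρbar.ρ σ (O.x σ • O.b 1 - O.e σ • O.b 0) = 0 := by
    rw [map_sub, map_smul, map_smul, O.rho₀ hσ, O.rho₁, h, zero_smul, add_zero, smul_smul,
      smul_smul, mul_comm, sub_self]
  have h2 := congrArg (O.b.coord 1) (TW.ρ_injective ρbar σ (h1.trans (map_zero _).symm))
  simp [map_sub, map_smul, O.x_ne hσ] at h2

/-- The diagonal entry of a cocycle. -/
def aC : cocycles₁ (ad0 ρbar) →ₗ[k] Gal → k where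
  toFun c σ := O.b.coord 0 (cocycleEnd ρbar c σ (O.b 0))
  map_add' c c' := funext fun σ => map_add (O.b.coord 0) _ _
  map_smul' t c := funext fun σ => map_smul (O.b.coord 0) t _

/-- The off-diagonal entry of a cocycle. -/
def bC : cocycles₁ (ad0 ρbar) →ₗ[k] Gal → k where
  toFun c σ := O.b.coord 0 (cocycleEnd ρbar c σ (O.b 1))
  map_add' c c' := funext fun σ => map_add (O.b.coord 0) _ _
  map_smul' t c := funext fun σ => map_smul (O.b.coord 0) t _

/-- Upper triangular on decomposition, strictly on inertia. -/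
structure Upper (c : cocycles₁ (ad0 ρbar)) : Prop where
  dec : ∀ σ ∈ dec p, O.b.coord 1 (cocycleEnd ρbar c σ (O.b 0)) = 0
  inert : ∀ σ ∈ inert p, O.aC c σ = 0

variable {O} {c : cocycles₁ (ad0 ρbar)}

theorem Upper.apply₀ (hc : O.Upper c) {σ : Gal} (hσ : σ ∈ FlatTangent.dec p) :
    cocycleEnd ρbar c σ (O.b 0) = O.aC c σ • O.b 0 := by
  conv_lhs => rw [basis_decomp O.b (cocycleEnd ρbar c σ (O.b 0))]
  rw [hc.dec σ hσ, zero_smul, add_zero]
  rfl

theorem Upper.apply₁ (σ : Gal) :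
    cocycleEnd ρbar c σ (O.b 1) = O.bC c σ • O.b 0 - O.aC c σ • O.b 1 := by
  conv_lhs => rw [basis_decomp O.b (cocycleEnd ρbar c σ (O.b 1))]
  have h := trace_eq_zero ((c σ : ad0 ρbar) : adZeroSpace ρbar) O.b
  rw [show O.b.coord 1 (cocycleEnd ρbar c σ (O.b 1)) = -O.aC c σ from
    eq_neg_of_add_eq_zero_right h, neg_smul, ← sub_eq_add_neg]
  rfl

theorem Upper.a_mul (hc : O.Upper c) {σ τ : Gal} (hσ : σ ∈ FlatTangent.dec p)
    (hτ : τ ∈ FlatTangent.dec p) : O.aC c (σ * τ) = O.aC c τ + O.aC c σ := by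
  have h := congrArg (O.b.coord 0) (cocycleEnd_mul_apply c σ τ (O.b 0))
  rw [O.rho₀ hσ, map_smul (cocycleEnd ρbar c (σ * τ)), hc.apply₀ (mul_mem hσ hτ), hc.apply₀ hτ,
    map_smul (cocycleEnd ρbar c σ), hc.apply₀ hσ, map_smul (ρbar.ρ σ), O.rho₀ hσ] at h
  simp only [map_add, map_smul, coord_b, if_pos, smul_eq_mul, mul_one] at h
  exact mul_left_cancel₀ (O.x_ne hσ) (by linear_combination h)

theorem Upper.b_mul (hc : O.Upper c) {σ τ : Gal} (hσ : σ ∈ FlatTangent.dec p)
    (hτ : τ ∈ FlatTangent.dec p) :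
    O.z σ * O.bC c (σ * τ) =
      O.x σ * O.bC c τ + O.z σ * O.bC c σ - 2 * O.e σ * O.aC c τ := by
  have h := congrArg (O.b.coord 0) (cocycleEnd_mul_apply c σ τ (O.b 1))
  rw [O.rho₁, map_add (cocycleEnd ρbar c (σ * τ)), map_smul (cocycleEnd ρbar c (σ * τ)),
    map_smul (cocycleEnd ρbar c (σ * τ)), hc.apply₀ (mul_mem hσ hτ), Upper.apply₁,
    Upper.apply₁, map_add (cocycleEnd ρbar c σ), map_smul (cocycleEnd ρbar c σ),
    map_smul (cocycleEnd ρbar c σ), hc.apply₀ hσ, Upper.apply₁, map_sub (ρbar.ρ σ),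
    map_smul (ρbar.ρ σ), map_smul (ρbar.ρ σ), O.rho₀ hσ, O.rho₁] at h
  simp only [map_add, map_sub, map_smul, coord_b, if_pos, if_neg (show (1 : Fin 2) ≠ 0 by decide),
    smul_eq_mul, mul_one, mul_zero, add_zero, sub_zero] at h
  rw [hc.a_mul hσ hτ] at h
  linear_combination h

theorem Upper.b_Kn (hc : O.Upper c) :
    ∀ σ ∈ Kn p (p - 1), ∀ τ ∈ Kn p (p - 1), O.bC c (σ * τ) = O.bC c σ + O.bC c τ := by
  intro σ hσ τ hτ
  have hI := (mem_Kn.mp hσ).1
  have h := hc.b_mul (inert_le_dec hI) (inert_le_dec (mem_Kn.mp hτ).1)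
  rw [O.z_inert hI, O.x_inert hI, hc.inert τ (mem_Kn.mp hτ).1, cycIn,
    tameLevel_one.cyc_Kn hσ, map_one] at h
  linear_combination h

theorem Upper.conj (hc : O.Upper c) {σ τ : Gal} (hσ : σ ∈ Kn p (p - 1)) (hτ : τ ∈ FlatTangent.dec p) :
    O.x τ * O.bC c (τ⁻¹ * σ * τ) = O.z τ * (O.bC c σ - 2 * O.e σ * O.aC c τ) := by
  have hI := (mem_Kn.mp hσ).1
  have hσ' := conj_inv_mem_Kn tameLevel_one.not_dvd hσ hτ
  have h1 := hc.b_mul (inert_le_dec hI) hτ
  have h2 := hc.b_mul hτ (inert_le_dec (mem_Kn.mp hσ').1)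
  rw [show τ * (τ⁻¹ * σ * τ) = σ * τ by group, hc.inert _ (mem_Kn.mp hσ').1] at h2
  rw [O.z_inert hI, O.x_inert hI, cycIn, tameLevel_one.cyc_Kn hσ, map_one] at h1
  linear_combination O.z τ * h1 - h2

variable (O)

/-- The element `v₁ ↦ v₀`. -/
def nil : ad0 ρbar :=
  (⟨(O.b.coord 1).smulRight (O.b 0), by
    rw [LinearMap.mem_ker, LinearMap.trace_smulRight, coord_b, if_neg (by decide)]⟩ :
      adZeroSpace ρbar)

/-- The element `diag (1, -1)`. -/
def dia : ad0 ρbar :=
  (⟨(O.b.coord 0).smulRight (O.b 0) - (O.b.coord 1).smulRight (O.b 1), by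
    rw [LinearMap.mem_ker, map_sub, LinearMap.trace_smulRight, LinearMap.trace_smulRight, coord_b,
      coord_b, if_pos rfl, if_pos rfl, sub_self]⟩ : adZeroSpace ρbar)

theorem nil_apply (v : ρbar.V) :
    (O.nil : adZeroSpace ρbar).1 v = O.b.coord 1 v • O.b 0 := rfl

theorem dia_apply (v : ρbar.V) :
    (O.dia : adZeroSpace ρbar).1 v = O.b.coord 0 v • O.b 0 - O.b.coord 1 v • O.b 1 := rfl

theorem cob_nil {σ : Gal} (hσ : σ ∈ FlatTangent.dec p) :
    O.bC (cobCocycle ρbar O.nil) σ * O.z σ = O.x σ - O.z σ ∧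
      cocycleEnd ρbar (cobCocycle ρbar O.nil) σ (O.b 0) = 0 := by
  have h0 := cocycleEnd_cob_comp O.nil σ (O.b 0)
  simp only [O.rho₀ hσ, map_smul, nil_apply, coord_b, if_neg (show (0 : Fin 2) ≠ 1 by decide),
    zero_smul, map_zero, smul_zero, sub_zero, smul_eq_zero] at h0
  have hv := h0.resolve_left (O.x_ne hσ)
  refine ⟨?_, hv⟩
  have h1 := congrArg (O.b.coord 0) (cocycleEnd_cob_comp O.nil σ (O.b 1))
  rw [O.rho₁, map_add, map_smul, map_smul, hv, smul_zero, zero_add, nil_apply, nil_apply,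
    coord_b, if_pos rfl, one_smul, O.rho₀ hσ] at h1
  simp only [map_add, map_sub, map_smul, coord_b, if_pos,
    if_neg (show (0 : Fin 2) ≠ 1 by decide), smul_eq_mul, mul_one, mul_zero, zero_add] at h1
  have h2 : O.z σ * O.bC (cobCocycle ρbar O.nil) σ = O.x σ - O.z σ := h1
  linear_combination h2

theorem upper_dia : O.Upper (cobCocycle ρbar O.dia) ∧
    (∀ σ ∈ FlatTangent.dec p, O.aC (cobCocycle ρbar O.dia) σ = 0) ∧
    ∀ σ ∈ FlatTangent.dec p, O.z σ * O.bC (cobCocycle ρbar O.dia) σ = -2 * O.e σ := by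
  have h0 : ∀ σ ∈ FlatTangent.dec p, cocycleEnd ρbar (cobCocycle ρbar O.dia) σ (O.b 0) = 0 := by
    intro σ hσ
    have h := cocycleEnd_cob_comp O.dia σ (O.b 0)
    rw [O.rho₀ hσ, map_smul, dia_apply, dia_apply, map_smul, map_smul, coord_b, coord_b,
      if_pos rfl, if_neg (by decide), one_smul, zero_smul, sub_zero, O.rho₀ hσ, smul_zero,
      zero_smul, sub_zero, smul_eq_mul, mul_one, sub_self, smul_eq_zero] at h
    exact h.resolve_left (O.x_ne hσ)
  refine ⟨⟨fun σ hσ => by rw [h0 σ hσ, map_zero], fun σ hσ => ?_⟩, fun σ hσ => ?_, fun σ hσ => ?_⟩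
  · show O.b.coord 0 _ = 0
    rw [h0 σ (inert_le_dec hσ), map_zero]
  · show O.b.coord 0 _ = 0
    rw [h0 σ hσ, map_zero]
  · have h1 := congrArg (O.b.coord 0) (cocycleEnd_cob_comp O.dia σ (O.b 1))
    rw [O.rho₁, map_add, map_smul, map_smul, h0 σ hσ, smul_zero, zero_add, dia_apply, dia_apply]
      at h1
    simp only [map_add, map_sub, map_smul, coord_b, if_pos, O.rho₁,
      if_neg (show (0 : Fin 2) ≠ 1 by decide), if_neg (show (1 : Fin 2) ≠ 0 by decide),
      smul_eq_mul, mul_one, mul_zero, zero_smul, one_smul, map_zero, zero_add, add_zero, sub_zero,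
      zero_sub, map_neg, mul_neg] at h1
    have h2 : O.z σ * O.bC (cobCocycle ρbar O.dia) σ = -O.e σ - O.e σ := h1
    linear_combination h2

variable [Algebra (ZMod p) k] [Fintype k]

/-- The ordinary cocycles with unit Kummer elements. -/
def space : Submodule k (cocycles₁ (ad0 ρbar)) where
  carrier := {c | IsLevelConstant₁ (MonoidHom.id Gal) c ∧ O.Upper c ∧
    ∀ s, Lev p (p - 1) 1 (traceFn s (O.bC c))}
  zero_mem' := ⟨Submodule.zero_mem (levelCocycles₁ (MonoidHom.id Gal) (ad0 ρbar)),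
    ⟨fun σ _ => map_zero (O.b.coord 1), fun σ _ => congrFun (map_zero O.aC) σ⟩,
    fun s => Lev.zero 1 fun σ _ => by simp [traceFn, map_zero O.bC]⟩
  add_mem' := fun {c c'} h h' =>
    ⟨Submodule.add_mem (levelCocycles₁ (MonoidHom.id Gal) (ad0 ρbar)) h.1 h'.1,
      ⟨fun σ hσ => by
        show O.b.coord 1 (cocycleEnd ρbar c σ (O.b 0) + cocycleEnd ρbar c' σ (O.b 0)) = 0
        rw [map_add, h.2.1.dec σ hσ, h'.2.1.dec σ hσ, add_zero],
      fun σ hσ => by rw [map_add, Pi.add_apply, h.2.1.inert σ hσ, h'.2.1.inert σ hσ, add_zero]⟩,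
      fun s => by rw [map_add, traceFn_add_right]; exact (h.2.2 s).add (h'.2.2 s)⟩
  smul_mem' := fun t c h =>
    ⟨Submodule.smul_mem (levelCocycles₁ (MonoidHom.id Gal) (ad0 ρbar)) t h.1,
      ⟨fun σ hσ => by
        show O.b.coord 1 (t • cocycleEnd ρbar c σ (O.b 0)) = 0
        rw [map_smul, h.2.1.dec σ hσ, smul_zero],
      fun σ hσ => by rw [map_smul, Pi.smul_apply, h.2.1.inert σ hσ, smul_zero]⟩,
      fun s => (h.2.2 (s * t)).congr fun σ _ => by simp [traceFn, mul_assoc]⟩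

theorem mem_space_of_model (hc : IsLevelConstant₁ (MonoidHom.id Gal) c) (hU : O.Upper c)
    [Fintype ρbar.V] [DecidableEq ρbar.V] [DecidableEq k]
    (R : Model p (ρbar.V × ρbar.V) (pairAct ρbar (cocycleEnd ρbar c))) : c ∈ O.space := by
  refine ⟨hc, hU, fun s => ?_⟩
  obtain ⟨F, _, hF0, -, -⟩ := exists_level hc
  letI : Module (ZMod p) ρbar.V := Module.compHom ρbar.V (algebraMap (ZMod p) k)
  have hsm : ∀ (y : ZMod p) (v : ρbar.V), y • v = algebraMap (ZMod p) k y • v := fun _ _ => rfl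
  let L : k × k →+ ρbar.V × ρbar.V :=
    AddMonoidHom.mk' (fun w => (w.1 • O.b 0, w.2 • O.b 0)) fun u v => by simp [add_smul]
  refine lev_one_of_ext tameLevel_one R L (O.b 1, 0) ?_ (fun σ => (O.e σ, O.bC c σ)) ?_ ?_
    ((AddMonoidHom.mk' (fun w : k × k => Algebra.trace (ZMod p) k (s * w.2)) fun u v => by
      simp [mul_add]))
    (fun σ _ => rfl) (fun σ hσ τ hτ => by rw [traceFn, hU.b_Kn σ hσ τ hτ, mul_add, map_add]; rfl)
    F fun σ hσ hσF => ?_
  · rintro ⟨a, a'⟩ y h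
    have h1 := congrArg (fun w => O.b.coord 1 w.1) h
    have h2 := congrArg (fun w => O.b.coord 0 w.1) h
    have h3 := congrArg (fun w => O.b.coord 0 w.2) h
    simp only [L, AddMonoidHom.mk'_apply, Prod.fst_add, Prod.snd_add, Prod.smul_fst, Prod.smul_snd,
      Prod.fst_zero, Prod.snd_zero, map_zero, smul_zero, add_zero, map_add, map_smul, hsm, coord_b,
      smul_eq_mul, if_pos, if_neg (show (0 : Fin 2) ≠ 1 by decide),
      if_neg (show (1 : Fin 2) ≠ 0 by decide), mul_one, mul_zero, zero_add] at h1 h2 h3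
    exact ⟨Prod.ext h2 h3, (map_eq_zero _).mp h1⟩
  · intro σ hσ w
    have h0 : cocycleEnd ρbar c σ (O.b 0) = 0 := by
      rw [hU.apply₀ (inert_le_dec hσ), hU.inert σ hσ, zero_smul]
    show pairAct ρbar (cocycleEnd ρbar c) σ (w.1 • O.b 0, w.2 • O.b 0) =
      ((cyc p σ • w.1) • O.b 0, (cyc p σ • w.2) • O.b 0)
    simp only [pairAct, map_smul, O.inert_sub σ hσ, h0, smul_zero,
      add_zero, smul_smul, Algebra.smul_def, ← cycIn_eq, mul_comm]
  · intro σ hσ
    have h0 : cocycleEnd ρbar c σ (O.b 0) = 0 := by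
      rw [hU.apply₀ (inert_le_dec hσ), hU.inert σ hσ, zero_smul]
    simp only [L, pairAct, AddMonoidHom.mk'_apply, Prod.mk_add_mk, map_zero, zero_add]
    rw [O.rho₁, O.z_inert hσ, one_smul, map_add, map_smul, h0, smul_zero, zero_add,
      Upper.apply₁, hU.inert σ hσ, zero_smul, sub_zero, add_comm]
  · simp [traceFn, bC, hF0 σ hσF]

theorem dia_mem_space [Fintype ρbar.V] [DecidableEq ρbar.V] [DecidableEq k]
    (R : Model p ρbar.V fun σ v => ρbar.ρ σ v) : cobCocycle ρbar O.dia ∈ O.space := by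
  obtain ⟨hU, -, hb⟩ := O.upper_dia
  refine ⟨isLevelConstant_cob _, hU, fun s => ?_⟩
  obtain ⟨F, _, hF0, -, -⟩ := exists_level (isLevelConstant_cob O.dia)
  letI : Module (ZMod p) ρbar.V := Module.compHom ρbar.V (algebraMap (ZMod p) k)
  have hsm : ∀ (y : ZMod p) (v : ρbar.V), y • v = algebraMap (ZMod p) k y • v := fun _ _ => rfl
  let L : k →+ ρbar.V := AddMonoidHom.mk' (fun a => a • O.b 0) fun u v => add_smul u v _
  refine lev_one_of_ext tameLevel_one R L (O.b 1) ?_ (fun σ => O.e σ) ?_ ?_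
    ((AddMonoidHom.mk' (fun a : k => Algebra.trace (ZMod p) k (s * (-2 * a))) fun u v => by
      simp [mul_add]))
    (fun σ hσ => ?_) (fun σ hσ τ hτ => by rw [traceFn, hU.b_Kn σ hσ τ hτ, mul_add, map_add]; rfl)
    F fun σ hσ hσF => ?_
  · intro a y h
    have h1 := congrArg (O.b.coord 1) h
    have h2 := congrArg (O.b.coord 0) h
    simp only [L, AddMonoidHom.mk'_apply, map_zero, add_zero, map_add, map_smul, hsm, coord_b,
      smul_eq_mul, if_pos, if_neg (show (0 : Fin 2) ≠ 1 by decide),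
      if_neg (show (1 : Fin 2) ≠ 0 by decide), mul_one, mul_zero, zero_add] at h1 h2
    exact ⟨h2, (map_eq_zero _).mp h1⟩
  · intro σ hσ a
    simp only [L, AddMonoidHom.mk'_apply, map_smul, O.inert_sub σ hσ, smul_smul, Algebra.smul_def,
      ← cycIn_eq, mul_comm]
  · intro σ hσ
    show ρbar.ρ σ (O.b 1) = _
    rw [O.rho₁, O.z_inert hσ, one_smul, add_comm]
    rfl
  · have h1 := hb σ (inert_le_dec (mem_Kn.mp hσ).1)
    rw [O.z_inert (mem_Kn.mp hσ).1, one_mul] at h1
    rw [traceFn, h1]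
    rfl
  · simp [traceFn, bC, hF0 σ hσF]

variable [Finite k]

theorem exists_cycIn_ne_one (hp2 : p ≠ 2) : ∃ σ ∈ inert p, cycIn p k σ ≠ 1 := by
  obtain ⟨σ, hσ, hc⟩ := exists_cyc_eq (p := p) (a := -1) (by simp)
  refine ⟨σ, hσ, fun h => ?_⟩
  rw [cycIn, hc, map_neg, map_one] at h
  exact Ring.two_ne_zero (R := k) (by rw [ringChar.eq k p]; exact hp2) (by linear_combination -h)

/-- An ordinary cocycle trivial on `Kn` and on Frobenius is a coboundary on decomposition. -/
theorem eq_cob_of_trivial (hp2 : p ≠ 2) {φ : Gal} (hφ : (plc p).IsFrobeniusAt φ p)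
    (hc : IsLevelConstant₁ (MonoidHom.id Gal) c) (hU : O.Upper c) (ha : O.aC c φ = 0)
    (hb : ∀ σ ∈ Kn p (p - 1), O.bC c σ = 0) :
    ∃ t : k, ∀ σ ∈ FlatTangent.dec p, c σ = (ad0 ρbar).ρ σ (t • O.nil) - t • O.nil := by
  obtain ⟨τ, hτ, hprim⟩ := exists_tchar_prim (p := p) (n := p - 1) tameLevel_one.not_dvd
  have hI : ∀ σ ∈ inert p, c σ = O.bC c σ • O.nil := fun σ hσ => cocycles_ext fun v => by
    show _ = O.bC c σ • (O.nil : adZeroSpace ρbar).1 v
    rw [nil_apply]
    conv_lhs => rw [basis_decomp O.b v]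
    rw [map_add, map_smul, map_smul, hU.apply₀ (inert_le_dec hσ), Upper.apply₁,
      hU.inert σ hσ, zero_smul, zero_smul, sub_zero, smul_zero, zero_add, smul_smul, smul_smul,
      mul_comm]
  have hfixN : ∀ σ ∈ Kn p (p - 1), (ad0 ρbar).ρ σ O.nil = O.nil := by
    intro σ hσ
    have hI' := (mem_Kn.mp hσ).1
    obtain ⟨h1, h2⟩ := O.cob_nil (inert_le_dec hI')
    rw [O.z_inert hI', O.x_inert hI', cycIn, tameLevel_one.cyc_Kn hσ, map_one, mul_one,
      sub_self] at h1
    have h3 : (cobCocycle ρbar O.nil : Gal → ad0 ρbar) σ = 0 := by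
      refine cocycles_ext (c := cobCocycle ρbar O.nil) fun v => ?_
      rw [basis_decomp O.b v, map_add, map_smul, map_smul, h2, Upper.apply₁, h1,
        show O.aC (cobCocycle ρbar O.nil) σ = 0 from (congrArg (O.b.coord 0) h2).trans (map_zero _)]
      simp
    rw [cobCocycle_apply, sub_eq_zero] at h3
    exact h3
  obtain ⟨T, hTW, hT⟩ := eq_cob_on_inert tameLevel_one.not_dvd hτ hprim
    (fun σ hσ => by rw [hI σ (mem_Kn.mp hσ).1, hb σ hσ, zero_smul]) (Submodule.span k {O.nil})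
    (fun σ hσ => by rw [hI σ hσ]; exact Submodule.smul_mem _ _ (Submodule.mem_span_singleton_self _))
    (fun σ hσ X hX => by
      obtain ⟨t, rfl⟩ := Submodule.mem_span_singleton.1 hX
      rw [map_smul, hfixN σ hσ])
  obtain ⟨t, rfl⟩ := Submodule.mem_span_singleton.1 hTW
  refine ⟨t, ?_⟩
  set c' : cocycles₁ (ad0 ρbar) := c + cobCocycle ρbar (-(t • O.nil)) with hc'
  have hval : ∀ σ, c' σ = c σ - ((ad0 ρbar).ρ σ (t • O.nil) - t • O.nil) := fun σ => by
    show c σ + (cobCocycle ρbar (-(t • O.nil)) : Gal → ad0 ρbar) σ = _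
    rw [cobCocycle_apply, map_neg]
    abel
  have hlev : IsLevelConstant₁ (MonoidHom.id Gal) c' :=
    Submodule.add_mem (levelCocycles₁ (MonoidHom.id Gal) (ad0 ρbar)) hc (isLevelConstant_cob _)
  have hI0 : ∀ σ ∈ inert p, c' σ = 0 := fun σ hσ => by rw [hval, hT σ hσ, sub_self]
  have hlin : c' = c + (-t) • cobCocycle ρbar O.nil := by
    rw [hc', ← neg_smul, map_smul]
  have happ : ∀ σ ∈ FlatTangent.dec p, ∀ i, O.b.coord i (cocycleEnd ρbar c' σ (O.b 0)) =
      O.b.coord i (cocycleEnd ρbar c σ (O.b 0)) := by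
    intro σ hσ i
    rw [hlin]
    show O.b.coord i (cocycleEnd ρbar c σ (O.b 0) +
      (-t) • cocycleEnd ρbar (cobCocycle ρbar O.nil) σ (O.b 0)) = _
    rw [(O.cob_nil hσ).2, smul_zero, add_zero]
  have hU' : O.Upper c' := ⟨fun σ hσ => (happ σ hσ 1).trans (hU.dec σ hσ),
    fun σ hσ => (happ σ (inert_le_dec hσ) 0).trans (hU.inert σ hσ)⟩
  have hφd := (Galois.isFrobeniusAt_iff.mp hφ).1
  have hb' : ∀ σ ∈ inert p, O.bC c' σ = 0 := fun σ hσ => by
    show O.b.coord 0 (((c' σ : ad0 ρbar) : adZeroSpace ρbar).1 (O.b 1)) = 0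
    rw [hI0 σ hσ]
    exact map_zero _
  have haφ : O.aC c' φ = 0 := (happ φ hφd 0).trans ha
  have hbφ : O.bC c' φ = 0 := by
    obtain ⟨σ, hσ, hne⟩ := exists_cycIn_ne_one (k := k) hp2
    have hσ' : φ⁻¹ * σ * φ ∈ inert p := by simpa using conj_mem_inert hσ (inv_mem hφd)
    have h1 := hU'.b_mul (inert_le_dec hσ) hφd
    have h2 := hU'.b_mul hφd (inert_le_dec hσ')
    rw [show φ * (φ⁻¹ * σ * φ) = σ * φ by group, hb' _ hσ', hU'.inert _ hσ', mul_zero, mul_zero,
      zero_add, sub_zero] at h2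
    have h3 := mul_left_cancel₀ (O.z_ne hφd) h2
    rw [O.z_inert hσ, O.x_inert hσ, hb' σ hσ, haφ, h3] at h1
    simp only [one_mul, mul_zero, add_zero, sub_zero] at h1
    by_contra hne'
    exact hne (mul_right_cancel₀ hne' ((one_mul _).trans h1).symm)
  have hφ0 : c' φ = 0 := cocycles_ext fun v => by
    show cocycleEnd ρbar c' φ v = 0
    rw [basis_decomp O.b v, map_add, map_smul, map_smul, hU'.apply₀ hφd, Upper.apply₁, haφ, hbφ]
    simp
  intro σ hσ
  have h := eq_zero_on_dec hlev hφ hφ0 hI0 σ hσ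
  rwa [hval, sub_eq_zero] at h

end OrdData

variable [Finite k]

/-- The local space in the ordinary case. -/
theorem exists_ordinary_local (hp2 : p ≠ 2) [Fintype ρbar.V] [DecidableEq ρbar.V]
    (R : Model p ρbar.V fun σ v => ρbar.ρ σ v) :
    ∃ L : Submodule k (H1 (Rep.res (primeLocalToGlobal (pPrime p)) (ad0 ρbar))),
      L ≤ continuousH1 (primeLocalToGlobal (pPrime p))
          (Rep.res (primeLocalToGlobal (pPrime p)) (ad0 ρbar)) ∧
      FiniteDimensional k L ∧
      finrank k L ≤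
        finrank k (Rep.res (primeLocalToGlobal (pPrime p)) (ad0 ρbar)).ρ.invariants + 1 ∧
      ∀ (c : cocycles₁ (ad0 ρbar)) (T : ad0 ρbar),
        IsLevelConstant₁ (MonoidHom.id Gal) c → O.Upper (c + cobCocycle ρbar T) →
        Nonempty (Model p (ρbar.V × ρbar.V)
          (pairAct ρbar (cocycleEnd ρbar (c + cobCocycle ρbar T)))) →
        locPrime (pPrime p) (ad0 ρbar) ((H1π (ad0 ρbar)).hom c) ∈ L := by
  classical
  letI := ZMod.algebra k p
  letI := Fintype.ofFinite k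
  have hT := tameLevel_one (p := p)
  have hn := hT.n_pos
  have hp := (Fact.out : p.Prime)
  obtain ⟨φ, hφ, hφπ⟩ := exists_frobenius_fix (p := p) hT.not_dvd
  have hφd := (Galois.isFrobeniusAt_iff.mp hφ).1
  obtain ⟨τ, hτ, hprim⟩ := exists_tchar_prim (p := p) hT.not_dvd
  let a : O.space →ₗ[k] k := ((LinearMap.proj φ).comp O.aC).comp O.space.subtype
  let Bz : O.space →ₗ[k] Gal → k := O.bC.comp O.space.subtype
  let Res := (LinearMap.funLeft k k (fun σ : Kn p (p - 1) => (σ : Gal))).comp Bz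
  let B : LinearMap.ker a →ₗ[k] Gal → k := Bz.comp (LinearMap.ker a).subtype
  have ht := (veq_zero_of_pow_eq_one (p := p) hn.ne' (tchar_pow (p := p) hn τ)).vge
  obtain ⟨hrank, hfin⟩ := finrank_levFn_le_one (k := k) hT (f := 1) hφ hφπ hτ (z := 1)
    (w := cycIn p k φ * O.z φ / O.x φ)
    (div_ne_zero (mul_ne_zero ((map_ne_zero _).mpr (cyc_ne_zero φ)) (O.z_ne hφd)) (O.x_ne hφd))
    (j₁ := 1) (j₀ := p - 1) one_pos (by have := hp.two_le; omega)
    (by have := hp.two_le; omega) hT.not_dvd (F := ZMod p) (by simp)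
    (ZMod.castHom (dvd_refl p) (Kap p))
    (fun i h1 h2 h3 hne g _ hg => by
      funext s
      by_contra hs
      refine hne ?_
      have h := hg s
      rw [one_mul] at h
      have h4 : res p (tchar p (p - 1) τ) ^ i = 1 :=
        (mul_eq_right₀ hs).mp h.symm
      rw [← res_pow ht, ← res_one (p := p), ← sub_eq_zero, sub_eq_add_neg] at h4
      have h5 : VGT p 0 (tchar p (p - 1) τ ^ i - 1) := by
        have hv : VGE p 0 (tchar p (p - 1) τ ^ i) := by simpa using ht.pow i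
        by_contra hnot
        have h6 := res_add (hv.sub veq_one.vge) veq_one.vge
        rw [sub_add_cancel] at h6
        rw [← sub_eq_add_neg, h6, add_sub_cancel_right] at h4
        exact hnot ((res_eq_zero_iff (hv.sub veq_one.vge)).mp h4)
      have h7 := eq_one_of_vgt hT.not_dvd (by rw [pow_right_comm, hprim.pow_eq_one, one_pow]) h5
      obtain ⟨m, hm⟩ := (hprim.pow_eq_one_iff_dvd i).mp h7
      rcases m with _ | _ | m
      · omega
      · omega
      · exfalso
        rw [Nat.mul_succ] at hm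
        have := Nat.le_mul_of_pos_right (p - 1) m.succ_pos
        have := hp.two_le
        by_cases hp3 : p = 3
        · subst hp3; omega
        · omega)
    (fun g hg _ y s => by
      rw [Algebra.smul_def]
      conv_lhs => rw [← ZMod.natCast_zmod_val y, map_natCast, ← nsmul_eq_mul]
      conv_rhs => rw [← ZMod.natCast_zmod_val y, map_natCast, ← nsmul_eq_mul]
      exact map_nsmul (AddMonoidHom.mk' g hg) y.val s)
    (W := LinearMap.ker a) B (fun c => by
      obtain ⟨⟨c, hcL, hU, hlev⟩, hca⟩ := c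
      refine ⟨hlev, fun σ hσ => ?_, fun σ hσ => ?_⟩
      · have h := hU.conj hσ (inert_le_dec hτ)
        rw [O.x_inert hτ, O.z_inert hτ, hU.inert τ hτ] at h
        show cycIn p k τ * O.bC c _ = 1 * O.bC c σ
        linear_combination h
      · have h := hU.conj hσ hφd
        rw [show O.aC c φ = 0 from hca] at h
        show cycIn p k (φ ^ 1) * O.bC c ((φ ^ 1)⁻¹ * σ * φ ^ 1) = _ * O.bC c σ
        rw [pow_one]
        field_simp [O.x_ne hφd]
        linear_combination cycIn p k φ * h)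
  haveI : FiniteDimensional k (LinearMap.range (Res.comp (LinearMap.ker a).subtype)) := hfin
  obtain ⟨hΨfin, hΨ⟩ := finrank_range_prod_le a Res hrank
  haveI := hΨfin
  have hker : ∀ c : O.space, (a.prod Res) c = 0 →
      locPrime (pPrime p) (ad0 ρbar) ((H1π (ad0 ρbar)).hom c.1) = 0 := by
    intro c hc
    obtain ⟨hca, hcb⟩ := Prod.ext_iff.mp hc
    obtain ⟨t, ht⟩ := O.eq_cob_of_trivial hp2 hφ c.2.1 c.2.2.1 hca
      fun σ hσ => congrFun hcb ⟨σ, hσ⟩
    exact loc_eq_zero ht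
  obtain ⟨hdU, hda, hdb⟩ := O.upper_dia
  let z₀ : O.space := ⟨_, O.dia_mem_space R⟩
  have hloc : locPrime (pPrime p) (ad0 ρbar) ((H1π (ad0 ρbar)).hom z₀.1) = 0 :=
    loc_eq_zero (T := O.dia) fun σ _ => cobCocycle_apply _ σ
  by_cases hsplit : (a.prod Res) z₀ = 0
  · obtain ⟨L, hL1, hL2, hL3, hL4⟩ := exists_local_space O.space (fun c hc => hc.1) (a.prod Res) hker
    refine ⟨L, hL1, hL2, (hL3.trans hΨ).trans (Nat.succ_le_succ ?_),
      fun c T hc hU ⟨Rp⟩ => hL4 c T (O.mem_space_of_model (Submodule.add_mem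
        (levelCocycles₁ (MonoidHom.id Gal) (ad0 ρbar)) hc (isLevelConstant_cob T)) hU Rp)⟩
    obtain ⟨t, ht⟩ := O.eq_cob_of_trivial hp2 hφ z₀.2.1 z₀.2.2.1 (Prod.ext_iff.mp hsplit).1
      fun σ hσ => congrFun (Prod.ext_iff.mp hsplit).2 ⟨σ, hσ⟩
    rw [Nat.one_le_iff_ne_zero]
    intro h0
    rw [Submodule.finrank_eq_zero] at h0
    have hmem : O.dia - t • O.nil ∈
        (Rep.res (primeLocalToGlobal (pPrime p)) (ad0 ρbar)).ρ.invariants := by
      intro g
      have h := ht _ (localGaloisToGlobal_mem_decompositionSubgroup p g)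
      replace h : (cobCocycle ρbar O.dia : Gal → ad0 ρbar) (primeLocalToGlobal (pPrime p) g) =
        (ad0 ρbar).ρ (primeLocalToGlobal (pPrime p) g) (t • O.nil) - t • O.nil := h
      rw [cobCocycle_apply] at h
      show (ad0 ρbar).ρ (primeLocalToGlobal (pPrime p) g) (O.dia - t • O.nil) = _
      rw [map_sub]
      rw [sub_eq_sub_iff_sub_eq_sub] at h
      exact h
    rw [h0, Submodule.mem_bot] at hmem
    have := congrArg (fun X : ad0 ρbar => O.b.coord 0 ((X : adZeroSpace ρbar).1 (O.b 0))) hmem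
    change O.b.coord 0 (((O.dia : adZeroSpace ρbar).1 (O.b 0)) -
      t • (O.nil : adZeroSpace ρbar).1 (O.b 0)) = O.b.coord 0 0 at this
    simp [O.dia_apply, O.nil_apply, O.coord_b] at this
  · let U₁ := LinearMap.range (a.prod Res)
    let w₀ : U₁ := ⟨_, ⟨z₀, rfl⟩⟩
    let Ψ := (Submodule.span k {w₀}).mkQ.comp (a.prod Res).rangeRestrict
    obtain ⟨L, hL1, hL2, hL3, hL4⟩ := exists_local_space O.space (fun c hc => hc.1) Ψ (fun c hc => by
      rw [LinearMap.comp_apply, Submodule.mkQ_apply, Submodule.Quotient.mk_eq_zero,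
        Submodule.mem_span_singleton] at hc
      obtain ⟨r, hr⟩ := hc
      have h := hker (c - r • z₀) (by
        rw [map_sub, map_smul, sub_eq_zero]
        exact (congrArg Subtype.val hr).symm)
      rw [Submodule.coe_sub, Submodule.coe_smul, map_sub, map_smul, map_sub, map_smul, hloc,
        smul_zero, sub_zero] at h
      exact h)
    refine ⟨L, hL1, hL2, ?_, fun c T hc hU ⟨Rp⟩ => hL4 c T (O.mem_space_of_model
      (Submodule.add_mem (levelCocycles₁ (MonoidHom.id Gal) (ad0 ρbar)) hc (isLevelConstant_cob T))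
      hU Rp)⟩
    have h1 := (Submodule.span k {w₀}).finrank_quotient_add_finrank
    rw [finrank_span_singleton (fun h => hsplit (congrArg Subtype.val h))] at h1
    have h2 := hL3.trans (Submodule.finrank_le _)
    have h3 : finrank k U₁ ≤ 2 := hΨ
    omega

end Fermat.Agent.FlatTangent
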