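import Fermat.Agent.FlatTangent.Cyclo
import Mathlib.Algebra.CharP.Lemmas

/-!
# Levels of Kummer characters over the tame field of level `n`

`Lev p n j f` says that on `Kn p n` the function `f` is the Kummer character of an element congruent
to `1` modulo `v ≥ j / n`. `ell` is the residue of the leading coefficient at level `j`.
-/

set_option autoImplicit false
set_option linter.unusedSectionVars false
set_option linter.style.haveILetI false

noncomputable section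

namespace Fermat.Agent.FlatTangent

variable (p : ℕ) [Fact p.Prime]

/-- The residue field of the place. -/
abbrev Kap : Type := IsLocalRing.ResidueField (plc p)

open Classical in
/-- The residue of an integral element. -/
def res (x : Qb) : Kap p := if h : x ∈ plc p then IsLocalRing.residue (plc p) ⟨x, h⟩ else 0

/-- `n` is a multiple of `p - 1` prime to `p`. -/
structure TameLevel (n d : ℕ) : Prop where
  not_dvd : ¬ p ∣ n
  eq : n = (p - 1) * d

/-- `f` is the Kummer character on `Kn p n` of an element of level at least `j`. -/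
def Lev (n j : ℕ) (f : Gal → ZMod p) : Prop :=
  ∃ α : Qb, α ≠ 0 ∧ (∀ σ ∈ Kn p n, σ α = zp p (f σ) * α) ∧ VGE p ((j : ℝ) / n) (α ^ p - 1)

open Classical in
/-- The residue of the leading coefficient at level `j`. -/
def ell (n j : ℕ) (f : Gal → ZMod p) : Kap p :=
  if h : Lev p n j f then res p ((h.choose ^ p - 1) / piRoot p n ^ j) else 0

variable {p}
variable {x y : Qb} {n d j : ℕ} {σ τ : Gal}

/-! ### Residues -/

theorem res_of_mem (h : x ∈ plc p) : res p x = IsLocalRing.residue (plc p) ⟨x, h⟩ := dif_pos h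

theorem res_add (hx : VGE p 0 x) (hy : VGE p 0 y) : res p (x + y) = res p x + res p y := by
  rw [res_of_mem (mem_plc_iff.mpr hx), res_of_mem (mem_plc_iff.mpr hy),
    res_of_mem (mem_plc_iff.mpr (hx.add hy)), ← map_add]
  rfl

theorem res_mul (hx : VGE p 0 x) (hy : VGE p 0 y) : res p (x * y) = res p x * res p y := by
  rw [res_of_mem (mem_plc_iff.mpr hx), res_of_mem (mem_plc_iff.mpr hy),
    res_of_mem (mem_plc_iff.mpr (by simpa using hx.mul hy)), ← map_mul]
  rfl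

theorem res_one : res p (1 : Qb) = 1 := by
  rw [res_of_mem (mem_plc_iff.mpr veq_one.vge)]
  exact map_one _

theorem res_zero : res p (0 : Qb) = 0 := by
  rw [res_of_mem (mem_plc_iff.mpr (vge_zero 0))]
  exact map_zero _

theorem res_eq_zero_iff (hx : VGE p 0 x) : res p x = 0 ↔ VGT p 0 x := by
  rw [res_of_mem (mem_plc_iff.mpr hx), IsLocalRing.residue_eq_zero_iff,
    ← ValuationSubring.coe_mem_nonunits_iff, mem_plc_nonunits_iff]

theorem res_pow (hx : VGE p 0 x) (k : ℕ) : res p (x ^ k) = res p x ^ k := by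
  induction k with
  | zero => simpa using res_one (p := p)
  | succ k ih =>
    rw [pow_succ, res_mul (by simpa using hx.pow k) hx, ih, pow_succ]

theorem res_eq_of_vgt (hx : VGE p 0 x) (h : VGT p 0 (x - y)) : res p x = res p y := by
  have hy : VGE p 0 y := by simpa using hx.sub h.vge
  have h1 := res_add hy h.vge
  rw [add_sub_cancel, (res_eq_zero_iff h.vge).mpr h, add_zero] at h1
  exact h1

theorem res_inert (hσ : σ ∈ inert p) (hx : VGE p 0 x) : res p (σ x) = res p x :=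
  res_eq_of_vgt (hx.dec (inert_le_dec hσ)) (inert_sub hσ hx)

theorem res_frob {φ : Gal} (hφ : (plc p).IsFrobeniusAt φ p) (hx : VGE p 0 x) :
    res p (φ x) = res p x ^ p := by
  have h := mem_plc_nonunits_iff.mp
    (Galois.isFrobeniusAt_sub_mem_nonunits hφ (mem_plc_iff.mpr hx))
  rw [← res_pow hx p]
  exact res_eq_of_vgt (hx.dec (Galois.isFrobeniusAt_iff.mp hφ).1) h

theorem res_frob_pow {φ : Gal} (hφ : (plc p).IsFrobeniusAt φ p) (hx : VGE p 0 x) (k : ℕ) :
    res p ((φ ^ k) x) = res p x ^ p ^ k := by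
  induction k with
  | zero => simp
  | succ k ih =>
    rw [pow_succ', AlgEquiv.mul_apply,
      res_frob hφ (hx.dec (pow_mem (Galois.isFrobeniusAt_iff.mp hφ).1 k)), ih, ← pow_mul, pow_succ]

/-- A representative of a residue which is a `p`-th power. -/
theorem exists_root_near (hx : VGE p 0 x) :
    ∃ t : Qb, InU p t ∧ VGE p 0 t ∧ VGT p 0 (x - t ^ p) := by
  have hp := (Fact.out : p.Prime)
  by_cases h : VGT p 0 x
  · exact ⟨0, inU_zero, vge_zero _, by rwa [zero_pow hp.ne_zero, sub_zero]⟩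
  obtain ⟨ζ, m, hm, hζ, hζx⟩ := exists_teich (le_antisymm hx (not_lt.mp h))
  have hm0 : m ≠ 0 := fun h0 => hm (h0 ▸ dvd_zero p)
  obtain ⟨k, hk⟩ := exists_pow_eq_self_of_coprime (x := ζ) (n := p)
    (hp.coprime_iff_not_dvd.mpr fun hd => hm (hd.trans (orderOf_dvd_of_pow_eq_one hζ)))
  have hk' : (ζ ^ k) ^ m = 1 := by rw [pow_right_comm, hζ, one_pow]
  exact ⟨ζ ^ k, inU_of_pow_eq_one hm hk', (veq_zero_of_pow_eq_one hm0 hk').vge,
    by rwa [pow_right_comm, hk]⟩

/-! ### Roots of unity of order `p` -/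

theorem veq_zp_sub_one {a : ZMod p} (ha : a ≠ 0) : VEQ p (1 / ((p : ℝ) - 1)) (zp p a - 1) := by
  have hz : VEQ p 0 (zetaP p) :=
    veq_zero_of_pow_eq_one (Fact.out : p.Prime).ne_zero (zetaP_prim p).pow_eq_one
  have hδ := veq_zetaP_sub_one (p := p)
  have hpos : (0 : ℝ) < 1 / ((p : ℝ) - 1) :=
    one_div_pos.mpr (sub_pos.mpr one_lt_cast)
  have hterm : ∀ i : ℕ, VGT p 0 (zetaP p ^ i - 1) := fun i => by
    rw [← geom_sum_mul]
    have h1 : VGE p 0 (∑ k ∈ Finset.range i, zetaP p ^ k) :=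
      VGE.sum fun k _ => (hz.pow k).vge.mono (by simp)
    have h := h1.mul_vgt (hδ.vge.vgt hpos)
    rwa [zero_add] at h
  have hsum : VEQ p 0 (∑ i ∈ Finset.range a.val, zetaP p ^ i) := by
    have hnd : ¬ p ∣ a.val := fun h => ha ((ZMod.val_eq_zero a).mp
      (Nat.eq_zero_of_dvd_of_lt h (ZMod.val_lt a)))
    have h := (veq_natCast_of_not_dvd hnd).add_vgt
      (VGT.sum (s := Finset.range a.val) fun i _ => hterm i)
    simpa using h
  have h := hsum.mul hδ
  rw [zero_add, geom_sum_mul] at h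
  exact h

theorem exists_add_pow (hx : VGE p 0 x) (hy : VGE p 0 y) :
    ∃ r, VGE p 0 r ∧ (x + y) ^ p = x ^ p + y ^ p + (p : Qb) * x * y * r := by
  obtain ⟨r, hr⟩ := Commute.exists_add_pow_prime_eq (Fact.out : p.Prime)
    (Commute.all (⟨x, mem_plc_iff.mpr hx⟩ : plc p) ⟨y, mem_plc_iff.mpr hy⟩)
  exact ⟨r, mem_plc_iff.mp r.2, by simpa using congrArg Subtype.val hr⟩

/-- Extracting the level of a root from the level of its power. -/
theorem vge_sub_one_of_pow {α : Qb} {c : ℝ} (hc0 : 0 ≤ c) (hc : c ≤ (p : ℝ) / ((p : ℝ) - 1))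
    (h : VGE p c (α ^ p - 1)) : VGE p (c / p) (α - 1) := by
  have hp := (Fact.out : p.Prime)
  have hp1 : (1 : ℝ) < p := one_lt_cast
  have hp0 : (0 : ℝ) < p := cast_pos'
  have hαp : VGE p 0 (α ^ p) := by simpa using (h.mono hc0).add veq_one.vge
  have hα : VGE p 0 α := by
    by_cases h0 : α = 0
    · rw [h0]; exact vge_zero _
    obtain ⟨e, he⟩ := exists_veq (p := p) h0
    refine he.vge.mono ?_
    have h1 := (he.pow p).le_of_vge hαp
    exact nonneg_of_mul_nonneg_right h1 hp0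
  by_cases hb : α - 1 = 0
  · rw [hb]; exact vge_zero _
  obtain ⟨e, he⟩ := exists_veq (p := p) hb
  refine he.vge.mono ?_
  by_contra hlt
  rw [not_le, lt_div_iff₀ hp0] at hlt
  obtain ⟨r, hr, hr'⟩ := exists_add_pow (hα.sub veq_one.vge) veq_one.vge
  rw [sub_add_cancel, one_pow, mul_one] at hr'
  have h2 : VGT p ((p : ℝ) * e) ((p : Qb) * (α - 1) * r) := by
    refine (((veq_cast_self (p := p)).vge.mul he.vge).mul hr).vgt ?_
    rw [le_div_iff₀ (by linarith : (0 : ℝ) < (p : ℝ) - 1)] at hc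
    nlinarith
  have h3 : VEQ p ((p : ℝ) * e) (α ^ p - 1) := by
    convert (he.pow p).add_vgt h2 using 1
    rw [hr']
    ring
  have h4 := h3.le_of_vge h
  rw [mul_comm] at hlt
  linarith

/-! ### The inertia subgroup and `Kn` are normal in the decomposition group -/

theorem conj_mem_inert (hσ : σ ∈ inert p) (hτ : τ ∈ dec p) : τ * σ * τ⁻¹ ∈ inert p := by
  refine Galois.mem_inertia_iff.mpr ⟨mul_mem (mul_mem hτ (inert_le_dec hσ)) (inv_mem hτ),
    fun x hx => ?_⟩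
  have h := Galois.inertia_sub_mem_nonunits hσ (Galois.decomposition_apply_mem (inv_mem hτ) hx)
  have h1 := (Galois.decomposition_apply_mem_nonunits_iff hτ).mpr h
  rwa [map_sub, ← AlgEquiv.mul_apply τ τ⁻¹, mul_inv_cancel, AlgEquiv.one_apply] at h1

theorem conj_mem_Kn (hn : ¬ p ∣ n) (hσ : σ ∈ Kn p n) (hτ : τ ∈ dec p) :
    τ * σ * τ⁻¹ ∈ Kn p n := by
  obtain ⟨hσI, hσπ⟩ := mem_Kn.mp hσ
  refine mem_Kn.mpr ⟨conj_mem_inert hσI hτ, ?_⟩
  have hn0 := pos_of_not_dvd hn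
  rw [AlgEquiv.mul_apply, AlgEquiv.mul_apply, tchar_mul_piRoot hn0 τ⁻¹, map_mul,
    inU_tchar hn τ⁻¹ σ hσI, hσπ, ← tchar_mul_piRoot hn0 τ⁻¹, ← AlgEquiv.mul_apply,
    mul_inv_cancel, AlgEquiv.one_apply]

theorem conj_inv_mem_Kn (hn : ¬ p ∣ n) (hσ : σ ∈ Kn p n) (hτ : τ ∈ dec p) :
    τ⁻¹ * σ * τ ∈ Kn p n := by
  simpa using conj_mem_Kn hn hσ (inv_mem hτ)

/-! ### Levels -/

namespace TameLevel

variable (hT : TameLevel p n d)
include hT

theorem n_pos : 0 < n := pos_of_not_dvd hT.not_dvd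

theorem d_pos : 0 < d := Nat.pos_of_ne_zero fun h => hT.n_pos.ne' (by rw [hT.eq, h, mul_zero])

theorem cyc_Kn (hσ : σ ∈ Kn p n) : cyc p σ = 1 := cyc_eq_one_of_mem_Kn hT.not_dvd hT.eq hσ

theorem delta_eq : (d : ℝ) / n = 1 / ((p : ℝ) - 1) := by
  have hd : (d : ℝ) ≠ 0 := Nat.cast_ne_zero.mpr hT.d_pos.ne'
  rw [hT.eq, Nat.cast_mul, Nat.cast_sub (Fact.out : p.Prime).one_le, Nat.cast_one, mul_comm,
    div_mul_eq_div_div, div_self hd]

theorem top_eq : ((p * d : ℕ) : ℝ) / n = (p : ℝ) / ((p : ℝ) - 1) := by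
  rw [Nat.cast_mul, mul_div_assoc, hT.delta_eq, mul_one_div]

theorem le_top {j : ℕ} (hj : j ≤ p * d) : (j : ℝ) / n ≤ (p : ℝ) / ((p : ℝ) - 1) := by
  rw [← hT.top_eq]
  gcongr

end TameLevel

theorem inK_pow_of_kummer {f : Gal → ZMod p} {α : Qb}
    (hα : ∀ σ ∈ Kn p n, σ α = zp p (f σ) * α) : InK p n (α ^ p) := fun σ hσ => by
  rw [map_pow, hα σ hσ, mul_pow, zp_pow_p, one_mul]

theorem inK_div_of_kummer {f : Gal → ZMod p} {α α' : Qb}
    (hα : ∀ σ ∈ Kn p n, σ α = zp p (f σ) * α) (hα' : ∀ σ ∈ Kn p n, σ α' = zp p (f σ) * α') :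
    InK p n (α / α') := fun σ hσ => by
  rw [map_div₀, hα σ hσ, hα' σ hσ, mul_div_mul_left _ _ (zp_ne_zero _)]

namespace Lev

variable {f g : Gal → ZMod p}

theorem zero (j : ℕ) (hf : ∀ σ ∈ Kn p n, f σ = 0) : Lev p n j f :=
  ⟨1, one_ne_zero, fun σ hσ => by rw [hf σ hσ, zp_zero, one_mul, map_one],
    by rw [one_pow, sub_self]; exact vge_zero _⟩

theorem congr (h : Lev p n j f) (hfg : ∀ σ ∈ Kn p n, f σ = g σ) : Lev p n j g := by
  obtain ⟨α, h0, hα, hv⟩ := h
  exact ⟨α, h0, fun σ hσ => hfg σ hσ ▸ hα σ hσ, hv⟩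

theorem mono {i : ℕ} (h : Lev p n j f) (hi : i ≤ j) : Lev p n i f := by
  obtain ⟨α, h0, hα, hv⟩ := h
  exact ⟨α, h0, hα, hv.mono (by gcongr)⟩

theorem add (h : Lev p n j f) (h' : Lev p n j g) : Lev p n j (f + g) := by
  obtain ⟨α, h0, hα, hv⟩ := h
  obtain ⟨β, h0', hβ, hv'⟩ := h'
  refine ⟨α * β, mul_ne_zero h0 h0', fun σ hσ => ?_, ?_⟩
  · rw [map_mul, hα σ hσ, hβ σ hσ, Pi.add_apply, zp_add]; ring
  · have hj0 : (0 : ℝ) ≤ (j : ℝ) / n := by positivity
    have h := (hv.add hv').add ((hv.mul hv').mono (by linarith))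
    convert h using 1
    ring

theorem nsmul (h : Lev p n j f) (k : ℕ) : Lev p n j (k • f) := by
  induction k with
  | zero => exact zero j fun σ _ => by simp
  | succ k ih => rw [succ_nsmul]; exact ih.add h

theorem smul (h : Lev p n j f) (a : ZMod p) : Lev p n j (a • f) := by
  have h1 := h.nsmul a.val
  rwa [← Nat.cast_smul_eq_nsmul (ZMod p), ZMod.natCast_zmod_val] at h1

theorem succ_of_vgt (hn : ¬ p ∣ n) {α : Qb} (hα0 : α ≠ 0)
    (hα : ∀ σ ∈ Kn p n, σ α = zp p (f σ) * α) (h : VGT p ((j : ℝ) / n) (α ^ p - 1)) :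
    Lev p n (j + 1) f := by
  refine ⟨α, hα0, hα, ?_⟩
  have h1 := (InK.sub (inK_pow_of_kummer hα) (inU_one.inK)).vge_of_vgt hn (j := (j : ℤ))
    (by simpa using h)
  simpa using h1

/-- Levels divisible by `p` below the top can be improved. -/
theorem succ_of_dvd (hT : TameLevel p n d) (h : Lev p n j f) (hdvd : p ∣ j) (hj0 : 0 < j)
    (hj : j < p * d) : Lev p n (j + 1) f := by
  obtain ⟨i, rfl⟩ := hdvd
  have hp := (Fact.out : p.Prime)
  have hn0 := hT.n_pos
  obtain ⟨α, h0, hα, hv⟩ := h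
  obtain ⟨u, hu, hu0, hlead⟩ := InK.exists_leading (p := p) (n := n) hT.not_dvd
    (j := ((p * i : ℕ) : ℤ)) (x := α ^ p - 1) (by simpa using hv)
  rw [zpow_natCast, Int.cast_natCast] at hlead
  obtain ⟨t, htU, ht0, htu⟩ := exists_root_near hu0
  have hi : 0 < i := Nat.pos_of_ne_zero fun h => by simp [h] at hj0
  have hid : i < d := Nat.lt_of_mul_lt_mul_left hj
  set π := piRoot p n
  have hπ := piRoot_veq (p := p) hn0
  have hπi : VEQ p ((i : ℝ) / n) (π ^ i) := by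
    have := hπ.pow i
    rwa [mul_one_div] at this
  have hin : (0 : ℝ) < (i : ℝ) / n := div_pos (Nat.cast_pos.mpr hi) (Nat.cast_pos.mpr hn0)
  have htπ : VGE p ((i : ℝ) / n) (t * π ^ i) := by simpa using ht0.mul hπi.vge
  have hw : VEQ p 0 (1 + t * π ^ i) := veq_one.add_vgt (htπ.vgt hin)
  obtain ⟨r, hr, hr'⟩ := exists_add_pow (p := p) veq_one.vge (htπ.mono hin.le)
  have hwK : InK p n (1 + t * π ^ i) :=
    inU_one.inK.add (htU.inK.mul (inK_piRoot.pow i))
  refine succ_of_vgt hT.not_dvd (div_ne_zero h0 hw.ne_zero) (fun σ hσ => ?_) ?_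
    (α := α / (1 + t * π ^ i))
  · rw [map_div₀, hα σ hσ, hwK σ hσ, mul_div_assoc]
  have hlt : ((p * i : ℕ) : ℝ) / n < 1 + (i : ℝ) / n := by
    have hn' : (0 : ℝ) < n := Nat.cast_pos.mpr hn0
    rw [one_add_div hn'.ne', div_lt_div_iff_of_pos_right hn']
    have h1 : p * i < n + i := by
      have h2 : (p - 1) * i < n := by
        rw [hT.eq]; exact Nat.mul_lt_mul_of_pos_left hid (by have := hp.two_le; omega)
      calc p * i = (p - 1) * i + i := by
            rw [← Nat.succ_mul, Nat.succ_eq_add_one, Nat.sub_add_cancel hp.one_le]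
        _ < n + i := by omega
    exact_mod_cast h1
  have h3 : VGT p (((p * i : ℕ) : ℝ) / n) (α ^ p - (1 + t * π ^ i) ^ p) := by
    have e : α ^ p - (1 + t * π ^ i) ^ p = (α ^ p - 1 - u * π ^ (p * i)) +
        ((u - t ^ p) * π ^ (p * i) - (p : Qb) * (t * π ^ i) * r) := by
      rw [hr', mul_pow, ← pow_mul, mul_comm i p]; ring
    rw [e]
    refine hlead.add (VGT.sub ?_ ?_)
    · have := htu.mul_vge (hπ.pow (p * i)).vge
      rwa [zero_add, mul_one_div] at this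
    · refine (((veq_cast_self (p := p)).vge.mul htπ).mul hr).vgt ?_
      linarith
  have h4 := h3.div (hw.pow p)
  rw [mul_zero, sub_zero, sub_div, div_self (pow_ne_zero _ hw.ne_zero), ← div_pow] at h4
  exact h4

/-- A character of top level is trivial. -/
theorem eq_zero_of_top (hT : TameLevel p n d) (h : Lev p n (p * d) f) :
    ∀ σ ∈ Kn p n, f σ = 0 := by
  intro σ hσ
  by_contra hne
  obtain ⟨α, h0, hα, hv⟩ := h
  rw [hT.top_eq] at hv
  have hp1 : (1 : ℝ) < p := one_lt_cast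
  have hpos : (0 : ℝ) ≤ (p : ℝ) / ((p : ℝ) - 1) := by
    have : (0 : ℝ) < (p : ℝ) - 1 := by linarith
    positivity
  have hb := vge_sub_one_of_pow hpos le_rfl hv
  have hz := veq_zp_sub_one hne
  have hy : VGE p 0 ((α - 1) / (zp p (f σ) - 1)) := by
    refine (hb.div hz).mono (le_of_eq ?_)
    have : (p : ℝ) ≠ 0 := cast_pos'.ne'
    field_simp
    ring
  have hfix : σ (zp p (f σ)) = zp p (f σ) := by rw [apply_zp, hT.cyc_Kn hσ, one_mul]
  have h1 := inert_sub (mem_Kn.mp hσ).1 hy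
  rw [map_div₀, map_sub, map_sub, map_one, hα σ hσ, hfix, ← sub_div,
    show zp p (f σ) * α - 1 - (α - 1) = α * (zp p (f σ) - 1) by ring,
    mul_div_assoc, div_self hz.ne_zero, mul_one] at h1
  have hα1 : VEQ p 0 α := by
    have h2 : VGT p 0 (α - 1) := hb.vgt (by
      have : (0 : ℝ) < (p : ℝ) - 1 := by linarith
      positivity)
    simpa using veq_one.add_vgt h2
  exact lt_irrefl _ (hα1.lt_of_vgt h1)

end Lev

/-- Normalising the Kummer element of a character. -/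
theorem exists_lev_or_radical (hT : TameLevel p n d) (f : Gal → ZMod p)
    (hf : ∀ σ ∈ Kn p n, ∀ τ ∈ Kn p n, f (σ * τ) = f σ + f τ)
    (F : IntermediateField ℚ Qb) [FiniteDimensional ℚ F]
    (hlev : ∀ σ ∈ Kn p n, σ ∈ F.fixingSubgroup → f σ = 0) :
    Lev p n 1 f ∨ ∃ α : Qb, ∃ j : ℕ, α ≠ 0 ∧ 0 < j ∧ j < p ∧
      (∀ σ ∈ Kn p n, σ α = zp p (f σ) * α) ∧ VEQ p ((j : ℝ) / ((p : ℝ) * n)) α := by
  have hp := (Fact.out : p.Prime)
  have hn0 := hT.n_pos
  obtain ⟨α, h0, hα, -⟩ := exists_kummer (Kn p n) f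
    (fun σ hσ τ hτ => by rw [hT.cyc_Kn hσ, one_mul, hf σ hσ τ hτ]) F hlev
  obtain ⟨m, hm⟩ := (inK_pow_of_kummer hα).exists_veq hT.not_dvd (pow_ne_zero p h0)
  have hπ := piRoot_zpow_veq (p := p) hn0 (m / (p : ℤ))
  set α₁ := α / piRoot p n ^ (m / (p : ℤ)) with hα₁def
  have hα₁ : ∀ σ ∈ Kn p n, σ α₁ = zp p (f σ) * α₁ := fun σ hσ => by
    rw [hα₁def, map_div₀, hα σ hσ, inK_piRoot.zpow (m / (p : ℤ)) σ hσ, mul_div_assoc]
  have h01 : α₁ ≠ 0 := div_ne_zero h0 hπ.ne_zero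
  set r : ℕ := (m % (p : ℤ)).toNat with hr
  have hrm : (r : ℤ) = m % (p : ℤ) :=
    Int.toNat_of_nonneg (Int.emod_nonneg m (by exact_mod_cast hp.ne_zero))
  have hv₁ : VEQ p ((r : ℝ) / n) (α₁ ^ p) := by
    rw [hα₁def, div_pow]
    convert hm.div (hπ.pow p) using 1
    have h1 : (m : ℝ) = (m % (p : ℤ) : ℤ) + (p : ℝ) * (m / (p : ℤ) : ℤ) := by
      exact_mod_cast (Int.emod_add_mul_ediv m (p : ℤ)).symm
    rw [← hrm] at h1
    push_cast at h1 ⊢
    rw [h1]
    ring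
  rcases Nat.eq_zero_or_pos r with hr0 | hrpos
  · left
    rw [hr0, Nat.cast_zero, zero_div] at hv₁
    obtain ⟨t, htU, ht0, ht⟩ := exists_root_near hv₁.vge
    have htp : VEQ p 0 (t ^ p) := by
      have := hv₁.add_vgt ht.neg
      simpa using this
    have htne : t ≠ 0 := fun h => htp.ne_zero (by rw [h, zero_pow hp.ne_zero])
    refine Lev.succ_of_vgt hT.not_dvd (j := 0) (div_ne_zero h01 htne) (α := α₁ / t)
      (fun σ hσ => by rw [map_div₀, hα₁ σ hσ, htU σ (mem_Kn.mp hσ).1, mul_div_assoc]) ?_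
    have h4 := ht.div htp
    rw [sub_div, div_self htp.ne_zero, ← div_pow] at h4
    simpa using h4
  · refine Or.inr ⟨α₁, r, h01, hrpos, ?_, hα₁, ?_⟩
    · have := Int.emod_lt_of_pos m (by exact_mod_cast hp.pos : (0 : ℤ) < (p : ℤ))
      omega
    · refine VEQ.of_pow hp.ne_zero ?_
      convert hv₁ using 1
      have : (p : ℝ) ≠ 0 := cast_pos'.ne'
      field_simp

theorem exists_exact_level {f : Gal → ZMod p} (h1 : Lev p n 1 f) :
    ∀ k : ℕ, ¬ Lev p n (k + 1) f → ∃ j, 1 ≤ j ∧ j ≤ k ∧ Lev p n j f ∧ ¬ Lev p n (j + 1) f := by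
  intro k
  induction k with
  | zero => exact fun h => absurd h1 h
  | succ k ih =>
    intro h
    by_cases hk : Lev p n (k + 1) f
    · exact ⟨k + 1, by omega, le_rfl, hk, h⟩
    · obtain ⟨j, hj1, hj2, hj3, hj4⟩ := ih hk
      exact ⟨j, hj1, by omega, hj3, hj4⟩

/-- At an exact level the element `α - 1` has valuation `j / (p n)`. -/
theorem exists_exact_element (hT : TameLevel p n d) {f : Gal → ZMod p} (h : Lev p n j f)
    (h' : ¬ Lev p n (j + 1) f) (hj1 : 1 ≤ j) (hj : j < p * d) :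
    ¬ p ∣ j ∧ ∃ α : Qb, VEQ p 0 α ∧ (∀ σ ∈ Kn p n, σ α = zp p (f σ) * α) ∧
      VEQ p ((j : ℝ) / ((p : ℝ) * n)) (α - 1) := by
  refine ⟨fun hdvd => h' (h.succ_of_dvd hT hdvd hj1 hj), ?_⟩
  obtain ⟨α, h0, hα, hv⟩ := h
  have hv' : VEQ p ((j : ℝ) / n) (α ^ p - 1) :=
    le_antisymm hv (not_lt.mp fun hlt => h' (Lev.succ_of_vgt hT.not_dvd h0 hα hlt))
  have hp0 : (0 : ℝ) < p := cast_pos'
  have hn0 : (0 : ℝ) < n := Nat.cast_pos.mpr hT.n_pos
  have hb := vge_sub_one_of_pow (by positivity) (hT.le_top hj.le) hv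
  have hb' : VGE p ((j : ℝ) / ((p : ℝ) * n)) (α - 1) := by
    rwa [mul_comm (p : ℝ), div_mul_eq_div_div]
  have hpos : (0 : ℝ) < (j : ℝ) / ((p : ℝ) * n) :=
    div_pos (Nat.cast_pos.mpr hj1) (mul_pos hp0 hn0)
  refine ⟨α, by simpa using veq_one.add_vgt (hb'.vgt hpos), hα, le_antisymm hb' ?_⟩
  by_contra hlt
  rw [not_le] at hlt
  have hα1 : VGE p 0 α := by
    simpa using (hb'.mono hpos.le).add veq_one.vge
  obtain ⟨r, hr, hr'⟩ := exists_add_pow (hα1.sub veq_one.vge) veq_one.vge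
  rw [sub_add_cancel, one_pow, mul_one] at hr'
  have h2 : VGT p ((j : ℝ) / n) ((α - 1) ^ p + (p : Qb) * (α - 1) * r) := by
    refine VGT.add ?_ ?_
    · by_cases hz : α - 1 = 0
      · rw [hz, zero_pow (Fact.out : p.Prime).ne_zero]; exact vgt_zero _
      obtain ⟨e, he⟩ := exists_veq (p := p) hz
      refine (he.pow p).vge.vgt ?_
      have h3 := he.lt_of_vgt hlt
      have h4 := mul_lt_mul_of_pos_left h3 hp0
      rw [← mul_div_assoc, mul_div_mul_left _ _ hp0.ne'] at h4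
      exact h4
    · have h5 : VGT p ((1 : ℝ) + (j : ℝ) / ((p : ℝ) * n)) ((p : Qb) * (α - 1) * r) := by
        simpa using ((veq_cast_self (p := p)).vge.mul_vgt hlt).mul_vge hr
      refine h5.mono ?_
      have h6 := hT.le_top hj.le
      have hp1 : (1 : ℝ) < p := one_lt_cast
      rw [le_div_iff₀ (by linarith : (0 : ℝ) < (p : ℝ) - 1)] at h6
      rw [mul_comm (p : ℝ) (n : ℝ), div_mul_eq_div_div]
      have h7 : ((j : ℝ) / n) * ((p : ℝ) - 1) / p ≤ 1 := by
        rw [div_le_one hp0]; exact h6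
      have h8 : ((j : ℝ) / n) * ((p : ℝ) - 1) / p = (j : ℝ) / n - (j : ℝ) / n / p := by
        field_simp
      linarith
  refine lt_irrefl _ (hv'.lt_of_vgt ?_)
  convert h2 using 1
  rw [hr']; ring

/-! ### The leading coefficient -/

theorem vge_ell_arg (hT : TameLevel p n d) {α : Qb} (hv : VGE p ((j : ℝ) / n) (α ^ p - 1)) :
    VGE p 0 ((α ^ p - 1) / piRoot p n ^ j) := by
  have h := hv.div ((piRoot_veq (p := p) hT.n_pos).pow j)
  rwa [mul_one_div, sub_self] at h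

variable {f g : Gal → ZMod p}

theorem ell_eq (hT : TameLevel p n d) (hjp : ¬ p ∣ j) (hj : j < p * d) {α : Qb} (h0 : α ≠ 0)
    (hα : ∀ σ ∈ Kn p n, σ α = zp p (f σ) * α) (hv : VGE p ((j : ℝ) / n) (α ^ p - 1)) :
    ell p n j f = res p ((α ^ p - 1) / piRoot p n ^ j) := by
  have hp := (Fact.out : p.Prime)
  have h : Lev p n j f := ⟨α, h0, hα, hv⟩
  rw [ell, dif_pos h]
  obtain ⟨h0', hα', hv'⟩ := h.choose_spec
  set α' := h.choose
  set w := α' / α with hw
  have hwK : InK p n w := inK_div_of_kummer hα' hα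
  have hjn : (0 : ℝ) < (j : ℝ) / n := by
    have : 0 < j := Nat.pos_of_ne_zero fun h => hjp (h ▸ dvd_zero p)
    exact div_pos (Nat.cast_pos.mpr this) (Nat.cast_pos.mpr hT.n_pos)
  have hu : VEQ p 0 (α ^ p) := by simpa using veq_one.add_vgt (hv.vgt hjn)
  have hwp : w ^ p - 1 = ((α' ^ p - 1) - (α ^ p - 1)) / α ^ p := by
    rw [hw, div_pow, sub_sub_sub_cancel_right, sub_div, div_self hu.ne_zero]
  have hwv : VGE p ((j : ℝ) / n) (w ^ p - 1) := by
    rw [hwp]; simpa using (hv'.sub hv).div hu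
  have hwv' : VGT p ((j : ℝ) / n) (w ^ p - 1) := by
    by_contra hnot
    have hb := vge_sub_one_of_pow hjn.le (hT.le_top hj.le) hwv
    have hb1 : InK p n (w - 1) := hwK.sub inU_one.inK
    by_cases hz : w - 1 = 0
    · rw [sub_eq_zero.mp hz, one_pow, sub_self] at hnot
      exact hnot (vgt_zero _)
    obtain ⟨k, hk⟩ := hb1.exists_veq hT.not_dvd hz
    have hw1 : VGE p 0 (w - 1) := hb.mono (by positivity)
    obtain ⟨r, hr, hr'⟩ := exists_add_pow hw1 veq_one.vge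
    rw [sub_add_cancel, one_pow, mul_one] at hr'
    have hn' : (0 : ℝ) < n := Nat.cast_pos.mpr hT.n_pos
    have hp0 : (0 : ℝ) < p := cast_pos'
    have hk1 := hk.le_of_vge hb
    rw [div_div, div_le_div_iff₀ (mul_pos hn' hp0) hn'] at hk1
    have hne : (k : ℝ) * p ≠ j := by
      intro he
      apply hjp
      have : k * (p : ℤ) = (j : ℤ) := by exact_mod_cast he
      exact Int.natCast_dvd_natCast.mp ⟨k, by rw [mul_comm]; exact this.symm⟩
    have hlt : (j : ℝ) < k * p := by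
      refine lt_of_le_of_ne ?_ (Ne.symm hne)
      nlinarith
    apply hnot
    rw [show w ^ p - 1 = (w - 1) ^ p + (p : Qb) * (w - 1) * r by rw [hr']; ring]
    refine VGT.add ((hk.pow p).vge.vgt ?_) ((((veq_cast_self (p := p)).vge.mul hk.vge).mul hr).vgt ?_)
    · rw [← mul_div_assoc, div_lt_div_iff_of_pos_right hn']
      linarith
    · have h6 := hT.le_top hj.le
      have hp1 : (1 : ℝ) < p := one_lt_cast
      rw [le_div_iff₀ (by linarith : (0 : ℝ) < (p : ℝ) - 1)] at h6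
      have h7 : (j : ℝ) / n < (k : ℝ) / n * p := by
        rw [div_mul_eq_mul_div, div_lt_div_iff_of_pos_right hn']; exact hlt
      nlinarith
  have hd : VGT p ((j : ℝ) / n) ((α' ^ p - 1) - (α ^ p - 1)) := by
    have := hwv'.mul_vge hu.vge
    rwa [hwp, div_mul_cancel₀ _ hu.ne_zero, add_zero] at this
  refine res_eq_of_vgt (vge_ell_arg hT hv') ?_
  rw [← sub_div]
  have h := hd.div ((piRoot_veq (p := p) hT.n_pos).pow j)
  rwa [mul_one_div, sub_self] at h

theorem ell_add (hT : TameLevel p n d) (hjp : ¬ p ∣ j) (hj : j < p * d) (hf : Lev p n j f)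
    (hg : Lev p n j g) : ell p n j (f + g) = ell p n j f + ell p n j g := by
  obtain ⟨α, h0, hα, hv⟩ := hf
  obtain ⟨β, h0', hβ, hv'⟩ := hg
  have hj0 : (0 : ℝ) < (j : ℝ) / n := by
    have : 0 < j := Nat.pos_of_ne_zero fun h => hjp (h ▸ dvd_zero p)
    exact div_pos (Nat.cast_pos.mpr this) (Nat.cast_pos.mpr hT.n_pos)
  have hab : ∀ σ ∈ Kn p n, σ (α * β) = zp p ((f + g) σ) * (α * β) := fun σ hσ => by
    rw [map_mul, hα σ hσ, hβ σ hσ, Pi.add_apply, zp_add]; ring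
  have he : (α * β) ^ p - 1 = (α ^ p - 1) + (β ^ p - 1) + (α ^ p - 1) * (β ^ p - 1) := by ring
  have hv'' : VGE p ((j : ℝ) / n) ((α * β) ^ p - 1) := by
    rw [he]
    exact (hv.add hv').add ((hv.mul hv').mono (by linarith))
  rw [ell_eq hT hjp hj h0 hα hv, ell_eq hT hjp hj h0' hβ hv',
    ell_eq hT hjp hj (mul_ne_zero h0 h0') hab hv'', ← res_add (vge_ell_arg hT hv) (vge_ell_arg hT hv')]
  refine res_eq_of_vgt (vge_ell_arg hT hv'') ?_
  rw [he, ← add_div, ← sub_div, add_sub_cancel_left]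
  have h := ((hv.mul hv').vgt (d := (j : ℝ) / n) (by linarith)).div
    ((piRoot_veq (p := p) hT.n_pos).pow j)
  rwa [mul_one_div, sub_self] at h

theorem ell_zero (hT : TameLevel p n d) (hjp : ¬ p ∣ j) (hj : j < p * d)
    (hf : ∀ σ ∈ Kn p n, f σ = 0) : ell p n j f = 0 := by
  rw [ell_eq hT hjp hj one_ne_zero
    (fun σ hσ => by rw [hf σ hσ, zp_zero, one_mul, map_one])
    (by rw [one_pow, sub_self]; exact vge_zero _), one_pow, sub_self, zero_div, res_zero]

theorem Lev.succ_of_ell_eq_zero (hT : TameLevel p n d) (hjp : ¬ p ∣ j) (hj : j < p * d)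
    (hf : Lev p n j f) (h : ell p n j f = 0) : Lev p n (j + 1) f := by
  obtain ⟨α, h0, hα, hv⟩ := hf
  rw [ell_eq hT hjp hj h0 hα hv, res_eq_zero_iff (vge_ell_arg hT hv)] at h
  refine Lev.succ_of_vgt hT.not_dvd h0 hα ?_
  have h2 := h.mul_vge ((piRoot_veq (p := p) hT.n_pos).pow j).vge
  rwa [div_mul_cancel₀ _ (pow_ne_zero _ (piRoot_ne_zero hT.n_pos)), zero_add, mul_one_div] at h2

/-- Conjugating a Kummer character. -/
def twistConj (τ : Gal) (f : Gal → ZMod p) : Gal → ZMod p :=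
  fun σ => cyc p τ * f (τ⁻¹ * σ * τ)

theorem kummer_conj (hn : ¬ p ∣ n) {α : Qb} (hτ : τ ∈ dec p)
    (hα : ∀ σ ∈ Kn p n, σ α = zp p (f σ) * α) :
    ∀ σ ∈ Kn p n, σ (τ α) = zp p (twistConj τ f σ) * τ α := by
  intro σ hσ
  have h := congrArg τ (hα _ (conj_inv_mem_Kn hn hσ hτ))
  rw [map_mul, apply_zp] at h
  rw [twistConj, ← h]
  simp [AlgEquiv.mul_apply]

theorem Lev.conj (hn : ¬ p ∣ n) (hτ : τ ∈ dec p) (hf : Lev p n j f) :
    Lev p n j (twistConj τ f) := by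
  obtain ⟨α, h0, hα, hv⟩ := hf
  refine ⟨τ α, by simpa using h0, kummer_conj hn hτ hα, ?_⟩
  simpa [map_sub, map_pow] using hv.dec hτ

theorem ell_conj (hT : TameLevel p n d) (hjp : ¬ p ∣ j) (hj : j < p * d) (hτ : τ ∈ dec p)
    (hf : Lev p n j f) : ∃ x, VGE p 0 x ∧ ell p n j f = res p x ∧
      ell p n j (twistConj τ f) = res p (τ x * tchar p n τ ^ j) := by
  obtain ⟨α, h0, hα, hv⟩ := hf
  refine ⟨_, vge_ell_arg hT hv, ell_eq hT hjp hj h0 hα hv, ?_⟩
  rw [ell_eq hT hjp hj (by simpa using h0) (kummer_conj hT.not_dvd hτ hα)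
    (by simpa [map_sub, map_pow] using hv.dec hτ)]
  congr 1
  have hπ := piRoot_ne_zero (p := p) hT.n_pos
  have ht : tchar p n τ ≠ 0 :=
    (veq_zero_of_pow_eq_one (p := p) hT.n_pos.ne' (tchar_pow hT.n_pos τ)).ne_zero
  rw [map_div₀, map_pow τ (piRoot p n), tchar_mul_piRoot hT.n_pos, map_sub, map_pow, map_one,
    mul_pow]
  field_simp

theorem ell_conj_inert (hT : TameLevel p n d) (hjp : ¬ p ∣ j) (hj : j < p * d) (hτ : τ ∈ inert p)
    (hf : Lev p n j f) :
    ell p n j (twistConj τ f) = res p (tchar p n τ) ^ j * ell p n j f := by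
  obtain ⟨x, hx, hx1, hx2⟩ := ell_conj hT hjp hj (inert_le_dec hτ) hf
  have ht := (veq_zero_of_pow_eq_one (p := p) hT.n_pos.ne' (tchar_pow (p := p) hT.n_pos τ)).vge
  rw [hx2, hx1, res_mul (hx.dec (inert_le_dec hτ)) (by simpa using ht.pow j), res_inert hτ hx,
    res_pow ht, mul_comm]

theorem ell_conj_frob (hT : TameLevel p n d) (hjp : ¬ p ∣ j) (hj : j < p * d) {φ : Gal}
    (hφ : (plc p).IsFrobeniusAt φ p) (hφπ : φ (piRoot p n) = piRoot p n) (k : ℕ)
    (hf : Lev p n j f) : ell p n j (twistConj (φ ^ k) f) = ell p n j f ^ p ^ k := by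
  have hd := pow_mem (Galois.isFrobeniusAt_iff.mp hφ).1 k
  obtain ⟨x, hx, hx1, hx2⟩ := ell_conj hT hjp hj hd hf
  have hfix : ∀ i : ℕ, (φ ^ i) (piRoot p n) = piRoot p n := fun i => by
    induction i with
    | zero => rfl
    | succ i ih => rw [pow_succ, AlgEquiv.mul_apply, hφπ, ih]
  have ht : tchar p n (φ ^ k) = 1 := (tchar_eq_one_iff hT.n_pos).mpr (hfix k)
  rw [hx2, hx1, ht, one_pow, mul_one, res_frob_pow hφ hx]

end Fermat.Agent.FlatTangent
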