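import Fermat.Agent.FlatTangent.PairModel
import Fermat.Agent.FlatTangent.KummerLevel

/-!
# Normal form of a flat deformation in the ordinary case

After a coboundary, the cocycle of a flat deformation of an ordinary `ρbar` preserves the line on
decomposition and is strictly upper triangular on inertia.
-/

set_option autoImplicit false
set_option linter.unusedSectionVars false
set_option linter.style.haveILetI false

noncomputable section

open groupCohomology

namespace Fermat.Agent.FlatTangent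

variable {p : ℕ} [Fact p.Prime]

/-- Connected points go to connected points of a quotient model. -/
theorem Model.conn_map {M Q : Type} [AddCommGroup M] [Fintype M] [DecidableEq M] [AddCommGroup Q]
    [Fintype Q] [DecidableEq Q] {act : Gal → M → M} {actQ : Gal → Q → Q} (R : Model p M act)
    (R' : Model p Q actQ) (π : M →+ Q) (h : ∀ i, InSpan p R.E fun x => R'.E i (π x)) {x : M}
    (hx : R.Conn x) : R'.Conn (π x) := fun i => by
  have := R.vgt_sub_of_rows (c := 0) (x := x) (y := 0) hx (h i)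
  simpa only [map_zero] using this

/-- Connected points of a stable subgroup are connected in the restricted model. -/
theorem Model.conn_comap {M N : Type} [AddCommGroup M] [Fintype M] [DecidableEq M] [AddCommGroup N]
    [Fintype N] [DecidableEq N] {act : Gal → M → M} {actN : Gal → N → N} (R : Model p M act)
    (R' : Model p N actN) (f : N →+ M) (h : ∀ i, ∃ g, R.Mem g ∧ R'.E i = fun x => g (f x))
    {x : N} (hx : R.Conn (f x)) : R'.Conn x := fun i => by
  obtain ⟨g, hg, hgi⟩ := h i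
  have := R.vgt_sub_of_rows (c := 0) (x := f x) (y := 0) hx hg.2
  simpa only [hgi, map_zero] using this

/-- A connected point dies in every quotient with trivial inertia (`p` odd). -/
theorem Model.map_eq_zero_of_conn {M Q : Type} [AddCommGroup M] [Fintype M] [DecidableEq M]
    [AddCommGroup Q] [Fintype Q] [Module (ZMod p) Q] {act : Gal → M → M}
    (R : Model p M act) (hp2 : p ≠ 2) (π : M →+ Q) (hπ : Function.Surjective π)
    (hfix : ∀ σ ∈ inert p, ∀ x, π (act σ x) = π x) {x : M} (hx : R.Conn x) : π x = 0 := by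
  classical
  obtain ⟨R', -, hR'⟩ := R.exists_quotient (actQ := fun _ q => q) π hπ hfix fun _ => rfl
  exact R'.eq_zero_of_conn_fixed hp2 (R.conn_map R' π hR' hx) fun _ _ => rfl

variable {k : Type} [Field k] [CharP k p] {ρbar : ResidualGaloisRep k}

theorem exists_cycIn_ne_one (hp2 : p ≠ 2) : ∃ σ ∈ inert p, cycIn p k σ ≠ 1 := by
  obtain ⟨σ, hσ, h⟩ := exists_cyc_eq (p := p) (a := -1) (neg_ne_zero.mpr one_ne_zero)
  refine ⟨σ, hσ, fun h1 => ?_⟩
  rw [cycIn, h, map_neg, map_one] at h1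
  exact Ring.two_ne_zero (R := k) (by rw [ringChar.eq k p]; exact hp2) (by linear_combination -h1)

variable [Finite k] [Fintype ρbar.V] [DecidableEq ρbar.V]

theorem shiftEnd_mul (c : cocycles₁ (TW.ad0 ρbar)) (T : TW.ad0 ρbar) (σ τ : Gal) (v : ρbar.V) :
    shiftEnd ρbar c T (σ * τ) (ρbar.ρ (σ * τ) v) =
      ρbar.ρ σ (shiftEnd ρbar c T τ (ρbar.ρ τ v)) +
        shiftEnd ρbar c T σ (ρbar.ρ σ (ρbar.ρ τ v)) := by
  rw [shiftEnd_apply_ρ, shiftEnd_apply_ρ, shiftEnd_apply_ρ, TW.cocycleEnd_mul]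
  simp only [map_mul, Module.End.mul_apply, LinearMap.add_apply, map_add, map_sub]
  rw [show ρbar.ρ σ⁻¹ (ρbar.ρ σ (ρbar.ρ τ v)) = ρbar.ρ τ v from
    LinearMap.congr_fun (TW.rhoInvMul ρbar σ) _]
  abel

theorem OrdData.mem_of_conn (O : OrdData p ρbar) (hp2 : p ≠ 2)
    (R : Model p ρbar.V fun σ x => ρbar.ρ σ x) {x : ρbar.V} (hx : R.Conn x) :
    x ∈ Submodule.span k {O.b 0} := by
  have := Fintype.ofFinite k
  let : Algebra (ZMod p) k := ZMod.algebra k p
  have h : O.b.coord 1 x = 0 := by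
    refine R.map_eq_zero_of_conn (Q := k) hp2 (O.b.coord 1).toAddMonoidHom
      (fun a => ⟨a • O.b 1, by simp⟩) (fun σ hσ v => ?_) hx
    obtain ⟨t, ht⟩ := Submodule.mem_span_singleton.mp (O.inert_quot σ hσ v)
    change O.b.coord 1 (ρbar.ρ σ v) = O.b.coord 1 v
    rw [← sub_eq_zero, ← map_sub, ← ht]
    simp
  refine Submodule.mem_span_singleton.mpr ⟨O.b.coord 0 x, ?_⟩
  conv_rhs => rw [← O.b.sum_repr x, Fin.sum_univ_two]
  have h' : O.b.repr x 1 = 0 := h
  simp [h']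

/-- The normal form in the ordinary case. -/
theorem exists_ord_normal (hp2 : p ≠ 2) (O : OrdData p ρbar) (c : cocycles₁ (TW.ad0 ρbar))
    (hc : IsLevelConstant₁ (MonoidHom.id _) c) (hflat : (TW.adLift ρbar c hc).IsFlatAt p) :
    ∃ T : TW.ad0 ρbar,
      (∀ σ ∈ dec p, shiftEnd ρbar c T σ (O.b 0) ∈ Submodule.span k {O.b 0}) ∧
      ∀ σ ∈ inert p, shiftEnd ρbar c T σ (O.b 0) = 0 ∧
        ∀ v, shiftEnd ρbar c T σ v ∈ Submodule.span k {O.b 0} := by
  set v₀ := O.b 0 with hv₀def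
  set L := Submodule.span k {v₀}
  have hv₀ : v₀ ∈ L := Submodule.mem_span_singleton_self _
  have h2 : (2 : k) ≠ 0 := Ring.two_ne_zero (by rw [ringChar.eq k p]; exact hp2)
  obtain ⟨σ₀, hσ₀, hχ⟩ := exists_cycIn_ne_one (k := k) hp2
  set χ := cycIn p k σ₀
  have hχ1 : χ - 1 ≠ 0 := sub_ne_zero.mpr hχ
  -- the change of coordinates
  set w₀ : ρbar.V := (χ - 1)⁻¹ • TW.cocycleEnd ρbar c σ₀ (ρbar.ρ σ₀ v₀)
  set T₀ : Module.End k ρbar.V := (O.b.coord 0).smulRight w₀
  set t : k := LinearMap.trace k ρbar.V T₀ / 2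
  have hT : T₀ - t • 1 ∈ TW.adZeroSpace ρbar := by
    rw [LinearMap.mem_ker, map_sub, map_smul, LinearMap.trace_one, ρbar.finrank_eq, smul_eq_mul,
      Nat.cast_ofNat, div_mul_cancel₀ _ h2, sub_self]
  let T : TW.ad0 ρbar := (⟨T₀ - t • 1, hT⟩ : TW.adZeroSpace ρbar)
  refine ⟨T, ?_⟩
  set f := shiftEnd ρbar c T
  have hTv : (T₀ - t • 1) v₀ = w₀ - t • v₀ := by simp [T₀, v₀]
  have hbase : f σ₀ (ρbar.ρ σ₀ v₀) ∈ L := by
    have h := shiftEnd_apply_ρ ρbar c T σ₀ v₀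
    change f σ₀ (ρbar.ρ σ₀ v₀) = TW.cocycleEnd ρbar c σ₀ (ρbar.ρ σ₀ v₀) +
      (ρbar.ρ σ₀ ((T₀ - t • 1) v₀) - (T₀ - t • 1) (ρbar.ρ σ₀ v₀)) at h
    rw [h, show TW.cocycleEnd ρbar c σ₀ (ρbar.ρ σ₀ v₀) = (χ - 1) • w₀ by
      rw [smul_inv_smul₀ hχ1]]
    clear_value w₀
    simp only [O.inert_sub σ₀ hσ₀, v₀, map_smul]
    change (χ - 1) • w₀ + (ρbar.ρ σ₀ ((T₀ - t • 1) v₀) - χ • (T₀ - t • 1) v₀) ∈ L
    rw [hTv, map_sub, map_smul, O.inert_sub σ₀ hσ₀]
    convert O.inert_quot σ₀ hσ₀ w₀ using 1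
    simp only [v₀]
    module
  obtain ⟨R⟩ := exists_model_pair p ρbar c hc hflat T
  -- connected points
  have hfst : ∀ w : ρbar.V × ρbar.V, R.Conn w → w.1 ∈ L := by
    intro w hw
    obtain ⟨R', -, hR'⟩ := R.exists_quotient (actQ := fun σ x => ρbar.ρ σ x)
      (AddMonoidHom.fst ρbar.V ρbar.V) (fun x => ⟨(x, 0), rfl⟩) (fun _ _ _ => rfl)
      (fun x => by simp)
    exact O.mem_of_conn hp2 R' (R.conn_map R' _ hR' hw)
  have hsnd : ∀ y : ρbar.V, R.Conn (0, y) → y ∈ L := by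
    intro y hy
    obtain ⟨R', -, hR'⟩ := R.exists_restrict (actN := fun σ x => ρbar.ρ σ x)
      (AddMonoidHom.inr ρbar.V ρbar.V) (fun a b h => (Prod.ext_iff.mp h).2)
      (fun σ _ x => by simp [pairAct]) (fun x => by simp)
    exact O.mem_of_conn hp2 R' (R.conn_comap R' _ hR' (x := y) hy)
  have hrange : ∀ σ ∈ inert p, ∀ v, f σ v ∈ L := by
    intro σ hσ v
    obtain ⟨x, rfl⟩ := TW.ρ_surjective ρbar σ v
    obtain ⟨a, ha⟩ := Submodule.mem_span_singleton.mp (O.inert_quot σ hσ x)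
    have h := R.conn_sub (R.conn_act_sub hσ (x, 0))
      (R.conn_act_sub hσ₀ ((a / (χ - 1)) • v₀, 0))
    simp only [pairAct, map_smul, map_zero, zero_add, Prod.mk_sub_mk, sub_zero] at h
    rw [O.inert_sub σ₀ hσ₀, show (a / (χ - 1)) • χ • O.b 0 - (a / (χ - 1)) • v₀ = a • v₀ by
      simp only [v₀]; match_scalars; field_simp, ← ha, sub_self] at h
    have h' := L.add_mem (hsnd _ h) (L.smul_mem (a / (χ - 1)) hbase)
    simpa [f, v₀, O.inert_sub σ₀ hσ₀] using h'
  refine ⟨fun τ hτ => ?_, fun σ hσ => ⟨?_, hrange σ hσ⟩⟩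
  · obtain ⟨μ, hμ⟩ := Submodule.mem_span_singleton.mp (O.stable τ hτ)
    have hμ0 : μ ≠ 0 := by
      rintro rfl
      rw [zero_smul] at hμ
      exact O.b.ne_zero 0 (TW.ρ_injective ρbar τ (hμ.symm.trans (map_zero _).symm))
    have hσ' := conj_mem_inert hσ₀ hτ
    have h1 := shiftEnd_mul c T (τ * σ₀ * τ⁻¹) τ v₀
    have h2 := shiftEnd_mul c T τ σ₀ v₀
    rw [show τ * σ₀ * τ⁻¹ * τ = τ * σ₀ by group, h2, O.inert_sub σ₀ hσ₀] at h1
    set y := f τ (ρbar.ρ τ v₀)
    have hy : (χ - 1) • y ∈ L := by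
      have hd : χ • y = ρbar.ρ (τ * σ₀ * τ⁻¹) y + f (τ * σ₀ * τ⁻¹)
          (ρbar.ρ (τ * σ₀ * τ⁻¹) (ρbar.ρ τ v₀)) - ρbar.ρ τ (f σ₀ (χ • v₀)) := by
        rw [← h1]
        simp only [f, y, map_smul, v₀]
        abel
      rw [sub_smul, one_smul, hd]
      have e1 := O.inert_quot _ hσ' y
      have e2 := hrange _ hσ' (ρbar.ρ (τ * σ₀ * τ⁻¹) (ρbar.ρ τ v₀))
      obtain ⟨s, hs⟩ := Submodule.mem_span_singleton.mp (hrange σ₀ hσ₀ (χ • v₀))
      have e3 : ρbar.ρ τ (f σ₀ (χ • v₀)) ∈ L := by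
        rw [← hs, map_smul]
        exact L.smul_mem _ (O.stable τ hτ)
      convert L.sub_mem (L.add_mem e1 e2) e3 using 1
      abel
    have hy' := L.smul_mem (μ⁻¹ * (χ - 1)⁻¹) hy
    rw [smul_smul, mul_assoc, inv_mul_cancel₀ hχ1, mul_one, show y = μ • f τ v₀ by
      simp only [y, v₀, ← hμ, map_smul], inv_smul_smul₀ hμ0] at hy'
    exact hy'
  · obtain ⟨a, ha⟩ := Submodule.mem_span_singleton.mp (hrange σ hσ v₀)
    have hdec : f σ = ((O.b.coord 0).comp (f σ)).smulRight v₀ := by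
      refine LinearMap.ext fun v => ?_
      obtain ⟨s, hs⟩ := Submodule.mem_span_singleton.mp (hrange σ hσ v)
      simp [← hs, v₀]
    have htr : LinearMap.trace k ρbar.V (f σ) = 0 :=
      LinearMap.mem_ker.mp ((c σ + ((TW.ad0 ρbar).ρ σ T - T) : TW.ad0 ρbar) :
        TW.adZeroSpace ρbar).2
    rw [hdec, LinearMap.trace_smulRight] at htr
    simp only [LinearMap.comp_apply, ← ha, map_smul, v₀, smul_eq_mul] at htr
    simp only [Module.Basis.coord_apply, Module.Basis.repr_self, Finsupp.single_eq_same,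
      mul_one] at htr
    show f σ v₀ = 0
    rw [← ha, htr, zero_smul]

end Fermat.Agent.FlatTangent
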