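import Fermat.Agent.FlatTangent.Line
import Mathlib.RingTheory.Trace.Basic

/-!
# Consequences of the rigidity of tame lines
-/

set_option autoImplicit false
set_option linter.unusedSectionVars false
set_option linter.style.haveILetI false

noncomputable section

namespace Fermat.Agent.FlatTangent

open Matrix

variable {p : ℕ} [Fact p.Prime] {F : Type} [Field F] [Fintype F] [DecidableEq F]
  {η : Gal → F} {n : ℕ} {R : Model p F (mulAct η)}

namespace LineCoord

variable (L : LineCoord R n)

theorem apply_char {σ : Gal} (hn : 0 < n) (hσ : σ ∈ inert p) :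
    L.x (η σ) = tchar p n σ * piRoot p n := by
  have h := L.equiv σ hσ 1
  rw [mulAct, mul_one, L.map_one, tchar_mul_piRoot hn] at h
  exact h

theorem veq_apply (hη : IsLineChar p η n) {c : F} (hc : c ≠ 0) : VEQ p (1 / n) (L.x c) := by
  have hn := pos_of_not_dvd hη.not_dvd
  obtain ⟨σ, hσ, rfl⟩ := L.surj c hc
  rw [L.apply_char hn hσ]
  simpa using (veq_zero_of_pow_eq_one hn.ne' (tchar_pow (p := p) hn σ)).mul (piRoot_veq hn)

theorem vge_apply (hη : IsLineChar p η n) (c : F) : VGE p (1 / n) (L.x c) := by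
  by_cases hc : c = 0
  · rw [hc, L.map_zero]; exact vge_zero _
  · exact (L.veq_apply hη hc).vge

theorem veq_sub (hη : IsLineChar p η n) {c d : F} (hcd : c ≠ d) :
    VEQ p (1 / n) (L.x c - L.x d) := by
  by_cases hc : c = 0
  · subst hc
    rw [L.map_zero, zero_sub]
    exact (L.veq_apply hη (Ne.symm hcd)).neg
  by_cases hd : d = 0
  · subst hd
    rw [L.map_zero, sub_zero]
    exact L.veq_apply hη hc
  have hn := pos_of_not_dvd hη.not_dvd
  obtain ⟨σ, hσ, rfl⟩ := L.surj c hc
  obtain ⟨τ, hτ, rfl⟩ := L.surj d hd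
  rw [L.apply_char hn hσ, L.apply_char hn hτ, ← sub_mul]
  have h : VEQ p 0 (tchar p n σ - tchar p n τ) := by
    refine le_antisymm ((veq_zero_of_pow_eq_one hn.ne' (tchar_pow (p := p) hn σ)).vge.sub
      (veq_zero_of_pow_eq_one hn.ne' (tchar_pow (p := p) hn τ)).vge) (not_lt.mp fun hlt => hcd ?_)
    exact hη.eq_of_tchar_eq hσ hτ (eq_of_vgt hη.not_dvd (tchar_pow hn σ) (tchar_pow hn τ) hlt)
  simpa using h.mul (piRoot_veq hn)

theorem inSpan_pow (k : ℕ) : InSpan p R.E (fun c => L.x c ^ k) := by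
  induction k with
  | zero => simpa using R.inSpan_const veq_one.vge
  | succ k ih =>
    have := R.inSpan_mul ih L.mem
    convert this using 1
    funext c
    simp [pow_succ]

/-- Functions of a rigid line model are integral polynomials in the coordinate. -/
theorem exists_expansion (hη : IsLineChar p η n) (hdisc : R.disc = ((n : ℝ) + 1) / 2)
    {f : F → Qb} (hf : InSpan p R.E f) :
    ∃ β : Fin (n + 1) → Qb, (∀ k, VGE p 0 (β k)) ∧ (∀ c, f c = ∑ k, β k * L.x c ^ (k : ℕ)) ∧
      (IEquiv p (mulAct η) f → ∀ k, InU p (β k)) := by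
  have hn := pos_of_not_dvd hη.not_dvd
  let e : F ≃ Fin (n + 1) := Fintype.equivFinOfCardEq hη.card
  let P : Matrix F F Qb := Matrix.of fun i c => L.x c ^ ((e i : Fin (n + 1)) : ℕ)
  have hdetP : VEQ p (((n : ℝ) + 1) / 2) P.det := by
    have hP : P = ((Matrix.vandermonde fun k => L.x (e.symm k))ᵀ).submatrix e e := by
      ext i c
      simp [P, Matrix.vandermonde]
    rw [hP, Matrix.det_submatrix_equiv_self, Matrix.det_transpose]
    have h := veq_det_vandermonde (p := p) (v := fun k => L.x (e.symm k))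
      fun i j hij => L.veq_sub hη fun h => hij (e.symm.injective h)
    have hn' : (n : ℝ) ≠ 0 := Nat.cast_ne_zero.mpr hn.ne'
    have he : 1 / (n : ℝ) * (((n + 1 : ℕ) : ℝ) * (((n + 1 : ℕ) : ℝ) - 1) / 2) =
        ((n : ℝ) + 1) / 2 := by
      push_cast
      field_simp
      ring
    rwa [he] at h
  obtain ⟨c, hc, hc'⟩ := inSpan_of_det_eq (hdisc ▸ R.veq_disc) hdetP (fun i => L.inSpan_pow _) hf
  refine ⟨fun k => c (e.symm k), fun k => hc _, fun x => ?_, fun hfe k => ?_⟩
  · rw [hc', ← Equiv.sum_comp e.symm]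
    exact Finset.sum_congr rfl fun k _ => by simp [P]
  · refine coeff_inU R.isAct hdetP.ne_zero (fun i σ hσ x => ?_) hfe hc' _
    show L.x (mulAct η σ x) ^ _ = σ (L.x x ^ _)
    rw [L.equiv σ hσ, map_pow]

include L in
/-- Values of the model differ from the value at `0` by at least `1/n`. -/
theorem vge_sub_zero (hη : IsLineChar p η n) (hdisc : R.disc = ((n : ℝ) + 1) / 2)
    {f : F → Qb} (hf : InSpan p R.E f) (c : F) : VGE p (1 / n) (f c - f 0) := by
  obtain ⟨β, hβ, hβ', -⟩ := L.exists_expansion hη hdisc hf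
  rw [hβ', hβ', ← Finset.sum_sub_distrib]
  refine VGE.sum fun k _ => ?_
  rw [← mul_sub, L.map_zero]
  rcases Nat.eq_zero_or_pos (k : ℕ) with h | h
  · rw [h, pow_zero, pow_zero, sub_self, mul_zero]; exact vge_zero _
  · rw [zero_pow h.ne', sub_zero]
    have h1 := (hβ k).mul ((L.vge_apply hη c).pow (k : ℕ))
    refine h1.mono ?_
    rw [zero_add]
    refine le_mul_of_one_le_left ?_ (by exact_mod_cast h)
    positivity

include L in
/-- The residue of the fundamental character extends to an embedding of fields. -/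
theorem exists_embedding (hη : IsLineChar p η n) (hdisc : R.disc = ((n : ℝ) + 1) / 2) :
    ∃ emb : F →+* IsLocalRing.ResidueField (plc p), ∀ σ ∈ inert p, ∀ h : tchar p n σ ∈ plc p,
      emb (η σ) = IsLocalRing.residue (plc p) ⟨tchar p n σ, h⟩ := by
  have hn := pos_of_not_dvd hη.not_dvd
  have hπ := piRoot_veq (p := p) hn
  have hm : ∀ c, L.x c / piRoot p n ∈ plc p := fun c => mem_plc_iff.mpr (by
    simpa using (L.vge_apply hη c).div hπ)
  let g : F → IsLocalRing.ResidueField (plc p) := fun c =>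
    IsLocalRing.residue (plc p) ⟨_, hm c⟩
  have hchar : ∀ σ ∈ inert p, L.x (η σ) / piRoot p n = tchar p n σ := fun σ hσ => by
    rw [L.apply_char hn hσ, mul_div_assoc, div_self hπ.ne_zero, mul_one]
  have h0 : g 0 = 0 := by
    simp only [g, L.map_zero, zero_div]
    exact _root_.map_zero _
  have h1 : g 1 = 1 := by
    simp only [g, L.map_one, div_self hπ.ne_zero]
    exact _root_.map_one _
  have hmul : ∀ a b, g (a * b) = g a * g b := by
    intro a b
    by_cases ha : a = 0
    · rw [ha, zero_mul, h0, zero_mul]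
    by_cases hb : b = 0
    · rw [hb, mul_zero, h0, mul_zero]
    obtain ⟨σ, hσ, rfl⟩ := L.surj a ha
    obtain ⟨τ, hτ, rfl⟩ := L.surj b hb
    simp only [g, ← map_mul, ← hη.map_mul σ hσ τ hτ]
    congr 1
    ext
    show L.x _ / _ = L.x _ / _ * (L.x _ / _)
    rw [hchar _ (mul_mem hσ hτ), hchar σ hσ, hchar τ hτ, tchar_mul hη.not_dvd hσ]
  have hadd : ∀ a b, g (a + b) = g a + g b := by
    intro a b
    have hrow : ∀ c i, VGE p (1 / n) (R.E i c - R.E i 0) := fun c i =>
      L.vge_sub_zero hη hdisc (inSpan_row i) c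
    have h := (R.vge_defect (hrow a) (hrow b) L.mem L.map_zero).div hπ
    have h' : VGT p 0 ((L.x (a + b) - L.x a - L.x b) / piRoot p n) := by
      refine h.vgt ?_
      have : (0 : ℝ) < 1 / n := one_div_pos.mpr (Nat.cast_pos.mpr hn)
      linarith
    rw [← sub_eq_zero]
    simp only [g, ← map_add, ← map_sub]
    rw [IsLocalRing.residue_eq_zero_iff, ← ValuationSubring.coe_mem_nonunits_iff,
      mem_plc_nonunits_iff]
    convert h' using 1
    show L.x _ / _ - (L.x _ / _ + L.x _ / _) = _
    ring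
  refine ⟨{ toFun := g, map_one' := h1, map_mul' := hmul, map_zero' := h0, map_add' := hadd },
    fun σ hσ h => ?_⟩
  show g (η σ) = _
  simp only [g]
  congr 1
  ext
  exact hchar σ hσ

end LineCoord

/-! ### Duality for lines -/

variable (η) in
/-- The Cartier dual character. -/
def dualChar (p : ℕ) [Fact p.Prime] [Algebra (ZMod p) F] : Gal → F :=
  fun σ => algebraMap (ZMod p) F (cyc p σ) * (η σ)⁻¹

variable [Algebra (ZMod p) F]

theorem isLineChar_dualChar (hη : IsLineChar p η n) {d : ℕ} (hd : n = (p - 1) * d) :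
    IsLineChar p (dualChar η p) n where
  card := hη.card
  not_dvd := hη.not_dvd
  map_mul σ hσ τ hτ := by
    simp only [dualChar, cyc_mul, map_mul, hη.map_mul σ hσ τ hτ, mul_inv]
    ring
  ker σ hσ := by
    simp only [dualChar, cyc_eq_one_of_mem_Kn hη.not_dvd hd hσ, hη.ker σ hσ, map_one, inv_one,
      mul_one]

variable (p F) in
/-- The trace pairing. -/
def tracePairing : F →+ F →+ ZMod p :=
  AddMonoidHom.mk' (fun c => AddMonoidHom.mk' (fun x => Algebra.trace (ZMod p) F (c * x))
      fun x y => by simp only [mul_add, map_add])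
    fun c c' => by ext x; simp [add_mul]

theorem tracePairing_apply (c x : F) :
    tracePairing p F c x = Algebra.trace (ZMod p) F (c * x) := rfl

theorem tracePairing_injective : Function.Injective (tracePairing p F) := by
  haveI : Module.Finite (ZMod p) F := Module.Finite.of_finite
  intro c c' h
  have hnd := traceForm_nondegenerate (ZMod p) F
  refine sub_eq_zero.mp (hnd.1 _ fun x => ?_)
  rw [Algebra.traceForm_apply, sub_mul, map_sub, sub_eq_zero]
  exact DFunLike.congr_fun h x

theorem tracePairing_act (hη : IsLineChar p η n) (σ : Gal) (hσ : σ ∈ inert p) (c x : F) :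
    tracePairing p F (mulAct (dualChar η p) σ c) (mulAct η σ x) =
      cyc p σ * tracePairing p F c x := by
  simp only [tracePairing_apply, mulAct, dualChar]
  rw [← smul_eq_mul (cyc p σ), ← map_smul, Algebra.smul_def]
  congr 1
  field_simp [hη.ne_zero hσ]

/-- Rigidity for a tame line of order `p ^ 2` with connected model and connected dual. -/
theorem lineCoord_of_card_sq (hη : IsLineChar p η n) (hcard : Fintype.card F = p ^ 2) {d : ℕ}
    (hd : n = (p - 1) * d) {σ₁ : Gal} (hσ₁ : σ₁ ∈ inert p) (hne₁ : η σ₁ ≠ 1) {σ₂ : Gal}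
    (hσ₂ : σ₂ ∈ inert p) (hne₂ : η σ₂ ≠ algebraMap (ZMod p) F (cyc p σ₂))
    (R : Model p F (mulAct η)) :
    Nonempty (LineCoord R n) ∧ R.disc = ((n : ℝ) + 1) / 2 := by
  have hη' := isLineChar_dualChar hη hd
  obtain ⟨R', hR'⟩ := R.exists_dual hη'.isAct (tracePairing p F) tracePairing_injective rfl
    (fun σ hσ c x => tracePairing_act hη σ hσ c x) hcard
  have hne' : dualChar η p σ₂ ≠ 1 := by
    intro h
    simp only [dualChar] at h
    exact hne₂ (mul_inv_eq_one₀ (hη.ne_zero hσ₂) |>.mp h).symm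
  obtain ⟨τ, e, N, _, _, eqv, z, -, -, -, hN, -, -, -, -, hdet, hspan⟩ :=
    exists_orbit_span hη' hσ₂ hne' R'
  have hle := det_le hdet R'.veq_disc hspan
  have hn' : (n : ℝ) = (e : ℝ) * N := by exact_mod_cast hN
  have hq : ((p : ℝ)) ^ 2 = (n : ℝ) + 1 := by exact_mod_cast hcard.symm.trans hη.card
  have hN1 : (1 : ℝ) ≤ N := by exact_mod_cast NeZero.pos N
  refine nonempty_lineCoord hη hσ₁ hne₁ R ?_
  rw [hq] at hR'
  push_cast at hR'
  nlinarith

/-- Rigidity for a tame line of order `p` with connected model. -/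
theorem lineCoord_of_card_prime (hη : IsLineChar p η n) (hcard : Fintype.card F = p)
    {d : ℕ} (hd : n = (p - 1) * d)
    {σ₁ : Gal} (hσ₁ : σ₁ ∈ inert p) (hne₁ : η σ₁ ≠ 1) (R : Model p F (mulAct η)) :
    Nonempty (LineCoord R n) ∧ R.disc = ((n : ℝ) + 1) / 2 := by
  have hη' := isLineChar_dualChar hη hd
  obtain ⟨R', hR'⟩ := R.exists_dual hη'.isAct (tracePairing p F) tracePairing_injective rfl
    (fun σ hσ c x => tracePairing_act hη σ hσ c x) (r := 1) (by rw [pow_one, hcard])
  refine nonempty_lineCoord hη hσ₁ hne₁ R ?_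
  have h0 := R'.disc_nonneg
  have hq : (p : ℝ) = (n : ℝ) + 1 := by exact_mod_cast hcard.symm.trans hη.card
  rw [pow_one, Nat.cast_one, mul_one, hq] at hR'
  linarith

end Fermat.Agent.FlatTangent
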