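import Fermat.Agent.FlatTangent.Cyclo

/-!
# Wild inertia is pro-`p`
-/

set_option autoImplicit false
set_option linter.unusedSectionVars false
set_option linter.style.haveILetI false

noncomputable section

namespace Fermat.Agent.FlatTangent

open Polynomial
open scoped IntermediateField

local instance isAlgebraicQb'' : Algebra.IsAlgebraic ℚ Qb := AlgebraicClosure.isAlgebraic ℚ
local instance isAlgClosureQb'' : IsAlgClosure ℚ Qb := ⟨inferInstance, inferInstance⟩
local instance normalQb'' : Normal ℚ Qb := IsAlgClosure.normal ℚ Qb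

variable {p : ℕ} [Fact p.Prime]

/-- For every finite normal level some `Kn p N` has a `p`-group as image. -/
theorem exists_isPGroup_Kn (M : IntermediateField ℚ Qb) [FiniteDimensional ℚ M] [Normal ℚ M] :
    ∃ N : ℕ, ¬ p ∣ N ∧ IsPGroup p ((Kn p N).map (AlgEquiv.restrictNormalHom (F := ℚ) (K₁ := Qb) M)) := by
  classical
  have hp := (Fact.out : p.Prime)
  haveI : IsGalois ℚ M := ⟨⟩
  set R := AlgEquiv.restrictNormalHom (F := ℚ) (K₁ := Qb) M with hR
  let img : ℕ → Subgroup (M ≃ₐ[ℚ] M) := fun N => (Kn p N).map R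
  let good : ℕ → Prop := fun c => ∃ N : ℕ, ¬ p ∣ N ∧ Nat.card (img N) = c
  have hex : ∃ c, good c := ⟨_, 1, fun h => hp.ne_one (Nat.dvd_one.mp h), rfl⟩
  obtain ⟨N, hN, hcard⟩ := Nat.find_spec hex
  refine ⟨N, hN, ?_⟩
  have hN0 := pos_of_not_dvd hN
  set J := img N with hJ
  have hmin : ∀ m : ℕ, ¬ p ∣ m → img (N * m) = J := by
    intro m hm
    have hNm : ¬ p ∣ N * m := fun h => (hp.dvd_mul.mp h).elim hN hm
    refine Subgroup.eq_of_le_of_card_ge (Subgroup.map_mono (Kn_le_of_dvd hNm (dvd_mul_right N m))) ?_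
    rw [hJ, hcard]
    exact Nat.find_min' hex ⟨N * m, hNm, rfl⟩
  obtain ⟨P⟩ : Nonempty (Sylow p J) := inferInstance
  let P' : Subgroup (M ≃ₐ[ℚ] M) := (P : Subgroup J).map J.subtype
  have hP' : IsPGroup p P' := P.isPGroup'.map J.subtype
  suffices hJP : J ≤ P' from hP'.to_le hJP
  obtain ⟨αE, hαE⟩ := Field.exists_primitive_element ℚ (IntermediateField.fixedField P')
  set α : M := (αE : M) with hαdef
  have hstab : ∀ g : M ≃ₐ[ℚ] M, g α = α → g ∈ P' := by
    intro g hg
    rw [← IntermediateField.fixingSubgroup_fixedField P', IntermediateField.mem_fixingSubgroup_iff]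
    intro x hx
    have h1 : ((⟨x, hx⟩ : IntermediateField.fixedField P')) ∈
        (⊤ : IntermediateField ℚ (IntermediateField.fixedField P')) := trivial
    rw [← hαE] at h1
    have key : ∀ y, y ∈ ℚ⟮αE⟯ → g (y : M) = (y : M) := by
      intro y hy
      induction hy using IntermediateField.adjoin_induction with
      | mem z hz => rw [Set.mem_singleton_iff.mp hz]; exact hg
      | algebraMap r =>
        have : ((algebraMap ℚ (IntermediateField.fixedField P') r : _) : M) = (r : M) := by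
          rw [eq_ratCast]; rfl
        rw [this, map_ratCast]
      | add u v _ _ hu hv => push_cast; rw [map_add, hu, hv]
      | inv u _ hu => push_cast; rw [map_inv₀, hu]
      | mul u v _ _ hu hv => push_cast; rw [map_mul, hu, hv]
    exact key _ h1
  have hfix : ∀ g ∈ P', g α = α := fun g hg =>
    (IntermediateField.mem_fixedField_iff _ _).mp αE.2 g hg
  -- the orbit of `α`
  letI : Fintype (M ≃ₐ[ℚ] M) := Fintype.ofFinite _
  let Jf : Finset (M ≃ₐ[ℚ] M) := Finset.univ.filter fun g => g ∈ J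
  let O : Finset M := Jf.image fun g => g α
  have hOne : α ∈ O := Finset.mem_image.mpr ⟨1, by simp [Jf, J.one_mem], rfl⟩
  have hOcard : O.card = (P : Subgroup J).index := by
    have h1 : MulAction.stabilizer J α = (P : Subgroup J) := by
      refine le_antisymm (fun g hg => ?_) (fun g hg => ?_)
      · have h2 := hstab g.1 hg
        obtain ⟨g', hg', hgg⟩ := Subgroup.mem_map.mp h2
        rwa [← (Subtype.ext hgg : g' = g)]
      · exact hfix g.1 (Subgroup.mem_map.mpr ⟨g, hg, rfl⟩)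
    rw [← h1, MulAction.index_stabilizer, ← Set.ncard_coe_finset]
    congr 1
    ext x
    simp only [O, Jf, Finset.coe_image, Finset.coe_filter, Finset.mem_univ, true_and,
      Set.mem_image, Set.mem_ofPred_eq, MulAction.mem_orbit_iff]
    constructor
    · rintro ⟨g, hg, rfl⟩; exact ⟨⟨g, hg⟩, rfl⟩
    · rintro ⟨g, rfl⟩; exact ⟨g.1, g.2, rfl⟩
  have hc : ¬ p ∣ O.card := by
    rw [hOcard]; exact P.not_dvd_index
  intro g₀ hg₀
  apply hstab
  -- translate to `ℚ̄`
  let c : ℕ := O.card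
  have hc0 : 0 < c := Finset.card_pos.mpr ⟨α, hOne⟩
  let s : M := ∑ y ∈ O, y
  let α' : M := (c : M) * α - s
  have hperm : ∀ g ∈ J, O.image g = O := by
    intro g hg
    refine Finset.eq_of_subset_of_card_le (fun z hz => ?_)
      (by rw [Finset.card_image_of_injective _ g.injective])
    obtain ⟨y, hy, rfl⟩ := Finset.mem_image.mp hz
    obtain ⟨h, hh, rfl⟩ := Finset.mem_image.mp hy
    refine Finset.mem_image.mpr ⟨g * h, ?_, rfl⟩
    simp only [Jf, Finset.mem_filter, Finset.mem_univ, true_and] at hh ⊢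
    exact mul_mem hg hh
  have hs : ∀ g ∈ J, g s = s := fun g hg => by
    show g (∑ y ∈ O, y) = ∑ y ∈ O, y
    conv_rhs => rw [← hperm g hg]
    rw [map_sum, Finset.sum_image fun _ _ _ _ h => g.injective h]
  suffices hα' : g₀ α' = α' by
    simp only [α', map_sub, map_mul, map_natCast, hs g₀ hg₀, sub_left_inj] at hα'
    exact mul_left_cancel₀ (Nat.cast_ne_zero.mpr hc0.ne') hα'
  by_cases h0 : α' = 0
  · rw [h0, map_zero]
  exfalso
  -- valuation of `α'`
  have hres : ∀ (σ : Gal) (x : M), σ (x : Qb) = ((R σ x : M) : Qb) := fun σ x =>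
    (AlgEquiv.restrictNormal_commutes σ M x).symm
  obtain ⟨a, ha⟩ := exists_veq (p := p) (x := (α' : Qb)) (by simpa using h0)
  have hJdec : ∀ g ∈ J, ∃ σ ∈ inert p, R σ = g := fun g hg => by
    obtain ⟨σ, hσ, rfl⟩ := Subgroup.mem_map.mp hg
    exact ⟨σ, (mem_Kn.mp hσ).1, rfl⟩
  let shift : M → M := fun y => (c : M) * y - s
  have hshift : ∀ g ∈ J, ∀ y, g (shift y) = shift (g y) := fun g hg y => by
    simp only [shift, map_sub, map_mul, map_natCast, hs g hg]
  have hconj : ∀ y ∈ O, VEQ p a ((shift y : M) : Qb) := by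
    intro y hy
    obtain ⟨g, hg, rfl⟩ := Finset.mem_image.mp hy
    simp only [Jf, Finset.mem_filter, Finset.mem_univ, true_and] at hg
    obtain ⟨σ, hσ, rfl⟩ := hJdec g hg
    rw [← hshift _ hg, ← hres σ]
    exact ha.dec (inert_le_dec hσ)
  -- the norm of `α'` over the orbit
  let Nm : M := ∏ y ∈ O, shift y
  have hNm : InK p N (Nm : Qb) := by
    intro σ hσ
    have hg : R σ ∈ J := Subgroup.mem_map.mpr ⟨σ, hσ, rfl⟩
    rw [hres σ]
    congr 1
    simp only [Nm, map_prod, hshift _ hg]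
    conv_rhs => rw [← hperm _ hg, Finset.prod_image fun _ _ _ _ h => (R σ).injective h]
  have hNmv : VEQ p (c * a) (Nm : Qb) := by
    have h := VEQ.prod (p := p) (g := fun _ => a) hconj
    rw [Finset.sum_const, nsmul_eq_mul] at h
    simpa [Nm] using h
  obtain ⟨k, hk⟩ := hNm.exists_veq hN hNmv.ne_zero
  have hak := hNmv.unique hk
  have hNc : ¬ p ∣ N * c := fun h => (hp.dvd_mul.mp h).elim hN hc
  set π := piRoot p (N * c)
  have hπ : VEQ p a (π ^ k) := by
    have h := piRoot_zpow_veq (p := p) (pos_of_not_dvd hNc) k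
    have hcR : (c : ℝ) ≠ 0 := Nat.cast_ne_zero.mpr hc0.ne'
    have he : ((k : ℝ) / ((N * c : ℕ) : ℝ)) = a := by
      rw [Nat.cast_mul, ← div_div, ← hak, mul_div_assoc, mul_comm, div_mul_cancel₀ _ hcR]
    rwa [he] at h
  have hmove : ∀ y ∈ O, VGT p a (((shift y : M) : Qb) - (α' : Qb)) := by
    intro y hy
    obtain ⟨g, hg, rfl⟩ := Finset.mem_image.mp hy
    simp only [Jf, Finset.mem_filter, Finset.mem_univ, true_and] at hg
    rw [← hmin c hc] at hg
    obtain ⟨σ, hσ, rfl⟩ := Subgroup.mem_map.mp hg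
    obtain ⟨hσI, hσπ⟩ := mem_Kn.mp hσ
    have hgJ : R σ ∈ J := hmin c hc ▸ Subgroup.mem_map.mpr ⟨σ, hσ, rfl⟩
    have hβ : VGE p 0 ((α' : Qb) / π ^ k) := by simpa using ha.vge.div hπ
    have h1 := (inert_sub hσI hβ).mul_vge hπ.vge
    rw [zero_add, map_div₀, map_zpow₀, hσπ, sub_mul, div_mul_cancel₀ _ hπ.ne_zero,
      div_mul_cancel₀ _ hπ.ne_zero, hres σ, show α' = shift α from rfl, hshift _ hgJ] at h1
    exact h1
  have hsum : (∑ y ∈ O, ((shift y : M) : Qb)) = 0 := by
    have : (∑ y ∈ O, shift y) = 0 := by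
      simp only [shift, Finset.sum_sub_distrib, Finset.sum_const, nsmul_eq_mul, s, c]
      rw [← Finset.mul_sum, sub_self]
    exact_mod_cast congrArg (fun z : M => (z : Qb)) this
  have h1 : VGT p a (∑ y ∈ O, (((shift y : M) : Qb) - (α' : Qb))) := VGT.sum hmove
  rw [Finset.sum_sub_distrib, hsum, zero_sub, Finset.sum_const, nsmul_eq_mul] at h1
  have h2 := ((veq_natCast_of_not_dvd (p := p) hc).mul ha).neg
  rw [zero_add] at h2
  exact lt_irrefl _ (h2.lt_of_vgt h1)

/-- A homomorphism with finite-level kernel maps some `Kn p N` onto a `p`-group. -/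
theorem exists_isPGroup_hom {G : Type*} [Group G] (ρ : Gal →* G)
    (F : IntermediateField ℚ Qb) [FiniteDimensional ℚ F]
    (hF : ∀ σ ∈ F.fixingSubgroup, ρ σ = 1) :
    ∃ N : ℕ, ¬ p ∣ N ∧ ∀ σ ∈ Kn p N, ∃ k : ℕ, ρ σ ^ p ^ k = 1 := by
  let M : IntermediateField ℚ Qb := IntermediateField.normalClosure ℚ F Qb
  have : FiniteDimensional ℚ M := normalClosure.is_finiteDimensional ℚ F Qb
  have : Normal ℚ M := normalClosure.normal ℚ F Qb
  obtain ⟨N, hN, hP⟩ := exists_isPGroup_Kn (p := p) M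
  refine ⟨N, hN, fun σ hσ => ?_⟩
  obtain ⟨k, hk⟩ := hP ⟨_, Subgroup.mem_map.mpr ⟨σ, hσ, rfl⟩⟩
  refine ⟨k, ?_⟩
  have h1 : σ ^ p ^ k ∈ M.fixingSubgroup := by
    rw [← IntermediateField.restrictNormalHom_ker, MonoidHom.mem_ker, map_pow]
    exact congrArg Subtype.val hk
  rw [← map_pow]
  exact hF _ (IntermediateField.fixingSubgroup_antitone F.le_normalClosure h1)

end Fermat.Agent.FlatTangent
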