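import Fermat.Agent.FlatTangent.OrdinaryNormal
import Fermat.Agent.FlatTangent.LineExtra
import Fermat.Agent.FlatTangent.Wild

/-!
# The two shapes of a flat residual representation at `p`

With a model and cyclotomic determinant, a two-dimensional `ρbar` with split characteristic
polynomials is ordinary (`OrdData`) or supersingular (`SSData`) on the decomposition group.
-/

set_option autoImplicit false
set_option linter.unusedSectionVars false
set_option linter.style.haveILetI false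

noncomputable section

namespace Fermat.Agent.FlatTangent

open Polynomial

variable {p : ℕ} [Fact p.Prime]

/-! ### Tame inertia -/

theorem tchar_eq_pow_of_dvd {m e N : ℕ} (hN : ¬ p ∣ N) (he : N = m * e) {σ : Gal}
    (hσ : σ ∈ inert p) : tchar p m σ = tchar p N σ ^ e := by
  subst he
  have hm : ¬ p ∣ m := fun h => hN (h.mul_right e)
  have hm0 := pos_of_not_dvd hm
  have hN0 := pos_of_not_dvd hN
  have hu : (piRoot p m / piRoot p (m * e) ^ e) ^ m = 1 := by
    rw [div_pow, ← pow_mul, mul_comm e m, piRoot_pow hm0, piRoot_pow hN0, div_self]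
    exact neg_ne_zero.mpr (Nat.cast_ne_zero.mpr (Fact.out : p.Prime).ne_zero)
  have h0 : piRoot p (m * e) ^ e ≠ 0 := pow_ne_zero _ (piRoot_ne_zero hN0)
  have h := inU_of_pow_eq_one hm hu σ hσ
  have hσ0 : σ (piRoot p (m * e)) ^ e ≠ 0 := by
    rw [← map_pow]
    exact (map_ne_zero σ).mpr h0
  rw [map_div₀, map_pow, div_eq_div_iff hσ0 h0] at h
  simp only [tchar, div_pow]
  rw [div_eq_div_iff (piRoot_ne_zero hm0) h0, h, mul_comm]

/-- Inertia modulo `Kn p N` is generated by an element with primitive tame character. -/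
theorem exists_pow_inv_mul_mem_Kn {N : ℕ} (hN : ¬ p ∣ N) {τ σ : Gal} (hτ : τ ∈ inert p)
    (hprim : IsPrimitiveRoot (tchar p N τ) N) (hσ : σ ∈ inert p) :
    ∃ i : ℕ, (τ ^ i)⁻¹ * σ ∈ Kn p N ∧ tchar p N σ = tchar p N τ ^ i := by
  have hN0 := pos_of_not_dvd hN
  have : NeZero N := ⟨hN0.ne'⟩
  obtain ⟨i, -, hi⟩ := hprim.eq_pow_of_pow_eq_one (tchar_pow (p := p) hN0 σ)
  refine ⟨i, (mem_Kn_iff_tchar hN0).mpr ⟨mul_mem (inv_mem (pow_mem hτ i)) hσ, ?_⟩, hi.symm⟩
  rw [tchar_mul hN (inv_mem (pow_mem hτ i)), tchar_inv hN (pow_mem hτ i), tchar_pow_apply hN hτ,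
    ← hi, inv_mul_cancel₀ (pow_ne_zero _ (hprim.ne_zero hN0.ne'))]

theorem conj_frob_mul_inv_pow_mem_Kn {φ : Gal} (hφ : (plc p).IsFrobeniusAt φ p)
    (hφD : φ ∈ dec p) {N : ℕ} (hN : ¬ p ∣ N) {σ : Gal} (hσ : σ ∈ inert p) :
    (σ ^ p)⁻¹ * (φ * σ * φ⁻¹) ∈ Kn p N := by
  have hN0 := pos_of_not_dvd hN
  have hm : φ * σ * φ⁻¹ ∈ inert p := conj_mem_inert hσ hφD
  refine (mem_Kn_iff_tchar hN0).mpr ⟨mul_mem (inv_mem (pow_mem hσ p)) hm, ?_⟩
  rw [tchar_mul hN (inv_mem (pow_mem hσ p)), tchar_inv hN (pow_mem hσ p), tchar_pow_apply hN hσ,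
    tchar_frob_conj hφ hN hσ, inv_mul_cancel₀]
  intro h
  have := tchar_pow (p := p) hN0 σ
  rw [(pow_eq_zero_iff (Fact.out : p.Prime).ne_zero).mp h, zero_pow hN0.ne'] at this
  exact zero_ne_one this

/-- A character of inertia trivial on `Kn p N` with values killed by `m` is trivial on `Kn p m`. -/
theorem char_eq_one_of_mem_Kn {K : Type} [Field K] {N m : ℕ} (hN : ¬ p ∣ N) (hm : m ∣ N)
    (η : Gal → K) (hmul : ∀ σ ∈ inert p, ∀ τ ∈ inert p, η (σ * τ) = η σ * η τ)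
    (hker : ∀ σ ∈ Kn p N, η σ = 1) (hval : ∀ σ ∈ inert p, η σ ^ m = 1) :
    ∀ σ ∈ Kn p m, η σ = 1 := by
  intro σ hσ
  obtain ⟨e, he⟩ := hm
  have hN0 := pos_of_not_dvd hN
  obtain ⟨τ, hτ, hprim⟩ := exists_tchar_prim (p := p) hN
  obtain ⟨hσI, -⟩ := mem_Kn.mp hσ
  obtain ⟨i, hi, hiσ⟩ := exists_pow_inv_mul_mem_Kn hN hτ hprim hσI
  have h1 : η 1 = 1 := hker 1 (one_mem _)
  have hpow : ∀ j : ℕ, η (τ ^ j) = η τ ^ j := by
    intro j
    induction j with
    | zero => rw [pow_zero, pow_zero, h1]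
    | succ j ih => rw [pow_succ, hmul _ (pow_mem hτ j) τ hτ, ih, pow_succ]
  have hm0 : 0 < m := Nat.pos_of_ne_zero fun h => hN0.ne' (by rw [he, h, zero_mul])
  have he0 : 0 < e := Nat.pos_of_ne_zero fun h => hN0.ne' (by rw [he, h, mul_zero])
  have h2 : tchar p m σ = 1 := ((mem_Kn_iff_tchar hm0).mp hσ).2
  rw [tchar_eq_pow_of_dvd hN he hσI, hiσ, ← pow_mul, hprim.pow_eq_one_iff_dvd, he,
    Nat.mul_dvd_mul_iff_right he0] at h2
  obtain ⟨j, rfl⟩ := h2
  have h3 := hmul _ (pow_mem hτ (m * j)) ((τ ^ (m * j))⁻¹ * σ)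
    (mul_mem (inv_mem (pow_mem hτ _)) hσI)
  rw [mul_inv_cancel_left, hker _ hi, mul_one, hpow, pow_mul, hval τ hτ, one_pow] at h3
  exact h3

/-! ### Residual representations -/

variable {k : Type} [Field k] [CharP k p] {ρbar : ResidualGaloisRep k}

theorem det_eq_cycIn (hdet : (GaloisRepAdic.ofResidualGaloisRep ρbar).DetIsCyclotomic p)
    (σ : Gal) : LinearMap.det (ρbar.ρ σ) = cycIn p k σ := by
  have h := hdet.2 1 σ (cyc p σ).val fun μ hμ => apply_eq_pow_cyc σ (by rwa [pow_one] at hμ)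
  rw [pow_one, CharP.cast_eq_zero k p, Ideal.mem_span_singleton, zero_dvd_iff, sub_eq_zero] at h
  rw [cycIn, ← ZMod.natCast_zmod_val (cyc p σ), map_natCast]
  exact h

theorem det_eq_mul (b : Module.Basis (Fin 2) k ρbar.V) (σ : Gal)
    (h : b.repr (ρbar.ρ σ (b 0)) 1 = 0) :
    LinearMap.det (ρbar.ρ σ) = b.repr (ρbar.ρ σ (b 0)) 0 * b.repr (ρbar.ρ σ (b 1)) 1 := by
  rw [← LinearMap.det_toMatrix b, Matrix.det_fin_two]
  simp only [LinearMap.toMatrix_apply, h]
  ring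

/-- A vector outside the span completes a nonzero vector to a basis. -/
theorem exists_basis_pair {v w : ρbar.V} (hv : v ≠ 0) (hw : w ∉ Submodule.span k {v}) :
    ∃ b : Module.Basis (Fin 2) k ρbar.V, b 0 = v ∧ b 1 = w := by
  have hli : LinearIndependent k ![v, w] := by
    rw [linearIndependent_fin2]
    refine ⟨fun h => hw ?_, fun a h => ?_⟩
    · rw [show w = 0 from h]; exact Submodule.zero_mem _
    · have ha : a ≠ 0 := fun h0 => hv (by simpa [h0] using h.symm)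
      refine hw (Submodule.mem_span_singleton.2 ⟨a⁻¹, ?_⟩)
      rw [show v = a • w from h.symm, inv_smul_smul₀ ha]
  exact ⟨basisOfLinearIndependentOfCardEqFinrank hli (by rw [Fintype.card_fin, ρbar.finrank_eq]),
    by simp, by simp⟩

theorem exists_notMem_span {v : ρbar.V} (hv : v ≠ 0) : ∃ w, w ∉ Submodule.span k {v} := by
  by_contra! h
  have h1 := finrank_span_singleton (K := k) hv
  rw [Submodule.eq_top_iff'.2 h, finrank_top, ρbar.finrank_eq] at h1
  omega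

theorem mem_span_of_repr (b : Module.Basis (Fin 2) k ρbar.V) {x : ρbar.V} (h : b.repr x 1 = 0) :
    x ∈ Submodule.span k {b 0} := by
  refine Submodule.mem_span_singleton.mpr ⟨b.repr x 0, ?_⟩
  conv_rhs => rw [← b.sum_repr x, Fin.sum_univ_two]
  simp [h]

/-- A line fixed by decomposition with cyclotomic inertia gives the ordinary shape. -/
theorem nonempty_ordData (hdet : (GaloisRepAdic.ofResidualGaloisRep ρbar).DetIsCyclotomic p)
    {v : ρbar.V} (hv : v ≠ 0) (hD : ∀ σ ∈ dec p, ρbar.ρ σ v ∈ Submodule.span k {v})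
    (hI : ∀ σ ∈ inert p, ∀ x, ρbar.ρ σ x - x ∈ Submodule.span k {v}) :
    Nonempty (OrdData p ρbar) := by
  obtain ⟨w, hw⟩ := exists_notMem_span hv
  obtain ⟨b, rfl, rfl⟩ := exists_basis_pair hv hw
  refine ⟨⟨b, hD, fun σ hσ => ?_, hI⟩⟩
  obtain ⟨a, ha⟩ := Submodule.mem_span_singleton.mp (hD σ (inert_le_dec hσ))
  obtain ⟨t, ht⟩ := Submodule.mem_span_singleton.mp (hI σ hσ (b 1))
  rw [eq_sub_iff_add_eq] at ht
  have h0 : b.repr (ρbar.ρ σ (b 0)) 1 = 0 := by simp [← ha]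
  have h := det_eq_mul b σ h0
  rw [det_eq_cycIn hdet, ← ha, ← ht] at h
  simp at h
  rw [← ha, h]

variable [Fintype ρbar.V] [DecidableEq ρbar.V]

/-- The subspace spanned by the displacements of inertia. -/
def movedSpace (p : ℕ) [Fact p.Prime] (ρbar : ResidualGaloisRep k) : Submodule k ρbar.V :=
  Submodule.span k {y | ∃ σ ∈ inert p, ∃ x, y = ρbar.ρ σ x - x}

theorem sub_mem_movedSpace {σ : Gal} (hσ : σ ∈ inert p) (x : ρbar.V) :
    ρbar.ρ σ x - x ∈ movedSpace p ρbar := Submodule.subset_span ⟨σ, hσ, x, rfl⟩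

theorem conn_of_mem_movedSpace (R : Model p ρbar.V fun σ x => ρbar.ρ σ x) {y : ρbar.V}
    (hy : y ∈ movedSpace p ρbar) : R.Conn y := by
  have key : ∀ a : k, ∀ z ∈ movedSpace p ρbar, R.Conn (a • z) := by
    intro a z hz
    induction hz using Submodule.span_induction generalizing a with
    | mem z hz =>
      obtain ⟨σ, hσ, x, rfl⟩ := hz
      rw [smul_sub, ← map_smul]
      exact R.conn_act_sub hσ _
    | zero => rw [smul_zero]; exact R.conn_zero
    | add z w _ _ hz hw => rw [smul_add]; exact R.conn_add (hz a) (hw a)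
    | smul c z _ hz => rw [smul_smul]; exact hz _
  simpa using key 1 y hy

theorem map_mem_movedSpace {σ : Gal} (hσ : σ ∈ dec p) {y : ρbar.V}
    (hy : y ∈ movedSpace p ρbar) : ρbar.ρ σ y ∈ movedSpace p ρbar := by
  induction hy using Submodule.span_induction with
  | mem z hz =>
    obtain ⟨τ, hτ, x, rfl⟩ := hz
    have h := sub_mem_movedSpace (ρbar := ρbar) (conj_mem_inert hτ hσ) (ρbar.ρ σ x)
    rw [map_mul, map_mul, Module.End.mul_apply, Module.End.mul_apply,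
      show ρbar.ρ σ⁻¹ (ρbar.ρ σ x) = x from LinearMap.congr_fun (TW.rhoInvMul ρbar σ) x] at h
    rwa [map_sub]
  | zero => rw [map_zero]; exact zero_mem _
  | add z w _ _ hz hw => rw [map_add]; exact add_mem hz hw
  | smul c z _ hz => rw [map_smul]; exact Submodule.smul_mem _ c hz

theorem exists_inert_ρ_ne_one (hp2 : p ≠ 2)
    (hdet : (GaloisRepAdic.ofResidualGaloisRep ρbar).DetIsCyclotomic p) :
    movedSpace p ρbar ≠ ⊥ := by
  intro h
  obtain ⟨σ, hσ, hne⟩ := exists_cycIn_ne_one (k := k) (p := p) hp2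
  refine hne ?_
  have : ρbar.ρ σ = 1 := LinearMap.ext fun x => sub_eq_zero.mp (by
    simpa [h] using sub_mem_movedSpace (ρbar := ρbar) hσ x)
  rw [← det_eq_cycIn hdet, this]
  exact LinearMap.det_id

/-- A tame level killing the wild part of inertia. -/
theorem exists_tame_level (ρbar : ResidualGaloisRep k) :
    ∃ N : ℕ, ¬ p ∣ N ∧ p ^ 2 - 1 ∣ N ∧
      ∀ σ ∈ Kn p N, ∃ m : ℕ, ρbar.ρ σ ^ p ^ m = 1 := by
  obtain ⟨F, hF, hρ⟩ := ρbar.factorsThroughFiniteLevel
  have := hF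
  obtain ⟨N, hN, h⟩ := exists_isPGroup_hom (p := p) ρbar.ρ.toHomUnits F fun σ hσ =>
    Units.ext (hρ σ fun x hx => (IntermediateField.mem_fixingSubgroup_iff _ _).mp hσ x hx)
  have h2 : ¬ p ∣ p ^ 2 - 1 := natCast_pow_sub_one_not_dvd two_pos
  have hN' : ¬ p ∣ N * (p ^ 2 - 1) := (Fact.out : p.Prime).not_dvd_mul hN h2
  refine ⟨_, hN', dvd_mul_left _ _, fun σ hσ => ?_⟩
  obtain ⟨m, hm⟩ := h σ (Kn_le_of_dvd hN' (dvd_mul_right _ _) hσ)
  exact ⟨m, congrArg Units.val hm⟩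

/-- A character of inertia inside `ρbar` depends only on the tame quotient. -/
theorem eigen_eq_one_of_mem_Kn {N : ℕ}
    (hw : ∀ σ ∈ Kn p N, ∃ m : ℕ, ρbar.ρ σ ^ p ^ m = 1) {v : ρbar.V} (hv : v ≠ 0) {σ : Gal}
    (hσ : σ ∈ Kn p N) {a : k} (ha : ρbar.ρ σ v = a • v) : a = 1 := by
  obtain ⟨m, hm⟩ := hw σ hσ
  have hpow : ∀ j : ℕ, (ρbar.ρ σ ^ j) v = a ^ j • v := by
    intro j
    induction j with
    | zero => simp
    | succ j ih =>
      rw [pow_succ, Module.End.mul_apply, ha, map_smul, ih, smul_smul, pow_succ, mul_comm]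
  have h := hpow (p ^ m)
  rw [hm, Module.End.one_apply] at h
  have h1 : a ^ p ^ m = 1 :=
    smul_left_injective k hv (h.symm.trans (one_smul k v).symm)
  have h2 : (a - 1) ^ p ^ m = 0 := by rw [sub_pow_char_pow, h1, one_pow, sub_self]
  exact sub_eq_zero.mp ((pow_eq_zero_iff (pow_ne_zero _ (Fact.out : p.Prime).ne_zero)).mp h2)

/-- A nontrivial character of level one carried by a model of a line is cyclotomic. -/
theorem eq_cyc_of_line {e : Gal → ZMod p} (he : IsLineChar p e (p - 1))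
    (R : Model p (ZMod p) (mulAct e)) (hne : ∃ σ ∈ inert p, e σ ≠ 1) :
    ∀ σ ∈ inert p, e σ = cyc p σ := by
  intro σ hσ
  obtain ⟨σ₁, hσ₁, hne₁⟩ := hne
  have hd : p - 1 = (p - 1) * 1 := (mul_one _).symm
  obtain ⟨⟨L⟩, hdisc⟩ := lineCoord_of_card_prime he (ZMod.card p) hd hσ₁ hne₁ R
  obtain ⟨emb, hemb⟩ := L.exists_embedding he hdisc
  have hn : ¬ p ∣ p - 1 := he.not_dvd
  have ht0 := veq_zero_of_pow_eq_one (p := p) (pos_of_not_dvd hn).ne'
    (tchar_pow (p := p) (pos_of_not_dvd hn) σ)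
  have htm : tchar p (p - 1) σ ∈ plc p := mem_plc_iff.mpr ht0.vge
  refine emb.injective ?_
  rw [hemb σ hσ htm, ← ZMod.natCast_zmod_val (cyc p σ), map_natCast,
    ← map_natCast (IsLocalRing.residue (plc p)), ← sub_eq_zero, ← map_sub,
    IsLocalRing.residue_eq_zero_iff, ← ValuationSubring.coe_mem_nonunits_iff, mem_plc_nonunits_iff]
  have h := cyc_tchar hn hd hσ
  rw [pow_one] at h
  convert h using 2
  push_cast
  rfl

variable [Finite k]

/-- When inertia moves everything, no line is fixed by decomposition. -/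
theorem not_stable_of_top (hp2 : p ≠ 2)
    (hdet : (GaloisRepAdic.ofResidualGaloisRep ρbar).DetIsCyclotomic p)
    (R : Model p ρbar.V fun σ x => ρbar.ρ σ x) (htop : movedSpace p ρbar = ⊤)
    {v : ρbar.V} (hv : v ≠ 0) : ¬ ∀ σ ∈ dec p, ρbar.ρ σ v ∈ Submodule.span k {v} := by
  intro hD
  let : Algebra (ZMod p) k := ZMod.algebra k p
  let : Module (ZMod p) ρbar.V := Module.compHom ρbar.V (algebraMap (ZMod p) k)
  have hfix : ∀ x : ρbar.V, (∀ σ ∈ inert p, ρbar.ρ σ x = x) → x = 0 := fun x hx =>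
    R.eq_zero_of_conn_fixed hp2 (conn_of_mem_movedSpace R (by rw [htop]; trivial)) hx
  obtain ⟨N, hN, hdvd, hw⟩ := exists_tame_level (p := p) ρbar
  have hp1 : p - 1 ∣ N := (Nat.sub_one_dvd_pow_sub_one p 2).trans hdvd
  choose! η hη using fun σ (hσ : σ ∈ inert p) =>
    Submodule.mem_span_singleton.mp (hD σ (inert_le_dec hσ))
  have hmul : ∀ σ ∈ inert p, ∀ τ ∈ inert p, η (σ * τ) = η σ * η τ := by
    intro σ hσ τ hτ
    refine smul_left_injective k hv ?_
    show η (σ * τ) • v = (η σ * η τ) • v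
    rw [hη _ (mul_mem hσ hτ), map_mul, Module.End.mul_apply, ← hη τ hτ, map_smul, ← hη σ hσ,
      smul_smul, mul_comm]
  have hker : ∀ σ ∈ Kn p N, η σ = 1 := fun σ hσ =>
    eigen_eq_one_of_mem_Kn hw hv hσ (hη σ (mem_Kn.mp hσ).1).symm
  have hη0 : ∀ σ ∈ inert p, η σ ≠ 0 := fun σ hσ h => hv (TW.ρ_injective ρbar σ (by
    rw [← hη σ hσ, h, zero_smul, map_zero]))
  -- Frobenius conjugation gives values in the prime field
  have hval : ∀ σ ∈ inert p, η σ ^ (p - 1) = 1 := by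
    intro σ hσ
    obtain ⟨φ, hφ, -⟩ := exists_frobenius_fix (p := p) (n := N) hN
    have hm : φ * σ * φ⁻¹ ∈ inert p := conj_mem_inert hσ hφ.1
    obtain ⟨μ, hμ⟩ := Submodule.mem_span_singleton.mp (hD φ hφ.1)
    have hμ0 : μ ≠ 0 := fun h => hv (TW.ρ_injective ρbar φ (by
      rw [← hμ, h, zero_smul, map_zero]))
    have h1 : η (φ * σ * φ⁻¹) = η σ := by
      refine mul_right_cancel₀ hμ0 (smul_left_injective k hv ?_)
      show (η (φ * σ * φ⁻¹) * μ) • v = (η σ * μ) • v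
      rw [mul_comm, ← smul_smul, hη _ hm, ← map_smul, hμ, ← Module.End.mul_apply, ← map_mul,
        inv_mul_cancel_right, map_mul, Module.End.mul_apply, ← hη σ hσ, map_smul, ← hμ, smul_smul]
    have hK := conj_frob_mul_inv_pow_mem_Kn hφ hφ.1 hN hσ
    have h2 := hmul _ (pow_mem hσ p) _ (mem_Kn.mp hK).1
    rw [mul_inv_cancel_left, hker _ hK, mul_one, h1] at h2
    have h3 : ∀ j : ℕ, η (σ ^ j) = η σ ^ j := fun j => by
      induction j with
      | zero => rw [pow_zero, pow_zero]; exact hker 1 (one_mem _)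
      | succ j ih => rw [pow_succ, hmul _ (pow_mem hσ j) σ hσ, ih, pow_succ]
    rw [h3] at h2
    refine mul_right_cancel₀ (hη0 σ hσ) ?_
    rw [← pow_succ, Nat.sub_add_cancel (Fact.out : p.Prime).one_le, ← h2, one_mul]
  have hprime : ∀ σ ∈ inert p, ∃ a : ZMod p, algebraMap (ZMod p) k a = η σ := by
    intro σ hσ
    have h : η σ ^ p = η σ := by
      rw [← Nat.sub_add_cancel (Fact.out : p.Prime).one_le, pow_succ, hval σ hσ, one_mul]
    obtain ⟨n, hn⟩ := (mem_bot_iff_intCast p k).mp ((Subfield.mem_bot_iff_pow_eq_self (F := k) (p := p)).mpr h)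
    exact ⟨n, by rw [map_intCast]; exact hn⟩
  choose! e he using hprime
  have hinj := (algebraMap (ZMod p) k).injective
  have hchar : IsLineChar p e (p - 1) :=
    ⟨by rw [ZMod.card, Nat.sub_add_cancel (Fact.out : p.Prime).one_le],
      fun h => hN (h.trans hp1),
      fun σ hσ τ hτ => hinj (by
        rw [map_mul, he σ hσ, he τ hτ, he _ (mul_mem hσ hτ), hmul σ hσ τ hτ]),
      fun σ hσ => hinj (by
        rw [he σ (mem_Kn.mp hσ).1, map_one]
        exact char_eq_one_of_mem_Kn hN hp1 η hmul hker hval σ hσ)⟩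
  let ι : ZMod p →+ ρbar.V :=
    ((LinearMap.toSpanSingleton k ρbar.V v).toAddMonoidHom).comp
      (algebraMap (ZMod p) k).toAddMonoidHom
  have hι : Function.Injective ι := fun a b h => hinj (smul_left_injective k hv h)
  obtain ⟨R', -, -⟩ := R.exists_restrict (actN := mulAct e) ι hι (fun σ hσ x => by
    show algebraMap (ZMod p) k (e σ * x) • v = ρbar.ρ σ (algebraMap (ZMod p) k x • v)
    rw [map_mul, he σ hσ, map_smul, ← hη σ hσ, smul_smul, mul_comm]) hchar.isAct.map_one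
  have hne : ∃ σ ∈ inert p, e σ ≠ 1 := by
    by_contra! h
    exact hv (hfix v fun σ hσ => by rw [← hη σ hσ, ← he σ hσ, h σ hσ, map_one, one_smul])
  have hcyc : ∀ σ ∈ inert p, η σ = cycIn p k σ := fun σ hσ => by
    rw [← he σ hσ, eq_cyc_of_line hchar R' hne σ hσ, cycIn]
    rfl
  obtain ⟨w, hw'⟩ := exists_notMem_span hv
  obtain ⟨b, hb0, hb1⟩ := exists_basis_pair hv hw'
  have hle : movedSpace p ρbar ≤ Submodule.span k {v} := by
    refine Submodule.span_le.mpr ?_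
    rintro _ ⟨σ, hσ, x, rfl⟩
    have h0 : ρbar.ρ σ (b 0) = η σ • b 0 := by rw [hb0, hη σ hσ]
    have h := det_eq_mul b σ (by simp [h0])
    rw [det_eq_cycIn hdet, h0, ← hcyc σ hσ] at h
    simp at h
    have h11 : b.repr (ρbar.ρ σ (b 1)) 1 = 1 :=
      mul_left_cancel₀ (hη0 σ hσ) (h.symm.trans (mul_one _).symm)
    rw [← hb0]
    refine mem_span_of_repr b ?_
    conv_lhs => rw [← b.sum_repr x, Fin.sum_univ_two]
    simp [h0, h11]
  refine hw' (hle ?_)
  rw [htop]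
  trivial

/-- When inertia moves everything, the supersingular shape. -/
theorem nonempty_ssData (hp2 : p ≠ 2)
    (hdet : (GaloisRepAdic.ofResidualGaloisRep ρbar).DetIsCyclotomic p)
    (hsplit : ∀ σ, ∃ a b : k, LinearMap.charpoly (ρbar.ρ σ) = (X - C a) * (X - C b))
    (R : Model p ρbar.V fun σ x => ρbar.ρ σ x) (htop : movedSpace p ρbar = ⊤) :
    Nonempty (SSData p ρbar) := by
  have hnl : ∀ v : ρbar.V, v ≠ 0 → ¬ ∀ σ ∈ dec p, ρbar.ρ σ v ∈ Submodule.span k {v} :=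
    fun v hv => not_stable_of_top hp2 hdet R htop hv
  have hev : ∀ σ : Gal, ∃ (a : k) (v : ρbar.V), v ≠ 0 ∧ ρbar.ρ σ v = a • v := by
    intro σ
    obtain ⟨a, b, h⟩ := hsplit σ
    have hroot : Module.End.HasEigenvalue (ρbar.ρ σ) a := by
      rw [Module.End.hasEigenvalue_iff_isRoot_charpoly, h]
      simp
    obtain ⟨v, hv⟩ := hroot.exists_hasEigenvector
    exact ⟨a, v, hv.2, Module.End.mem_eigenspace_iff.mp hv.1⟩
  obtain ⟨N, hN, hdvd, hw⟩ := exists_tame_level (p := p) ρbar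
  have hN0 := pos_of_not_dvd hN
  -- wild inertia is trivial
  have hKn : ∀ σ ∈ Kn p N, ρbar.ρ σ = 1 := by
    let W : Submodule k ρbar.V :=
      { carrier := {x | ∀ σ ∈ Kn p N, ρbar.ρ σ x = x}
        add_mem' := fun ha hb σ hσ => by rw [map_add, ha σ hσ, hb σ hσ]
        zero_mem' := fun σ _ => map_zero _
        smul_mem' := fun c x hx σ hσ => by rw [map_smul, hx σ hσ] }
    have hWD : ∀ σ ∈ dec p, ∀ x ∈ W, ρbar.ρ σ x ∈ W := by
      intro σ hσ x hx τ hτ
      have h := hx _ (conj_mem_Kn hN hτ (inv_mem hσ))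
      rw [inv_inv, map_mul, map_mul, Module.End.mul_apply, Module.End.mul_apply] at h
      have h' := congrArg (ρbar.ρ σ) h
      rwa [← Module.End.mul_apply (ρbar.ρ σ) (ρbar.ρ σ⁻¹), TW.rhoMulInv, Module.End.one_apply] at h'
    have hG : IsPGroup p ((Kn p N).map ρbar.ρ.toHomUnits) := by
      rintro ⟨_, σ, hσ, rfl⟩
      obtain ⟨m, hm⟩ := hw σ hσ
      exact ⟨m, Subtype.ext (Units.ext (by simpa using hm))⟩
    have hcard : p ∣ Nat.card ρbar.V := by
      have := Fintype.ofFinite k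
      obtain ⟨n, -, hn⟩ := FiniteField.card k p
      rw [Module.natCard_eq_pow_finrank (K := k), ρbar.finrank_eq, Nat.card_eq_fintype_card, hn,
        ← pow_mul]
      exact dvd_pow_self _ (Nat.mul_ne_zero n.ne_zero two_ne_zero)
    obtain ⟨x, hx, hx0⟩ := hG.exists_fixed_point_of_prime_dvd_card_of_fixed_point ρbar.V hcard
      (a := 0) fun g => smul_zero g
    have hxW : x ∈ W := fun σ hσ => hx ⟨_, Subgroup.mem_map_of_mem _ hσ⟩
    have hWtop : W = ⊤ := by
      by_contra hne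
      have h1 : Submodule.span k {x} = W := by
        refine Submodule.eq_of_le_of_finrank_le (by simpa using hxW) ?_
        have h2 := Submodule.finrank_lt hne
        rw [ρbar.finrank_eq] at h2
        rw [finrank_span_singleton (Ne.symm hx0)]
        omega
      exact hnl x (Ne.symm hx0) fun σ hσ => h1 ▸ hWD σ hσ x hxW
    intro σ hσ
    refine LinearMap.ext fun x => ?_
    exact (show x ∈ W by rw [hWtop]; trivial) σ hσ
  obtain ⟨τ, hτ, hprim⟩ := exists_tchar_prim (p := p) hN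
  have hgen : ∀ σ ∈ inert p, ∃ i : ℕ, ρbar.ρ σ = ρbar.ρ τ ^ i := by
    intro σ hσ
    obtain ⟨i, hi, -⟩ := exists_pow_inv_mul_mem_Kn hN hτ hprim hσ
    exact ⟨i, by rw [← mul_inv_cancel_left (τ ^ i) σ, map_mul, hKn _ hi, mul_one, map_pow]⟩
  have hpowv : ∀ (f : Module.End k ρbar.V) (v : ρbar.V) (a : k) (j : ℕ), f v = a • v →
      (f ^ j) v = a ^ j • v := by
    intro f v a j h
    induction j with
    | zero => simp
    | succ j ih => rw [pow_succ, Module.End.mul_apply, h, map_smul, ih, smul_smul, pow_succ, mul_comm]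
  obtain ⟨a, v₁, hv₁, hav⟩ := hev τ
  choose! η hη using fun σ (hσ : σ ∈ inert p) => show ∃ z : k, ρbar.ρ σ v₁ = z • v₁ from by
    obtain ⟨i, hi⟩ := hgen σ hσ
    exact ⟨a ^ i, by rw [hi, hpowv _ _ _ i hav]⟩
  obtain ⟨φ, hφ, hφfix⟩ := exists_frobenius_fix (p := p) (natCast_pow_sub_one_not_dvd (p := p) two_pos)
  set v₂ := ρbar.ρ φ v₁ with hv₂def
  -- conjugation by Frobenius is the `p`-th power on inertia
  have hconj : ∀ σ ∈ inert p, ρbar.ρ φ * ρbar.ρ σ = ρbar.ρ σ ^ p * ρbar.ρ φ := by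
    intro σ hσ
    have hK := conj_frob_mul_inv_pow_mem_Kn hφ hφ.1 hN hσ
    rw [← map_mul, show φ * σ = σ ^ p * ((σ ^ p)⁻¹ * (φ * σ * φ⁻¹)) * φ by group,
      map_mul, map_mul, hKn _ hK, mul_one, map_pow]
  have hordN : ∀ σ ∈ inert p, ρbar.ρ σ ^ N = 1 := by
    intro σ hσ
    rw [← map_pow]
    exact hKn _ ((mem_Kn_iff_tchar hN0).mpr ⟨pow_mem hσ N, by
      rw [tchar_pow_apply hN hσ, tchar_pow hN0]⟩)
  obtain ⟨k', hk'⟩ : ∃ k' : ℕ, p * k' % N = 1 % N := by
    have : NeZero N := ⟨hN0.ne'⟩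
    have hu : IsUnit (p : ZMod N) := (ZMod.isUnit_iff_coprime _ _).mpr
      ((Fact.out : p.Prime).coprime_iff_not_dvd.mpr hN)
    refine ⟨((p : ZMod N)⁻¹).val, ?_⟩
    rw [← ZMod.val_natCast, ← ZMod.val_natCast, Nat.cast_mul, ZMod.natCast_zmod_val,
      ZMod.mul_inv_of_unit _ hu, Nat.cast_one]
  have hshift : ∀ (v : ρbar.V) (z : Gal → k), (∀ σ ∈ inert p, ρbar.ρ σ v = z σ • v) →
      ∀ σ ∈ inert p, ρbar.ρ σ (ρbar.ρ φ v) = z σ ^ k' • ρbar.ρ φ v := by
    intro v z hz σ hσ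
    have h := LinearMap.congr_fun (hconj σ hσ) v
    rw [Module.End.mul_apply, hz σ hσ, map_smul, Module.End.mul_apply] at h
    have h1 : ρbar.ρ σ = (ρbar.ρ σ ^ p) ^ k' := by
      rw [← pow_mul, ← Nat.mod_add_div (p * k') N, hk', pow_add, pow_mul, hordN σ hσ, one_pow,
        mul_one]
      rcases Nat.lt_or_ge 1 N with h | h
      · rw [Nat.mod_eq_of_lt h, pow_one]
      · obtain rfl : N = 1 := le_antisymm h hN0
        rw [Nat.mod_self, pow_zero]
        simpa using hordN σ hσ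
    conv_lhs => rw [h1]
    exact hpowv _ _ _ k' h.symm
  have hv₂ : v₂ ≠ 0 := fun h => hv₁ (TW.ρ_injective ρbar φ (h.trans (map_zero _).symm))
  have hη₂ : ∀ σ ∈ inert p, ρbar.ρ σ v₂ = η σ ^ k' • v₂ := hshift v₁ η hη
  -- inertia and `φ` generate decomposition on `V`
  have hdec : ∀ v : ρbar.V, (∀ σ ∈ inert p, ρbar.ρ σ v ∈ Submodule.span k {v}) →
      ρbar.ρ φ v ∈ Submodule.span k {v} → ∀ σ ∈ dec p, ρbar.ρ σ v ∈ Submodule.span k {v} := by
    intro v hI hF σ hσ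
    obtain ⟨F, hFfd, hρ⟩ := ρbar.factorsThroughFiniteLevel
    have := hFfd
    obtain ⟨j, i, hi, hfix⟩ :=
      Galois.exists_pow_inertia_fixing (plc_liesOverPrime p) Fact.out F hφ hσ
    have h1 := hρ _ fun x hx => (IntermediateField.mem_fixingSubgroup_iff _ _).mp hfix x hx
    have h2 : ρbar.ρ σ = ρbar.ρ φ ^ j * ρbar.ρ i := by
      rw [← mul_inv_cancel_left (φ ^ j * i) σ, map_mul, h1, mul_one, map_mul, map_pow]
    obtain ⟨c, hc⟩ := Submodule.mem_span_singleton.mp (hI i hi)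
    obtain ⟨d, hd⟩ := Submodule.mem_span_singleton.mp hF
    rw [h2, Module.End.mul_apply, ← hc, map_smul, hpowv _ _ _ j hd.symm, smul_smul]
    exact Submodule.smul_mem _ _ (Submodule.mem_span_singleton_self _)
  have hne : v₂ ∉ Submodule.span k {v₁} := fun h => hnl v₁ hv₁ (hdec v₁
    (fun σ hσ => by rw [hη σ hσ]; exact Submodule.smul_mem _ _ (Submodule.mem_span_singleton_self _))
    h)
  obtain ⟨b, hb0, hb1⟩ := exists_basis_pair hv₁ hne
  have hdiff : ∃ σ ∈ inert p, η σ ^ k' ≠ η σ := by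
    by_contra! h
    obtain ⟨c, v, hv, hcv⟩ := hev φ
    refine hnl v hv (hdec v (fun σ hσ => ?_) ?_)
    · refine Submodule.mem_span_singleton.mpr ⟨η σ, ?_⟩
      conv_rhs => rw [← b.sum_repr v, Fin.sum_univ_two, hb0, hb1]
      conv_lhs => rw [← b.sum_repr v, Fin.sum_univ_two, hb0, hb1]
      rw [map_add, map_smul, map_smul, hη σ hσ, hη₂ σ hσ, h σ hσ]
      module
    · rw [hcv]; exact Submodule.smul_mem _ _ (Submodule.mem_span_singleton_self _)
  have hηN : ∀ σ ∈ inert p, η σ ^ N = 1 := fun σ hσ => smul_left_injective k hv₁ (by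
    show η σ ^ N • v₁ = (1 : k) • v₁
    rw [← hpowv _ _ _ N (hη σ hσ), hordN σ hσ, Module.End.one_apply, one_smul])
  have hpk : ∀ σ ∈ inert p, ∀ z : k, z ^ N = 1 → (z ^ k') ^ p = z := by
    intro σ _ z hz
    rw [← pow_mul, mul_comm, ← Nat.mod_add_div (p * k') N, hk', pow_add, pow_mul, hz, one_pow,
      mul_one]
    rcases Nat.lt_or_ge 1 N with h | h
    · rw [Nat.mod_eq_of_lt h, pow_one]
    · obtain rfl : N = 1 := le_antisymm h hN0
      rw [Nat.mod_self, pow_zero]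
      simpa using hz.symm
  obtain ⟨c, hc⟩ : ∃ c : k, ρbar.ρ φ v₂ = c • v₁ := by
    set y := ρbar.ρ φ v₂
    have hy : ∀ σ ∈ inert p, ρbar.ρ σ y = (η σ ^ k') ^ k' • y := hshift v₂ _ hη₂
    refine ⟨b.repr y 0, ?_⟩
    obtain ⟨σ, hσ, hne'⟩ := hdiff
    have h := congrArg (fun u => b.repr u 1) (hy σ hσ)
    conv_lhs at h => rw [← b.sum_repr y, Fin.sum_univ_two, hb0, hb1, map_add (ρbar.ρ σ),
      map_smul (ρbar.ρ σ), map_smul (ρbar.ρ σ), hη σ hσ, hη₂ σ hσ, ← hb0, ← hb1]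
    simp at h
    have hz : b.repr y 1 = 0 := by
      by_contra hz
      have h' : η σ ^ k' = (η σ ^ k') ^ k' := mul_left_cancel₀ hz (by linear_combination h)
      refine hne' ?_
      have h'' := congrArg (· ^ p) h'
      rw [hpk σ hσ _ (hηN σ hσ), hpk σ hσ _ (by rw [← pow_mul, mul_comm, pow_mul, hηN σ hσ,
        one_pow])] at h''
      exact h''.symm
    conv_lhs => rw [← b.sum_repr y, Fin.sum_univ_two, hb0, hb1, hz, zero_smul, add_zero]
  have hc0 : c ≠ 0 := fun h => hv₂ (TW.ρ_injective ρbar φ (by rw [hc, h, zero_smul, map_zero]))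
  have hη' : ∀ σ ∈ inert p, η σ ^ k' = η σ ^ p := by
    intro σ hσ
    have h : (η σ ^ k') ^ k' = η σ := by
      have h1 := hshift v₂ _ hη₂ σ hσ
      rw [hc, map_smul, hη σ hσ, smul_smul, smul_smul, mul_comm c] at h1
      exact (mul_right_cancel₀ hc0 (smul_left_injective k hv₁ h1)).symm
    have h' := congrArg (· ^ p) h
    rwa [hpk σ hσ _ (by rw [← pow_mul, mul_comm, pow_mul, hηN σ hσ, one_pow])] at h'
  have hsq : ∀ σ ∈ inert p, η σ ^ p ^ 2 = η σ := by
    intro σ hσ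
    have h := hpk σ hσ _ (hηN σ hσ)
    rwa [hη' σ hσ, ← pow_mul, ← sq] at h
  have hη0 : ∀ σ ∈ inert p, η σ ≠ 0 := fun σ hσ h => hv₁ (TW.ρ_injective ρbar σ (by
    rw [hη σ hσ, h, zero_smul, map_zero]))
  refine ⟨⟨b, η, φ, c, hsq, ?_, ?_, ?_, ?_, ?_, hφ, hφfix, hc0, ?_, ?_⟩⟩
  · intro σ hσ; rw [hb0, hη σ hσ]
  · intro σ hσ; rw [hb1, hη₂ σ hσ, hη' σ hσ]
  · intro σ hσ
    have hσI := (mem_Kn.mp hσ).1
    have h1 : η σ = 1 := char_eq_one_of_mem_Kn hN hdvd η
      (fun x hx y hy => smul_left_injective k hv₁ (by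
        show η (x * y) • v₁ = (η x * η y) • v₁
        rw [← hη _ (mul_mem hx hy), map_mul, Module.End.mul_apply, hη y hy, map_smul, hη x hx,
          smul_smul, mul_comm]))
      (fun x hx => eigen_eq_one_of_mem_Kn hw hv₁ hx (hη x (mem_Kn.mp hx).1))
      (fun x hx => by
        refine mul_right_cancel₀ (hη0 x hx) ?_
        rw [← pow_succ, Nat.sub_add_cancel (Nat.one_le_pow _ _ (Fact.out : p.Prime).pos),
          hsq x hx, one_mul]) σ hσ
    refine b.ext fun i => ?_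
    fin_cases i
    · show ρbar.ρ σ (b 0) = (1 : Module.End k ρbar.V) (b 0)
      rw [hb0, hη σ hσI, h1, one_smul, Module.End.one_apply]
    · show ρbar.ρ σ (b 1) = (1 : Module.End k ρbar.V) (b 1)
      rw [hb1, hη₂ σ hσI, h1, one_pow, one_smul, Module.End.one_apply]
  · intro σ hσ
    have h0 : ρbar.ρ σ (b 0) = η σ • b 0 := by rw [hb0, hη σ hσ]
    have h1 : ρbar.ρ σ (b 1) = η σ ^ p • b 1 := by rw [hb1, hη₂ σ hσ, hη' σ hσ]
    have h := det_eq_mul b σ (by simp [h0])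
    rw [det_eq_cycIn hdet, h0, h1] at h
    simp at h
    rw [h, pow_succ, mul_comm]
  · obtain ⟨σ, hσ, h⟩ := hdiff
    exact ⟨σ, hσ, hη' σ hσ ▸ h⟩
  · rw [hb0, hb1]
  · rw [hb0, hb1, hc]

/-- The two shapes of a flat residual representation. -/
theorem residual_cases (hp2 : p ≠ 2)
    (hdet : (GaloisRepAdic.ofResidualGaloisRep ρbar).DetIsCyclotomic p)
    (hsplit : ∀ σ, ∃ a b : k, LinearMap.charpoly (ρbar.ρ σ) = (X - C a) * (X - C b))
    (R : Model p ρbar.V fun σ x => ρbar.ρ σ x) :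
    Nonempty (OrdData p ρbar) ∨ Nonempty (SSData p ρbar) := by
  by_cases htop : movedSpace p ρbar = ⊤
  · exact Or.inr (nonempty_ssData hp2 hdet hsplit R htop)
  obtain ⟨v, hv, hv0⟩ := Submodule.exists_mem_ne_zero_of_ne_bot (exists_inert_ρ_ne_one hp2 hdet)
  have h1 : Submodule.span k {v} = movedSpace p ρbar := by
    refine Submodule.eq_of_le_of_finrank_le (by simpa using hv) ?_
    have h2 := Submodule.finrank_lt htop
    rw [ρbar.finrank_eq] at h2
    rw [finrank_span_singleton hv0]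
    omega
  exact Or.inl (nonempty_ordData hdet hv0 (fun σ hσ => h1 ▸ map_mem_movedSpace hσ hv)
    fun σ hσ x => h1 ▸ sub_mem_movedSpace hσ x)

end Fermat.Agent.FlatTangent
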