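import Fermat.Agent.FlatTangent.Ops
import Fermat.Agent.TW.Ad

/-!
# Residual data at `p` for flat deformations
-/

set_option autoImplicit false
set_option linter.unusedSectionVars false
set_option linter.style.haveILetI false

noncomputable section

namespace Fermat.Agent.FlatTangent

variable {k : Type} [Field k] (p : ℕ) [Fact p.Prime] [CharP k p] (ρbar : ResidualGaloisRep k)

/-- The cyclotomic character mod `p` with values in `k`. -/
def cycIn (k : Type) [Field k] [CharP k p] (σ : Gal) : k := ZMod.castHom (dvd_refl p) k (cyc p σ)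

/-- The action of a deformation `σ ↦ (1 + ε c σ) ρ σ` in the coordinates `x + ε y`. -/
def pairAct (c : Gal → Module.End k ρbar.V) : Gal → ρbar.V × ρbar.V → ρbar.V × ρbar.V :=
  fun σ w => (ρbar.ρ σ w.1, ρbar.ρ σ w.2 + c σ (ρbar.ρ σ w.1))

/-- The endomorphisms of a cocycle changed by the coboundary of `T`. -/
def shiftEnd (c : groupCohomology.cocycles₁ (TW.ad0 ρbar)) (T : TW.ad0 ρbar) (σ : Gal) :
    Module.End k ρbar.V :=
  ((c σ + ((TW.ad0 ρbar).ρ σ T - T) : TW.ad0 ρbar) : TW.adZeroSpace ρbar).1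

/-- The ordinary shape: a line fixed by decomposition, `cyc` on it and `1` on the quotient. -/
structure OrdData where
  /-- An adapted basis. -/
  b : Module.Basis (Fin 2) k ρbar.V
  stable : ∀ σ ∈ dec p, ρbar.ρ σ (b 0) ∈ Submodule.span k {b 0}
  inert_sub : ∀ σ ∈ inert p, ρbar.ρ σ (b 0) = cycIn p k σ • b 0
  inert_quot : ∀ σ ∈ inert p, ∀ v, ρbar.ρ σ v - v ∈ Submodule.span k {b 0}

/-- The supersingular shape: inertia acts through the two fundamental characters of level two. -/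
structure SSData where
  /-- An eigenbasis of inertia. -/
  b : Module.Basis (Fin 2) k ρbar.V
  /-- The character. -/
  η : Gal → k
  /-- The Frobenius element swapping the two lines. -/
  φ : Gal
  /-- The scalar of `φ ^ 2`. -/
  N : k
  η_pow : ∀ σ ∈ inert p, η σ ^ p ^ 2 = η σ
  act₀ : ∀ σ ∈ inert p, ρbar.ρ σ (b 0) = η σ • b 0
  act₁ : ∀ σ ∈ inert p, ρbar.ρ σ (b 1) = η σ ^ p • b 1
  kn : ∀ σ ∈ Kn p (p ^ 2 - 1), ρbar.ρ σ = 1
  cyc_eq : ∀ σ ∈ inert p, η σ ^ (p + 1) = cycIn p k σ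
  ne : ∃ σ ∈ inert p, η σ ^ p ≠ η σ
  frob : (plc p).IsFrobeniusAt φ p
  frob_fix : φ (piRoot p (p ^ 2 - 1)) = piRoot p (p ^ 2 - 1)
  N_ne : N ≠ 0
  φ₀ : ρbar.ρ φ (b 0) = b 1
  φ₁ : ρbar.ρ φ (b 1) = N • b 0

end Fermat.Agent.FlatTangent
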