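import Mathlib

/-!
# Linear relations between equivariant functions have fixed coefficients
-/

set_option autoImplicit false

noncomputable section

namespace Fermat.Agent.FlatTangent

variable {L : Type*} [Field L] {G : Type*} (toAut : G → L →+* L)

/-- A nonzero relation of minimal support between equivariant functions, normalised at one index,
has coefficients fixed by the group. -/
theorem exists_fixed_relation {ι X : Type*} [Fintype ι] (act : G → X → X)
    (hsurj : ∀ g, Function.Surjective (act g)) (v : ι → X → L)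
    (hv : ∀ g i x, v i (act g x) = toAut g (v i x))
    {c : ι → L} (hc0 : c ≠ 0) (hc : ∀ x, ∑ i, c i * v i x = 0) :
    ∃ d : ι → L, d ≠ 0 ∧ (∀ g i, toAut g (d i) = d i) ∧ ∀ x, ∑ i, d i * v i x = 0 := by
  classical
  let supp : (ι → L) → Finset ι := fun e => Finset.univ.filter fun i => e i ≠ 0
  let good : ℕ → Prop := fun n =>
    ∃ e : ι → L, e ≠ 0 ∧ (∀ x, ∑ i, e i * v i x = 0) ∧ (supp e).card = n
  have hex : ∃ n, good n := ⟨_, c, hc0, hc, rfl⟩
  obtain ⟨e, he0, he, hn⟩ := Nat.find_spec hex
  obtain ⟨a, ha⟩ := Function.ne_iff.mp he0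
  rw [Pi.zero_apply] at ha
  refine ⟨fun i => (e a)⁻¹ * e i, Function.ne_iff.mpr ⟨a, by simp [ha]⟩, fun g => ?_, fun x => ?_⟩
  · set d : ι → L := fun i => (e a)⁻¹ * e i with hd
    have hdx : ∀ x, ∑ i, d i * v i x = 0 := fun x => by
      simp only [hd, mul_assoc, ← Finset.mul_sum, he x, mul_zero]
    set w : ι → L := fun i => toAut g (d i) - d i with hw
    have hwx : ∀ x, ∑ i, w i * v i x = 0 := by
      intro x
      obtain ⟨y, rfl⟩ := hsurj g x
      have h1 := congrArg (toAut g) (hdx y)
      simp only [map_sum, map_mul, map_zero, ← hv] at h1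
      simp only [hw, sub_mul, Finset.sum_sub_distrib, h1, hdx, sub_zero]
    by_contra hne
    push Not at hne
    obtain ⟨b, hb⟩ := hne
    have hw0 : w ≠ 0 := Function.ne_iff.mpr ⟨b, by simpa [hw, sub_eq_zero] using hb⟩
    have hlt : (supp w).card < (supp e).card := by
      refine Finset.card_lt_card (Finset.ssubset_iff_of_subset ?_ |>.mpr ⟨a, ?_, ?_⟩)
      · intro i hi
        simp only [supp, Finset.mem_filter, Finset.mem_univ, true_and] at hi ⊢
        intro h0
        apply hi
        simp [hw, hd, h0]
      · simpa [supp] using ha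
      · simp [supp, hw, hd, ha]
    exact Nat.find_min hex (hn ▸ hlt) ⟨w, hw0, hwx, rfl⟩
  · simp only [mul_assoc, ← Finset.mul_sum, he x, mul_zero]

/-- More equivariant functions than points are dependent with fixed coefficients. -/
theorem exists_fixed_relation_of_card_lt {ι X : Type*} [Fintype ι] [Fintype X] (act : G → X → X)
    (hsurj : ∀ g, Function.Surjective (act g)) (v : ι → X → L)
    (hv : ∀ g i x, v i (act g x) = toAut g (v i x))
    (hcard : Fintype.card X < Fintype.card ι) :
    ∃ d : ι → L, d ≠ 0 ∧ (∀ g i, toAut g (d i) = d i) ∧ ∀ x, ∑ i, d i * v i x = 0 := by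
  classical
  have hnli : ¬ LinearIndependent L v := by
    intro h
    have := h.fintype_card_le_finrank
    rw [Module.finrank_fintype_fun_eq_card] at this
    omega
  obtain ⟨c, hc, i, hi⟩ := Fintype.not_linearIndependent_iff.mp hnli
  refine exists_fixed_relation toAut act hsurj v hv (c := c) (fun h => hi (by rw [h]; rfl))
    (fun x => ?_)
  simpa [Finset.sum_apply] using congrFun hc x

end Fermat.Agent.FlatTangent
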