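import Fermat.Agent.FlatTangent.Criterion
import Fermat.Agent.FlatTangent.Descent
import Fermat.Agent.FlatTangent.Data

/-!
# At most one dimension of classes of a given character and level

The leading coefficients of the Kummer elements give semilinear functions on `k`, of which there
are at most `#k`.
-/

set_option autoImplicit false
set_option linter.unusedSectionVars false
set_option linter.style.haveILetI false

noncomputable section

namespace Fermat.Agent.FlatTangent

/-- Semilinear functions: at most `#k` many. -/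
theorem card_semilinear_le {k κ F : Type*} [Field k] [Fintype k] [Field κ] [Field F] [Fintype F]
    [Algebra F k] {p : ℕ} [Fact p.Prime] [CharP κ p] {f : ℕ} (hF : Fintype.card F = p ^ f)
    (emb : F →+* κ) {w : k} (hw : w ≠ 0) :
    let S := {g : k → κ | (∀ a b, g (a + b) = g a + g b) ∧ (∀ y s, g (y • s) = emb y * g s) ∧
      ∀ s, g (w * s) = g s ^ p ^ f}
    S.Finite ∧ S.ncard ≤ Fintype.card k := by
  classical
  intro S
  letI := emb.toAlgebra
  let V : Submodule F (k → κ) :=
    { carrier := S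
      zero_mem' := ⟨fun _ _ => (add_zero 0).symm, fun _ _ => (mul_zero _).symm,
        fun _ => (zero_pow (pow_pos (Fact.out : p.Prime).pos f).ne').symm⟩
      add_mem' := fun {g g'} hg hg' =>
        ⟨fun a b => by simp only [Pi.add_apply, hg.1, hg'.1]; ring,
          fun y s => by simp only [Pi.add_apply, hg.2.1, hg'.2.1]; ring,
          fun s => by simp only [Pi.add_apply, hg.2.2, hg'.2.2, add_pow_char_pow]⟩
      smul_mem' := fun y g hg => by
        have hy : emb y ^ p ^ f = emb y := by rw [← map_pow, ← hF, FiniteField.pow_card]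
        refine ⟨fun a b => ?_, fun z s => ?_, fun s => ?_⟩
        · simp only [Pi.smul_apply, hg.1, smul_add]
        · show emb y * g (z • s) = emb z * (emb y * g s)
          rw [hg.2.1]; ring
        · simp only [Pi.smul_apply, hg.2.2, Algebra.smul_def, RingHom.algebraMap_toAlgebra, mul_pow,
            hy] }
  haveI : Module.Finite F k := Module.Finite.of_finite
  set e := Module.finrank F k with he
  let a := Module.finBasis F k
  have hfix : ∀ x : κ, x ^ p ^ f = x → ∃ y, emb y = x := by
    intro x hx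
    by_contra! hne
    let P : Polynomial κ := Polynomial.X ^ p ^ f - Polynomial.X
    have h1f : 1 < p ^ f := by rw [← hF]; exact Fintype.one_lt_card
    have hdeg : P.natDegree = p ^ f := FiniteField.X_pow_card_sub_X_natDegree_eq κ h1f
    have hne' : P ≠ 0 := FiniteField.X_pow_card_sub_X_ne_zero κ h1f
    have hsub : insert x (Finset.univ.image emb) ⊆ P.roots.toFinset := by
      intro y hy
      rw [Multiset.mem_toFinset, Polynomial.mem_roots hne']
      rcases Finset.mem_insert.mp hy with rfl | hy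
      · simp [P, Polynomial.IsRoot, hx]
      · obtain ⟨z, -, rfl⟩ := Finset.mem_image.mp hy
        simp [P, Polynomial.IsRoot, ← map_pow, ← hF, FiniteField.pow_card]
    have h2 := Finset.card_le_card hsub
    rw [Finset.card_insert_of_notMem (by simpa using fun z => hne z),
      Finset.card_image_of_injective _ emb.injective, Finset.card_univ, hF] at h2
    have h3 := le_trans (Multiset.toFinset_card_le _) (Polynomial.card_roots' P)
    omega
  have hdep : ∀ v : Fin (e + 1) → V, ¬ LinearIndependent F v := by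
    intro v hli
    obtain ⟨c, hc0, hc⟩ : ∃ c : Fin (e + 1) → κ, c ≠ 0 ∧
        ∀ i, ∑ r, c r * (v r : k → κ) (a i) = 0 := by
      let Λ : (Fin (e + 1) → κ) →ₗ[κ] (Fin e → κ) :=
        LinearMap.pi fun i => Fintype.linearCombination κ fun r => (v r : k → κ) (a i)
      obtain ⟨c, hc, hc0⟩ := Submodule.exists_mem_ne_zero_of_ne_bot
        (LinearMap.ker_ne_bot_of_finrank_lt (f := Λ) (by simp))
      exact ⟨c, hc0, fun i => by
        simpa [Λ, Fintype.linearCombination_apply] using congrFun (LinearMap.mem_ker.mp hc) i⟩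
    have hc' : ∀ s, ∑ r, c r * (v r : k → κ) s = 0 := by
      intro s
      have hlin : ∀ r, (v r : k → κ) s = ∑ i, emb (a.repr s i) * (v r : k → κ) (a i) := fun r => by
        conv_lhs => rw [← a.sum_repr s]
        refine (map_sum (AddMonoidHom.mk' (v r : k → κ) (v r).2.1) _ _).trans ?_
        exact Finset.sum_congr rfl fun i _ => (v r).2.2.1 _ _
      simp only [hlin, Finset.mul_sum]
      rw [Finset.sum_comm]
      refine Finset.sum_eq_zero fun i _ => ?_
      rw [← mul_zero (emb (a.repr s i)), ← hc i, Finset.mul_sum]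
      exact Finset.sum_congr rfl fun r _ => by ring
    obtain ⟨d, hd0, hdfix, hd⟩ := exists_fixed_relation
      (fun _ : Unit => iterateFrobenius κ p f) (fun _ s => w * s)
      (fun _ s => ⟨w⁻¹ * s, mul_inv_cancel_left₀ hw s⟩) (fun r => (v r : k → κ))
      (fun _ r s => by rw [iterateFrobenius_def]; exact (v r).2.2.2 s) hc0 hc'
    choose y hy using fun r => hfix (d r) (by simpa [iterateFrobenius_def] using hdfix () r)
    obtain ⟨r, hr⟩ := Function.ne_iff.mp hd0
    refine hr ?_
    rw [← hy r, Fintype.linearIndependent_iff.mp hli y (Subtype.ext (funext fun s => ?_)) r, map_zero]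
    · rfl
    · simp only [Submodule.coe_sum, Submodule.coe_smul, Finset.sum_apply, Submodule.coe_zero,
        Pi.zero_apply]
      show ∑ r, emb (y r) * (v r : k → κ) s = 0
      simp only [hy, hd s]
  have hrank : Module.rank F V ≤ e := by
    refine rank_le fun t ht => ?_
    by_contra hlt
    rw [not_le] at hlt
    obtain ⟨t', ht', hcard⟩ := Finset.exists_subset_card_eq hlt
    refine hdep (fun i => ((Finset.equivFinOfCardEq hcard).symm i : V)) ?_
    exact (ht.comp (fun x : t' => (⟨x.1, ht' x.2⟩ : t))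
      (fun x x' h => Subtype.ext (congrArg (fun z : t => (z : V)) h))).comp _
      (Finset.equivFinOfCardEq hcard).symm.injective
  haveI : Module.Finite F V := Module.rank_lt_aleph0_iff.mp (lt_of_le_of_lt hrank (Cardinal.natCast_lt_aleph0))
  haveI : Finite V := Module.finite_of_finite F
  refine ⟨Set.toFinite (V : Set (k → κ)), ?_⟩
  show Nat.card V ≤ _
  rw [Module.natCard_eq_pow_finrank (K := F), Module.card_eq_pow_finrank (K := F) (V := k),
    Nat.card_eq_fintype_card]
  exact Nat.pow_le_pow_right Fintype.card_pos (Module.finrank_le_of_rank_le hrank)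

variable {p : ℕ} [Fact p.Prime] {n d : ℕ}

instance : CharP (Kap p) p := Galois.place_charP_residueField (plc_liesOverPrime p) Fact.out

variable {k : Type} [Field k] [Fintype k] [CharP k p] [Algebra (ZMod p) k]

/-- The functionals of a `k`-valued function. -/
def traceFn (s : k) (b : Gal → k) : Gal → ZMod p := fun σ => Algebra.trace (ZMod p) k (s * b σ)

theorem cycIn_eq (σ : Gal) : cycIn p k σ = algebraMap (ZMod p) k (cyc p σ) := by
  rw [cycIn, Subsingleton.elim (algebraMap (ZMod p) k) (ZMod.castHom (dvd_refl p) k)]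

theorem twistConj_traceFn {τ : Gal} {z : k} {b : Gal → k}
    (hz : ∀ σ ∈ Kn p n, cycIn p k τ * b (τ⁻¹ * σ * τ) = z * b σ) (s : k) :
    ∀ σ ∈ Kn p n, twistConj τ (traceFn (p := p) s b) σ = traceFn (z * s) b σ := by
  intro σ hσ
  rw [twistConj, traceFn, traceFn, ← smul_eq_mul, ← map_smul, Algebra.smul_def, ← cycIn_eq]
  congr 1
  linear_combination s * hz σ hσ

theorem traceFn_add (s t : k) (b : Gal → k) :
    traceFn (p := p) (s + t) b = traceFn s b + traceFn t b := by
  funext σ; simp [traceFn, add_mul]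

theorem traceFn_add_right (s : k) (b b' : Gal → k) :
    traceFn (p := p) s (b + b') = traceFn s b + traceFn s b' := by
  funext σ; simp [traceFn, mul_add]

/-- The functions `b` whose components are Kummer characters of level `j` with the prescribed
conjugation scalars. -/
structure LevFn (p : ℕ) [Fact p.Prime] (n j : ℕ) {k : Type} [Field k] [CharP k p]
    [Algebra (ZMod p) k] (τ Φ : Gal) (z w : k) (b : Gal → k) : Prop where
  lev : ∀ s, Lev p n j (traceFn s b)
  conj : ∀ σ ∈ Kn p n, cycIn p k τ * b (τ⁻¹ * σ * τ) = z * b σ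
  frob : ∀ σ ∈ Kn p n, cycIn p k Φ * b (Φ⁻¹ * σ * Φ) = w * b σ

/-- The leading coefficient as a function on `k`. -/
def ellFn (p : ℕ) [Fact p.Prime] (n j : ℕ) {k : Type} [Field k] [Algebra (ZMod p) k]
    (b : Gal → k) : k → Kap p := fun s => ell p n j (traceFn s b)

theorem ellFn_add (hT : TameLevel p n d) {j : ℕ} (hjp : ¬ p ∣ j) (hj : j < p * d) {b : Gal → k}
    (hlev : ∀ s, Lev p n j (traceFn s b)) (s t : k) :
    ellFn p n j b (s + t) = ellFn p n j b s + ellFn p n j b t := by
  rw [ellFn, ellFn, ellFn, traceFn_add, ell_add hT hjp hj (hlev s) (hlev t)]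

theorem ell_congr (hT : TameLevel p n d) {j : ℕ} (hjp : ¬ p ∣ j) (hj : j < p * d)
    {f g : Gal → ZMod p} (hf : Lev p n j f) (h : ∀ σ ∈ Kn p n, f σ = g σ) :
    ell p n j f = ell p n j g := by
  obtain ⟨α, h0, hα, hv⟩ := hf
  rw [ell_eq hT hjp hj h0 hα hv, ell_eq hT hjp hj h0 (fun σ hσ => h σ hσ ▸ hα σ hσ) hv]

theorem ellFn_conj (hT : TameLevel p n d) {j : ℕ} (hjp : ¬ p ∣ j) (hj : j < p * d) {b : Gal → k}
    {τ : Gal} (hτ : τ ∈ inert p) {z : k}
    (hz : ∀ σ ∈ Kn p n, cycIn p k τ * b (τ⁻¹ * σ * τ) = z * b σ)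
    (hlev : ∀ s, Lev p n j (traceFn s b)) (s : k) :
    ellFn p n j b (z * s) = res p (tchar p n τ) ^ j * ellFn p n j b s := by
  rw [ellFn, ellFn, ← ell_conj_inert hT hjp hj hτ (hlev s)]
  exact (ell_congr hT hjp hj ((hlev s).conj hT.not_dvd (inert_le_dec hτ))
    (twistConj_traceFn hz s)).symm

/-- Climbing levels when no leading coefficient can occur. -/
theorem lev_climb (hT : TameLevel p n d) {τ : Gal} (hτ : τ ∈ inert p) {z : k} {b : Gal → k}
    (hz : ∀ σ ∈ Kn p n, cycIn p k τ * b (τ⁻¹ * σ * τ) = z * b σ)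
    {i₀ : ℕ} (hi₀ : 0 < i₀) (hlev : ∀ s, Lev p n i₀ (traceFn s b)) :
    ∀ j, i₀ ≤ j → j ≤ p * d → (∀ i, i₀ ≤ i → i < j → ¬ p ∣ i → ∀ g : k → Kap p,
      (∀ a c, g (a + c) = g a + g c) →
      (∀ s, g (z * s) = res p (tchar p n τ) ^ i * g s) →
      (∀ s, g s = ellFn p n i b s) → g = 0) →
    ∀ s, Lev p n j (traceFn s b) := by
  intro j hij
  induction j, hij using Nat.le_induction with
  | base => exact fun _ _ => hlev
  | succ j hij ih =>
    intro hj hno s
    have hprev := ih (by omega) fun i h1 h2 => hno i h1 (by omega)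
    by_cases hjp : p ∣ j
    · exact (hprev s).succ_of_dvd hT hjp (by omega) (by omega)
    · refine (hprev s).succ_of_ell_eq_zero hT hjp (by omega) ?_
      exact congrFun (hno j hij (by omega) hjp _ (ellFn_add hT hjp (by omega) hprev)
        (ellFn_conj hT hjp (by omega) hτ hz hprev) fun _ => rfl) s

theorem eq_zero_of_lev_top (hT : TameLevel p n d) {b : Gal → k}
    (h : ∀ s, Lev p n (p * d) (traceFn s b)) : ∀ σ ∈ Kn p n, b σ = 0 := by
  intro σ hσ
  haveI : Module.Finite (ZMod p) k := Module.Finite.of_finite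
  refine (traceForm_nondegenerate (ZMod p) k).1 _ fun s => ?_
  rw [Algebra.traceForm_apply, mul_comm]
  exact (h s).eq_zero_of_top hT σ hσ

/-- No admissible level: the functions vanish on `Kn p n`. -/
theorem levFn_eq_zero (hT : TameLevel p n d) {τ Φ : Gal} (hτ : τ ∈ inert p) {z w : k} {j₁ : ℕ}
    (hj₁ : 0 < j₁) (hj₁J : j₁ ≤ p * d)
    (hno : ∀ i, j₁ ≤ i → i < p * d → ¬ p ∣ i → ∀ g : k → Kap p,
      (∀ a c, g (a + c) = g a + g c) → (∀ s, g (z * s) = res p (tchar p n τ) ^ i * g s) → g = 0)
    {b : Gal → k} (hb : LevFn p n j₁ τ Φ z w b) : ∀ σ ∈ Kn p n, b σ = 0 :=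
  eq_zero_of_lev_top hT (lev_climb hT hτ hb.conj hj₁ hb.lev _ hj₁J le_rfl
    fun i h1 h2 h3 g hg1 hg2 _ => hno i h1 h2 h3 g hg1 hg2)

/-- One admissible level: the restrictions to `Kn p n` form at most a line. -/
theorem finrank_levFn_le_one (hT : TameLevel p n d) {f : ℕ} {φ τ : Gal}
    (hφ : (plc p).IsFrobeniusAt φ p) (hφπ : φ (piRoot p n) = piRoot p n) (hτ : τ ∈ inert p)
    {z w : k} (hw : w ≠ 0) {j₁ j₀ : ℕ} (hj₁ : 0 < j₁) (hj₀ : j₁ ≤ j₀) (hj₀J : j₀ < p * d)
    (hj₀p : ¬ p ∣ j₀) {F : Type} [Field F] [Fintype F] [Algebra F k]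
    (hF : Fintype.card F = p ^ f) (emb : F →+* Kap p)
    (hno : ∀ i, j₁ ≤ i → i < p * d → ¬ p ∣ i → i ≠ j₀ → ∀ g : k → Kap p,
      (∀ a c, g (a + c) = g a + g c) → (∀ s, g (z * s) = res p (tchar p n τ) ^ i * g s) → g = 0)
    (hlin : ∀ g : k → Kap p, (∀ a c, g (a + c) = g a + g c) →
      (∀ s, g (z * s) = res p (tchar p n τ) ^ j₀ * g s) → ∀ y s, g (y • s) = emb y * g s)
    {W : Type} [AddCommGroup W] [Module k W] (B : W →ₗ[k] (Gal → k))
    (hB : ∀ c, LevFn p n j₁ τ (φ ^ f) z w (B c)) :
    Module.finrank k (LinearMap.range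
      ((LinearMap.funLeft k k (fun σ : Kn p n => (σ : Gal))).comp B)) ≤ 1 ∧
    FiniteDimensional k (LinearMap.range
      ((LinearMap.funLeft k k (fun σ : Kn p n => (σ : Gal))).comp B)) := by
  classical
  set R := (LinearMap.funLeft k k (fun σ : Kn p n => (σ : Gal))).comp B with hR
  have hlev0 : ∀ c s, Lev p n j₀ (traceFn s (B c)) := fun c =>
    lev_climb hT hτ (hB c).conj hj₁ (hB c).lev j₀ hj₀ hj₀J.le
      fun i h1 h2 h3 g hg1 hg2 _ => hno i h1 (by omega) h3 (by omega) g hg1 hg2
  let G : W → k → Kap p := fun c => ellFn p n j₀ (B c)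
  obtain ⟨hfin, hcard⟩ := card_semilinear_le (κ := Kap p) hF emb hw
  have hGS : ∀ c, (∀ a b, G c (a + b) = G c a + G c b) ∧ (∀ y s, G c (y • s) = emb y * G c s) ∧
      ∀ s, G c (w * s) = G c s ^ p ^ f := fun c =>
    ⟨ellFn_add hT hj₀p hj₀J (hlev0 c),
      hlin _ (ellFn_add hT hj₀p hj₀J (hlev0 c)) (ellFn_conj hT hj₀p hj₀J hτ (hB c).conj (hlev0 c)),
      fun s => by
        show ell p n j₀ _ = ell p n j₀ _ ^ _
        rw [← ell_conj_frob hT hj₀p hj₀J hφ hφπ f (hlev0 c s)]
        exact (ell_congr hT hj₀p hj₀J ((hlev0 c s).conj hT.not_dvd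
          (pow_mem (Galois.isFrobeniusAt_iff.mp hφ).1 f)) (twistConj_traceFn (hB c).frob s)).symm⟩
  have hinj : ∀ c c', G c = G c' → R c = R c' := by
    intro c c' h
    have hsub : ∀ s, Lev p n (j₀ + 1) (traceFn s (B (c - c'))) := fun s => by
      refine (hlev0 _ s).succ_of_ell_eq_zero hT hj₀p hj₀J ?_
      have h1 : traceFn (p := p) s (B c) = traceFn s (B (c - c')) + traceFn s (B c') := by
        rw [← traceFn_add_right, ← map_add, sub_add_cancel]
      have h2 := congrFun h s
      simp only [G, ellFn, h1, ell_add hT hj₀p hj₀J (hlev0 _ s) (hlev0 _ s)] at h2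
      exact add_eq_right.mp h2
    have h0 := eq_zero_of_lev_top hT (lev_climb hT hτ (hB _).conj (by omega) hsub _ hj₀J le_rfl
      fun i h1 h2 h3 g hg1 hg2 _ => hno i (by omega) h2 h3 (by omega) g hg1 hg2)
    rw [← sub_eq_zero, ← map_sub]
    funext σ
    exact h0 σ σ.2
  have hmaps : (Set.range R).Finite ∧ (Set.range R).ncard ≤ Fintype.card k := by
    let S' := Set.range G
    have hS' : S'.Finite := hfin.subset (by rintro _ ⟨c, rfl⟩; exact hGS c)
    have hsurj : Set.range R = (fun g => if h : g ∈ S' then R h.choose else 0) '' S' := by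
      ext x
      constructor
      · rintro ⟨c, rfl⟩
        refine ⟨G c, ⟨c, rfl⟩, ?_⟩
        have hmem : G c ∈ S' := ⟨c, rfl⟩
        simp only [dif_pos hmem]
        exact hinj _ _ hmem.choose_spec
      · rintro ⟨g, hg, rfl⟩
        simp only [dif_pos hg]
        exact ⟨_, rfl⟩
    rw [hsurj]
    exact ⟨hS'.image _, (Set.ncard_image_le hS').trans
      ((Set.ncard_le_ncard (by rintro _ ⟨c, rfl⟩; exact hGS c) hfin).trans hcard)⟩
  haveI : Finite (LinearMap.range R) := hmaps.1.to_subtype
  haveI : Module.Finite k (LinearMap.range R) := Module.Finite.of_finite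
  refine ⟨?_, inferInstance⟩
  have h1 : Nat.card (LinearMap.range R) ≤ Fintype.card k := hmaps.2
  rw [Module.natCard_eq_pow_finrank (K := k), Nat.card_eq_fintype_card] at h1
  exact Nat.pow_le_pow_iff_right Fintype.one_lt_card |>.mp (h1.trans_eq (pow_one _).symm)

end Fermat.Agent.FlatTangent
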