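import Fermat.Agent.FlatTangent.Cocycle

/-!
# The field of `p ^ 2` elements of a supersingular residual representation
-/

set_option autoImplicit false
set_option linter.unusedSectionVars false
set_option linter.style.haveILetI false

noncomputable section

namespace Fermat.Agent.FlatTangent

variable (p : ℕ) [Fact p.Prime] (k : Type) [Field k] [CharP k p]

/-- The elements of `k` fixed by the square of Frobenius. -/
def qField : Subfield k where
  carrier := {x | x ^ p ^ 2 = x}
  mul_mem' := fun {a b} ha hb => by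
    show (a * b) ^ p ^ 2 = a * b
    rw [mul_pow, ha, hb]
  one_mem' := one_pow _
  add_mem' := fun {a b} ha hb => by
    show (a + b) ^ p ^ 2 = a + b
    rw [add_pow_char_pow, ha, hb]
  zero_mem' := zero_pow (pow_pos (Fact.out : p.Prime).pos 2).ne'
  neg_mem' := fun {a} ha => by
    show (-a) ^ p ^ 2 = -a
    rw [show (-a) ^ p ^ 2 = (0 - a) ^ p ^ 2 by rw [zero_sub], sub_pow_char_pow,
      zero_pow (pow_pos (Fact.out : p.Prime).pos 2).ne', ha, zero_sub]
  inv_mem' := fun a ha => by
    show a⁻¹ ^ p ^ 2 = a⁻¹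
    rw [inv_pow, ha]

instance : CharP (qField p k) p := (qField p k).subtype.charP Subtype.val_injective p

instance : Algebra (ZMod p) (qField p k) := ZMod.algebra _ p

variable {p k}

theorem mem_qField {x : k} : x ∈ qField p k ↔ x ^ p ^ 2 = x := Iff.rfl

theorem exists_castHom_of_pow [Finite k] {x : k} (hx : x ^ p = x) :
    ∃ a : ZMod p, ZMod.castHom (dvd_refl p) k a = x :=
  exists_apply_eq_of_pow (ZMod.castHom (dvd_refl p) k) (by rwa [ZMod.card])

theorem pair_injective [Finite k] {z : k} (hz : z ^ p ≠ z) :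
    Function.Injective fun ab : ZMod p × ZMod p =>
      ZMod.castHom (dvd_refl p) k ab.1 + ZMod.castHom (dvd_refl p) k ab.2 * z := by
  rintro ⟨a, b⟩ ⟨a', b'⟩ h
  simp only at h
  have hfix : ∀ a : ZMod p, ZMod.castHom (dvd_refl p) k a ^ p = ZMod.castHom (dvd_refl p) k a :=
    fun a => by rw [← map_pow, ZMod.pow_card]
  by_cases hb : b = b'
  · subst hb
    exact Prod.ext (RingHom.injective _ (add_right_cancel h)) rfl
  · exfalso
    apply hz
    have hne : ZMod.castHom (dvd_refl p) k b - ZMod.castHom (dvd_refl p) k b' ≠ 0 :=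
      sub_ne_zero.mpr fun h' => hb (RingHom.injective _ h')
    have e : z = ZMod.castHom (dvd_refl p) k ((a' - a) / (b - b')) := by
      rw [map_div₀, map_sub, map_sub, eq_div_iff hne]
      linear_combination h
    rw [e, hfix]

instance [Finite k] : Fintype (qField p k) := Fintype.ofFinite _

theorem card_qField [Fintype k] {z : k} (hz2 : z ^ p ^ 2 = z) (hz : z ^ p ≠ z) :
    Fintype.card (qField p k) = p ^ 2 := by
  classical
  refine le_antisymm ?_ ?_
  · let P : Polynomial k := Polynomial.X ^ p ^ 2 - Polynomial.X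
    have h1 : 1 < p ^ 2 := Nat.one_lt_pow two_ne_zero (Fact.out : p.Prime).one_lt
    have hne : P ≠ 0 := FiniteField.X_pow_card_sub_X_ne_zero k h1
    have hsub : (Finset.univ.image fun x : qField p k => (x : k)) ⊆ P.roots.toFinset := by
      intro y hy
      obtain ⟨x, -, rfl⟩ := Finset.mem_image.mp hy
      rw [Multiset.mem_toFinset, Polynomial.mem_roots hne]
      simp [P, Polynomial.IsRoot, mem_qField.mp x.2]
    have h2 := Finset.card_le_card hsub
    rw [Finset.card_image_of_injective _ Subtype.val_injective, Finset.card_univ] at h2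
    have h3 := le_trans (Multiset.toFinset_card_le _) (Polynomial.card_roots' P)
    have h4 : P.natDegree = p ^ 2 := FiniteField.X_pow_card_sub_X_natDegree_eq k h1
    omega
  · have hmem : ∀ ab : ZMod p × ZMod p,
        ZMod.castHom (dvd_refl p) k ab.1 + ZMod.castHom (dvd_refl p) k ab.2 * z ∈ qField p k := by
      intro ab
      rw [mem_qField, add_pow_char_pow, mul_pow, hz2, ← map_pow, ← map_pow, ZMod.pow_card_pow,
        ZMod.pow_card_pow]
    have h := Fintype.card_le_of_injective (fun ab => (⟨_, hmem ab⟩ : qField p k))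
      fun a b h => pair_injective hz (congrArg Subtype.val h)
    rwa [Fintype.card_prod, ZMod.card, ← pow_two] at h

namespace SSData

variable {ρbar : ResidualGaloisRep k} (S : SSData p ρbar)

open Classical in
/-- The character with values in the field of `p ^ 2` elements. -/
def ηq (σ : Gal) : qField p k :=
  if h : σ ∈ inert p then ⟨S.η σ, mem_qField.mpr (S.η_pow σ h)⟩ else 1

theorem ηq_coe {σ : Gal} (hσ : σ ∈ inert p) : (S.ηq σ : k) = S.η σ := by
  rw [ηq, dif_pos hσ]

theorem n_not_dvd (p : ℕ) [Fact p.Prime] : ¬ p ∣ p ^ 2 - 1 :=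
  natCast_pow_sub_one_not_dvd two_pos

theorem tameLevel_two : TameLevel p (p ^ 2 - 1) (p + 1) :=
  ⟨n_not_dvd p, by rw [mul_comm, ← Nat.sq_sub_sq, one_pow]⟩

theorem η_mul {σ τ : Gal} (hσ : σ ∈ inert p) (hτ : τ ∈ inert p) :
    S.η (σ * τ) = S.η σ * S.η τ := by
  have h := S.act₀ _ (mul_mem hσ hτ)
  rw [map_mul, Module.End.mul_apply, S.act₀ τ hτ, map_smul, S.act₀ σ hσ, smul_smul] at h
  rw [← smul_left_injective k (S.b.ne_zero 0) h, mul_comm]

theorem η_ne {σ : Gal} (hσ : σ ∈ inert p) : S.η σ ≠ 0 := fun h => by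
  have h1 := S.η_mul hσ (inv_mem hσ)
  rw [mul_inv_cancel, h, zero_mul] at h1
  have h2 := S.act₀ 1 (one_mem _)
  rw [map_one, Module.End.one_apply, h1, zero_smul] at h2
  exact S.b.ne_zero 0 h2

theorem exists_cross [Finite k] : ∃ σ ∈ inert p, S.η σ ^ p ≠ S.η σ ∧
    S.η σ ^ p ^ 2 = S.η σ := by
  obtain ⟨σ, hσ, hne⟩ := S.ne
  exact ⟨σ, hσ, hne, S.η_pow σ hσ⟩

include S in
theorem card_field [Fintype k] : Fintype.card (qField p k) = p ^ 2 := by
  obtain ⟨σ, hσ, hne, h2⟩ := S.exists_cross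
  exact card_qField h2 hne

theorem isLineChar [Fintype k] : IsLineChar p S.ηq (p ^ 2 - 1) where
  card := by
    rw [S.card_field, Nat.sub_add_cancel (Nat.one_le_pow 2 p (Fact.out : p.Prime).pos)]
  not_dvd := n_not_dvd p
  map_mul σ hσ τ hτ := Subtype.ext (by
    rw [Subfield.coe_mul, S.ηq_coe hσ, S.ηq_coe hτ, S.ηq_coe (mul_mem hσ hτ), S.η_mul hσ hτ])
  ker σ hσ := by
    have hI := (mem_Kn.mp hσ).1
    refine Subtype.ext ?_
    rw [S.ηq_coe hI, OneMemClass.coe_one]
    have h := S.act₀ σ hI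
    rw [S.kn σ hσ, Module.End.one_apply] at h
    exact smul_left_injective k (S.b.ne_zero 0) (h.symm.trans (one_smul k _).symm)

theorem ηq_ne [Fintype k] :
    (∃ σ ∈ inert p, S.ηq σ ≠ 1) ∧
      ∃ σ ∈ inert p, S.ηq σ ≠ algebraMap (ZMod p) (qField p k) (cyc p σ) := by
  obtain ⟨σ, hσ, hne, -⟩ := S.exists_cross
  refine ⟨⟨σ, hσ, fun h => hne ?_⟩, σ, hσ, fun h => hne ?_⟩
  · rw [← S.ηq_coe hσ, h, OneMemClass.coe_one, one_pow]
  · rw [← S.ηq_coe hσ, h, ← SubmonoidClass.coe_pow, ← map_pow, ZMod.pow_card]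

/-- The residue of the fundamental character of level two through an embedding of fields. -/
theorem exists_emb [Fintype k] [Fintype ρbar.V] [DecidableEq ρbar.V]
    (R : Model p ρbar.V fun σ v => ρbar.ρ σ v) :
    ∃ emb : qField p k →+* Kap p,
      ∀ σ ∈ inert p, emb (S.ηq σ) = res p (tchar p (p ^ 2 - 1) σ) := by
  classical
  have hχ := S.isLineChar
  let f : qField p k →+ ρbar.V :=
    AddMonoidHom.mk' (fun y => (y : k) • S.b 0) fun a b => by rw [Subfield.coe_add, add_smul]
  have hf : Function.Injective f := fun a b h =>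
    Subtype.ext (smul_left_injective k (S.b.ne_zero 0) h)
  obtain ⟨R₁, -, -⟩ := R.exists_restrict (actN := mulAct S.ηq) f hf (fun σ hσ y => by
    show ((S.ηq σ * y : qField p k) : k) • S.b 0 = ρbar.ρ σ ((y : k) • S.b 0)
    rw [map_smul, S.act₀ σ hσ, smul_smul, Subfield.coe_mul, S.ηq_coe hσ, mul_comm])
    hχ.isAct.map_one
  obtain ⟨⟨σ₁, hσ₁, hne₁⟩, σ₂, hσ₂, hne₂⟩ := S.ηq_ne
  obtain ⟨⟨L⟩, hd⟩ := lineCoord_of_card_sq hχ S.card_field tameLevel_two.eq hσ₁ hne₁ hσ₂ hne₂ R₁
  obtain ⟨emb, hemb⟩ := L.exists_embedding hχ hd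
  refine ⟨emb, fun σ hσ => ?_⟩
  have hv := (veq_zero_of_pow_eq_one (p := p) (tameLevel_two (p := p)).n_pos.ne'
    (tchar_pow (p := p) (tameLevel_two (p := p)).n_pos σ)).vge
  rw [hemb σ hσ (mem_plc_iff.mpr hv), res_of_mem (mem_plc_iff.mpr hv)]

end SSData

end Fermat.Agent.FlatTangent
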