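import Fermat.Agent.FlatTangent.Criterion
import Fermat.Agent.FlatTangent.SSField
import Fermat.Agent.FlatTangent.KummerBound

/-!
# Kummer levels of the entries of a flat supersingular deformation

Every scalar entry of the cocycle in the eigenbasis of inertia cuts out a plane of tame lines, so
its characters on `Kn p (p ^ 2 - 1)` have level at least `p + 2`.
-/

set_option autoImplicit false
set_option linter.unusedSectionVars false
set_option linter.style.haveILetI false
set_option maxSynthPendingDepth 3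

noncomputable section

namespace Fermat.Agent.FlatTangent

open groupCohomology
open TW (cocycleEnd)

-- the module structure on a subfield is the one of its algebra structure
attribute [-instance] AddSubgroupClass.instZModModule

variable {p : ℕ} [Fact p.Prime] {k : Type} [Field k] [CharP k p] [Algebra (ZMod p) k] [Fintype k]

/-- The functional `y ↦ tr (s * y * x)` on the field of `p ^ 2` elements. -/
def qFunctional (s x : k) : Module.Dual (ZMod p) (qField p k) :=
  AddMonoidHom.toZModLinearMap p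
    (AddMonoidHom.mk' (fun y : qField p k => Algebra.trace (ZMod p) k (s * y * x)) fun a b => by
      rw [Subfield.coe_add, mul_add, add_mul, map_add])

theorem qFunctional_apply (s x : k) (y : qField p k) :
    qFunctional s x y = Algebra.trace (ZMod p) k (s * y * x) := rfl

/-- `x ↦` the element of `𝔽_{p²}` representing `y ↦ tr (s * y * x)`. -/
def qProj (s : k) : k →+ qField p k :=
  haveI := Classical.decEq (qField p k)
  AddMonoidHom.mk'
    (fun x => (PlaneData.traceDual p (qField p k)).symm (qFunctional s x))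
    fun x y => by
      rw [← map_add]
      refine congrArg _ (LinearMap.ext fun z => ?_)
      rw [LinearMap.add_apply, qFunctional_apply, qFunctional_apply, qFunctional_apply, mul_add,
        map_add]

theorem trace_mul_qProj (s x : k) (y : qField p k) :
    Algebra.trace (ZMod p) (qField p k) (qProj s x * y) = Algebra.trace (ZMod p) k (s * y * x) := by
  classical
  rw [← PlaneData.traceDual_apply, qProj, AddMonoidHom.mk'_apply, LinearEquiv.apply_symm_apply]
  rfl

theorem qProj_mul (s x : k) (a : qField p k) : qProj s ((a : k) * x) = a * qProj s x := by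
  classical
  refine (PlaneData.traceDual p (qField p k)).injective (LinearMap.ext fun y => ?_)
  rw [PlaneData.traceDual_apply, PlaneData.traceDual_apply, trace_mul_qProj,
    show a * qProj s x * y = qProj s x * (a * y) by ring, trace_mul_qProj, Subfield.coe_mul]
  congr 1
  ring

theorem qProj_surjective {s : k} (hs : s ≠ 0) : Function.Surjective (qProj (p := p) s) := by
  have : Module.Finite (ZMod p) k := Module.Finite.of_finite
  obtain ⟨z, hz⟩ : ∃ z, Algebra.trace (ZMod p) k z ≠ 0 :=
    DFunLike.ne_iff.mp (Algebra.trace_ne_zero (ZMod p) k)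
  have hne : qProj (p := p) s (s⁻¹ * z) ≠ 0 := fun h => hz (by
    have h1 := trace_mul_qProj (p := p) s (s⁻¹ * z) 1
    rw [h, zero_mul, map_zero, Subfield.coe_one, mul_one, ← mul_assoc, mul_inv_cancel₀ hs,
      one_mul] at h1
    exact h1.symm)
  intro a
  exact ⟨((a / qProj (p := p) s (s⁻¹ * z) : qField p k) : k) * (s⁻¹ * z), by
    rw [qProj_mul, div_mul_cancel₀ a hne]⟩

namespace SSData

variable {ρbar : ResidualGaloisRep k} (S : SSData p ρbar)

/-- The character of inertia on the `j`-th line. -/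
def ηj (j : Fin 2) (σ : Gal) : qField p k := S.ηq σ ^ (if j = 0 then 1 else p)

theorem act_ηj {σ : Gal} (hσ : σ ∈ inert p) (j : Fin 2) :
    ρbar.ρ σ (S.b j) = (S.ηj j σ : k) • S.b j := by
  rw [ηj, SubmonoidClass.coe_pow, S.ηq_coe hσ]
  fin_cases j
  · simpa using S.act₀ σ hσ
  · simpa using S.act₁ σ hσ

theorem coord_ρ {σ : Gal} (hσ : σ ∈ inert p) (i : Fin 2) (w : ρbar.V) :
    S.b.coord i (ρbar.ρ σ w) = (S.ηj i σ : k) * S.b.coord i w := by
  conv_lhs => rw [← S.b.sum_repr w, map_sum]
  simp only [map_smul, S.act_ηj hσ]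
  fin_cases i <;> simp [Fin.sum_univ_two] <;> ring

theorem isLineChar_ηj (j : Fin 2) : IsLineChar p (S.ηj j) (p ^ 2 - 1) :=
  ⟨S.isLineChar.card, S.isLineChar.not_dvd,
    fun σ hσ τ hτ => by rw [ηj, ηj, ηj, S.isLineChar.map_mul σ hσ τ hτ, mul_pow],
    fun σ hσ => by rw [ηj, S.isLineChar.ker σ hσ, one_pow]⟩

theorem ηj_ne (j : Fin 2) :
    (∃ σ ∈ inert p, S.ηj j σ ≠ 1) ∧
      ∃ σ ∈ inert p, S.ηj j σ ≠ algebraMap (ZMod p) (qField p k) (cyc p σ) := by
  obtain ⟨σ, hσ, hne, h2⟩ := S.exists_cross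
  have key : ∀ a : k, a ^ p = a → (S.ηj j σ : k) ≠ a := by
    intro a ha h
    rw [ηj, SubmonoidClass.coe_pow, S.ηq_coe hσ] at h
    refine hne ?_
    fin_cases j
    · simp at h
      rw [h, ha]
    · simp at h
      rw [h, ← h2, sq, pow_mul, h, ha]
  refine ⟨⟨σ, hσ, fun h => key 1 (one_pow p) ?_⟩, σ, hσ, fun h => key _ ?_ (congrArg Subtype.val h)⟩
  · rw [h, Subfield.coe_one]
  · rw [← SubmonoidClass.coe_pow, ← map_pow, ZMod.pow_card]

variable [Fintype ρbar.V] [DecidableEq ρbar.V]

/-- The entries of a flat supersingular deformation have level at least `p + 2`. -/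
theorem lev_entry (c : cocycles₁ (TW.ad0 ρbar)) (hc : IsLevelConstant₁ (MonoidHom.id Gal) c)
    (R : Model p (ρbar.V × ρbar.V) (pairAct ρbar (TW.cocycleEnd ρbar c))) (i j : Fin 2) (s : k) :
    Lev p (p ^ 2 - 1) (p + 2)
      (traceFn s fun σ => S.b.coord i (TW.cocycleEnd ρbar c σ (S.b j))) := by
  classical
  by_cases hs : s = 0
  · exact Lev.zero _ fun σ _ => by simp [traceFn, hs]
  set F := qField p k
  have hi := S.isLineChar_ηj i
  have hj := S.isLineChar_ηj j
  let C : Gal → k := fun σ => S.b.coord i (cocycleEnd ρbar c σ (S.b j))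
  let f : F × ρbar.V →+ ρbar.V × ρbar.V :=
    AddMonoidHom.mk' (fun w => ((w.1 : k) • S.b j, w.2)) fun a b => by
      simp [add_smul]
  have hf : Function.Injective f := fun a b h => Prod.ext
    (Subtype.ext (smul_left_injective k (S.b.ne_zero j) (Prod.ext_iff.mp h).1))
    (Prod.ext_iff.mp h).2
  let actN : Gal → F × ρbar.V → F × ρbar.V := fun σ w =>
    (S.ηj j σ * w.1,
      ρbar.ρ σ w.2 + ((S.ηj j σ * w.1 : F) : k) • cocycleEnd ρbar c σ (S.b j))
  obtain ⟨R₁, -, -⟩ := R.exists_restrict (actN := actN) f hf (fun σ hσ w => by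
    refine Prod.ext ?_ ?_
    · show ((S.ηj j σ * w.1 : F) : k) • S.b j = ρbar.ρ σ ((w.1 : k) • S.b j)
      rw [map_smul, S.act_ηj hσ j, smul_smul, Subfield.coe_mul, mul_comm]
    · show ρbar.ρ σ w.2 + ((S.ηj j σ * w.1 : F) : k) • cocycleEnd ρbar c σ (S.b j) =
        ρbar.ρ σ w.2 + cocycleEnd ρbar c σ (ρbar.ρ σ ((w.1 : k) • S.b j))
      rw [map_smul, S.act_ηj hσ j, smul_smul, map_smul, Subfield.coe_mul, mul_comm]) (fun w => by
    simp [actN, hj.map_one, cocycleEnd_one])
  let π : F × ρbar.V →+ F × F :=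
    AddMonoidHom.mk' (fun w => (qProj s (S.b.coord i w.2), w.1)) fun a b => by simp
  have hπ : Function.Surjective π := fun w => by
    obtain ⟨x, hx⟩ := qProj_surjective hs w.1
    exact ⟨(w.2, x • S.b i), by simp [π, hx]⟩
  let act : Gal → F × F → F × F := fun σ w =>
    (S.ηj i σ * w.1 + qProj s (((S.ηj j σ * w.2 : F) : k) * C σ), S.ηj j σ * w.2)
  obtain ⟨R₂, -, -⟩ := R₁.exists_quotient (actQ := act) π hπ (fun σ hσ w => by
    refine Prod.ext ?_ rfl
    show qProj s (S.b.coord i (ρbar.ρ σ w.2 +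
        ((S.ηj j σ * w.1 : F) : k) • cocycleEnd ρbar c σ (S.b j))) =
      S.ηj i σ * qProj s (S.b.coord i w.2) + qProj s (((S.ηj j σ * w.1 : F) : k) * C σ)
    rw [map_add (S.b.coord i), map_smul (S.b.coord i), S.coord_ρ hσ, smul_eq_mul,
      map_add (qProj s), qProj_mul]) (fun w => by
    simp [act, C, hi.map_one, hj.map_one, cocycleEnd_one])
  let D : PlaneData p act (S.ηj i) (S.ηj j) (p ^ 2 - 1) :=
    { ι := AddMonoidHom.inl F F
      π := AddMonoidHom.snd F F
      ι_inj := fun a b h => (Prod.ext_iff.mp h).1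
      π_surj := fun y => ⟨(0, y), rfl⟩
      exact_ker := fun m hm => ⟨m.1, Prod.ext rfl (show (0 : F) = m.2 from hm.symm)⟩
      π_ι := fun _ => rfl
      ι_act := fun σ _ d => Prod.ext
        (show S.ηj i σ * d = S.ηj i σ * d + qProj s (((S.ηj j σ * 0 : F) : k) * C σ) by simp)
        (show (0 : F) = S.ηj j σ * 0 by simp)
      π_act := fun σ _ m => rfl
      char₁ := hi
      char₂ := hj
      card_field := S.card_field
      ne_one₁ := (S.ηj_ne i).1
      ne_cyc₁ := (S.ηj_ne i).2
      ne_one₂ := (S.ηj_ne j).1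
      ne_cyc₂ := (S.ηj_ne j).2 }
  obtain ⟨L, _, hCL, -, -⟩ := exists_level hc
  refine lev_of_plane tameLevel_two D R₂ (P := (0, 1)) (fun σ => qProj s (C σ)) (fun σ hσ => ?_)
    (Algebra.trace (ZMod p) F).toAddMonoidHom (fun σ _ => ?_) (fun σ hσ τ _ => ?_) L
    (fun σ _ hσ => ?_)
  · refine Prod.ext ?_ ?_
    · show S.ηj i σ * 0 + qProj s (((S.ηj j σ * 1 : F) : k) * C σ) = 0 + qProj s (C σ)
      simp [hj.ker σ hσ]
    · show S.ηj j σ * 1 = (1 : F) + 0
      simp [hj.ker σ hσ]
  · show Algebra.trace (ZMod p) k (s * C σ) = Algebra.trace (ZMod p) F (qProj s (C σ))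
    conv_rhs => rw [← mul_one (qProj (p := p) s (C σ))]
    rw [trace_mul_qProj, Subfield.coe_one, mul_one]
  · have h := cocycleEnd_mul_apply c σ τ (S.b j)
    simp only [S.kn σ hσ, Module.End.one_apply] at h
    show Algebra.trace (ZMod p) k (s * S.b.coord i (cocycleEnd ρbar c (σ * τ) (S.b j))) = _
    rw [h, map_add, mul_add, map_add]
    exact add_comm _ _
  · show Algebra.trace (ZMod p) k (s * S.b.coord i (cocycleEnd ρbar c σ (S.b j))) = 0
    rw [hCL σ hσ]
    simp

end SSData

end Fermat.Agent.FlatTangent
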