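import Fermat.Agent.FlatTangent.SSField
import Fermat.Agent.TW.OrdinaryLine

/-!
# The flat local condition in the supersingular case

Cocycles all of whose Kummer characters have level at least `p + 2` form at most one dimension
modulo coboundaries on the decomposition group.
-/

set_option autoImplicit false
set_option linter.unusedSectionVars false
set_option linter.style.haveILetI false
set_option maxSynthPendingDepth 3

noncomputable section

namespace Fermat.Agent.FlatTangent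

open CategoryTheory groupCohomology ExtCitation Module
open TW (ad0 cocycleEnd ad0_rho_coe locPrime adZeroSpace)

variable {p : ℕ} [Fact p.Prime] {k : Type} [Field k] [CharP k p]

theorem cycIn_pow_mul (σ τ : Gal) : cycIn p k (σ * τ) = cycIn p k σ * cycIn p k τ := by
  rw [cycIn, cycIn, cycIn, cyc_mul, map_mul]

theorem cycIn_ne_zero' (σ : Gal) : cycIn p k σ ≠ 0 := by
  rw [cycIn]
  exact (map_ne_zero _).mpr (cyc_ne_zero σ)

/-- Congruent powers of a primitive tame character value. -/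
theorem mod_eq_of_res_pow_eq {n : ℕ} (hn : ¬ p ∣ n) {τ : Gal}
    (hprim : IsPrimitiveRoot (tchar p n τ) n) {i m : ℕ}
    (h : res p (tchar p n τ) ^ i = res p (tchar p n τ) ^ m) : i % n = m % n := by
  have hn0 := pos_of_not_dvd hn
  have ht := (veq_zero_of_pow_eq_one (p := p) hn0.ne' (tchar_pow (p := p) hn0 τ)).vge
  have hv : ∀ l : ℕ, VGE p 0 (tchar p n τ ^ l) := fun l => by simpa using ht.pow l
  have hd : VGT p 0 (tchar p n τ ^ i - tchar p n τ ^ m) := by
    have h1 := res_add ((hv i).sub (hv m)) (hv m)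
    rw [sub_add_cancel, res_pow ht, res_pow ht, h] at h1
    exact (res_eq_zero_iff ((hv i).sub (hv m))).mp (left_eq_add.mp (h1.trans (add_comm _ _)))
  have h2 := eq_of_vgt hn (by rw [pow_right_comm, hprim.pow_eq_one, one_pow])
    (by rw [pow_right_comm, hprim.pow_eq_one, one_pow]) hd
  refine hprim.pow_inj (Nat.mod_lt _ hn0) (Nat.mod_lt _ hn0) ?_
  rw [← pow_eq_pow_mod i hprim.pow_eq_one, ← pow_eq_pow_mod m hprim.pow_eq_one, h2]

section Algebra

variable [Fintype k]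

theorem apply_castHom_mul (g : k → Kap p) (hg : ∀ a c, g (a + c) = g a + g c) (a : ZMod p) (s : k) :
    g (ZMod.castHom (dvd_refl p) k a * s) = ZMod.castHom (dvd_refl p) (Kap p) a * g s := by
  conv_lhs => rw [← ZMod.natCast_zmod_val a, map_natCast, ← nsmul_eq_mul]
  conv_rhs => rw [← ZMod.natCast_zmod_val a, map_natCast, ← nsmul_eq_mul]
  exact map_nsmul (AddMonoidHom.mk' g hg) a.val s

theorem emb_castHom (emb : qField p k →+* Kap p) (a : ZMod p) :
    emb (ZMod.castHom (dvd_refl p) (qField p k) a) = ZMod.castHom (dvd_refl p) (Kap p) a :=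
  DFunLike.congr_fun (Subsingleton.elim
    (emb.comp (ZMod.castHom (dvd_refl p) (qField p k))) (ZMod.castHom (dvd_refl p) (Kap p))) a

theorem coe_castHom (a : ZMod p) :
    ((ZMod.castHom (dvd_refl p) (qField p k) a : qField p k) : k) =
      ZMod.castHom (dvd_refl p) k a :=
  DFunLike.congr_fun (Subsingleton.elim
    ((qField p k).subtype.comp (ZMod.castHom (dvd_refl p) (qField p k)))
      (ZMod.castHom (dvd_refl p) k)) a

/-- An eigenvalue of a scalar of `F_{p²}` on additive functions is one of its two conjugates. -/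
theorem eigenvalue_conj (emb : qField p k →+* Kap p) (z : qField p k) {g : k → Kap p} {T : Kap p}
    (hg : ∀ a c, g (a + c) = g a + g c) (hz : ∀ s, g (z * s) = T * g s) (hne : g ≠ 0) :
    T = emb z ∨ T = emb (z ^ p) := by
  have hzq : z ^ p ^ 2 = z := Subtype.ext (by rw [SubmonoidClass.coe_pow]; exact mem_qField.mp z.2)
  have hzz : (z ^ p) ^ p = z := by rw [← pow_mul, ← pow_two, hzq]
  obtain ⟨S, hS⟩ : ∃ S : ZMod p, ZMod.castHom (dvd_refl p) (qField p k) S = z + z ^ p :=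
    exists_castHom_of_pow (by rw [add_pow_char, hzz, add_comm])
  obtain ⟨P, hP⟩ : ∃ P : ZMod p, ZMod.castHom (dvd_refl p) (qField p k) P = z * z ^ p :=
    exists_castHom_of_pow (by rw [mul_pow, hzz, mul_comm])
  obtain ⟨s, hs⟩ := Function.ne_iff.mp hne
  have hk : (z : k) * ((z : k) * s) + ZMod.castHom (dvd_refl p) k P * s =
      ZMod.castHom (dvd_refl p) k S * ((z : k) * s) := by
    rw [← coe_castHom (k := k) P, ← coe_castHom (k := k) S, hS, hP]
    push_cast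
    ring
  have h := congrArg g hk
  rw [hg, apply_castHom_mul g hg, apply_castHom_mul g hg, hz, hz, ← emb_castHom emb,
    ← emb_castHom emb, hS, hP, map_add, map_mul] at h
  have h2 : ((T - emb z) * (T - emb (z ^ p))) * g s = 0 := by linear_combination h
  rcases mul_eq_zero.mp ((mul_eq_zero.mp h2).resolve_right hs) with h3 | h3
  · exact Or.inl (sub_eq_zero.mp h3)
  · exact Or.inr (sub_eq_zero.mp h3)

/-- Equivariance for a generator gives semilinearity. -/
theorem semilinear_of_gen (emb : qField p k →+* Kap p) (z : qField p k)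
    (hcard : Fintype.card (qField p k) = p ^ 2) (hne : z ^ p ≠ z) {g : k → Kap p}
    (hg : ∀ a c, g (a + c) = g a + g c) (hz : ∀ s, g (z * s) = emb (z ^ p) * g s) (y : qField p k)
    (s : k) : g (y • s) = emb (y ^ p) * g s := by
  classical
  have hbij : Function.Bijective fun ab : ZMod p × ZMod p =>
      ZMod.castHom (dvd_refl p) (qField p k) ab.1 +
        ZMod.castHom (dvd_refl p) (qField p k) ab.2 * z := by
    rw [Fintype.bijective_iff_injective_and_card]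
    exact ⟨pair_injective hne, by rw [Fintype.card_prod, ZMod.card, hcard, pow_two]⟩
  obtain ⟨⟨a, b⟩, rfl⟩ := hbij.2 y
  simp only
  rw [Subfield.smul_def, Subfield.coe_add, Subfield.coe_mul, coe_castHom, coe_castHom, smul_eq_mul,
    add_mul, mul_assoc, hg, apply_castHom_mul g hg, apply_castHom_mul g hg, hz, add_pow_char, mul_pow,
    ← map_pow, ← map_pow, ZMod.pow_card, ZMod.pow_card, map_add, map_mul, emb_castHom, emb_castHom]
  ring

end Algebra

namespace SSData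

variable {ρbar : ResidualGaloisRep k} (S : SSData p ρbar)

/-- A matrix entry of a cocycle. -/
def entry (i j : Fin 2) : cocycles₁ (ad0 ρbar) →ₗ[k] Gal → k where
  toFun c σ := S.b.coord i (cocycleEnd ρbar c σ (S.b j))
  map_add' c c' := funext fun σ => map_add (S.b.coord i) _ _
  map_smul' t c := funext fun σ => map_smul (S.b.coord i) t _

theorem coord_b (i j : Fin 2) : S.b.coord i (S.b j) = if j = i then 1 else 0 := by
  rw [Basis.coord_apply, Basis.repr_self, Finsupp.single_apply]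

theorem coord₀_act {σ : Gal} (hσ : σ ∈ inert p) (w : ρbar.V) :
    S.b.coord 0 (ρbar.ρ σ w) = S.η σ * S.b.coord 0 w := by
  conv_lhs => rw [basis_decomp S.b w]
  simp only [map_add, map_smul, S.act₀ σ hσ, S.act₁ σ hσ, coord_b, smul_eq_mul, if_pos,
    if_neg (show (1 : Fin 2) ≠ 0 by decide), mul_one, mul_zero, add_zero]
  ring

theorem coord₁_act {σ : Gal} (hσ : σ ∈ inert p) (w : ρbar.V) :
    S.b.coord 1 (ρbar.ρ σ w) = S.η σ ^ p * S.b.coord 1 w := by
  conv_lhs => rw [basis_decomp S.b w]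
  simp only [map_add, map_smul, S.act₀ σ hσ, S.act₁ σ hσ, coord_b, smul_eq_mul, if_pos,
    if_neg (show (0 : Fin 2) ≠ 1 by decide), mul_one, mul_zero, zero_add]
  ring

theorem coord_φ (w : ρbar.V) : S.b.coord 0 (ρbar.ρ S.φ w) = S.N * S.b.coord 1 w ∧
    S.b.coord 1 (ρbar.ρ S.φ w) = S.b.coord 0 w := by
  constructor <;> conv_lhs => rw [basis_decomp S.b w]
  all_goals
    simp only [map_add, map_smul, S.φ₀, S.φ₁, coord_b, smul_eq_mul, if_pos,
      if_neg (show (0 : Fin 2) ≠ 1 by decide), if_neg (show (1 : Fin 2) ≠ 0 by decide), mul_one,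
      mul_zero, add_zero, zero_add]
  ring

variable {S} {c : cocycles₁ (ad0 ρbar)}

theorem entry_Kn (i j : Fin 2) : ∀ σ ∈ Kn p (p ^ 2 - 1), ∀ τ ∈ Kn p (p ^ 2 - 1),
    S.entry i j c (σ * τ) = S.entry i j c σ + S.entry i j c τ := by
  intro σ hσ τ hτ
  have h := cocycleEnd_mul_apply c σ τ (S.b j)
  rw [S.kn σ hσ, Module.End.one_apply, Module.End.one_apply] at h
  show S.b.coord i _ = S.b.coord i _ + S.b.coord i _
  rw [h, map_add, add_comm]

include S in
theorem conj_apply {σ τ : Gal} (hσ : σ ∈ Kn p (p ^ 2 - 1)) (hτ : τ ∈ dec p) (v : ρbar.V) :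
    ρbar.ρ τ (cocycleEnd ρbar c (τ⁻¹ * σ * τ) v) = cocycleEnd ρbar c σ (ρbar.ρ τ v) := by
  have hσ' := conj_inv_mem_Kn (SSData.n_not_dvd p) hσ hτ
  have h1 := cocycleEnd_mul_apply c σ τ (ρbar.ρ τ v)
  have h2 := cocycleEnd_mul_apply c τ (τ⁻¹ * σ * τ) v
  rw [S.kn σ hσ, Module.End.one_apply, Module.End.one_apply] at h1
  rw [show τ * (τ⁻¹ * σ * τ) = σ * τ by group, h1, add_comm] at h2
  exact (add_right_cancel h2).symm

theorem entry₀₀_inert {σ τ : Gal} (hσ : σ ∈ Kn p (p ^ 2 - 1)) (hτ : τ ∈ inert p) :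
    cycIn p k τ * S.entry 0 0 c (τ⁻¹ * σ * τ) = S.η τ ^ (p + 1) * S.entry 0 0 c σ := by
  have h := congrArg (S.b.coord 0) (conj_apply (S := S) (c := c) hσ (inert_le_dec hτ) (S.b 0))
  rw [S.coord₀_act hτ, S.act₀ τ hτ, map_smul, map_smul, smul_eq_mul] at h
  rw [← S.cyc_eq τ hτ]
  have h' : S.η τ * S.entry 0 0 c (τ⁻¹ * σ * τ) = S.η τ * S.entry 0 0 c σ := h
  rw [mul_left_cancel₀ (S.η_ne hτ) h']

theorem entry₀₁_inert {σ τ : Gal} (hσ : σ ∈ Kn p (p ^ 2 - 1)) (hτ : τ ∈ inert p) :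
    cycIn p k τ * S.entry 0 1 c (τ⁻¹ * σ * τ) = S.η τ ^ (2 * p) * S.entry 0 1 c σ := by
  have h := congrArg (S.b.coord 0) (conj_apply (S := S) (c := c) hσ (inert_le_dec hτ) (S.b 1))
  rw [S.coord₀_act hτ, S.act₁ τ hτ, map_smul, map_smul, smul_eq_mul] at h
  have h' : S.η τ * S.entry 0 1 c (τ⁻¹ * σ * τ) = S.η τ ^ p * S.entry 0 1 c σ := h
  rw [← S.cyc_eq τ hτ, pow_succ, mul_assoc, h', ← mul_assoc, ← pow_add, two_mul]

theorem φ_mem (S : SSData p ρbar) : S.φ ∈ dec p := (Galois.isFrobeniusAt_iff.mp S.frob).1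

theorem entry_φ {σ : Gal} (hσ : σ ∈ Kn p (p ^ 2 - 1)) :
    S.entry 0 0 c (S.φ⁻¹ * σ * S.φ) = S.entry 1 1 c σ ∧
    S.N * S.entry 1 0 c (S.φ⁻¹ * σ * S.φ) = S.entry 0 1 c σ ∧
    S.entry 0 1 c (S.φ⁻¹ * σ * S.φ) = S.N * S.entry 1 0 c σ ∧
    S.entry 1 1 c (S.φ⁻¹ * σ * S.φ) = S.entry 0 0 c σ := by
  have h0 := conj_apply (S := S) (c := c) hσ S.φ_mem (S.b 0)
  have h1 := conj_apply (S := S) (c := c) hσ S.φ_mem (S.b 1)
  rw [S.φ₀] at h0
  rw [S.φ₁, map_smul (cocycleEnd ρbar c σ)] at h1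
  have e00 := congrArg (S.b.coord 0) h0
  have e01 := congrArg (S.b.coord 1) h0
  have e10 := congrArg (S.b.coord 0) h1
  have e11 := congrArg (S.b.coord 1) h1
  rw [(S.coord_φ _).1] at e00 e10
  rw [(S.coord_φ _).2] at e01 e11
  rw [map_smul, smul_eq_mul] at e10 e11
  exact ⟨e01, e00, e11, mul_left_cancel₀ S.N_ne e10⟩

theorem entry_φ_sq {σ : Gal} (hσ : σ ∈ Kn p (p ^ 2 - 1)) :
    S.entry 0 0 c ((S.φ ^ 2)⁻¹ * σ * S.φ ^ 2) = S.entry 0 0 c σ ∧
    S.entry 0 1 c ((S.φ ^ 2)⁻¹ * σ * S.φ ^ 2) = S.entry 0 1 c σ := by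
  rw [show (S.φ ^ 2)⁻¹ * σ * S.φ ^ 2 = S.φ⁻¹ * (S.φ⁻¹ * σ * S.φ) * S.φ by rw [pow_two]; group]
  obtain ⟨a1, a2, a3, a4⟩ := entry_φ (S := S) (c := c) (conj_inv_mem_Kn (n_not_dvd p) hσ S.φ_mem)
  obtain ⟨b1, b2, b3, b4⟩ := entry_φ (S := S) (c := c) hσ
  exact ⟨a1.trans b4, a3.trans b2⟩

variable (S) [Fintype k] [Algebra (ZMod p) k]

/-- The cocycles of Kummer level at least `p + 2`. -/
def space : Submodule k (cocycles₁ (ad0 ρbar)) where
  carrier := {c | IsLevelConstant₁ (MonoidHom.id Gal) c ∧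
    ∀ i j s, Lev p (p ^ 2 - 1) (p + 2) (traceFn s (S.entry i j c))}
  zero_mem' := ⟨Submodule.zero_mem (levelCocycles₁ (MonoidHom.id Gal) (ad0 ρbar)),
    fun i j s => Lev.zero _ fun σ _ => by simp [traceFn, map_zero (S.entry i j)]⟩
  add_mem' := fun {c c'} h h' =>
    ⟨Submodule.add_mem (levelCocycles₁ (MonoidHom.id Gal) (ad0 ρbar)) h.1 h'.1,
      fun i j s => by rw [map_add, traceFn_add_right]; exact (h.2 i j s).add (h'.2 i j s)⟩
  smul_mem' := fun t c h =>
    ⟨Submodule.smul_mem (levelCocycles₁ (MonoidHom.id Gal) (ad0 ρbar)) t h.1,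
      fun i j s => (h.2 i j (s * t)).congr fun σ _ => by simp [traceFn, mul_assoc]⟩

include S in
/-- A cocycle killing `Kn` is a coboundary on decomposition. -/
theorem eq_cob_of_trivial (hp2 : p ≠ 2) (hc : IsLevelConstant₁ (MonoidHom.id Gal) c)
    (hK : ∀ σ ∈ Kn p (p ^ 2 - 1), c σ = 0) :
    ∃ T : ad0 ρbar, ∀ σ ∈ dec p, c σ = (ad0 ρbar).ρ σ T - T := by
  obtain ⟨τ, hτ, hprim⟩ := exists_tchar_prim (p := p) (n := p ^ 2 - 1) (n_not_dvd p)
  obtain ⟨T₁, -, hT₁⟩ := eq_cob_on_inert (n_not_dvd p) hτ hprim hK ⊤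
    (fun σ _ => Submodule.mem_top) fun σ hσ X _ => by
      refine Subtype.ext ?_
      rw [ad0_rho_coe, S.kn σ hσ, S.kn σ⁻¹ (inv_mem hσ), one_mul, mul_one]
  set c₁ : cocycles₁ (ad0 ρbar) := c + cobCocycle ρbar (-T₁) with hc₁
  have hval : ∀ σ, c₁ σ = c σ - ((ad0 ρbar).ρ σ T₁ - T₁) := fun σ => by
    show c σ + (cobCocycle ρbar (-T₁) : Gal → ad0 ρbar) σ = _
    rw [cobCocycle_apply, map_neg]
    abel
  have hlev₁ : IsLevelConstant₁ (MonoidHom.id Gal) c₁ :=
    Submodule.add_mem (levelCocycles₁ (MonoidHom.id Gal) (ad0 ρbar)) hc (isLevelConstant_cob _)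
  have hI₁ : ∀ σ ∈ inert p, c₁ σ = 0 := fun σ hσ => by rw [hval, hT₁ σ hσ, sub_self]
  have hE₁ : ∀ σ ∈ inert p, cocycleEnd ρbar c₁ σ = 0 := fun σ hσ =>
    congrArg (fun X : ad0 ρbar => ((X : adZeroSpace ρbar).1 : Module.End k ρbar.V)) (hI₁ σ hσ)
  set X := cocycleEnd ρbar c₁ S.φ with hX
  have hcomm : ∀ σ ∈ inert p, ∀ v, X (ρbar.ρ σ v) = ρbar.ρ σ (X v) := by
    intro σ hσ v
    have hσ' : S.φ⁻¹ * σ * S.φ ∈ inert p := by simpa using conj_mem_inert hσ (inv_mem S.φ_mem)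
    have h1 := cocycleEnd_mul_apply c₁ σ S.φ v
    have h2 : c₁ (S.φ * (S.φ⁻¹ * σ * S.φ)) = c₁ S.φ := by
      rw [cocycle_mul, hI₁ _ hσ', map_zero, zero_add]
    rw [show S.φ * (S.φ⁻¹ * σ * S.φ) = σ * S.φ by group] at h2
    rw [hE₁ σ hσ, LinearMap.zero_apply, add_zero] at h1
    exact (congrArg (fun Y : ad0 ρbar => (Y : adZeroSpace ρbar).1 (ρbar.ρ σ v)) h2).symm.trans h1
  obtain ⟨σ₀, hσ₀, hne⟩ := S.ne
  set u := S.b.coord 0 (X (S.b 0)) with hu
  have hX0 : X (S.b 0) = u • S.b 0 := by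
    have h := congrArg (S.b.coord 1) (hcomm σ₀ hσ₀ (S.b 0))
    rw [S.act₀ σ₀ hσ₀, map_smul X, map_smul, smul_eq_mul, S.coord₁_act hσ₀] at h
    have h0 : S.b.coord 1 (X (S.b 0)) = 0 := by
      by_contra h0
      exact hne (mul_right_cancel₀ h0 h).symm
    conv_lhs => rw [basis_decomp S.b (X (S.b 0))]
    rw [h0, zero_smul, add_zero]
  have hX1 : X (S.b 1) = -u • S.b 1 := by
    have h := congrArg (S.b.coord 0) (hcomm σ₀ hσ₀ (S.b 1))
    rw [S.act₁ σ₀ hσ₀, map_smul X, map_smul, smul_eq_mul, S.coord₀_act hσ₀] at h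
    have h0 : S.b.coord 0 (X (S.b 1)) = 0 := by
      by_contra h0
      exact hne (mul_right_cancel₀ h0 h)
    have htr := trace_eq_zero ((c₁ S.φ : ad0 ρbar) : adZeroSpace ρbar) S.b
    conv_lhs => rw [basis_decomp S.b (X (S.b 1))]
    rw [h0, zero_smul, zero_add, show S.b.coord 1 (X (S.b 1)) = -u from eq_neg_of_add_eq_zero_right htr]
  have h2 : (2 : k) ≠ 0 := Ring.two_ne_zero (by rw [ringChar.eq k p]; exact hp2)
  set T₂ : ad0 ρbar := (-(2 : k)⁻¹) • c₁ S.φ with hT₂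
  have hT₂v : ∀ v, (T₂ : adZeroSpace ρbar).1 v = (-(2 : k)⁻¹) • X v := fun v => rfl
  set c₂ : cocycles₁ (ad0 ρbar) := c₁ + cobCocycle ρbar (-T₂) with hc₂
  have hval₂ : ∀ σ, c₂ σ = c₁ σ - ((ad0 ρbar).ρ σ T₂ - T₂) := fun σ => by
    show c₁ σ + (cobCocycle ρbar (-T₂) : Gal → ad0 ρbar) σ = _
    rw [cobCocycle_apply, map_neg]
    abel
  have hcobv : ∀ σ v, ((ad0 ρbar).ρ σ T₂ - T₂ : adZeroSpace ρbar).1 (ρbar.ρ σ v) =
      (-(2 : k)⁻¹) • ρbar.ρ σ (X v) - (-(2 : k)⁻¹) • X (ρbar.ρ σ v) := fun σ v => by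
    have h := cocycleEnd_cob_comp T₂ σ v
    rw [← map_smul (ρbar.ρ σ), ← hT₂v, ← hT₂v, ← h]
    show _ = ((((cobCocycle ρbar T₂ : Gal → ad0 ρbar) σ) : ad0 ρbar) : adZeroSpace ρbar).1 _
    rw [cobCocycle_apply]
  have hI₂ : ∀ σ ∈ inert p, c₂ σ = 0 := fun σ hσ => by
    rw [hval₂, hI₁ σ hσ, zero_sub, neg_eq_zero]
    refine Subtype.ext (LinearMap.ext fun v => ?_)
    obtain ⟨w, rfl⟩ := TW.ρ_surjective ρbar σ v
    rw [hcobv, hcomm σ hσ, sub_self]
    rfl
  have hφ₂ : c₂ S.φ = 0 := by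
    rw [hval₂, sub_eq_zero]
    refine cocycles_ext fun v => ?_
    obtain ⟨w, rfl⟩ := TW.ρ_surjective ρbar S.φ v
    rw [hcobv, ← hX, basis_decomp S.b w]
    simp only [map_add, map_smul, hX0, hX1, S.φ₀, S.φ₁, smul_add, smul_smul]
    rw [show ((2 : k)⁻¹) = 2⁻¹ from rfl]
    match_scalars <;> field_simp <;> ring
  have hlev₂ : IsLevelConstant₁ (MonoidHom.id Gal) c₂ :=
    Submodule.add_mem (levelCocycles₁ (MonoidHom.id Gal) (ad0 ρbar)) hlev₁ (isLevelConstant_cob _)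
  refine ⟨T₁ + T₂, fun σ hσ => ?_⟩
  have h := eq_zero_on_dec hlev₂ S.frob hφ₂ hI₂ σ hσ
  rw [hval₂, hval, sub_sub, sub_eq_zero] at h
  rw [h, map_add]
  abel

/-- The local space in the supersingular case. -/
theorem exists_local (hp2 : p ≠ 2) [Fintype ρbar.V] [DecidableEq ρbar.V]
    (R : Model p ρbar.V fun σ v => ρbar.ρ σ v) :
    ∃ L : Submodule k (H1 (Rep.res (primeLocalToGlobal (pPrime p)) (ad0 ρbar))),
      L ≤ continuousH1 (primeLocalToGlobal (pPrime p))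
          (Rep.res (primeLocalToGlobal (pPrime p)) (ad0 ρbar)) ∧
      FiniteDimensional k L ∧ finrank k L ≤ 1 ∧
      ∀ (c : cocycles₁ (ad0 ρbar)) (T : ad0 ρbar), c + cobCocycle ρbar T ∈ S.space →
        locPrime (pPrime p) (ad0 ρbar) ((H1π (ad0 ρbar)).hom c) ∈ L := by
  classical
  have hp := (Fact.out : p.Prime)
  have hp3 : 3 ≤ p := by have := hp.two_le; omega
  have hT := tameLevel_two (p := p)
  have hn := n_not_dvd p
  obtain ⟨emb, hemb⟩ := S.exists_emb R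
  obtain ⟨τ, hτ, hprim⟩ := exists_tchar_prim (p := p) (n := p ^ 2 - 1) hn
  set t := res p (tchar p (p ^ 2 - 1) τ) with ht
  set ε := S.ηq τ with hε
  have hεt : emb ε = t := hemb τ hτ
  have hεk : (ε : k) = S.η τ := S.ηq_coe hτ
  obtain ⟨m, hm⟩ : ∃ m, p ^ 2 = m + 1 :=
    ⟨p ^ 2 - 1, (Nat.sub_add_cancel (Nat.one_le_pow 2 p hp.pos)).symm⟩
  have hnm : p ^ 2 - 1 = m := by omega
  have hsq : 3 * p ≤ p ^ 2 := by rw [pow_two]; exact Nat.mul_le_mul_right p hp3
  have hJ : p * (p + 1) = p ^ 2 + p := by ring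
  have hεq : ε ^ p ^ 2 = ε := Subtype.ext (by rw [SubmonoidClass.coe_pow]; exact mem_qField.mp ε.2)
  have hdiag : ∀ c : S.space, ∀ σ ∈ Kn p (p ^ 2 - 1), S.entry 0 0 c.1 σ = 0 := fun c =>
    levFn_eq_zero hT (τ := τ) (Φ := S.φ ^ 2) hτ (z := ((ε ^ (p + 1) : qField p k) : k))
      (w := cycIn p k (S.φ ^ 2)) (j₁ := p + 2) (by omega) (by nlinarith)
      (fun i hi1 hi2 hi3 g hg hgz => by
        by_contra hne
        have h : t ^ i = t ^ (p + 1) := by
          rcases eigenvalue_conj emb _ hg hgz hne with h | h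
          · rw [h, map_pow, hεt]
          · rw [h, ← pow_mul, show (p + 1) * p = p ^ 2 + p by ring, pow_add, hεq, ← pow_succ',
              map_pow, hεt]
        have h1 := mod_eq_of_res_pow_eq hn hprim h
        rw [hnm] at h1
        rw [Nat.mod_eq_of_lt (show p + 1 < m by omega)] at h1
        rcases lt_or_ge i m with hlt | hge
        · rw [Nat.mod_eq_of_lt hlt] at h1; omega
        · rw [Nat.mod_eq_sub_mod hge, Nat.mod_eq_of_lt (by omega)] at h1; omega)
      ⟨c.2.2 0 0, fun σ hσ => by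
        rw [SubmonoidClass.coe_pow, hεk]; exact entry₀₀_inert hσ hτ,
        fun σ hσ => by rw [(entry_φ_sq hσ).1]⟩
  set z : qField p k := ε ^ (2 * p) with hz
  have hzp : z ^ p = ε ^ 2 := by
    rw [hz, ← pow_mul, show 2 * p * p = p ^ 2 * 2 by ring, pow_mul, hεq]
  have hzne : z ^ p ≠ z := by
    intro h
    rw [hzp, hz] at h
    have h1 := mod_eq_of_res_pow_eq hn hprim (i := 2) (m := 2 * p) (by
      show t ^ 2 = t ^ (2 * p)
      rw [← hεt, ← map_pow, ← map_pow, h])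
    rw [hnm, Nat.mod_eq_of_lt (show 2 < m by omega), Nat.mod_eq_of_lt (show 2 * p < m by omega)] at h1
    omega
  let B : S.space →ₗ[k] Gal → k := (S.entry 0 1).comp S.space.subtype
  obtain ⟨hrank, hfin⟩ := finrank_levFn_le_one (k := k) hT (f := 2) S.frob S.frob_fix hτ
    (z := (z : k)) (w := cycIn p k (S.φ ^ 2)) (cycIn_ne_zero' _) (j₁ := p + 2) (j₀ := p ^ 2 + 1)
    (by omega) (by omega) (by omega)
    (fun h => by
      have := (Nat.dvd_add_right (dvd_pow_self p two_ne_zero)).mp h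
      exact hp.one_lt.ne' (Nat.dvd_one.mp this))
    (F := qField p k) S.card_field (emb.comp (frobenius (qField p k) p))
    (fun i hi1 hi2 hi3 hne g hg hgz => by
      by_contra hg0
      have h : t ^ i = t ^ (2 * p) ∨ t ^ i = t ^ 2 := by
        rcases eigenvalue_conj emb z hg hgz hg0 with h | h
        · exact Or.inl (by rw [h, hz, map_pow, hεt])
        · exact Or.inr (by rw [h, hzp, map_pow, hεt])
      rcases h with h | h
      · have h1 := mod_eq_of_res_pow_eq hn hprim h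
        rw [hnm, Nat.mod_eq_of_lt (show 2 * p < m by omega)] at h1
        rcases lt_or_ge i m with hlt | hge
        · rw [Nat.mod_eq_of_lt hlt] at h1
          exact hi3 ⟨2, by omega⟩
        · rw [Nat.mod_eq_sub_mod hge, Nat.mod_eq_of_lt (by omega)] at h1; omega
      · have h1 := mod_eq_of_res_pow_eq hn hprim h
        rw [hnm, Nat.mod_eq_of_lt (show 2 < m by omega)] at h1
        rcases lt_or_ge i m with hlt | hge
        · rw [Nat.mod_eq_of_lt hlt] at h1; omega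
        · rw [Nat.mod_eq_sub_mod hge, Nat.mod_eq_of_lt (by omega)] at h1; omega)
    (fun g hg hgz y s => by
      have hzt : emb (z ^ p) = t ^ (p ^ 2 + 1) := by
        rw [hzp, map_pow, hεt, show p ^ 2 + 1 = (p ^ 2 - 1) + 2 by omega, pow_add, ht,
          ← res_pow (veq_zero_of_pow_eq_one (p := p) hT.n_pos.ne'
            (tchar_pow (p := p) hT.n_pos τ)).vge (p ^ 2 - 1), hprim.pow_eq_one, res_one, one_mul]
      show g (y • s) = emb (y ^ p) * g s
      exact semilinear_of_gen emb z S.card_field hzne hg (fun s => by rw [hgz, hzt]) y s)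
    (W := S.space) B (fun c => ⟨c.2.2 0 1, fun σ hσ => by
      rw [hz, SubmonoidClass.coe_pow, hεk]; exact entry₀₁_inert hσ hτ,
      fun σ hσ => by
        show cycIn p k (S.φ ^ 2) * S.entry 0 1 c.1 _ = _ * S.entry 0 1 c.1 σ
        rw [(entry_φ_sq hσ).2]⟩)
  haveI := hfin
  let Ψ := (LinearMap.funLeft k k (fun σ : Kn p (p ^ 2 - 1) => (σ : Gal))).comp B
  obtain ⟨L, hL1, hL2, hL3, hL4⟩ := exists_local_space S.space (fun c hc => hc.1) Ψ (fun c hc => by
    have h01 : ∀ σ ∈ Kn p (p ^ 2 - 1), S.entry 0 1 c.1 σ = 0 := fun σ hσ => congrFun hc ⟨σ, hσ⟩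
    have hall : ∀ σ ∈ Kn p (p ^ 2 - 1), (c : cocycles₁ (ad0 ρbar)) σ = 0 := by
      intro σ hσ
      have hσc := conj_mem_Kn hn hσ S.φ_mem
      obtain ⟨a1, a2, -, -⟩ := entry_φ (S := S) (c := c.1) hσc
      obtain ⟨b1, -, -, -⟩ := entry_φ (S := S) (c := c.1) hσ
      rw [show S.φ⁻¹ * (S.φ * σ * S.φ⁻¹) * S.φ = σ by group, h01 _ hσc] at a2
      have h10 := (mul_eq_zero.mp a2).resolve_left S.N_ne
      have h11 : S.entry 1 1 c.1 σ = 0 :=
        b1.symm.trans (hdiag c _ (conj_inv_mem_Kn hn hσ S.φ_mem))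
      refine cocycles_ext fun v => ?_
      show cocycleEnd ρbar c.1 σ v = 0
      rw [basis_decomp S.b v, map_add, map_smul, map_smul,
        basis_decomp S.b (cocycleEnd ρbar c.1 σ (S.b 0)),
        basis_decomp S.b (cocycleEnd ρbar c.1 σ (S.b 1))]
      show S.b.coord 0 v • (S.entry 0 0 c.1 σ • S.b 0 + S.entry 1 0 c.1 σ • S.b 1) +
        S.b.coord 1 v • (S.entry 0 1 c.1 σ • S.b 0 + S.entry 1 1 c.1 σ • S.b 1) = 0
      rw [hdiag c σ hσ, h10, h01 σ hσ, h11]
      simp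
    obtain ⟨T, hT'⟩ := S.eq_cob_of_trivial hp2 c.2.1 hall
    exact loc_eq_zero hT')
  exact ⟨L, hL1, hL2, hL3.trans hrank, hL4⟩

end SSData

end Fermat.Agent.FlatTangent
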