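import Fermat.Agent.FlatTangent.Data
import Fermat.Agent.TW.OrdinaryLine

/-!
# Models of a residual representation and of a flat deformation to the dual numbers

`exists_model_residual`: flatness of `ρbar` gives a model of its space; `exists_model_pair`: flatness
of the deformation of a cocycle `c` gives a model of `V × V` with the action of `c` changed by any
coboundary.
-/

set_option autoImplicit false
set_option linter.unusedSectionVars false
set_option linter.style.haveILetI false

noncomputable section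

open groupCohomology
open scoped TensorProduct DualNumber

namespace Fermat.Agent.FlatTangent

/-- A flat representation over a finite ring is, as a Galois module, the generic fibre of a finite
flat group scheme. -/
theorem hasFlatModelAt_of_isFlatAt {A : Type} [CommRing A] [IsLocalRing A] [Finite A]
    {ρ : GaloisRepAdic A} {p : ℕ} (h : ρ.IsFlatAt p) :
    FFG.HasFlatModelAt p fun σ x => ρ.ρ σ x := by
  have h1 := ((FFG.isFlatAt_iff ρ p).mp h).2 ⊥ (Finite.of_surjective _ Ideal.Quotient.mk_surjective)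
  let N : Submodule A ρ.V := (⊥ : Ideal A) • ⊤
  have hN : N = ⊥ := Submodule.bot_smul _
  let π : ρ.V ⧸ N →ₗ[A] ρ.V := N.liftQ LinearMap.id (by simp [hN])
  refine FFG.HasFlatModel.of_surjective h1 π.toAddMonoidHom (fun x => ⟨Submodule.Quotient.mk x, rfl⟩)
    fun σ x => ?_
  obtain ⟨x, rfl⟩ := Submodule.Quotient.mk_surjective _ x
  rfl

variable {k : Type} [Field k] [Finite k] (p : ℕ) [Fact p.Prime] [CharP k p]
  (ρbar : ResidualGaloisRep k) [Fintype ρbar.V] [DecidableEq ρbar.V]

/-- The model of a flat residual representation. -/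
theorem exists_model_residual
    (hflat : (GaloisRepAdic.ofResidualGaloisRep ρbar).IsFlatAt p) :
    Nonempty (Model p ρbar.V fun σ x => ρbar.ρ σ x) :=
  exists_model_of_hasFlatModel (hasFlatModelAt_of_isFlatAt hflat)

theorem shiftEnd_apply_ρ (c : cocycles₁ (TW.ad0 ρbar)) (T : TW.ad0 ρbar) (σ : Gal) (x : ρbar.V) :
    shiftEnd ρbar c T σ (ρbar.ρ σ x) =
      TW.cocycleEnd ρbar c σ (ρbar.ρ σ x) +
        (ρbar.ρ σ ((T : TW.adZeroSpace ρbar).1 x) - (T : TW.adZeroSpace ρbar).1 (ρbar.ρ σ x)) := by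
  show TW.cocycleEnd ρbar c σ (ρbar.ρ σ x) + (ρbar.ρ σ ((T : TW.adZeroSpace ρbar).1
    (ρbar.ρ σ⁻¹ (ρbar.ρ σ x))) - (T : TW.adZeroSpace ρbar).1 (ρbar.ρ σ x)) = _
  rw [show ρbar.ρ σ⁻¹ (ρbar.ρ σ x) = x from LinearMap.congr_fun (TW.rhoInvMul ρbar σ) x]

/-- The model of a flat deformation in the coordinates `x + ε y`, after a change by `T`. -/
theorem exists_model_pair (c : cocycles₁ (TW.ad0 ρbar))
    (hc : IsLevelConstant₁ (MonoidHom.id _) c) (hflat : (TW.adLift ρbar c hc).IsFlatAt p)
    (T : TW.ad0 ρbar) :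
    Nonempty (Model p (ρbar.V × ρbar.V) (pairAct ρbar (shiftEnd ρbar c T))) := by
  have : Finite (DualNumber k) :=
    Finite.of_injective (fun a => (TrivSqZeroExt.fst a, TrivSqZeroExt.snd a))
      fun a b h => TrivSqZeroExt.ext (congrArg Prod.fst h) (congrArg Prod.snd h)
  set T' : Module.End k ρbar.V := (T : TW.adZeroSpace ρbar).1
  let π : k[ε] ⊗[k] ρbar.V →+ ρbar.V × ρbar.V :=
    AddMonoidHom.prod (TW.dualFst ρbar).toAddMonoidHom
      (TW.dualSnd ρbar - T' ∘ₗ TW.dualFst ρbar).toAddMonoidHom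
  have hπ : Function.Surjective π := fun w =>
    ⟨(1 : k[ε]) ⊗ₜ w.1 + (DualNumber.eps : k[ε]) ⊗ₜ (w.2 + T' w.1), by ext <;> simp [π]⟩
  refine exists_model_of_hasFlatModel (FFG.HasFlatModel.of_surjective
    (hasFlatModelAt_of_isFlatAt hflat) (M := k[ε] ⊗[k] ρbar.V) π hπ fun σ w => ?_)
  show π (TW.adLiftEnd ρbar c σ w) = pairAct ρbar (shiftEnd ρbar c T) σ (π w)
  refine Prod.ext ?_ ?_
  · simp [π, pairAct, TW.dualFst_liftEnd]
  · simp [π, pairAct, TW.dualFst_liftEnd, TW.dualSnd_liftEnd, shiftEnd_apply_ρ, T']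
    abel

end Fermat.Agent.FlatTangent
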