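import Fermat.Agent.FlatTangent.KummerBound

/-!
# Cocycles of `ad⁰` on the decomposition group
-/

set_option autoImplicit false
set_option linter.unusedSectionVars false
set_option linter.style.haveILetI false
set_option maxSynthPendingDepth 3

noncomputable section

namespace Fermat.Agent.FlatTangent

open CategoryTheory groupCohomology ExtCitation Module
open TW (ad0 cocycleEnd cocycleEnd_mul ad0_rho_coe locPrime adZeroSpace)

variable {k : Type} [Field k] (ρbar : ResidualGaloisRep k)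

/-- The coboundary of `T`, as a cocycle. -/
def cobCocycle : ad0 ρbar →ₗ[k] cocycles₁ (ad0 ρbar) :=
  LinearMap.codRestrict (cocycles₁ (ad0 ρbar)) (d₀₁ (ad0 ρbar)).hom
    fun T => coboundaries₁_le_cocycles₁ (ad0 ρbar) ⟨T, rfl⟩

variable {ρbar}

theorem cobCocycle_apply (T : ad0 ρbar) (σ : Gal) :
    (cobCocycle ρbar T : Gal → ad0 ρbar) σ = (ad0 ρbar).ρ σ T - T :=
  d₀₁_hom_apply (ad0 ρbar) T σ

theorem cocycleEnd_add_cob (c : cocycles₁ (ad0 ρbar)) (T : ad0 ρbar) (σ : Gal) :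
    cocycleEnd ρbar (c + cobCocycle ρbar T) σ = shiftEnd ρbar c T σ := by
  show ((((c : Gal → ad0 ρbar) + (cobCocycle ρbar T : Gal → ad0 ρbar)) σ : ad0 ρbar) :
    adZeroSpace ρbar).1 = _
  rw [Pi.add_apply, cobCocycle_apply]
  rfl

theorem cocycleEnd_cob_comp (T : ad0 ρbar) (σ : Gal) (v : ρbar.V) :
    cocycleEnd ρbar (cobCocycle ρbar T) σ (ρbar.ρ σ v) =
      ρbar.ρ σ ((T : adZeroSpace ρbar).1 v) - (T : adZeroSpace ρbar).1 (ρbar.ρ σ v) := by
  show ((((cobCocycle ρbar T : Gal → ad0 ρbar) σ) : ad0 ρbar) : adZeroSpace ρbar).1 _ = _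
  rw [cobCocycle_apply]
  show (((ad0 ρbar).ρ σ T : adZeroSpace ρbar).1 - (T : adZeroSpace ρbar).1) _ = _
  rw [ad0_rho_coe, LinearMap.sub_apply, Module.End.mul_apply, Module.End.mul_apply,
    ← Module.End.mul_apply (ρbar.ρ σ⁻¹), TW.rhoInvMul, Module.End.one_apply]

/-- The cocycle relation evaluated on `ρ σ v`. -/
theorem cocycleEnd_mul_apply (c : cocycles₁ (ad0 ρbar)) (σ τ : Gal) (v : ρbar.V) :
    cocycleEnd ρbar c (σ * τ) (ρbar.ρ σ v) =
      ρbar.ρ σ (cocycleEnd ρbar c τ v) + cocycleEnd ρbar c σ (ρbar.ρ σ v) := by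
  rw [cocycleEnd_mul, LinearMap.add_apply, Module.End.mul_apply, Module.End.mul_apply,
    ← Module.End.mul_apply (ρbar.ρ σ⁻¹), TW.rhoInvMul, Module.End.one_apply]

theorem cocycleEnd_one (c : cocycles₁ (ad0 ρbar)) : cocycleEnd ρbar c 1 = 0 := by
  show ((c 1 : ad0 ρbar) : adZeroSpace ρbar).1 = 0
  rw [cocycles₁_map_one]
  rfl

theorem trace_eq_zero (T : adZeroSpace ρbar) (b : Basis (Fin 2) k ρbar.V) :
    b.coord 0 (T.1 (b 0)) + b.coord 1 (T.1 (b 1)) = 0 := by
  have h : LinearMap.trace k ρbar.V T.1 = 0 := T.2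
  rw [LinearMap.trace_eq_matrix_trace k b, Matrix.trace_fin_two, LinearMap.toMatrix_apply,
    LinearMap.toMatrix_apply] at h
  exact h

theorem basis_decomp (b : Basis (Fin 2) k ρbar.V) (v : ρbar.V) :
    v = b.coord 0 v • b 0 + b.coord 1 v • b 1 := by
  conv_lhs => rw [← b.sum_repr v, Fin.sum_univ_two]
  rfl

theorem cocycles_ext {c : cocycles₁ (ad0 ρbar)} {σ : Gal} {T : ad0 ρbar}
    (h : ∀ v, cocycleEnd ρbar c σ v = (T : adZeroSpace ρbar).1 v) : c σ = T :=
  Subtype.ext (LinearMap.ext h)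

theorem cocycle_mul {c : cocycles₁ (ad0 ρbar)} (σ τ : Gal) :
    c (σ * τ) = (ad0 ρbar).ρ σ (c τ) + c σ :=
  (mem_cocycles₁_iff c.1).1 c.2 σ τ

/-- A level for a cocycle and the representation. -/
theorem exists_level {c : cocycles₁ (ad0 ρbar)}
    (hc : IsLevelConstant₁ (MonoidHom.id Gal) c) :
    ∃ F : IntermediateField ℚ Qb, ∃ _ : FiniteDimensional ℚ F,
      (∀ σ ∈ F.fixingSubgroup, cocycleEnd ρbar c σ = 0) ∧
      (∀ σ ∈ F.fixingSubgroup, ρbar.ρ σ = 1) ∧
      ∀ g, ∀ σ ∈ F.fixingSubgroup, c (g * σ) = c g := by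
  obtain ⟨F, hF, hcF⟩ := hc
  obtain ⟨L, hL, hρL⟩ := ρbar.factorsThroughFiniteLevel
  haveI := hF
  haveI := hL
  have hle1 : (F ⊔ L).fixingSubgroup ≤ F.fixingSubgroup :=
    IntermediateField.fixingSubgroup_antitone le_sup_left
  have hle2 : (F ⊔ L).fixingSubgroup ≤ L.fixingSubgroup :=
    IntermediateField.fixingSubgroup_antitone le_sup_right
  refine ⟨F ⊔ L, IntermediateField.finiteDimensional_sup F L, fun σ hσ => ?_, fun σ hσ => ?_,
    fun g σ hσ => hcF g σ (hle1 hσ)⟩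
  · have h1 : c (1 * σ) = c 1 := hcF 1 σ (hle1 hσ)
    rw [one_mul, cocycles₁_map_one] at h1
    show ((c σ : ad0 ρbar) : adZeroSpace ρbar).1 = 0
    rw [h1]
    rfl
  · exact hρL σ fun x hx => (IntermediateField.mem_fixingSubgroup_iff _ _).1 (hle2 hσ) x hx

theorem isLevelConstant_cob (T : ad0 ρbar) :
    IsLevelConstant₁ (MonoidHom.id Gal) (cobCocycle ρbar T) := by
  obtain ⟨F, hF, hρF⟩ := ρbar.factorsThroughFiniteLevel
  refine ⟨F, hF, fun g σ hσ => ?_⟩
  have h1 : (ad0 ρbar).ρ σ T = T := by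
    refine Subtype.ext ?_
    rw [ad0_rho_coe, hρF σ fun x hx => (IntermediateField.mem_fixingSubgroup_iff _ _).1 hσ x hx,
      hρF σ⁻¹ fun x hx => (IntermediateField.mem_fixingSubgroup_iff _ _).1 (inv_mem hσ) x hx,
      one_mul, mul_one]
  show (cobCocycle ρbar T : Gal → ad0 ρbar) (g * σ) = (cobCocycle ρbar T : Gal → ad0 ρbar) g
  rw [cobCocycle_apply, cobCocycle_apply, map_mul, Module.End.mul_apply, h1]

section Local

variable {p : ℕ} [Fact p.Prime]

/-- A cocycle killing Frobenius and inertia kills the decomposition group. -/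
theorem eq_zero_on_dec {c : cocycles₁ (ad0 ρbar)} (hc : IsLevelConstant₁ (MonoidHom.id Gal) c)
    {φ : Gal} (hφ : (plc p).IsFrobeniusAt φ p) (hφ0 : c φ = 0)
    (hI : ∀ σ ∈ inert p, c σ = 0) : ∀ σ ∈ dec p, c σ = 0 := by
  intro σ hσ
  obtain ⟨F, _, -, -, hF⟩ := exists_level hc
  obtain ⟨m, i, hi, hfix⟩ :=
    Galois.exists_pow_inertia_fixing (plc_liesOverPrime p) Fact.out F hφ hσ
  have hpow : ∀ m : ℕ, c (φ ^ m) = 0 := by
    intro m
    induction m with
    | zero => rw [pow_zero, cocycles₁_map_one]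
    | succ m ih =>
      rw [pow_succ, cocycle_mul, hφ0, map_zero, zero_add, ih]
  have h := hF (φ ^ m * i) _ hfix
  rw [mul_inv_cancel_left] at h
  rw [h, cocycle_mul, hI i hi, map_zero, zero_add, hpow]

/-- Inertia is generated by `τ` and `Kn p n`. -/
theorem exists_pow_mul_Kn {n : ℕ} (hn : ¬ p ∣ n) {τ : Gal} (hτ : τ ∈ inert p)
    (hprim : IsPrimitiveRoot (tchar p n τ) n) {σ : Gal} (hσ : σ ∈ inert p) :
    ∃ i : ℕ, (τ ^ i)⁻¹ * σ ∈ Kn p n := by
  have hn0 := pos_of_not_dvd hn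
  haveI : NeZero n := ⟨hn0.ne'⟩
  obtain ⟨i, -, hi⟩ := hprim.eq_pow_of_pow_eq_one (tchar_pow (p := p) hn0 σ)
  refine ⟨i, (mem_Kn_iff_tchar hn0).mpr ⟨mul_mem (inv_mem (pow_mem hτ i)) hσ, ?_⟩⟩
  rw [tchar_mul hn (inv_mem (pow_mem hτ i)), tchar_inv hn (pow_mem hτ i), tchar_pow_apply hn hτ,
    ← hi, inv_mul_cancel₀ (pow_ne_zero i (hprim.ne_zero hn0.ne'))]

/-- Averaging: a cocycle killing `Kn p n` is a coboundary on inertia. -/
theorem eq_cob_on_inert {n : ℕ} (hn : ¬ p ∣ n) [CharP k p] {τ : Gal} (hτ : τ ∈ inert p)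
    (hprim : IsPrimitiveRoot (tchar p n τ) n) {c : cocycles₁ (ad0 ρbar)}
    (hK : ∀ σ ∈ Kn p n, c σ = 0) (W : Submodule k (ad0 ρbar))
    (hW : ∀ σ ∈ inert p, c σ ∈ W) (hfix : ∀ σ ∈ Kn p n, ∀ X ∈ W, (ad0 ρbar).ρ σ X = X) :
    ∃ T ∈ W, ∀ σ ∈ inert p, c σ = (ad0 ρbar).ρ σ T - T := by
  have hn0 := pos_of_not_dvd hn
  have hnk : (n : k) ≠ 0 := fun h => hn ((CharP.cast_eq_zero_iff k p n).mp h)
  set S := ∑ i ∈ Finset.range n, c (τ ^ i) with hS
  have hSW : S ∈ W := Submodule.sum_mem _ fun i _ => hW _ (pow_mem hτ i)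
  have hτn : τ ^ n ∈ Kn p n := (mem_Kn_iff_tchar hn0).mpr ⟨pow_mem hτ n, by
    rw [tchar_pow_apply hn hτ, hprim.pow_eq_one]⟩
  have hshift : S = (ad0 ρbar).ρ τ S + (n : k) • c τ := by
    have h1 : ∑ i ∈ Finset.range n, c (τ ^ (i + 1)) = S := by
      have h2 := Finset.sum_range_succ' (fun i => c (τ ^ i)) n
      rw [Finset.sum_range_succ, pow_zero, cocycles₁_map_one, add_zero, hK _ hτn, add_zero] at h2
      exact h2.symm
    rw [← h1]
    conv_lhs => arg 2; ext i; rw [pow_succ', cocycle_mul]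
    rw [Finset.sum_add_distrib, ← map_sum, Finset.sum_const, Finset.card_range,
      ← Nat.cast_smul_eq_nsmul k, h1]
  set T := -((n : k)⁻¹ • S) with hT
  have hTW : T ∈ W := neg_mem (Submodule.smul_mem _ _ hSW)
  have hTτ : c τ = (ad0 ρbar).ρ τ T - T := by
    rw [hT, map_neg, map_smul, neg_sub_neg]
    refine Eq.trans ?_ (smul_sub _ _ _)
    rw [show S - (ad0 ρbar).ρ τ S = (n : k) • c τ from sub_eq_of_eq_add' hshift,
      smul_smul, inv_mul_cancel₀ hnk, one_smul]
  have hpow : ∀ i : ℕ, c (τ ^ i) = (ad0 ρbar).ρ (τ ^ i) T - T := by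
    intro i
    induction i with
    | zero => rw [pow_zero, cocycles₁_map_one, map_one, Module.End.one_apply, sub_self]
    | succ i ih =>
      rw [pow_succ, cocycle_mul, hTτ, ih, map_sub, map_mul,
        Module.End.mul_apply]
      abel
  refine ⟨T, hTW, fun σ hσ => ?_⟩
  obtain ⟨i, hi⟩ := exists_pow_mul_Kn hn hτ hprim hσ
  have e : σ = τ ^ i * ((τ ^ i)⁻¹ * σ) := (mul_inv_cancel_left _ _).symm
  rw [e, cocycle_mul, hK _ hi, map_zero, zero_add, hpow, map_mul,
    Module.End.mul_apply, hfix _ hi T hTW]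

/-- Classes which are coboundaries on the decomposition group die locally. -/
theorem loc_eq_zero {c : cocycles₁ (ad0 ρbar)} {T : ad0 ρbar}
    (h : ∀ σ ∈ dec p, c σ = (ad0 ρbar).ρ σ T - T) :
    locPrime (pPrime p) (ad0 ρbar) ((H1π (ad0 ρbar)).hom c) = 0 := by
  refine (H1π_comp_map_apply (primeLocalToGlobal (pPrime p))
    (𝟙 (Rep.res (primeLocalToGlobal (pPrime p)) (ad0 ρbar))) c).trans ?_
  refine (H1π_eq_zero_iff _).2 ⟨T, funext fun τ => ?_⟩
  rw [d₀₁_hom_apply]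
  exact (h _ (localGaloisToGlobal_mem_decompositionSubgroup p τ)).symm

variable [Finite k]

set_option synthInstance.maxHeartbeats 400000 in
-- nested submodules of cochains make instance search slow
/-- The local space cut out by a space of global cocycles. -/
theorem exists_local_space (Z : Submodule k (cocycles₁ (ad0 ρbar)))
    (hZ : ∀ c ∈ Z, IsLevelConstant₁ (MonoidHom.id Gal) c) {U : Type} [AddCommGroup U] [Module k U]
    (Ψ : Z →ₗ[k] U) [FiniteDimensional k (LinearMap.range Ψ)]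
    (hker : ∀ c : Z, Ψ c = 0 → locPrime (pPrime p) (ad0 ρbar) ((H1π (ad0 ρbar)).hom c.1) = 0) :
    ∃ L : Submodule k (H1 (Rep.res (primeLocalToGlobal (pPrime p)) (ad0 ρbar))),
      L ≤ continuousH1 (primeLocalToGlobal (pPrime p))
          (Rep.res (primeLocalToGlobal (pPrime p)) (ad0 ρbar)) ∧
      FiniteDimensional k L ∧ finrank k L ≤ finrank k (LinearMap.range Ψ) ∧
      ∀ (c : cocycles₁ (ad0 ρbar)) (T : ad0 ρbar), c + cobCocycle ρbar T ∈ Z →
        locPrime (pPrime p) (ad0 ρbar) ((H1π (ad0 ρbar)).hom c) ∈ L := by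
  let f : Z →ₗ[k] H1 (Rep.res (primeLocalToGlobal (pPrime p)) (ad0 ρbar)) :=
    ((locPrime (pPrime p) (ad0 ρbar)).comp (H1π (ad0 ρbar)).hom).comp Z.subtype
  obtain ⟨sec, hsec⟩ := LinearMap.exists_rightInverse_of_surjective Ψ.rangeRestrict
    Ψ.range_rangeRestrict
  let g : LinearMap.range Ψ →ₗ[k] H1 (Rep.res (primeLocalToGlobal (pPrime p)) (ad0 ρbar)) :=
    f.comp sec
  have hfg : ∀ z, f z = g (Ψ.rangeRestrict z) := fun z => by
    have h1 : Ψ.rangeRestrict (sec (Ψ.rangeRestrict z)) = Ψ.rangeRestrict z :=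
      LinearMap.congr_fun hsec _
    have h2 := hker (z - sec (Ψ.rangeRestrict z))
      (by rw [map_sub, sub_eq_zero]; exact (congrArg Subtype.val h1).symm)
    have h3 : f (z - sec (Ψ.rangeRestrict z)) = 0 := h2
    rw [map_sub, sub_eq_zero] at h3
    exact h3
  have hrange : LinearMap.range f = LinearMap.range g := le_antisymm
    (by rintro _ ⟨z, rfl⟩; exact ⟨_, (hfg z).symm⟩) (LinearMap.range_comp_le_range _ _)
  refine ⟨LinearMap.range f, ?_, hrange ▸ inferInstance, ?_, fun c T hcT => ?_⟩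
  · rintro _ ⟨c, rfl⟩
    obtain ⟨F, hF, hcF⟩ := hZ c c.2
    rw [LinearMap.comp_apply, LinearMap.comp_apply]
    refine (congrArg (· ∈ _) (H1π_comp_map_apply (primeLocalToGlobal (pPrime p))
      (𝟙 (Rep.res (primeLocalToGlobal (pPrime p)) (ad0 ρbar))) c.1)).mpr ?_
    refine H1π_mem_continuousH1 _ _ ⟨F, hF, fun g s hs => ?_⟩
    show c.1 (primeLocalToGlobal (pPrime p) (g * s)) = c.1 (primeLocalToGlobal (pPrime p) g)
    rw [map_mul]
    exact hcF _ _ hs
  · rw [hrange]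
    exact g.finrank_range_le
  · refine ⟨⟨_, hcT⟩, ?_⟩
    show locPrime (pPrime p) (ad0 ρbar) ((H1π (ad0 ρbar)).hom (c + cobCocycle ρbar T)) = _
    rw [map_add, show (H1π (ad0 ρbar)).hom (cobCocycle ρbar T) = 0 from
      (H1π_eq_zero_iff _).2 ⟨T, rfl⟩, add_zero]

/-- A line of values on the first factor and a bound on its kernel. -/
theorem finrank_range_prod_le {Z V : Type} [AddCommGroup Z] [Module k Z] [AddCommGroup V]
    [Module k V] (a : Z →ₗ[k] k) (R : Z →ₗ[k] V)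
    [FiniteDimensional k (LinearMap.range (R.comp (LinearMap.ker a).subtype))]
    (h : finrank k (LinearMap.range (R.comp (LinearMap.ker a).subtype)) ≤ 1) :
    FiniteDimensional k (LinearMap.range (a.prod R)) ∧
      finrank k (LinearMap.range (a.prod R)) ≤ 2 := by
  set K : Submodule k (k × V) :=
    (LinearMap.range (R.comp (LinearMap.ker a).subtype)).map (LinearMap.inr k k V)
  have hK : finrank k K ≤ 1 := (Submodule.finrank_map_le _ _).trans h
  obtain ⟨c₁, hc₁⟩ : ∃ c₁ : Z, ∀ c, a (c - a c • c₁) = 0 := by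
    by_cases ha : a = 0
    · exact ⟨0, fun c => by simp [ha]⟩
    · obtain ⟨z, hz⟩ := DFunLike.ne_iff.mp ha
      exact ⟨(a z)⁻¹ • z, fun c => by simp [show a z ≠ 0 from hz]⟩
  have hle : LinearMap.range (a.prod R) ≤ Submodule.span k {(a.prod R) c₁} ⊔ K := by
    rintro _ ⟨c, rfl⟩
    refine Submodule.mem_sup.mpr ⟨a c • (a.prod R) c₁,
      Submodule.smul_mem _ _ (Submodule.mem_span_singleton_self _), (a.prod R) (c - a c • c₁),
      ⟨R (c - a c • c₁), ⟨⟨c - a c • c₁, hc₁ c⟩, rfl⟩, ?_⟩, ?_⟩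
    · simp [hc₁ c]
    · rw [map_sub, map_smul]; abel
  refine ⟨Submodule.finiteDimensional_of_le hle, ?_⟩
  refine (Submodule.finrank_mono hle).trans ((Submodule.finrank_add_le_finrank_add_finrank _ _).trans ?_)
  exact Nat.add_le_add ((finrank_span_le_card _).trans (by simp)) hK

end Local

theorem exists_apply_eq_of_pow {F κ : Type*} [Field F] [Fintype F] [Field κ] (emb : F →+* κ) {x : κ}
    (hx : x ^ Fintype.card F = x) : ∃ y, emb y = x := by
  classical
  by_contra! hne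
  let P : Polynomial κ := Polynomial.X ^ Fintype.card F - Polynomial.X
  have h1 : 1 < Fintype.card F := Fintype.one_lt_card
  have hne' : P ≠ 0 := FiniteField.X_pow_card_sub_X_ne_zero κ h1
  have hsub : insert x (Finset.univ.image emb) ⊆ P.roots.toFinset := by
    intro y hy
    rw [Multiset.mem_toFinset, Polynomial.mem_roots hne']
    rcases Finset.mem_insert.mp hy with rfl | hy
    · simp [P, Polynomial.IsRoot, hx]
    · obtain ⟨z, -, rfl⟩ := Finset.mem_image.mp hy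
      simp [P, Polynomial.IsRoot, ← map_pow, FiniteField.pow_card]
  have h2 := Finset.card_le_card hsub
  rw [Finset.card_insert_of_notMem (by simpa using fun z => hne z),
    Finset.card_image_of_injective _ emb.injective, Finset.card_univ] at h2
  have h3 := le_trans (Multiset.toFinset_card_le _) (Polynomial.card_roots' P)
  have h4 : P.natDegree = Fintype.card F := FiniteField.X_pow_card_sub_X_natDegree_eq κ h1
  omega

end Fermat.Agent.FlatTangent
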