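import Fermat.Agent.FlatTangent.PlaneData

/-!
# The coordinate of a plane is small

On an extension of two tame lines of order `p ^ 2` killed by `p`, the coefficient of the quotient
coordinate in the equation of `y` is not a unit; hence `v (y m) > 1 / (q n)` for every point `m`.
-/

set_option autoImplicit false
set_option linter.unusedSectionVars false
set_option linter.style.haveILetI false

noncomputable section

namespace Fermat.Agent.FlatTangent

open Matrix Polynomial

variable {p : ℕ} [Fact p.Prime]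

theorem Model.inSpan_prod_coeff {M : Type} [AddCommGroup M] [Fintype M] [DecidableEq M]
    {act : Gal → M → M} (R : Model p M act) {ι : Type*} (s : Finset ι) (f : ι → M → Qb)
    (hf : ∀ i ∈ s, InSpan p R.E (f i)) (k : ℕ) :
    InSpan p R.E fun m => (∏ i ∈ s, (Polynomial.X - Polynomial.C (f i m))).coeff k := by
  classical
  induction s using Finset.induction generalizing k with
  | empty =>
    simp only [Finset.prod_empty, Polynomial.coeff_one]
    by_cases hk : k = 0
    · simpa [hk] using R.inSpan_const veq_one.vge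
    · simpa [hk] using R.inSpan_const (vge_zero 0)
  | @insert a s has ih =>
    have ih' := ih fun i hi => hf i (Finset.mem_insert_of_mem hi)
    have ha := hf a (Finset.mem_insert_self a s)
    simp only [Finset.prod_insert has, sub_mul, Polynomial.coeff_sub, Polynomial.coeff_C_mul]
    cases k with
    | zero =>
      simp only [Polynomial.mul_coeff_zero, Polynomial.coeff_X_zero, zero_mul, zero_sub]
      exact (R.inSpan_mul ha (ih' 0)).neg
    | succ k =>
      simp only [Polynomial.coeff_X_mul]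
      exact (ih' k).sub (R.inSpan_mul ha (ih' (k + 1)))

variable {F : Type} [Field F] [Fintype F] [DecidableEq F] [Algebra (ZMod p) F]
  {M : Type} [AddCommGroup M] [Fintype M] [DecidableEq M]
  {act : Gal → M → M} {η₁ η₂ : Gal → F} {n : ℕ} {D : PlaneData p act η₁ η₂ n}
  {R : Model p M act}

namespace PlaneData.Coords

variable (C : D.Coords R)

/-- The equation of `y` over the quotient coordinate. -/
def eqn (m : M) : Qb[X] := ∏ d : F, (Polynomial.X - Polynomial.C (C.y (m + D.ι d)))

theorem natDegree_eqn (m : M) : (C.eqn m).natDegree = n + 1 := by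
  rw [eqn, Polynomial.natDegree_prod_of_monic _ _ fun d _ => Polynomial.monic_X_sub_C _]
  simp [D.char₁.card]

theorem monic_eqn (m : M) : (C.eqn m).Monic :=
  Polynomial.monic_prod_of_monic _ _ fun d _ => Polynomial.monic_X_sub_C _

theorem eval_eqn (m : M) (d : F) : (C.eqn m).eval (C.y (m + D.ι d)) = 0 := by
  rw [eqn, Polynomial.eval_prod]
  exact Finset.prod_eq_zero (Finset.mem_univ d) (by simp)

theorem eqn_zero : C.eqn 0 = Polynomial.X ^ (n + 1) + Polynomial.C (p : Qb) * Polynomial.X := by
  have hn := D.n_pos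
  have hlt : (Polynomial.C (p : Qb) * Polynomial.X).natDegree < n + 1 :=
    lt_of_le_of_lt (Polynomial.natDegree_C_mul_le _ _) (by rw [Polynomial.natDegree_X]; omega)
  set Q := Polynomial.X ^ (n + 1) + Polynomial.C (p : Qb) * Polynomial.X with hQ
  have hQd : Q.natDegree = n + 1 := by
    rw [hQ, Polynomial.natDegree_add_eq_left_of_natDegree_lt (by rwa [Polynomial.natDegree_X_pow]),
      Polynomial.natDegree_X_pow]
  have hQm : Q.Monic := by
    refine Polynomial.Monic.add_of_left (Polynomial.monic_X_pow _) ?_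
    rw [Polynomial.degree_X_pow]
    exact lt_of_le_of_lt Polynomial.degree_le_natDegree (by exact_mod_cast hlt)
  rw [← sub_eq_zero]
  refine Polynomial.eq_zero_of_natDegree_lt_card_of_eval_eq_zero _
    (f := fun d : F => C.y (0 + D.ι d)) ?_ (fun d => ?_) ?_
  · intro a b hab
    by_contra hne
    exact (C.veq_sub' 0 hne).ne_zero (sub_eq_zero.mpr hab)
  · rw [Polynomial.eval_sub, C.eval_eqn 0 d, zero_sub, neg_eq_zero, hQ, zero_add]
    simp only [Polynomial.eval_add, Polynomial.eval_mul, Polynomial.eval_pow, Polynomial.eval_X,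
      Polynomial.eval_C]
    by_cases hd : d = 0
    · subst hd; rw [map_zero, C.y_zero]; simp
    · rw [pow_succ, C.y_ι_pow d hd]; ring
  · rw [D.char₁.card]
    have h1 : (C.eqn 0 - Q).degree < (C.eqn 0).degree := by
      refine Polynomial.degree_sub_lt ?_ (C.monic_eqn 0).ne_zero
        ((C.monic_eqn 0).leadingCoeff.trans hQm.leadingCoeff.symm)
      rw [Polynomial.degree_eq_natDegree (C.monic_eqn 0).ne_zero,
        Polynomial.degree_eq_natDegree hQm.ne_zero, C.natDegree_eqn, hQd]
    rw [Polynomial.degree_eq_natDegree (C.monic_eqn 0).ne_zero, C.natDegree_eqn] at h1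
    by_cases h0 : C.eqn 0 - Q = 0
    · rw [h0, Polynomial.natDegree_zero]; omega
    · exact (Polynomial.natDegree_lt_iff_degree_lt h0).mpr h1

include C in
/-- The coefficients of the equation of `y` are integral polynomials in the quotient coordinate. -/
theorem exists_eqn_coeff (k : ℕ) : ∃ β : Fin (n + 1) → Qb, (∀ a, VGE p 0 (β a)) ∧
    (∀ a, InU p (β a)) ∧ ∀ m, (C.eqn m).coeff k = ∑ a, β a * C.xh m ^ (a : ℕ) := by
  have hinv : ∀ m d, C.eqn (m + D.ι d) = C.eqn m := by
    intro m d
    rw [eqn, eqn, ← Equiv.prod_comp (Equiv.addLeft d)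
      (fun d' => Polynomial.X - Polynomial.C (C.y (m + D.ι d')))]
    exact Finset.prod_congr rfl fun d' _ => by rw [Equiv.coe_addLeft, map_add, add_assoc]
  let g : F → Qb := fun c => (C.eqn (D.s c)).coeff k
  have hg : ∀ m, (C.eqn m).coeff k = g (D.π m) := fun m => by
    obtain ⟨d, hd⟩ := D.exists_eq_s_add m
    conv_lhs => rw [hd, hinv]
  have hmap : ∀ σ ∈ inert p, ∀ m, C.eqn (act σ m) = (C.eqn m).map (σ : Qb →+* Qb) := by
    intro σ hσ m
    rw [eqn, eqn, Polynomial.map_prod,
      ← Equiv.prod_comp (Equiv.mulLeft₀ (η₁ σ) (D.char₁.ne_zero hσ))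
        (fun d => Polynomial.X - Polynomial.C (C.y (act σ m + D.ι d)))]
    refine Finset.prod_congr rfl fun d _ => ?_
    rw [Polynomial.map_sub, Polynomial.map_X, Polynomial.map_C, Equiv.mulLeft₀_apply,
      D.ι_act σ hσ, ← R.isAct.map_add σ hσ, C.mem_y.1 σ hσ]
    rfl
  have hge : IEquiv p (mulAct η₂) g := fun σ hσ c => by
    show g (η₂ σ * c) = σ (g c)
    conv_lhs => rw [← D.π_s c, ← D.π_act σ hσ, ← hg, hmap σ hσ, Polynomial.coeff_map]
    rfl
  have hgs : InSpan p R.E fun m => g (D.π m) := by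
    have := R.inSpan_prod_coeff (Finset.univ : Finset F) (fun d m => C.y (m + D.ι d))
      (fun d _ => R.inSpan_translate C.mem_y.2 (D.ι d)) k
    convert this using 1
    funext m
    exact (hg m).symm
  obtain ⟨β, hβ, hβ', hβU⟩ := C.L₂.exists_expansion D.char₂ C.disc₂ (C.descend g hge hgs)
  exact ⟨β, hβ, hβU hge, fun m => (hg m).trans (hβ' _)⟩

theorem xh_pow_reduce (m : M) (i : ℕ) (hi : n + 1 ≤ i) :
    C.xh m ^ i = -(p : Qb) * C.xh m ^ (i - n) := by
  have hn := D.n_pos
  by_cases h : D.π m = 0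
  · rw [xh, h, C.L₂.map_zero, zero_pow (by omega), zero_pow (by omega), mul_zero]
  · obtain ⟨σ, hσ, hση⟩ := C.L₂.surj _ h
    have h1 : C.xh m ^ n = -(p : Qb) := by
      rw [xh, ← hση, C.L₂.apply_char hn hσ, mul_pow, tchar_pow hn, one_mul, piRoot_pow hn]
    rw [← h1, ← pow_add]
    congr 1
    omega

theorem eq_sum_mono {f : M → Qb} {c : M → Qb} (hc : ∀ m, f m = ∑ i, c i * C.mono i m) :
    c = f ᵥ* C.mono⁻¹ := by
  have hf : f = c ᵥ* C.mono := funext hc
  rw [hf, Matrix.vecMul_vecMul, Matrix.mul_nonsing_inv _ (Ne.isUnit C.veq_mono_det.ne_zero),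
    Matrix.vecMul_one]

variable [Module (ZMod p) M]

include C in
/-- The coefficient of the quotient coordinate in the equation of `y` is not a unit. -/
theorem vgt_eqn_coeff {β : Fin (n + 1) → Qb} (hβ : ∀ a, VGE p 0 (β a))
    (hβ' : ∀ m, (C.eqn m).coeff 0 = ∑ a, β a * C.xh m ^ (a : ℕ)) (a₁ : Fin (n + 1))
    (ha₁ : (a₁ : ℕ) = 1) : VGT p 0 (β a₁) := by
  by_contra hunit
  have hp := (Fact.out : p.Prime)
  have hn := D.n_pos
  have hβ1 : VEQ p 0 (β a₁) := le_antisymm (hβ a₁) (not_lt.mp hunit)
  set lam : Qb := -(p : Qb) / β a₁ with hlamdef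
  have hlam : VGE p 1 lam := by simpa using (veq_cast_self (p := p)).neg.vge.div hβ1
  let i₁₀ : M := mi D a₁ 0
  let i₀₁ : M := mi D 0 a₁
  let W : ℕ → ℕ → Qb := fun a b =>
    if a = 1 ∧ b = 0 then lam else if a = 0 ∧ b = 1 then 1 else 0
  let Δ : (M → Qb) →ₗ[Qb] Qb :=
    lam • ((LinearMap.proj i₁₀) ∘ₗ Matrix.vecMulLinear C.mono⁻¹) +
      ((LinearMap.proj i₀₁) ∘ₗ Matrix.vecMulLinear C.mono⁻¹)
  have hΔ : ∀ f, Δ f = lam * (f ᵥ* C.mono⁻¹) i₁₀ + (f ᵥ* C.mono⁻¹) i₀₁ := fun f => by
    simp [Δ]
  have hΔm : ∀ a b : Fin (n + 1), Δ (C.mono (mi D a b)) = W a b := by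
    intro a b
    have h1 : C.mono (mi D a b) ᵥ* C.mono⁻¹ = Pi.single (mi D a b) 1 :=
      (C.eq_sum_mono fun m => by simp [Pi.single_apply]).symm
    rw [hΔ, h1]
    simp only [Pi.single_apply, i₁₀, i₀₁, mi_eq_iff, W, Fin.ext_iff, Fin.val_zero, ha₁,
      eq_comm (a := 1), eq_comm (a := 0)]
    split_ifs <;> simp_all
  -- values on monomials
  have hred : ∀ (i : ℕ) (k : Fin (n + 1)),
      VGE p 2 (Δ (fun m => C.xh m ^ i * C.y m ^ (k : ℕ)) - W i k) := by
    intro i
    induction i using Nat.strong_induction_on with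
    | _ i ih =>
      intro k
      by_cases hi : i < n + 1
      · have : (fun m => C.xh m ^ i * C.y m ^ (k : ℕ)) = C.mono (mi D ⟨i, hi⟩ k) :=
          funext fun m => (C.mono_mi ⟨i, hi⟩ k m).symm
        rw [this, hΔm, sub_self]
        exact vge_zero 2
      · have hW0 : W i k = 0 := by
          simp only [W]
          split_ifs with h1 h2
          · omega
          · omega
          · rfl
        have : (fun m => C.xh m ^ i * C.y m ^ (k : ℕ)) =
            -(p : Qb) • fun m => C.xh m ^ (i - n) * C.y m ^ (k : ℕ) := funext fun m => by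
          rw [Pi.smul_apply, smul_eq_mul, C.xh_pow_reduce m i (by omega), mul_assoc]
        rw [this, map_smul, smul_eq_mul, hW0, sub_zero]
        have h1 : VGE p 1 (W (i - n) k) := by
          simp only [W]
          split_ifs with h2 h3
          · exact hlam
          · omega
          · exact vge_zero 1
        have h2 := ((ih (i - n) (by omega) k).mono (by norm_num : (1 : ℝ) ≤ 2)).add h1
        rw [sub_add_cancel] at h2
        exact ((veq_cast_self (p := p)).neg.vge.mul h2).mono (by norm_num)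
  -- coefficients of the equation
  choose γ hγ hγU hγ' using C.exists_eqn_coeff
  have hγ0 : ∀ k, γ k 0 = (Polynomial.X ^ (n + 1) + Polynomial.C (p : Qb) * Polynomial.X).coeff k :=
    fun k => by
      rw [← C.eqn_zero, hγ' k 0, Finset.sum_eq_single 0]
      · simp
      · intro a _ ha
        rw [C.xh_zero, zero_pow fun h => ha (Fin.ext h), mul_zero]
      · simp
  have hγ1 : γ 0 a₁ = β a₁ := by
    have key : ∀ (δ : Fin (n + 1) → Qb), (∀ m, (C.eqn m).coeff 0 = ∑ a, δ a * C.xh m ^ (a : ℕ)) →
        (fun m => (C.eqn m).coeff 0) ᵥ* C.mono⁻¹ =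
          fun i => ∑ a, if i = mi D a 0 then δ a else 0 := fun δ hδ => by
      refine (C.eq_sum_mono fun m => ?_).symm
      simp only [Finset.sum_mul, ite_mul, zero_mul]
      rw [Finset.sum_comm, hδ m]
      exact Finset.sum_congr rfl fun a _ => by simp [C.mono_mi]
    have h := congrFun ((key _ (hγ' 0)).symm.trans (key _ hβ')) (mi D a₁ 0)
    simpa [mi_eq_iff] using h
  -- `Δ (x f)` and `Δ (y f)` on monomials
  have hxm : ∀ a b : Fin (n + 1),
      VGE p 2 (Δ (C.xh * C.mono (mi D a b)) - lam * C.mono (mi D a b) 0) := by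
    intro a b
    have : C.xh * C.mono (mi D a b) = fun m => C.xh m ^ ((a : ℕ) + 1) * C.y m ^ (b : ℕ) :=
      funext fun m => by rw [Pi.mul_apply, C.mono_mi, pow_succ]; ring
    rw [this]
    convert hred ((a : ℕ) + 1) b using 2
    rw [C.mono_mi, C.xh_zero, C.y_zero]
    by_cases h : (a : ℕ) = 0 ∧ (b : ℕ) = 0
    · simp [W, h.1, h.2]
    · simp only [W]
      rw [if_neg (fun h' => h ⟨by omega, h'.2⟩), if_neg (by omega)]
      rcases not_and_or.mp h with h1 | h1 <;> simp [h1]
  have hym : ∀ a b : Fin (n + 1),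
      VGE p 2 (Δ (C.y * C.mono (mi D a b)) - C.mono (mi D a b) 0) := by
    intro a b
    rw [C.mono_mi, C.xh_zero, C.y_zero]
    by_cases hb : (b : ℕ) < n
    · have : C.y * C.mono (mi D a b) =
          fun m => C.xh m ^ (a : ℕ) * C.y m ^ ((⟨(b : ℕ) + 1, by omega⟩ : Fin (n + 1)) : ℕ) :=
        funext fun m => by rw [Pi.mul_apply, C.mono_mi]; simp only [pow_succ]; ring
      rw [this]
      convert hred (a : ℕ) ⟨(b : ℕ) + 1, by omega⟩ using 2
      by_cases h : (a : ℕ) = 0 ∧ (b : ℕ) = 0
      · simp [W, h.1, h.2]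
      · simp only [W]
        rw [if_neg (by omega), if_neg (fun h' => h ⟨h'.1, by omega⟩)]
        rcases not_and_or.mp h with h1 | h1 <;> simp [h1]
    · have hbn : (b : ℕ) = n := by omega
      have : C.y * C.mono (mi D a b) = -∑ k : Fin (n + 1), ∑ a' : Fin (n + 1),
          γ k a' • fun m => C.xh m ^ ((a : ℕ) + a') * C.y m ^ (k : ℕ) := by
        funext m
        have h0 : (C.eqn m).eval (C.y m) = 0 := by simpa using C.eval_eqn m 0
        rw [Polynomial.eval_eq_sum_range, C.natDegree_eqn, Finset.sum_range_succ] at h0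
        have h2 := (C.monic_eqn m).coeff_natDegree
        rw [C.natDegree_eqn] at h2
        rw [h2, one_mul, ← Fin.sum_univ_eq_sum_range (fun i => (C.eqn m).coeff i * C.y m ^ i)] at h0
        simp only [Pi.mul_apply, C.mono_mi, hbn, Pi.neg_apply, Finset.sum_apply, Pi.smul_apply,
          smul_eq_mul]
        rw [mul_left_comm, ← pow_succ', eq_neg_of_add_eq_zero_right h0, mul_neg, Finset.mul_sum]
        congr 1
        refine Finset.sum_congr rfl fun k _ => ?_
        rw [hγ', Finset.sum_mul, Finset.mul_sum]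
        exact Finset.sum_congr rfl fun a' _ => by rw [pow_add]; ring
      rw [this, map_neg, map_sum, hbn, zero_pow hn.ne', mul_zero, sub_zero]
      refine VGE.neg ?_
      simp only [map_sum, map_smul, smul_eq_mul]
      have hsum : ∑ k : Fin (n + 1), ∑ a' : Fin (n + 1), γ k a' * W ((a : ℕ) + a') k = 0 := by
        let k₁ : Fin (n + 1) := ⟨1, by omega⟩
        rw [Finset.sum_eq_add (0 : Fin (n + 1)) k₁ (by simp [k₁, Fin.ext_iff]) (fun k _ hk => ?_)
          (by simp) (by simp)]
        · have hγ00 : γ 0 0 = 0 := by simp [hγ0]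
          have hγ10 : γ (k₁ : ℕ) 0 = (p : Qb) := by
            rw [hγ0]
            simp [k₁, Polynomial.coeff_X_pow, hn.ne']
          rw [Finset.sum_eq_single a₁ (fun a' _ ha' => ?_) (by simp),
            Finset.sum_eq_single (0 : Fin (n + 1)) (fun a' _ ha' => ?_) (by simp)]
          · rw [hγ10, Fin.val_zero, hγ1]
            by_cases ha : (a : ℕ) = 0
            · simp [W, ha, ha₁, k₁, hlamdef, mul_div_cancel₀ _ hβ1.ne_zero]
            · simp only [W, k₁, ha₁]
              rw [if_neg (by omega), if_neg (by omega), if_neg (by simp), if_neg (by omega)]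
              ring
          · simp only [W, k₁]
            rw [if_neg (by simp), if_neg (fun h => ha' (Fin.ext (by rw [Fin.val_zero]; omega))), mul_zero]
          · simp only [W, Fin.val_zero]
            by_cases h : (a' : ℕ) = 0
            · rw [show a' = 0 from Fin.ext h, hγ00, zero_mul]
            · rw [if_neg ?_, if_neg (by simp), mul_zero]
              exact fun h' => ha' (Fin.ext (by omega))
        · refine Finset.sum_eq_zero fun a' _ => ?_
          simp only [W, k₁, ne_eq, Fin.ext_iff, Fin.val_zero] at hk ⊢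
          rw [if_neg (by omega), if_neg (by omega), mul_zero]
      rw [← sub_zero (∑ k : Fin (n + 1), _), ← hsum, ← Finset.sum_sub_distrib]
      refine VGE.sum fun k _ => ?_
      rw [← Finset.sum_sub_distrib]
      refine VGE.sum fun a' _ => ?_
      rw [← mul_sub]
      simpa using (hγ k a').mul (hred ((a : ℕ) + a') k)
  have hlin : ∀ (z : M → Qb) (l : Qb), (∀ a b : Fin (n + 1),
      VGE p 2 (Δ (z * C.mono (mi D a b)) - l * C.mono (mi D a b) 0)) →
      ∀ g, InSpan p R.E g → VGE p 2 (Δ (z * g) - l * g 0) := by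
    intro z l hz g hg
    obtain ⟨c, hc, hc'⟩ := C.inSpan_mono_of D hg
    have : z * g = ∑ i, c i • (z * C.mono i) := by
      funext m
      simp only [Pi.mul_apply, hc', Finset.sum_apply, Pi.smul_apply, smul_eq_mul, Finset.mul_sum]
      exact Finset.sum_congr rfl fun i _ => by ring
    rw [this, map_sum, hc' 0, Finset.mul_sum, ← Finset.sum_sub_distrib]
    refine VGE.sum fun i _ => ?_
    obtain ⟨a, b, rfl⟩ := exists_mi (D := D) i
    rw [map_smul, smul_eq_mul, show l * (c (mi D a b) * C.mono (mi D a b) 0) =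
      c (mi D a b) * (l * C.mono (mi D a b) 0) by ring, ← mul_sub]
    simpa using (hc _).mul (hz a b)
  have hY : ∀ g, InSpan p R.E g → VGE p 2 (Δ (C.y * g) - g 0) := fun g hg => by
    simpa using hlin C.y 1 (fun a b => by simpa using hym a b) g hg
  -- products of functions vanishing at zero
  have hprod : ∀ f g, InSpan p R.E f → InSpan p R.E g → f 0 = 0 → g 0 = 0 →
      VGE p 2 (Δ (f * g)) := by
    intro f g hf hg hf0 hg0
    obtain ⟨c, hc, hc'⟩ := C.inSpan_mono_of D hf
    have hc0 : c (mi D 0 0) = 0 := by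
      rw [hc' 0, Finset.sum_eq_single (mi D 0 0)] at hf0
      · simpa [C.mono_mi] using hf0
      · intro i _ hi
        obtain ⟨a, b, rfl⟩ := exists_mi (D := D) i
        rw [C.mono_mi, C.xh_zero, C.y_zero]
        have : (a : ℕ) ≠ 0 ∨ (b : ℕ) ≠ 0 := by
          by_contra! h
          exact hi (by rw [show a = 0 from Fin.ext h.1, show b = 0 from Fin.ext h.2])
        rcases this with h | h <;> simp [h]
      · simp
    have : f * g = ∑ i, c i • (C.mono i * g) := by
      funext m
      simp only [Pi.mul_apply, hc', Finset.sum_apply, Pi.smul_apply, smul_eq_mul, Finset.sum_mul,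
        mul_assoc]
    rw [this, map_sum]
    refine VGE.sum fun i _ => ?_
    obtain ⟨a, b, rfl⟩ := exists_mi (D := D) i
    rw [map_smul, smul_eq_mul]
    by_cases ha : (a : ℕ) = 0
    · by_cases hb : (b : ℕ) = 0
      · rw [show a = 0 from Fin.ext ha, show b = 0 from Fin.ext hb, hc0,
          zero_mul]
        exact vge_zero 2
      · have he : C.mono (mi D a b) * g =
            C.y * ((fun m => C.y m ^ ((b : ℕ) - 1)) * g) := funext fun m => by
          simp only [Pi.mul_apply, C.mono_mi, ha, pow_zero, one_mul]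
          rw [← mul_assoc, ← pow_succ', Nat.sub_add_cancel (Nat.pos_of_ne_zero hb)]
        have h := (hc (mi D a b)).mul (hY _ (R.inSpan_mul (inSpan_pow C.mem_y.2 ((b : ℕ) - 1)) hg))
        rw [he]
        simpa [hg0] using h
    · have he : C.mono (mi D a b) * g = C.xh * (((fun m => C.xh m ^ ((a : ℕ) - 1)) *
          fun m => C.y m ^ (b : ℕ)) * g) := funext fun m => by
        simp only [Pi.mul_apply, C.mono_mi]
        rw [← mul_assoc, ← mul_assoc, ← pow_succ', Nat.sub_add_cancel (Nat.pos_of_ne_zero ha)]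
      have h := (hc (mi D a b)).mul (hlin C.xh lam hxm _
        (R.inSpan_mul (R.inSpan_mul (inSpan_pow C.x_mem ((a : ℕ) - 1))
          (inSpan_pow C.mem_y.2 (b : ℕ))) hg))
      rw [he]
      simpa [hg0, xh] using h
  have hΔ0 : ∀ k : ℕ, (∀ f, InSpan p R.E f → InSpan p R.E fun m => f (k • m)) ∧
      VGE p 2 (Δ (fun m => C.y (k • m)) - k) := by
    intro k
    induction k with
    | zero =>
      refine ⟨fun f hf => by simpa using R.inSpan_const (R.vge_apply hf 0), ?_⟩
      simp only [zero_nsmul, C.y_zero, Nat.cast_zero, sub_zero]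
      rw [show (fun _ : M => (0 : Qb)) = 0 from rfl, map_zero]
      exact vge_zero 2
    | succ k ih =>
      refine ⟨fun f hf => ?_, ?_⟩
      · obtain ⟨a, ha, ha'⟩ := R.exists_comul hf
        have : (fun m => f ((k + 1) • m)) =
            ∑ i, ∑ j, a i j • (R.E i * fun m => R.E j (k • m)) := funext fun m => by
          simp only [Finset.sum_apply, Pi.smul_apply, smul_eq_mul, Pi.mul_apply]
          rw [succ_nsmul', ha']
        rw [this]
        exact InSpan.sum fun i _ => InSpan.sum_smul (fun j _ => ha i j) fun j _ =>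
          R.inSpan_mul (inSpan_row i) (ih.1 _ (inSpan_row j))
      · obtain ⟨a, ha, ha'⟩ := R.exists_defect C.mem_y.2 C.y_zero
        let u : M → M → Qb := fun i m => R.E i m - R.E i 0
        let v : M → M → Qb := fun j m => R.E j (k • m) - R.E j 0
        have he : (fun m => C.y ((k + 1) • m)) = C.y + (fun m => C.y (k • m)) +
            ∑ i, ∑ j, a i j • (u i * v j) := funext fun m => by
          simp only [Pi.add_apply, Finset.sum_apply, Pi.smul_apply, smul_eq_mul, Pi.mul_apply, u, v]
          rw [← ha', succ_nsmul']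
          ring
        have hΔy : VGE p 2 (Δ C.y - 1) := by
          simpa using hY 1 R.one
        rw [he, map_add, map_add, Nat.cast_succ]
        have hs : VGE p 2 (Δ (∑ i, ∑ j, a i j • (u i * v j))) := by
          simp only [map_sum, map_smul, smul_eq_mul]
          refine VGE.sum fun i _ => VGE.sum fun j _ => ?_
          have := (ha i j).mul (hprod (u i) (v j)
            ((inSpan_row i).sub (R.inSpan_const (R.integral i 0)))
            ((ih.1 _ (inSpan_row j)).sub (R.inSpan_const (R.integral j 0)))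
            (by simp [u]) (by simp [v]))
          simpa using this
        convert (hΔy.add ih.2).add hs using 1
        ring
  have h := (hΔ0 p).2
  simp only [ZModModule.char_nsmul_eq_zero p, C.y_zero] at h
  rw [show (fun _ : M => (0 : Qb)) = 0 from rfl, map_zero, zero_sub] at h
  have := (veq_cast_self (p := p)).neg.le_of_vge h
  norm_num at this

/-- `v (y m) > 1 / (q n)`. -/
theorem vgt_y (m : M) : VGT p (1 / (((p : ℝ) ^ 2) * n)) (C.y m) := by
  have hn := D.n_pos
  have hn0 : (0 : ℝ) < n := Nat.cast_pos.mpr hn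
  have hp1 : (1 : ℝ) < (p : ℝ) ^ 2 := one_lt_pow₀ one_lt_cast two_ne_zero
  have hlt : 1 / ((p : ℝ) ^ 2 * n) < 1 / n := by
    apply one_div_lt_one_div_of_lt hn0
    exact lt_mul_of_one_lt_left hn0 hp1
  by_contra hnot
  have hy0 : C.y m ≠ 0 := fun h => hnot (h ▸ vgt_zero _)
  obtain ⟨c, hc⟩ := exists_veq (p := p) hy0
  have hcle : c ≤ 1 / ((p : ℝ) ^ 2 * n) := by
    by_contra h
    exact hnot (hc.vge.vgt (not_le.mp h))
  have hcd : ∀ d, VEQ p c (C.y (m + D.ι d)) := fun d => by
    by_cases hd : d = 0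
    · simpa [hd] using hc
    · have h := hc.add_vgt (y := C.y (m + D.ι d) - C.y m)
        ((C.veq_sub m d hd).vge.vgt (lt_of_le_of_lt hcle hlt))
      rwa [add_sub_cancel] at h
  obtain ⟨β, hβ, hβU, hβ'⟩ := C.exists_eqn_coeff 0
  have hb : VEQ p ((Fintype.card F : ℝ) * c) ((C.eqn m).coeff 0) := by
    rw [Polynomial.coeff_zero_eq_eval_zero, eqn, Polynomial.eval_prod]
    simp only [Polynomial.eval_sub, Polynomial.eval_X, Polynomial.eval_C, zero_sub]
    have h := VEQ.prod (p := p) (s := (Finset.univ : Finset F)) (g := fun _ => c)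
      fun d _ => (hcd d).neg
    rwa [Finset.sum_const, Finset.card_univ, nsmul_eq_mul] at h
  have hβ0 : β 0 = 0 := by
    have h := hβ' 0
    rw [Finset.sum_eq_single (0 : Fin (n + 1)) (fun a _ ha => ?_) (by simp), C.eqn_zero] at h
    · simpa [eq_comm] using h
    · rw [C.xh_zero, zero_pow fun h => ha (Fin.ext h), mul_zero]
  have hv : VGE p (2 / n) ((C.eqn m).coeff 0) := by
    rw [hβ']
    refine VGE.sum fun a _ => ?_
    rcases Nat.lt_trichotomy (a : ℕ) 1 with h | h | h
    · rw [show a = 0 from Fin.ext (by rw [Fin.val_zero]; omega), hβ0, zero_mul]; exact vge_zero _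
    · have h1 := (hβU a).vge_one_of_vgt (C.vgt_eqn_coeff hβ hβ' a h)
      have h2 := h1.mul (C.L₂.vge_apply D.char₂ (D.π m))
      rw [h, pow_one]
      refine h2.mono ?_
      have : 1 / (n : ℝ) ≤ 1 := by
        rw [div_le_one hn0]
        exact_mod_cast hn
      rw [show (2 : ℝ) / n = 1 / n + 1 / n by ring]
      linarith
    · refine ((hβ a).mul ((C.L₂.vge_apply D.char₂ (D.π m)).pow (a : ℕ))).mono ?_
      rw [zero_add, show (2 : ℝ) / n = 2 * (1 / n) by ring]
      gcongr
      exact_mod_cast h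
  have h := hb.le_of_vge hv
  rw [D.card_field] at h
  push_cast at h
  have h1 : (p : ℝ) ^ 2 * c ≤ (p : ℝ) ^ 2 * (1 / ((p : ℝ) ^ 2 * n)) := by
    exact mul_le_mul_of_nonneg_left hcle (by positivity)
  have h2 : (p : ℝ) ^ 2 * (1 / ((p : ℝ) ^ 2 * n)) = 1 / n := by
    have : (p : ℝ) ≠ 0 := cast_pos'.ne'
    field_simp
  have h3 : 1 / (n : ℝ) < 2 / n := by gcongr; norm_num
  linarith

end PlaneData.Coords

/-- The coordinate of a plane. -/
theorem exists_plane_coord [Module (ZMod p) M] (D : PlaneData p act η₁ η₂ n) (R : Model p M act) :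
    ∃ y : M → Qb, IEquiv p act y ∧ (∀ m, VGT p (1 / (((p : ℝ) ^ 2) * n)) (y m)) ∧
      ∀ m d, d ≠ 0 → VEQ p (1 / n) (y (m + D.ι d) - y m) := by
  obtain ⟨C⟩ := D.nonempty_coords R
  exact ⟨C.y, C.mem_y.1, C.vgt_y, C.veq_sub⟩

end Fermat.Agent.FlatTangent
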