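import Fermat.Agent.FlatTangent.KummerLevel
import Fermat.Agent.FlatTangent.Plane

/-!
# Kummer levels of extension classes with integral models
-/

set_option autoImplicit false
set_option linter.unusedSectionVars false
set_option linter.style.haveILetI false

noncomputable section

namespace Fermat.Agent.FlatTangent

open Polynomial

variable {p : ℕ} [Fact p.Prime] {n d : ℕ}

/-- Expansion along a radical of valuation prime to `p` with the valuation of each term. -/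
theorem exists_shift_expansion (hT : TameLevel p n d) {f : Gal → ZMod p} {α ε β θ : Qb} {j : ℕ}
    {σ₀ : Gal} (hσ₀ : σ₀ ∈ Kn p n) (hf₀ : f σ₀ = 1) (hα0 : α ≠ 0)
    (hα : ∀ σ ∈ Kn p n, σ α = zp p (f σ) * α) (hfhom : ∀ k : ℕ, f (σ₀ ^ k) = (k : ZMod p) * f σ₀)
    (hε : InK p n ε) (hβ : β = α - ε) (hj : ¬ p ∣ j)
    (hβv : VEQ p ((j : ℝ) / ((p : ℝ) * n)) β)
    (hθ : ∀ σ ∈ Kn p n, f σ = 0 → σ θ = θ) :
    ∃ c : Fin p → Qb, (∀ i, InK p n (c i)) ∧ θ = ∑ i, c i * β ^ (i : ℕ) ∧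
      (∀ r, VGT p r θ → ∀ i, VGT p r (c i * β ^ (i : ℕ))) ∧
      (∀ i : Fin p, (i : ℕ) ≠ 0 → VGE p 0 θ → VGT p 0 (c i * β ^ (i : ℕ))) := by
  classical
  have hp := (Fact.out : p.Prime)
  haveI : NeZero p := ⟨hp.ne_zero⟩
  obtain ⟨c₀, hc₀, hsum, -⟩ := exists_radical_expansion (p := p) (Kn p n) hα0 (m := p)
    (fun ζ hζ σ hσ => by
      obtain ⟨a, rfl⟩ := eq_zp_of_pow_eq_one hζ
      rw [apply_zp, hT.cyc_Kn hσ, one_mul])
    (fun σ hσ => by rw [hα σ hσ, mul_div_assoc, div_self hα0, mul_one, zp_pow_p])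
    (fun ζ hζ => by
      obtain ⟨a, rfl⟩ := eq_zp_of_pow_eq_one hζ
      refine ⟨σ₀ ^ a.val, pow_mem hσ₀ _, ?_⟩
      rw [hα _ (pow_mem hσ₀ _), hfhom, hf₀, mul_one, ZMod.natCast_zmod_val])
    (x := θ) (fun σ hσ hfix => hθ σ hσ (by
      rw [hα σ hσ] at hfix
      exact zp_injective (by
        rw [zp_zero]
        exact mul_right_cancel₀ hα0 (hfix.trans (one_mul α).symm))))
  let c : Fin p → Qb := fun l => ∑ i : Fin p, c₀ i * ((i : ℕ).choose l : Qb) * ε ^ ((i : ℕ) - l)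
  have hcK : ∀ l, InK p n (c l) := fun l =>
    InK.sum fun i _ => (InK.mul (fun σ hσ => hc₀ i σ hσ) ((inU_natCast _).inK)).mul (hε.pow _)
  have hθc : θ = ∑ l, c l * β ^ (l : ℕ) := by
    rw [hsum]
    simp only [c, Finset.sum_mul]
    rw [Finset.sum_comm]
    refine Finset.sum_congr rfl fun i _ => ?_
    rw [show α = β + ε by rw [hβ]; ring, add_pow, Finset.mul_sum,
      ← Fin.sum_univ_eq_sum_range (fun l => c₀ i * (β ^ l * ε ^ ((i : ℕ) - l) * ((i : ℕ).choose l : Qb)))]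
    have hle : (i : ℕ) + 1 ≤ p := i.2
    rw [← Finset.sum_subset (Finset.subset_univ (Finset.univ.map (Fin.castLEEmb hle)))]
    · rw [Finset.sum_map]
      exact Finset.sum_congr rfl fun l _ => by simp [Fin.castLEEmb]; ring
    · intro l _ hl
      have : (i : ℕ) < l := by
        by_contra hle'
        exact hl (Finset.mem_map.mpr ⟨⟨l, by omega⟩, Finset.mem_univ _, Fin.ext rfl⟩)
      rw [Nat.choose_eq_zero_of_lt this]
      simp
  have hn : (0 : ℝ) < n := Nat.cast_pos.mpr hT.n_pos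
  have hp0 : (0 : ℝ) < p := cast_pos'
  have hval : ∀ l, c l ≠ 0 → ∃ k : ℤ,
      VEQ p ((((p : ℤ) * k + (l : ℕ) * j : ℤ) : ℝ) / ((p : ℝ) * n)) (c l * β ^ (l : ℕ)) := by
    intro l hl
    obtain ⟨k, hk⟩ := (hcK l).exists_veq hT.not_dvd hl
    refine ⟨k, ?_⟩
    convert hk.mul (hβv.pow (l : ℕ)) using 1
    push_cast
    field_simp
  have hdist : ∀ (l l' : Fin p) (k k' : ℤ),
      (p : ℤ) * k + (l : ℕ) * j = (p : ℤ) * k' + (l' : ℕ) * j → l = l' := by
    intro l l' k k' h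
    have h1 : ((p : ℤ)) ∣ (((l : ℕ) : ℤ) - (l' : ℕ)) * j := ⟨k' - k, by linarith⟩
    have h2 := ((Nat.prime_iff_prime_int.mp hp).dvd_or_dvd h1).resolve_right
      (fun h => hj (Int.natCast_dvd_natCast.mp h))
    have h3 : (((l : ℕ) : ℤ) - (l' : ℕ)) = 0 := by
      refine Int.eq_zero_of_abs_lt_dvd h2 ?_
      rw [abs_lt]
      omega
    exact Fin.ext (by omega)
  have key : ∀ l : Fin p, c l ≠ 0 → ∃ e, VEQ p e θ ∧ VGE p e (c l * β ^ (l : ℕ)) := by
    intro l hl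
    obtain ⟨l₀, hl₀, hmax⟩ := Finset.exists_max_image (Finset.univ.filter fun l => c l ≠ 0)
      (fun l => nrm p (c l * β ^ (l : ℕ))) ⟨l, by simp [hl]⟩
    obtain ⟨k₀, hk₀⟩ := hval l₀ (Finset.mem_filter.mp hl₀).2
    refine ⟨_, ?_, le_trans (hmax l (by simp [hl])) hk₀.vge⟩
    rw [hθc]
    refine VEQ.sum_of_lt (Finset.mem_univ l₀) hk₀ fun l' _ hne => ?_
    by_cases hl' : c l' = 0
    · rw [hl', zero_mul]; exact vgt_zero _
    obtain ⟨k', hk'⟩ := hval l' hl'
    refine lt_of_le_of_ne (le_trans (hmax l' (by simp [hl'])) hk₀.vge) fun heq => hne ?_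
    have h := hk'.unique heq
    rw [div_left_inj' (mul_pos hp0 hn).ne'] at h
    exact hdist l' l₀ k' k₀ (by exact_mod_cast h)
  refine ⟨c, hcK, hθc, fun r hr l => ?_, fun l hl hr => ?_⟩
  · by_cases h : c l = 0
    · rw [h, zero_mul]; exact vgt_zero _
    obtain ⟨e, he, hel⟩ := key l h
    exact hel.vgt (he.lt_of_vgt hr)
  · by_cases h : c l = 0
    · rw [h, zero_mul]; exact vgt_zero _
    obtain ⟨e, he, hel⟩ := key l h
    have h0 := he.le_of_vge hr
    refine lt_of_le_of_ne ((hel.mono h0)) fun heq => hl ?_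
    obtain ⟨k, hk⟩ := hval l h
    have h1 := hk.unique heq
    rw [div_eq_zero_iff, or_iff_left (mul_pos hp0 hn).ne'] at h1
    have h2 : (p : ℤ) * k + (l : ℕ) * j = 0 := by exact_mod_cast h1
    have := hdist l ⟨0, hp.pos⟩ k 0 (by simpa using h2)
    rw [this]

/-- The variation of a term of the expansion. -/
theorem vge_sub_pow {β : Qb} {σ : Gal} (hσ : σ ∈ dec p) {w δ : ℝ} (hβ : VEQ p w β)
    (h : VGE p δ (σ β - β)) (i : ℕ) : VGE p ((i : ℝ) * w + (δ - w)) (σ (β ^ i) - β ^ i) := by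
  rw [map_pow, ← geom_sum₂_mul]
  rcases Nat.eq_zero_or_pos i with rfl | hi
  · simpa using vge_zero _
  have hs : VGE p (((i : ℝ) - 1) * w) (∑ l ∈ Finset.range i, σ β ^ l * β ^ (i - 1 - l)) := by
    refine VGE.sum fun l hl => ?_
    have h1 := ((hβ.dec hσ).pow l).vge.mul (hβ.pow (i - 1 - l)).vge
    refine h1.mono (le_of_eq ?_)
    rw [← add_mul, ← Nat.cast_add]
    rw [Finset.mem_range] at hl
    rw [show l + (i - 1 - l) = i - 1 by omega, Nat.cast_sub hi, Nat.cast_one]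
  exact (hs.mul h).mono (le_of_eq (by ring))

theorem eq_natCast_mul {f : Gal → ZMod p}
    (hf : ∀ σ ∈ Kn p n, ∀ τ ∈ Kn p n, f (σ * τ) = f σ + f τ) {σ : Gal} (hσ : σ ∈ Kn p n) (k : ℕ) :
    f (σ ^ k) = (k : ZMod p) * f σ := by
  induction k with
  | zero =>
    have h := hf 1 (one_mem _) 1 (one_mem _)
    rw [mul_one, left_eq_add] at h
    simp [h]
  | succ k ih => rw [pow_succ, hf _ (pow_mem hσ k) σ hσ, ih]; push_cast; ring

theorem exists_eq_one {f : Gal → ZMod p}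
    (hf : ∀ σ ∈ Kn p n, ∀ τ ∈ Kn p n, f (σ * τ) = f σ + f τ) (h : ¬ ∀ σ ∈ Kn p n, f σ = 0) :
    ∃ σ ∈ Kn p n, f σ = 1 := by
  push Not at h
  obtain ⟨σ, hσ, hne⟩ := h
  refine ⟨σ ^ ((f σ)⁻¹).val, pow_mem hσ _, ?_⟩
  rw [eq_natCast_mul hf hσ, ZMod.natCast_zmod_val, inv_mul_cancel₀ hne]

/-- A character realised on a point of a model with `h` as displacement has a unit Kummer
element. -/
theorem lev_one_of_model (hT : TameLevel p n d) {M : Type} [AddCommGroup M] [Module (ZMod p) M]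
    [Fintype M] [DecidableEq M] {act : Gal → M → M} (R : Model p M act) {P h : M} (hh : h ≠ 0)
    {f : Gal → ZMod p} (hf : ∀ σ ∈ Kn p n, ∀ τ ∈ Kn p n, f (σ * τ) = f σ + f τ)
    (F : IntermediateField ℚ Qb) [FiniteDimensional ℚ F]
    (hlev : ∀ σ ∈ Kn p n, σ ∈ F.fixingSubgroup → f σ = 0)
    (hact : ∀ σ ∈ Kn p n, act σ P = P + f σ • h) : Lev p n 1 f := by
  rcases exists_lev_or_radical hT f hf F hlev with hL | ⟨α, j, h0, hj0, hjp, hα, hαv⟩
  · exact hL
  by_cases hz : ∀ σ ∈ Kn p n, f σ = 0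
  · exact Lev.zero 1 hz
  obtain ⟨σ₀, hσ₀, hf₀⟩ := exists_eq_one hf hz
  obtain ⟨i₀, hi₀⟩ := R.exists_not_vgt_diff hh P
  refine absurd ?_ hi₀
  set θ := R.E i₀ P
  have hI := (mem_Kn.mp hσ₀).1
  have hθfix : ∀ σ ∈ Kn p n, f σ = 0 → σ θ = θ := fun σ hσ h1 => by
    rw [← R.equiv i₀ σ (mem_Kn.mp hσ).1 P, hact σ hσ, h1, zero_smul, add_zero]
  have hθ' : R.E i₀ (P + h) = σ₀ θ := by
    rw [← R.equiv i₀ σ₀ hI P, hact σ₀ hσ₀, hf₀, one_smul]
  rw [hθ']
  have hjd : ¬ p ∣ j := fun h => absurd (Nat.le_of_dvd hj0 h) (by omega)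
  obtain ⟨c, hc, hsum, -, hc0⟩ := exists_shift_expansion hT hσ₀ hf₀ h0 hα
    (fun k => eq_natCast_mul hf hσ₀ k) (inU_zero.inK) (β := α) (sub_zero α).symm hjd hαv hθfix
  have hδ := (veq_zp_sub_one (p := p) (a := 1) one_ne_zero).vge.mul hαv.vge
  have hσα : σ₀ α - α = (zp p 1 - 1) * α := by rw [hα σ₀ hσ₀, hf₀]; ring
  conv in (_ - θ) => rw [hsum, map_sum, ← Finset.sum_sub_distrib]
  refine VGT.sum fun i _ => ?_
  rw [map_mul, hc i σ₀ hσ₀, ← mul_sub]
  by_cases hi : (i : ℕ) = 0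
  · rw [hi]; simpa using vgt_zero _
  have h1 := hc0 i hi (R.integral i₀ P)
  have h2 := vge_sub_pow (inert_le_dec hI) hαv (hσα ▸ hδ) (i : ℕ)
  -- split off the valuation of the term
  have h3 : VGE p (1 / ((p : ℝ) - 1)) ((σ₀ (α ^ (i : ℕ)) - α ^ (i : ℕ)) / α ^ (i : ℕ)) := by
    refine (h2.div (hαv.pow (i : ℕ))).mono (le_of_eq ?_)
    ring
  have h4 := h1.mul_vge h3
  rw [mul_assoc, mul_div_cancel₀ _ (pow_ne_zero _ h0), zero_add] at h4
  exact h4

variable {F₁ : Type} [Field F₁] [Fintype F₁] [DecidableEq F₁] [Algebra (ZMod p) F₁]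

theorem vgt_prod_coeff {ι : Type*} (s : Finset ι) (a : ι → Qb) {r : ℝ} (hr : 0 ≤ r)
    (h : ∀ i ∈ s, VGT p r (a i)) : ∀ k < s.card,
      VGT p (((s.card - k : ℕ) : ℝ) * r) ((∏ i ∈ s, (X - C (a i))).coeff k) := by
  classical
  induction s using Finset.induction with
  | empty => intro k hk; simp at hk
  | @insert b s hb ih =>
    intro k hk
    have ih' := ih fun i hi => h i (Finset.mem_insert_of_mem hi)
    have ha := h b (Finset.mem_insert_self b s)
    rw [Finset.card_insert_of_notMem hb] at hk ⊢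
    have hmul : ∀ l ≤ s.card, VGT p (((s.card + 1 - l : ℕ) : ℝ) * r)
        (a b * (∏ i ∈ s, (X - C (a i))).coeff l) := by
      intro l hl
      rcases eq_or_lt_of_le hl with rfl | hlt
      · have h1 : (∏ i ∈ s, (X - C (a i))).coeff s.card = 1 := by
          have hm := (monic_prod_of_monic s _ fun i _ => monic_X_sub_C (a i)).coeff_natDegree
          rwa [natDegree_prod_of_monic _ _ fun i _ => monic_X_sub_C (a i),
            Finset.sum_congr rfl (fun i _ => natDegree_X_sub_C (a i)), Finset.sum_const,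
            smul_eq_mul, mul_one] at hm
        rw [h1, mul_one, Nat.add_sub_cancel_left, Nat.cast_one, one_mul]
        exact ha
      · have := ha.mul_vge (ih' l hlt).vge
        rw [show s.card + 1 - l = (s.card - l) + 1 by omega, Nat.cast_succ, add_mul, one_mul]
        rwa [add_comm r] at this
    rw [Finset.prod_insert hb, sub_mul, coeff_sub, coeff_C_mul]
    cases k with
    | zero =>
      rw [mul_coeff_zero, coeff_X_zero, zero_mul, zero_sub]
      exact (hmul 0 (Nat.zero_le _)).neg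
    | succ k =>
      rw [coeff_X_mul]
      refine VGT.sub ?_ ((hmul (k + 1) (by omega)))
      rw [show s.card + 1 - (k + 1) = s.card - k by omega]
      exact ih' k (by omega)

/-- The characters in a plane of tame lines have Kummer level at least `p + 2`. -/
theorem lev_of_plane (hT : TameLevel p n d) {M : Type} [AddCommGroup M] [Module (ZMod p) M]
    [Fintype M] [DecidableEq M] {act : Gal → M → M} {η₁ η₂ : Gal → F₁}
    (D : PlaneData p act η₁ η₂ n) (R : Model p M act) {P : M} (ψ : Gal → F₁)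
    (hψ : ∀ σ ∈ Kn p n, act σ P = P + D.ι (ψ σ)) (l : F₁ →+ ZMod p)
    {f : Gal → ZMod p} (hfψ : ∀ σ ∈ Kn p n, f σ = l (ψ σ))
    (hf : ∀ σ ∈ Kn p n, ∀ τ ∈ Kn p n, f (σ * τ) = f σ + f τ)
    (F : IntermediateField ℚ Qb) [FiniteDimensional ℚ F]
    (hlev : ∀ σ ∈ Kn p n, σ ∈ F.fixingSubgroup → f σ = 0) : Lev p n (p + 2) f := by
  classical
  by_contra hbad
  have hp := (Fact.out : p.Prime)
  have hp2 : 2 ≤ p := hp.two_le
  have hz : ¬ ∀ σ ∈ Kn p n, f σ = 0 := fun h => hbad (Lev.zero _ h)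
  obtain ⟨σ₀, hσ₀, hf₀⟩ := exists_eq_one hf hz
  have hn := hT.n_pos
  have hdp : d = p + 1 := by
    have h1 := hT.eq
    rw [D.n_eq] at h1
    exact (Nat.eq_of_mul_eq_mul_left (by omega) h1).symm
  have hδ : 1 / ((p : ℝ) - 1) = ((p : ℝ) + 1) / n := by
    rw [← hT.delta_eq, hdp]; push_cast; rfl
  -- the radical
  obtain ⟨α, ε, j, h0, hε, hj0, hjle, hjd, hα, hβv, hdiff⟩ :
      ∃ (α ε : Qb) (j : ℕ), α ≠ 0 ∧ InK p n ε ∧ 0 < j ∧ j ≤ p + 1 ∧ ¬ p ∣ j ∧
        (∀ σ ∈ Kn p n, σ α = zp p (f σ) * α) ∧ VEQ p ((j : ℝ) / ((p : ℝ) * n)) (α - ε) ∧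
        VGE p (1 / ((p : ℝ) - 1)) (σ₀ (α - ε) - (α - ε)) := by
    rcases exists_lev_or_radical hT f hf F hlev with hL | ⟨α, j, h0, hj0, hjp, hα, hαv⟩
    · obtain ⟨j, hj1, hj2, hj3, hj4⟩ := exists_exact_level hL (p + 1) hbad
      have hjJ : j < p * d := by rw [hdp]; nlinarith
      obtain ⟨hjd, α, hα1, hα, hβv⟩ := exists_exact_element hT hj3 hj4 hj1 hjJ
      refine ⟨α, 1, j, hα1.ne_zero, inU_one.inK, hj1, hj2, hjd, hα, hβv, ?_⟩
      rw [map_sub, map_one, sub_sub_sub_cancel_right, hα σ₀ hσ₀, hf₀, ← sub_one_mul]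
      simpa using (veq_zp_sub_one (p := p) (a := 1) one_ne_zero).vge.mul hα1.vge
    · refine ⟨α, 0, j, h0, inU_zero.inK, hj0, by omega,
        fun h => absurd (Nat.le_of_dvd hj0 h) (by omega), hα, by rwa [sub_zero], ?_⟩
      rw [sub_zero, hα σ₀ hσ₀, hf₀, ← sub_one_mul]
      refine ((veq_zp_sub_one (p := p) (a := 1) one_ne_zero).vge.mul hαv.vge).mono ?_
      simp only [le_add_iff_nonneg_right]
      positivity
  obtain ⟨y, hye, hyv, hyd⟩ := exists_plane_coord D R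
  have hKι : ∀ σ ∈ Kn p n, ∀ w, act σ (D.ι w) = D.ι w := fun σ hσ w => by
    rw [← D.ι_act σ (mem_Kn.mp hσ).1, D.char₁.ker σ hσ, one_mul]
  let W : Finset F₁ := Finset.univ.filter fun w => l w = 0
  let Φ : M → Qb[X] := fun m => ∏ w ∈ W, (X - C (y (m + D.ι w)))
  have hΦmap : ∀ σ ∈ Kn p n, (Φ P).map (σ : Qb →+* Qb) = Φ (P + D.ι (ψ σ)) := by
    intro σ hσ
    rw [Polynomial.map_prod]
    refine Finset.prod_congr rfl fun w _ => ?_
    rw [Polynomial.map_sub, Polynomial.map_X, Polynomial.map_C,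
      show (σ : Qb →+* Qb) (y (P + D.ι w)) = y (act σ (P + D.ι w)) from
        (hye σ (mem_Kn.mp hσ).1 _).symm,
      R.isAct.map_add σ (mem_Kn.mp hσ).1, hψ σ hσ, hKι σ hσ]
  have hfix : ∀ σ ∈ Kn p n, f σ = 0 → ∀ k, σ ((Φ P).coeff k) = (Φ P).coeff k := by
    intro σ hσ h1 k
    have h2 : Φ (P + D.ι (ψ σ)) = Φ P := by
      refine Finset.prod_bij (fun w _ => ψ σ + w) (fun w hw => ?_) (fun a _ b _ h => add_left_cancel h)
        (fun b hb => ⟨b - ψ σ, ?_, by abel⟩) (fun w _ => by rw [map_add, add_assoc])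
      · simp only [W, Finset.mem_filter, Finset.mem_univ, true_and] at hw ⊢
        rw [map_add, ← hfψ σ hσ, h1, hw, add_zero]
      · simp only [W, Finset.mem_filter, Finset.mem_univ, true_and] at hb ⊢
        rw [map_sub, ← hfψ σ hσ, h1, hb, sub_zero]
    have h3 := congrArg (fun Q : Qb[X] => Q.coeff k) ((hΦmap σ hσ).trans h2)
    simpa [Polynomial.coeff_map] using h3
  set h₀ := ψ σ₀ with hh₀
  have hl₀ : l h₀ = 1 := by rw [← hfψ σ₀ hσ₀, hf₀]
  set ρ := y (P + D.ι h₀) with hρ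
  have hWcard : W.card = p := by
    let L : F₁ →+ ZMod p := l
    have hsurj : Function.Surjective L := fun a => ⟨a.val • h₀, by
      show l (a.val • h₀) = a
      rw [map_nsmul, hl₀, nsmul_eq_mul, mul_one, ZMod.natCast_zmod_val]⟩
    have h1 : Nat.card F₁ = Nat.card L.ker * Nat.card (ZMod p) := by
      rw [AddSubgroup.card_eq_card_quotient_mul_card_addSubgroup L.ker, mul_comm,
        Nat.card_congr (QuotientAddGroup.quotientKerEquivOfSurjective L hsurj).toEquiv]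
    rw [Nat.card_eq_fintype_card, D.card_field, Nat.card_zmod, pow_two] at h1
    have h2 := Nat.eq_of_mul_eq_mul_right hp.pos h1
    have h3 : Nat.card L.ker = W.card := by
      rw [← Nat.card_eq_finsetCard]
      exact Nat.card_congr (Equiv.subtypeEquivRight fun x => by simp [W, L])
    omega
  -- the value of the equation at `ρ`
  have hev : VEQ p ((p : ℝ) * (1 / n)) ((Φ P).eval ρ) := by
    rw [Polynomial.eval_prod]
    have h := VEQ.prod (p := p) (s := W) (g := fun _ => (1 : ℝ) / n)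
      (f := fun w => ρ - y (P + D.ι w)) fun w hw => by
      simp only [W, Finset.mem_filter, Finset.mem_univ, true_and] at hw
      have hne : h₀ - w ≠ 0 := fun h => by
        rw [sub_eq_zero.mp h, hw] at hl₀
        exact zero_ne_one hl₀
      have h1 := hyd (P + D.ι w) (h₀ - w) hne
      rwa [add_assoc, ← map_add, add_sub_cancel] at h1
    rw [Finset.sum_const, nsmul_eq_mul, hWcard] at h
    simpa using h
  have hzero : ((Φ P).map (σ₀ : Qb →+* Qb)).eval ρ = 0 := by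
    rw [hΦmap σ₀ hσ₀, Polynomial.eval_prod]
    exact Finset.prod_eq_zero (i := 0) (by simp [W]) (by simp [hρ, ← hh₀])
  have hdeg : (Φ P).natDegree = p := by
    rw [natDegree_prod_of_monic _ _ fun i _ => monic_X_sub_C _,
      Finset.sum_congr rfl (fun i _ => natDegree_X_sub_C _), Finset.sum_const, smul_eq_mul,
      mul_one, hWcard]
  set r : ℝ := 1 / (((p : ℝ) ^ 2) * n) with hr
  have hn' : (0 : ℝ) < n := Nat.cast_pos.mpr hn
  have hp0 : (0 : ℝ) < p := cast_pos'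
  have hr0 : 0 ≤ r := by positivity
  set μ : ℝ := 1 / ((p : ℝ) - 1) - (j : ℝ) / ((p : ℝ) * n) with hμ
  have hkey : VGT p ((p : ℝ) * r + μ) ((Φ P).eval ρ) := by
    have he : (Φ P).eval ρ = ∑ k ∈ Finset.range (p + 1),
        ((Φ P).coeff k - σ₀ ((Φ P).coeff k)) * ρ ^ k := by
      simp only [sub_mul, Finset.sum_sub_distrib]
      rw [← hdeg, ← Polynomial.eval_eq_sum_range]
      have h1 : ((Φ P).map (σ₀ : Qb →+* Qb)).eval ρ =
          ∑ k ∈ Finset.range ((Φ P).natDegree + 1), σ₀ ((Φ P).coeff k) * ρ ^ k := by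
        rw [Polynomial.eval_eq_sum_range' (Nat.lt_succ_of_le Polynomial.natDegree_map_le)]
        simp [Polynomial.coeff_map]
      rw [← h1, hzero, sub_zero]
    rw [he]
    refine VGT.sum fun k hk => ?_
    rw [Finset.mem_range] at hk
    rcases (Nat.lt_succ_iff.mp hk).eq_or_lt with hkp | hkp
    · have h1 : (Φ P).coeff k = 1 := by
        rw [hkp, ← hdeg]
        exact (monic_prod_of_monic W _ fun i _ => monic_X_sub_C _).coeff_natDegree
      rw [h1, map_one, sub_self, zero_mul]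
      exact vgt_zero _
    have hcv : VGT p (((p - k : ℕ) : ℝ) * r) ((Φ P).coeff k) := by
      have := vgt_prod_coeff W (fun w => y (P + D.ι w)) hr0 (fun w _ => hyv _) k (by omega)
      rwa [hWcard] at this
    obtain ⟨c, hc, hsum, hcr, -⟩ := exists_shift_expansion hT hσ₀ hf₀ h0 hα
      (fun i => eq_natCast_mul hf hσ₀ i) hε rfl hjd hβv (fun σ hσ h => hfix σ hσ h k)
    have hd : VGT p (((p - k : ℕ) : ℝ) * r + μ) (σ₀ ((Φ P).coeff k) - (Φ P).coeff k) := by
      conv in (_ - (Φ P).coeff k) => rw [hsum, map_sum, ← Finset.sum_sub_distrib]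
      refine VGT.sum fun i _ => ?_
      rw [map_mul, hc i σ₀ hσ₀, ← mul_sub]
      have h1 := hcr _ hcv i
      have h2 := ((vge_sub_pow (inert_le_dec (mem_Kn.mp hσ₀).1) hβv hdiff (i : ℕ)).div
        (hβv.pow (i : ℕ))).mono (d := μ) (le_of_eq (by rw [hμ]; ring))
      have h3 := h1.mul_vge h2
      rwa [mul_assoc, mul_div_cancel₀ _ (pow_ne_zero _ hβv.ne_zero)] at h3
    have h4 : VGE p ((k : ℝ) * r) (ρ ^ k) := (hyv _).vge.pow k
    have h5 := hd.neg.mul_vge h4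
    rw [neg_sub] at h5
    refine h5.mono (le_of_eq ?_)
    rw [Nat.cast_sub hkp.le]
    ring
  have hfin := hev.lt_of_vgt hkey
  rw [hμ, hr, hδ] at hfin
  have hjle' : (j : ℝ) ≤ (p : ℝ) + 1 := by exact_mod_cast hjle
  have e : (p : ℝ) * (1 / ((p : ℝ) ^ 2 * n)) + (((p : ℝ) + 1) / n - (j : ℝ) / ((p : ℝ) * n)) =
      (1 + (p : ℝ) * ((p : ℝ) + 1) - j) / ((p : ℝ) * n) := by
    field_simp
    ring
  rw [e, mul_one_div, div_lt_div_iff₀ (mul_pos hp0 hn') hn'] at hfin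
  nlinarith

end Fermat.Agent.FlatTangent
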