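import Fermat.Agent.FlatTangent.Tame

/-!
# The mod `p` cyclotomic character on inertia and Kummer elements of cocycles
-/

set_option autoImplicit false
set_option linter.unusedSectionVars false

noncomputable section

namespace Fermat.Agent.FlatTangent

open Polynomial

local instance isAlgebraicQb' : Algebra.IsAlgebraic ℚ Qb := AlgebraicClosure.isAlgebraic ℚ
local instance isAlgClosureQb : IsAlgClosure ℚ Qb := ⟨inferInstance, inferInstance⟩
local instance normalQb : Normal ℚ Qb := IsAlgClosure.normal ℚ Qb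

variable (p : ℕ) [Fact p.Prime]

/-- A primitive `p`-th root of unity. -/
def zetaP : Qb :=
  haveI : NeZero (p : Qb) := ⟨Nat.cast_ne_zero.mpr (Fact.out : p.Prime).ne_zero⟩
  (HasEnoughRootsOfUnity.exists_primitiveRoot Qb p).choose

theorem zetaP_prim : IsPrimitiveRoot (zetaP p) p :=
  haveI : NeZero (p : Qb) := ⟨Nat.cast_ne_zero.mpr (Fact.out : p.Prime).ne_zero⟩
  (HasEnoughRootsOfUnity.exists_primitiveRoot Qb p).choose_spec

/-- `ζ ^ a`. -/
def zp (a : ZMod p) : Qb := zetaP p ^ a.val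

theorem exists_cyc (σ : Gal) : ∃ a : ZMod p, σ (zetaP p) = zp p a := by
  obtain ⟨i, -, hi⟩ := (zetaP_prim p).eq_pow_of_pow_eq_one (ξ := σ (zetaP p))
    (by rw [← map_pow, (zetaP_prim p).pow_eq_one, map_one])
  exact ⟨i, by rw [zp, ZMod.val_natCast, ← hi]; exact pow_eq_pow_mod i (zetaP_prim p).pow_eq_one⟩

/-- The mod `p` cyclotomic character. -/
def cyc (σ : Gal) : ZMod p := (exists_cyc p σ).choose

variable {p} {n : ℕ} {σ τ : Gal}

theorem apply_zetaP (σ : Gal) : σ (zetaP p) = zp p (cyc p σ) := (exists_cyc p σ).choose_spec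

theorem zp_natCast (a : ℕ) : zp p (a : ZMod p) = zetaP p ^ a := by
  rw [zp, ZMod.val_natCast, ← pow_eq_pow_mod a (zetaP_prim p).pow_eq_one]

theorem zp_zero : zp p 0 = 1 := by rw [zp, ZMod.val_zero, pow_zero]

theorem zp_one : zp p 1 = zetaP p := by
  rw [← Nat.cast_one, zp_natCast, pow_one]

theorem zp_add (a b : ZMod p) : zp p (a + b) = zp p a * zp p b := by
  conv_lhs => rw [← ZMod.natCast_zmod_val a, ← ZMod.natCast_zmod_val b, ← Nat.cast_add, zp_natCast,
    pow_add]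
  rfl

theorem zp_ne_zero (a : ZMod p) : zp p a ≠ 0 :=
  pow_ne_zero _ ((zetaP_prim p).ne_zero (Fact.out : p.Prime).ne_zero)

theorem zp_neg (a : ZMod p) : zp p (-a) = (zp p a)⁻¹ :=
  eq_inv_of_mul_eq_one_right (by rw [← zp_add, add_neg_cancel, zp_zero])

theorem zp_sub (a b : ZMod p) : zp p (a - b) = zp p a / zp p b := by
  rw [sub_eq_add_neg, zp_add, zp_neg, div_eq_mul_inv]

theorem zp_pow_p (a : ZMod p) : zp p a ^ p = 1 := by
  rw [zp, pow_right_comm, (zetaP_prim p).pow_eq_one, one_pow]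

theorem zp_injective : Function.Injective (zp p) := fun a b h =>
  ZMod.val_injective p ((zetaP_prim p).pow_inj (ZMod.val_lt a) (ZMod.val_lt b) h)

theorem eq_zp_of_pow_eq_one {μ : Qb} (h : μ ^ p = 1) : ∃ a : ZMod p, μ = zp p a := by
  obtain ⟨i, -, rfl⟩ := (zetaP_prim p).eq_pow_of_pow_eq_one h
  exact ⟨i, (zp_natCast i).symm⟩

theorem apply_zp (σ : Gal) (a : ZMod p) : σ (zp p a) = zp p (cyc p σ * a) := by
  rw [zp, map_pow, apply_zetaP, zp, ← pow_mul, ← zp_natCast]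
  congr 1
  push_cast
  rw [ZMod.natCast_zmod_val, ZMod.natCast_zmod_val]

theorem apply_eq_pow_cyc (σ : Gal) {μ : Qb} (h : μ ^ p = 1) : σ μ = μ ^ (cyc p σ).val := by
  obtain ⟨a, rfl⟩ := eq_zp_of_pow_eq_one h
  rw [apply_zp, zp, zp, ← pow_mul, ← zp_natCast (a.val * _)]
  push_cast
  rw [ZMod.natCast_zmod_val, ZMod.natCast_zmod_val, mul_comm]
  rfl

theorem cyc_one : cyc p 1 = 1 := zp_injective (by
  rw [← apply_zetaP, AlgEquiv.one_apply, zp_one])

theorem cyc_mul (σ τ : Gal) : cyc p (σ * τ) = cyc p σ * cyc p τ := zp_injective (by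
  rw [← apply_zetaP, AlgEquiv.mul_apply, apply_zetaP τ, apply_zp])

theorem cyc_ne_zero (σ : Gal) : cyc p σ ≠ 0 := by
  intro h
  have h1 := cyc_mul (p := p) σ σ⁻¹
  rw [mul_inv_cancel, cyc_one, h, zero_mul] at h1
  exact one_ne_zero h1

theorem cyc_inv (σ : Gal) : cyc p σ⁻¹ = (cyc p σ)⁻¹ := by
  refine eq_inv_of_mul_eq_one_left ?_
  rw [← cyc_mul, inv_mul_cancel, cyc_one]

/-- `v(ζ - 1) = 1/(p-1)`. -/
theorem veq_zetaP_sub_one : VEQ p (1 / ((p : ℝ) - 1)) (zetaP p - 1) := by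
  classical
  have hp := (Fact.out : p.Prime)
  have hζ := zetaP_prim p
  obtain ⟨c, hc⟩ := exists_veq (p := p) (sub_ne_zero.mpr (hζ.ne_one hp.one_lt))
  have hp0 : ∀ z : Qb, z ^ p = 1 → VGE p 0 z := fun z hz =>
    (veq_zero_of_pow_eq_one hp.ne_zero hz).vge
  have hdvd : ∀ z w : Qb, z ^ p = 1 → (∃ i : ℕ, w = z ^ i) → ∀ d, VEQ p d (z - 1) →
      VGE p d (w - 1) := by
    rintro z w hz ⟨i, rfl⟩ d hd
    rw [← geom_sum_mul]
    simpa using (VGE.sum (p := p) (c := 0) (s := Finset.range i) fun j _ => by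
      simpa using (hp0 z hz).pow j).mul hd.vge
  have hall : ∀ μ ∈ primitiveRoots p Qb, VEQ p c (1 - μ) := by
    intro μ hμ
    have hμ' := (mem_primitiveRoots hp.pos).mp hμ
    obtain ⟨d, hd⟩ := exists_veq (p := p) (sub_ne_zero.mpr (hμ'.ne_one hp.one_lt))
    obtain ⟨i, -, hi⟩ := hζ.eq_pow_of_pow_eq_one hμ'.pow_eq_one
    obtain ⟨j, -, hj⟩ := hμ'.eq_pow_of_pow_eq_one hζ.pow_eq_one
    have h1 := hd.le_of_vge (hdvd _ μ hζ.pow_eq_one ⟨i, hi.symm⟩ c hc)
    have h2 := hc.le_of_vge (hdvd _ (zetaP p) hμ'.pow_eq_one ⟨j, hj.symm⟩ d hd)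
    obtain rfl : c = d := le_antisymm h1 h2
    simpa using hd.neg
  have hprod : (∏ μ ∈ primitiveRoots p Qb, (1 - μ)) = (p : Qb) := by
    rw [← eval_one_cyclotomic_prime (R := Qb) (p := p), cyclotomic_eq_prod_X_sub_primitiveRoots hζ,
      eval_prod]
    simp
  have h := VEQ.prod (p := p) (g := fun _ => c) hall
  rw [hprod, Finset.sum_const, hζ.card_primitiveRoots, Nat.totient_prime hp, nsmul_eq_mul] at h
  have h2 := h.unique veq_cast_self
  rw [Nat.cast_sub hp.one_le, Nat.cast_one] at h2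
  have hpne : (p : ℝ) - 1 ≠ 0 := by
    have : (1 : ℝ) < p := one_lt_cast
    linarith
  rwa [show 1 / ((p : ℝ) - 1) = c by rw [div_eq_iff hpne]; linarith]

/-- On inertia the cyclotomic character is the residue of a power of the tame character. -/
theorem cyc_tchar (hn : ¬ p ∣ n) {d : ℕ} (hd : n = (p - 1) * d) (hσ : σ ∈ inert p) :
    VGT p 0 (tchar p n σ ^ d - ((cyc p σ).val : Qb)) := by
  have hp := (Fact.out : p.Prime)
  have hn0 := pos_of_not_dvd hn
  set π := piRoot p n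
  set ε := (zetaP p - 1) / π ^ d with hε
  have hd0 : d ≠ 0 := fun h => by rw [h, mul_zero] at hd; omega
  have hp1 : (0 : ℝ) < (p : ℝ) - 1 := by
    have : (1 : ℝ) < p := one_lt_cast
    linarith
  have hεv : VEQ p 0 ε := by
    have h := (veq_zetaP_sub_one (p := p)).div ((piRoot_veq (p := p) hn0).pow d)
    have he : 1 / ((p : ℝ) - 1) - (d : ℝ) * (1 / (n : ℝ)) = 0 := by
      have : (n : ℝ) = ((p : ℝ) - 1) * d := by
        rw [hd, Nat.cast_mul, Nat.cast_sub hp.one_le, Nat.cast_one]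
      rw [this]
      have : (d : ℝ) ≠ 0 := Nat.cast_ne_zero.mpr hd0
      field_simp
      ring
    rwa [he] at h
  have hs := inert_sub hσ hεv.vge
  have h1 : zetaP p - 1 = ε * π ^ d := by
    rw [hε, div_mul_cancel₀ _ (pow_ne_zero _ (piRoot_ne_zero hn0))]
  have hz0 : zetaP p - 1 ≠ 0 := sub_ne_zero.mpr ((zetaP_prim p).ne_one hp.one_lt)
  -- `(σ ζ - 1)/(ζ - 1)` computed in two ways
  set a := (cyc p σ).val
  have h2 : (zetaP p ^ a - 1) / (zetaP p - 1) = tchar p n σ ^ d * (σ ε / ε) := by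
    rw [show zetaP p ^ a - 1 = σ (zetaP p - 1) by rw [map_sub, map_one, apply_zetaP]; rfl, h1,
      map_mul, map_pow, tchar_mul_piRoot hn0, mul_pow]
    have := hεv.ne_zero
    have h0 : π ^ d ≠ 0 := pow_ne_zero d (piRoot_ne_zero (p := p) hn0)
    rw [mul_div_assoc', div_eq_div_iff (mul_ne_zero hεv.ne_zero h0) hεv.ne_zero]
    ring
  have hA : VGT p 0 ((zetaP p ^ a - 1) / (zetaP p - 1) - (a : Qb)) := by
    rw [← geom_sum_mul, mul_div_assoc, div_self hz0, mul_one]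
    have hterm : ∀ i, VGT p 0 (zetaP p ^ i - 1) := by
      intro i
      rw [← geom_sum_mul]
      have hpos : VGT p 0 (zetaP p - 1) :=
        (veq_zetaP_sub_one (p := p)).vge.vgt (by positivity)
      simpa using (VGE.sum (p := p) (c := 0) (s := Finset.range i) fun j _ => by
        simpa using ((veq_zero_of_pow_eq_one hp.ne_zero (zetaP_prim p).pow_eq_one).pow j).vge).mul_vgt hpos
    simpa [Finset.sum_sub_distrib] using VGT.sum (p := p) (s := Finset.range a) fun i _ => hterm i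
  have hB : VGT p 0 (tchar p n σ ^ d * (σ ε / ε) - tchar p n σ ^ d) := by
    have h3 : tchar p n σ ^ d * (σ ε / ε) - tchar p n σ ^ d =
        tchar p n σ ^ d * ((σ ε - ε) / ε) := by
      rw [sub_div, div_self hεv.ne_zero]; ring
    rw [h3]
    simpa using
      ((veq_zero_of_pow_eq_one hn0.ne' (tchar_pow hn0 σ)).pow d).vge.mul_vgt (hs.div hεv)
  rw [h2] at hA
  simpa using hA.sub hB

theorem natCast_eq_of_vgt {a b : ℕ} (h : VGT p 0 ((a : Qb) - b)) : (a : ZMod p) = b := by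
  rw [← sub_eq_zero]
  by_contra hne
  have : ¬ (p : ℤ) ∣ ((a : ℤ) - b) := fun hd => hne (by
    have := (ZMod.intCast_zmod_eq_zero_iff_dvd _ p).mpr hd
    simpa using this)
  have h2 := veq_intCast_of_not_dvd this
  push_cast at h2
  exact lt_irrefl _ (h2.lt_of_vgt h)

theorem cyc_eq_one_of_tchar (hn : ¬ p ∣ n) {d : ℕ} (hd : n = (p - 1) * d) (hσ : σ ∈ inert p)
    (h : tchar p n σ ^ d = 1) : cyc p σ = 1 := by
  have h1 := cyc_tchar hn hd hσ
  rw [h] at h1
  have h2 := natCast_eq_of_vgt (p := p) (a := 1) (b := (cyc p σ).val) (by simpa using h1)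
  rw [Nat.cast_one, ZMod.natCast_zmod_val] at h2
  exact h2.symm

theorem cyc_eq_one_of_mem_Kn (hn : ¬ p ∣ n) {d : ℕ} (hd : n = (p - 1) * d) (hσ : σ ∈ Kn p n) :
    cyc p σ = 1 := by
  obtain ⟨hI, ht⟩ := (mem_Kn_iff_tchar (pos_of_not_dvd hn)).mp hσ
  exact cyc_eq_one_of_tchar hn hd hI (by rw [ht, one_pow])

theorem inK_zp (hn : ¬ p ∣ n) {d : ℕ} (hd : n = (p - 1) * d) (a : ZMod p) : InK p n (zp p a) :=
  fun σ hσ => by rw [apply_zp, cyc_eq_one_of_mem_Kn hn hd hσ, one_mul]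

/-- Inertia surjects onto the mod `p` cyclotomic values. -/
theorem exists_cyc_eq {a : ZMod p} (ha : a ≠ 0) : ∃ σ ∈ inert p, cyc p σ = a := by
  have hp := (Fact.out : p.Prime)
  have hn : ¬ p ∣ p - 1 := by
    intro h
    have h1 := Nat.le_of_dvd (by have := hp.two_le; omega) h
    have := hp.two_le
    omega
  have hn0 := pos_of_not_dvd hn
  have hv : ¬ p ∣ a.val := fun h => ha (by
    rw [← ZMod.natCast_zmod_val a, (ZMod.natCast_eq_zero_iff _ _).mpr h])
  obtain ⟨ζ, hζ, hζa⟩ := exists_rootOfUnity_sub (p := p) hn (x := (a.val : Qb)) (vge_natCast _) (by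
    have h1 : (a.val : ZMod p) ^ (p - 1) = 1 := by
      rw [ZMod.natCast_zmod_val]; exact ZMod.pow_card_sub_one_eq_one ha
    have h2 : (p : ℤ) ∣ ((a.val ^ (p - 1) : ℕ) : ℤ) - 1 := by
      rw [← ZMod.intCast_zmod_eq_zero_iff_dvd]
      push_cast
      rw [ZMod.natCast_zmod_val] at h1 ⊢
      rw [h1, sub_self]
    obtain ⟨k, hk⟩ := h2
    have h3 : ((a.val : Qb) ^ (p - 1) - 1) = (p : Qb) * (k : Qb) := by exact_mod_cast hk
    rw [h3]
    exact ((veq_cast_self (p := p)).vge.mul (vge_intCast k)).vgt (by norm_num))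
  obtain ⟨σ, hσ, hσζ⟩ := exists_tchar_eq hn hζ
  refine ⟨σ, hσ, ?_⟩
  have h4 := cyc_tchar hn (d := 1) (by rw [mul_one]) hσ
  rw [pow_one, hσζ] at h4
  have h5 := natCast_eq_of_vgt (p := p) (a := a.val) (b := (cyc p σ).val) (by simpa using hζa.add h4)
  rw [ZMod.natCast_zmod_val, ZMod.natCast_zmod_val] at h5
  exact h5.symm

/-- Kummer theory: a level-constant cocycle in `μ_p` is the Kummer cocycle of some element. -/
theorem exists_kummer (H : Subgroup Gal) (f : Gal → ZMod p)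
    (hf : ∀ σ ∈ H, ∀ τ ∈ H, f (σ * τ) = f σ + cyc p σ * f τ)
    (F : IntermediateField ℚ Qb) [FiniteDimensional ℚ F]
    (hlev : ∀ σ ∈ H, σ ∈ F.fixingSubgroup → f σ = 0) :
    ∃ α : Qb, α ≠ 0 ∧ (∀ σ ∈ H, σ α = zp p (f σ) * α) ∧ ∀ σ ∈ H, σ (α ^ p) = α ^ p := by
  classical
  let M : IntermediateField ℚ Qb := IntermediateField.normalClosure ℚ F Qb
  have : FiniteDimensional ℚ M := normalClosure.is_finiteDimensional ℚ F Qb
  have : Normal ℚ M := normalClosure.normal ℚ F Qb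
  have hle : M.fixingSubgroup ≤ F.fixingSubgroup :=
    IntermediateField.fixingSubgroup_antitone F.le_normalClosure
  let R := (AlgEquiv.restrictNormalHom (F := ℚ) (K₁ := Qb) M)
  let G := H.map R
  have : Finite G := Finite.of_injective Subtype.val Subtype.val_injective
  letI := Fintype.ofFinite G
  have hex : ∀ g : G, ∃ σ, σ ∈ H ∧ R σ = g.1 := fun g => Subgroup.mem_map.mp g.2
  choose sec hsec1 hsec2 using hex
  have hres : ∀ (σ : Gal) (x : M), σ (x : Qb) = ((R σ x : M) : Qb) := fun σ x =>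
    (AlgEquiv.restrictNormal_commutes σ M x).symm
  have hwd : ∀ σ ∈ H, ∀ τ ∈ H, R σ = R τ → f σ = f τ := by
    intro σ hσ τ hτ heq
    have hfx : σ⁻¹ * τ ∈ M.fixingSubgroup := by
      rw [← IntermediateField.restrictNormalHom_ker, MonoidHom.mem_ker, map_mul, map_inv]
      show (R σ)⁻¹ * R τ = 1
      rw [heq, inv_mul_cancel]
    have h := hf σ hσ (σ⁻¹ * τ) (mul_mem (inv_mem hσ) hτ)
    rw [mul_inv_cancel_left, hlev _ (mul_mem (inv_mem hσ) hτ) (hle hfx), mul_zero, add_zero] at h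
    exact h.symm
  let emb : G → (M →* Qb) := fun g =>
    ((M.val.comp (g.1 : M →ₐ[ℚ] M)) : M →ₐ[ℚ] Qb).toMonoidHom
  have hembinj : Function.Injective emb := by
    intro g g' h
    refine Subtype.ext (AlgEquiv.ext fun x => Subtype.ext ?_)
    exact DFunLike.congr_fun h x
  have hli := (linearIndependent_monoidHom M Qb).comp emb hembinj
  obtain ⟨θ, hθ⟩ : ∃ θ : M, ∑ g : G, zp p (-f (sec g)) * emb g θ ≠ 0 := by
    by_contra! h
    have h1 := Fintype.linearIndependent_iff.mp hli (fun g => zp p (-f (sec g)))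
      (funext fun x => by simpa [Finset.sum_apply] using h x)
    exact zp_ne_zero _ (h1 ⟨1, one_mem _⟩)
  set α := ∑ g : G, zp p (-f (sec g)) * emb g θ with hα
  have hact : ∀ τ ∈ H, τ α = zp p (f τ) * α := by
    intro τ hτ
    let gτ : G := ⟨R τ, Subgroup.mem_map.mpr ⟨τ, hτ, rfl⟩⟩
    rw [hα, map_sum, Finset.mul_sum]
    refine Finset.sum_bij (fun g _ => gτ * g) (fun _ _ => Finset.mem_univ _)
      (fun _ _ _ _ h => mul_left_cancel h)
      (fun g _ => ⟨gτ⁻¹ * g, Finset.mem_univ _, mul_inv_cancel_left _ _⟩) ?_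
    intro g _
    have h1 : f (sec (gτ * g)) = f τ + cyc p τ * f (sec g) := by
      rw [← hf τ hτ _ (hsec1 g)]
      refine hwd _ (hsec1 _) _ (mul_mem hτ (hsec1 g)) ?_
      rw [hsec2, map_mul]
      show R τ * g.1 = R τ * R (sec g)
      rw [hsec2]
    rw [map_mul, apply_zp, ← mul_assoc, ← zp_add, h1, mul_neg, neg_add, add_neg_cancel_left]
    congr 1
    show τ (((g.1 θ : M) : Qb)) = ((R τ (g.1 θ) : M) : Qb)
    exact hres τ _
  refine ⟨α, hθ, hact, fun σ hσ => ?_⟩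
  rw [map_pow, hact σ hσ, mul_pow, zp_pow_p, one_mul]

end Fermat.Agent.FlatTangent
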