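import Fermat.Agent.FlatTangent.Ops

/-!
# Rigidity of integral models of a tame line

For a finite field `F` with `q` elements on which inertia acts through a nontrivial tame character
`η` of level `q - 1`, a model of discriminant at most `q / 2` is the span of the powers of one
coordinate `x` with `x 1 = (-p)^(1/(q-1))`, and `η` is a field embedding composed with the residue
of the fundamental character.
-/

set_option autoImplicit false
set_option linter.unusedSectionVars false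
set_option linter.style.haveILetI false

noncomputable section

namespace Fermat.Agent.FlatTangent

open Matrix

variable {p : ℕ} [Fact p.Prime]

/-- The valuation of a Vandermonde determinant with equidistant entries. -/
theorem veq_det_vandermonde {m : ℕ} {v : Fin m → Qb} {c : ℝ}
    (h : ∀ i j, i ≠ j → VEQ p c (v i - v j)) :
    VEQ p (c * ((m : ℝ) * ((m : ℝ) - 1) / 2)) (Matrix.vandermonde v).det := by
  rw [Matrix.det_vandermonde]
  have hsum : (∑ i : Fin m, ∑ _j ∈ Finset.Ioi i, c) = c * ((m : ℝ) * ((m : ℝ) - 1) / 2) := by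
    simp only [Finset.sum_const, nsmul_eq_mul, Fin.card_Ioi, ← Finset.sum_mul]
    rw [mul_comm]
    congr 1
    clear h v
    induction m with
    | zero => simp
    | succ m ih =>
      rw [Fin.sum_univ_succ]
      have : (∑ i : Fin m, ((m + 1 - 1 - (i.succ : ℕ) : ℕ) : ℝ)) =
          ∑ i : Fin m, ((m - 1 - (i : ℕ) : ℕ) : ℝ) :=
        Finset.sum_congr rfl fun i _ => by
          congr 1
          rw [Fin.val_succ]
          omega
      rw [this, ih]
      simp only [Fin.val_zero, add_tsub_cancel_right, tsub_zero]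
      push_cast
      ring
  rw [← hsum]
  exact VEQ.prod fun i _ => VEQ.prod fun j hj => h j i (ne_of_gt (Finset.mem_Ioi.mp hj))

variable {F : Type} [Field F] [Fintype F] [DecidableEq F]

/-- The action by multiplication through a character. -/
def mulAct (η : Gal → F) : Gal → F → F := fun σ x => η σ * x

/-- `η` is a character of inertia of level `n = #F - 1`. -/
structure IsLineChar (p : ℕ) [Fact p.Prime] {F : Type} [Field F] [Fintype F] (η : Gal → F)
    (n : ℕ) : Prop where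
  card : Fintype.card F = n + 1
  not_dvd : ¬ p ∣ n
  map_mul : ∀ σ ∈ inert p, ∀ τ ∈ inert p, η (σ * τ) = η σ * η τ
  ker : ∀ σ ∈ Kn p n, η σ = 1

namespace IsLineChar

variable {η : Gal → F} {n : ℕ}

theorem map_one (h : IsLineChar p η n) : η 1 = 1 := h.ker 1 (one_mem _)

theorem ne_zero (h : IsLineChar p η n) {σ : Gal} (hσ : σ ∈ inert p) : η σ ≠ 0 := fun h0 => by
  have h1 := h.map_mul σ hσ σ⁻¹ (inv_mem hσ)
  rw [mul_inv_cancel, h.map_one, h0, zero_mul] at h1
  exact one_ne_zero h1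

theorem isAct (h : IsLineChar p η n) : IsAct p (mulAct η) :=
  ⟨fun σ _ x y => mul_add _ x y, fun x => by rw [mulAct, h.map_one, one_mul],
    fun σ hσ τ hτ x => by simp only [mulAct, h.map_mul σ hσ τ hτ, mul_assoc]⟩

theorem map_pow (h : IsLineChar p η n) {σ : Gal} (hσ : σ ∈ inert p) (k : ℕ) :
    η (σ ^ k) = η σ ^ k := by
  induction k with
  | zero => rw [pow_zero, pow_zero, h.map_one]
  | succ k ih => rw [pow_succ, h.map_mul _ (pow_mem hσ k) σ hσ, ih, pow_succ]

theorem eq_of_tchar_eq (h : IsLineChar p η n) {σ τ : Gal} (hσ : σ ∈ inert p) (hτ : τ ∈ inert p)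
    (ht : tchar p n σ = tchar p n τ) : η σ = η τ := by
  have hn0 := pos_of_not_dvd h.not_dvd
  have hne : tchar p n τ ≠ 0 :=
    (veq_zero_of_pow_eq_one (p := p) hn0.ne' (tchar_pow (p := p) hn0 τ)).ne_zero
  have h1 : τ⁻¹ * σ ∈ Kn p n := (mem_Kn_iff_tchar hn0).mpr ⟨mul_mem (inv_mem hτ) hσ, by
    rw [tchar_mul h.not_dvd (inv_mem hτ), tchar_inv h.not_dvd hτ, ht, inv_mul_cancel₀ hne]⟩
  have h2 := h.map_mul τ hτ (τ⁻¹ * σ) (mul_mem (inv_mem hτ) hσ)
  rw [mul_inv_cancel_left, h.ker _ h1, mul_one] at h2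
  exact h2

end IsLineChar

/-- The connected part of a line model is everything when the character is nontrivial. -/
theorem line_conn {η : Gal → F} (R : Model p F (mulAct η)) {σ : Gal} (hσ : σ ∈ inert p)
    (hne : η σ ≠ 1) (x : F) : R.Conn x := by
  have h := R.conn_act_sub hσ (x / (η σ - 1))
  have h1 : η σ - 1 ≠ 0 := sub_ne_zero.mpr hne
  convert h using 1
  simp only [mulAct]
  field_simp

theorem Model.disc_nonneg {M : Type} [AddCommGroup M] [Fintype M] [DecidableEq M]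
    {act : Gal → M → M} (R : Model p M act) : 0 ≤ R.disc :=
  R.veq_disc.le_of_vge (vge_det R.integral)

/-- A positive element fixed by the stabilizer of a radical `α` of `-p` is an integral combination
of the positive powers of `α`. -/
theorem exists_positive_expansion {e : ℕ} [NeZero e] (hep : ¬ p ∣ e) {α y : Qb}
    (hαe : α ^ e = -(p : Qb)) (hαv : VEQ p (1 / e) α)
    (hsurj : ∀ ζ : Qb, ζ ^ e = 1 → ∃ σ ∈ inert p, σ α = ζ * α)
    (hfix : ∀ σ ∈ inert p, σ α = α → σ y = y) {r : ℝ} (hr : 0 < r) (hy : VGE p r y) :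
    ∃ d : Fin e → Qb, (∀ i, InU p (d i)) ∧ (∀ i, VGE p 0 (d i)) ∧
      y = ∑ i, d i * α ^ ((i : ℕ) + 1) := by
  have he0 : 0 < e := NeZero.pos e
  have hα0 : α ≠ 0 := hαv.ne_zero
  obtain ⟨c, hc, hsum, hbound⟩ := exists_radical_expansion (p := p) (inert p) hα0 (m := e)
    (fun ζ hζ σ hσ => inU_of_pow_eq_one hep hζ σ hσ)
    (fun σ _ => by
      rw [div_pow, ← map_pow, hαe, map_neg, map_natCast, div_self]
      exact neg_ne_zero.mpr (Nat.cast_ne_zero.mpr (Fact.out : p.Prime).ne_zero))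
    hsurj hfix
  have hterm : ∀ i, VGE p r (c i * α ^ (i : ℕ)) := fun i => by
    simpa using hbound r _ 0 (fun σ hσ => hy.dec (inert_le_dec hσ)) hαv
      (veq_natCast_of_not_dvd hep) i
  have hcint : ∀ i : Fin e, VGE p 0 (c i) := by
    intro i
    have h1 := (hterm i).div (hαv.pow (i : ℕ))
    rw [mul_div_assoc, div_self (pow_ne_zero _ hα0), mul_one] at h1
    have h2 : ((i : ℕ) : ℝ) * (1 / (e : ℝ)) < 1 := by
      rw [mul_one_div, div_lt_one (Nat.cast_pos.mpr he0)]
      exact_mod_cast i.2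
    have := InU.vge_intCast (p := p) (a := 0) (fun σ hσ => hc i σ hσ) h1
      (by push_cast; linarith)
    simpa using this
  have hc0 : VGE p 1 (c 0) := by
    have h1 := hterm 0
    rw [Fin.val_zero, pow_zero, mul_one] at h1
    exact InU.vge_one_of_vgt (fun σ hσ => hc _ σ hσ) (h1.vgt hr)
  refine ⟨fun i => c (i + 1) * α ^ ((i + 1 : Fin e) : ℕ) / α ^ ((i : ℕ) + 1), fun i => ?_,
    fun i => ?_, ?_⟩
  · dsimp only
    by_cases h : (i : ℕ) + 1 < e
    · rw [Fin.val_add, Fin.val_one', Nat.add_mod_mod, Nat.mod_eq_of_lt h, mul_div_assoc,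
        div_self (pow_ne_zero _ hα0), mul_one]
      exact fun σ hσ => hc _ σ hσ
    · have h' : (i : ℕ) + 1 = e := by omega
      rw [Fin.val_add, Fin.val_one', Nat.add_mod_mod, h', Nat.mod_self, pow_zero, mul_one, hαe]
      intro σ hσ
      rw [map_div₀, hc _ σ hσ, map_neg, map_natCast]
  · dsimp only
    by_cases h : (i : ℕ) + 1 < e
    · rw [Fin.val_add, Fin.val_one', Nat.add_mod_mod, Nat.mod_eq_of_lt h, mul_div_assoc,
        div_self (pow_ne_zero _ hα0), mul_one]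
      exact hcint _
    · have h' : (i : ℕ) + 1 = e := by omega
      have hi : i + 1 = 0 := Fin.ext (by
        rw [Fin.val_add, Fin.val_one', Nat.add_mod_mod, h', Nat.mod_self, Fin.val_zero])
      rw [hi, Fin.val_zero, pow_zero, mul_one, h', hαe]
      simpa using hc0.div (veq_cast_self (p := p)).neg
  · rw [hsum, ← Equiv.sum_comp (Equiv.addRight (1 : Fin e))]
    refine Finset.sum_congr rfl fun i _ => ?_
    rw [Equiv.coe_addRight, div_mul_cancel₀ _ (pow_ne_zero _ hα0)]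

/-- Indexing of a finite field by powers of `u` times orbit representatives, and zero. -/
theorem exists_orbit_equiv {n : ℕ} (hcard : Fintype.card F = n + 1) {u : F} (hu0 : u ≠ 0)
    {e N : ℕ} [NeZero e] [NeZero N] (he : e = orderOf u) (hN : n = e * N) :
    ∃ eqv : (Fin e × Fin N) ⊕ Unit ≃ F, eqv (Sum.inr ()) = 0 ∧ eqv (Sum.inl (0, 0)) = 1 ∧
      ∀ j o, eqv (Sum.inl (j, o)) = u ^ (j : ℕ) * eqv (Sum.inl (0, o)) := by
  have he0 : 0 < e := NeZero.pos e
  obtain ⟨g, hg⟩ := IsCyclic.exists_generator (α := Fˣ)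
  have hgord : orderOf g = n := by
    rw [orderOf_eq_card_of_forall_mem_zpowers hg, Nat.card_units, Nat.card_eq_fintype_card,
      hcard, add_tsub_cancel_right]
  let pt : Fin e × Fin N → F := fun jo => u ^ (jo.1 : ℕ) * (g : F) ^ (jo.2 : ℕ)
  have hpt0 : ∀ jo, pt jo ≠ 0 := fun jo =>
    mul_ne_zero (pow_ne_zero _ hu0) (pow_ne_zero _ g.ne_zero)
  have hptinj : Function.Injective pt := by
    rintro ⟨j, o⟩ ⟨j', o'⟩ h
    simp only [pt] at h
    have h1 : ((g : F) ^ (o : ℕ)) ^ e = ((g : F) ^ (o' : ℕ)) ^ e := by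
      have h2 := congrArg (· ^ e) h
      simp only [mul_pow] at h2
      have hue : ∀ j : ℕ, (u ^ j) ^ e = 1 := fun j => by
        rw [← pow_mul, mul_comm, pow_mul, he, pow_orderOf_eq_one, one_pow]
      rwa [hue, hue, one_mul, one_mul] at h2
    rw [← pow_mul, ← pow_mul] at h1
    have h2 : g ^ ((o : ℕ) * e) = g ^ ((o' : ℕ) * e) := Units.ext (by simpa using h1)
    have hlt : ∀ o : Fin N, (o : ℕ) * e < orderOf g := fun o => by
      rw [hgord, hN, mul_comm e N]; exact (Nat.mul_lt_mul_right he0).mpr o.2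
    have h3 : o = o' :=
      Fin.ext (Nat.eq_of_mul_eq_mul_right he0 (pow_injOn_Iio_orderOf (hlt o) (hlt o') h2))
    subst h3
    have h4 := mul_right_cancel₀ (pow_ne_zero _ g.ne_zero) h
    rw [Prod.mk.injEq]
    exact ⟨Fin.ext (pow_injOn_Iio_orderOf (Set.mem_Iio.mpr (he ▸ j.2))
      (Set.mem_Iio.mpr (he ▸ j'.2)) h4), rfl⟩
  have hbij : Function.Bijective (Sum.elim pt fun _ : Unit => (0 : F)) := by
    rw [Fintype.bijective_iff_injective_and_card]
    refine ⟨Function.Injective.sumElim hptinj (fun _ _ _ => rfl) fun a _ => hpt0 a, ?_⟩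
    rw [Fintype.card_sum, Fintype.card_prod, Fintype.card_fin, Fintype.card_fin, Fintype.card_unit,
      hcard, hN]
  refine ⟨Equiv.ofBijective _ hbij, rfl, ?_, fun j o => ?_⟩
  · show pt (0, 0) = 1
    simp [pt]
  · show pt (j, o) = u ^ (j : ℕ) * pt (0, o)
    simp [pt]

/-- The matrix of positive powers on each orbit, together with the constant function. -/
def orbitMatrix {e : ℕ} (z : Fin e → Qb) (N : ℕ) :
    Matrix ((Fin e × Fin N) ⊕ Unit) ((Fin e × Fin N) ⊕ Unit) Qb :=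
  Matrix.fromBlocks (Matrix.blockDiagonal fun _ => Matrix.of fun i j => z j ^ ((i : ℕ) + 1)) 0
    (Matrix.of fun _ _ => 1) (Matrix.of fun _ _ => 1)

theorem veq_orbitMatrix_det {e : ℕ} [NeZero e] {z : Fin e → Qb}
    (hzv : ∀ j, VEQ p (1 / e) (z j)) (hzd : ∀ i j, i ≠ j → VEQ p (1 / e) (z i - z j)) (N : ℕ) :
    VEQ p (N * (((e : ℝ) + 1) / 2)) (orbitMatrix z N).det := by
  have hVdet : VEQ p (((e : ℝ) + 1) / 2)
      (Matrix.of fun i j => z j ^ ((i : ℕ) + 1) : Matrix (Fin e) (Fin e) Qb).det := by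
    have h1 : (Matrix.of fun i j => z j ^ ((i : ℕ) + 1) : Matrix (Fin e) (Fin e) Qb) =
        (Matrix.vandermonde z)ᵀ * Matrix.diagonal z := by
      ext i j
      simp [Matrix.vandermonde, Matrix.mul_diagonal, pow_succ]
    rw [h1, Matrix.det_mul, Matrix.det_transpose, Matrix.det_diagonal]
    have h2 := (veq_det_vandermonde hzd).mul
      (VEQ.prod (p := p) (g := fun _ => (1 : ℝ) / e) fun j (_ : j ∈ Finset.univ) => hzv j)
    rw [Finset.sum_const, Finset.card_univ, Fintype.card_fin, nsmul_eq_mul] at h2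
    have he' : (e : ℝ) ≠ 0 := Nat.cast_ne_zero.mpr (NeZero.ne e)
    have : 1 / (e : ℝ) * ((e : ℝ) * ((e : ℝ) - 1) / 2) + (e : ℝ) * (1 / e) = ((e : ℝ) + 1) / 2 := by
      field_simp
      ring
    rwa [this] at h2
  rw [orbitMatrix, Matrix.det_fromBlocks_zero₁₂, Matrix.det_blockDiagonal, Finset.prod_const]
  have h1 : (Matrix.of fun (_ _ : Unit) => (1 : Qb)).det = 1 := by simp [Matrix.det_unique]
  rw [h1, mul_one, Finset.card_univ, Fintype.card_fin]
  exact hVdet.pow N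

theorem inSpan_orbitMatrix {e N : ℕ} {z : Fin e → Qb} (eqv : (Fin e × Fin N) ⊕ Unit ≃ F)
    (h0 : eqv (Sum.inr ()) = 0) {f : F → Qb} (hf0 : VGE p 0 (f 0)) {d : Fin N → Fin e → Qb}
    (hd : ∀ o i, VGE p 0 (d o i))
    (hd' : ∀ o j, f (eqv (Sum.inl (j, o))) - f 0 = ∑ i, d o i * z j ^ ((i : ℕ) + 1)) :
    InSpan p ((orbitMatrix z N).submatrix eqv.symm eqv.symm) f := by
  let c : (Fin e × Fin N) ⊕ Unit → Qb := Sum.elim (fun io => d io.2 io.1) fun _ => f 0
  refine ⟨fun k => c (eqv.symm k), fun k => ?_, fun x => ?_⟩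
  · show VGE p 0 (c (eqv.symm k))
    generalize eqv.symm k = a
    rcases a with io | w
    · exact hd io.2 io.1
    · exact hf0
  · rw [← Equiv.sum_comp eqv]
    simp only [Matrix.submatrix_apply, Equiv.symm_apply_apply, c]
    rw [Fintype.sum_sum_type, Fintype.sum_prod_type]
    obtain ⟨a, rfl⟩ := eqv.surjective x
    simp only [Equiv.symm_apply_apply]
    rcases a with ⟨j, o⟩ | w
    · simp only [orbitMatrix, Sum.elim_inl, Sum.elim_inr, Matrix.fromBlocks_apply₁₁,
        Matrix.fromBlocks_apply₂₁, Matrix.of_apply, Matrix.blockDiagonal_apply, mul_ite, mul_zero,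
        Finset.sum_ite_eq', Finset.mem_univ, if_true, mul_one, Fintype.univ_ofSubsingleton,
        Finset.sum_singleton]
      rw [← hd' o j, sub_add_cancel]
    · simp only [orbitMatrix, Sum.elim_inl, Sum.elim_inr, Matrix.fromBlocks_apply₁₂,
        Matrix.fromBlocks_apply₂₂, Matrix.of_apply, Matrix.zero_apply, mul_zero,
        Finset.sum_const_zero, zero_add, mul_one, Fintype.univ_ofSubsingleton,
        Finset.sum_singleton]
      rw [show eqv (Sum.inr w) = 0 from h0]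

/-- What a rigid line model provides. -/
structure LineCoord {η : Gal → F} (R : Model p F (mulAct η)) (n : ℕ) where
  /-- The coordinate. -/
  x : F → Qb
  equiv : IEquiv p (mulAct η) x
  mem : InSpan p R.E x
  map_zero : x 0 = 0
  map_one : x 1 = piRoot p n
  surj : ∀ c : F, c ≠ 0 → ∃ σ ∈ inert p, η σ = c

/-- The bound on the discriminant of a line model. -/
theorem exists_orbit_span {η : Gal → F} {n : ℕ} (hη : IsLineChar p η n) {σ₁ : Gal}
    (hσ₁ : σ₁ ∈ inert p) (hne₁ : η σ₁ ≠ 1) (R : Model p F (mulAct η)) :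
    ∃ (τ : Gal) (e N : ℕ) (_ : NeZero e) (_ : NeZero N) (eqv : (Fin e × Fin N) ⊕ Unit ≃ F)
      (z : Fin e → Qb), τ ∈ inert p ∧ IsPrimitiveRoot (tchar p n τ) n ∧ e = orderOf (η τ) ∧
      n = e * N ∧ eqv (Sum.inr ()) = 0 ∧ eqv (Sum.inl (0, 0)) = 1 ∧
      (∀ j o, eqv (Sum.inl (j, o)) = η τ ^ (j : ℕ) * eqv (Sum.inl (0, o))) ∧
      (∀ j, z j = (tchar p n τ ^ N) ^ (j : ℕ) * piRoot p n ^ N) ∧
      VEQ p (N * (((e : ℝ) + 1) / 2))
        ((orbitMatrix z N).submatrix eqv.symm eqv.symm).det ∧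
      ∀ i, InSpan p ((orbitMatrix z N).submatrix eqv.symm eqv.symm) (R.E i) := by
  classical
  have hn := hη.not_dvd
  have hn0 := pos_of_not_dvd hn
  obtain ⟨τ, hτ, hω⟩ := exists_tchar_prim (p := p) hn
  have : NeZero n := ⟨hn0.ne'⟩
  have hu0 : η τ ≠ 0 := hη.ne_zero hτ
  have hun : η τ ^ n = 1 := by
    have := FiniteField.pow_card_sub_one_eq_one (η τ) hu0
    rwa [hη.card, add_tsub_cancel_right] at this
  obtain ⟨N, hN⟩ : orderOf (η τ) ∣ n := orderOf_dvd_of_pow_eq_one hun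
  set e := orderOf (η τ) with he_def
  have he0 : 0 < e := Nat.pos_of_ne_zero fun h => hn0.ne' (by rw [hN, h, zero_mul])
  have hN0 : 0 < N := Nat.pos_of_ne_zero fun h => hn0.ne' (by rw [hN, h, mul_zero])
  have : NeZero e := ⟨he0.ne'⟩
  have : NeZero N := ⟨hN0.ne'⟩
  have hep : ¬ p ∣ e := fun h => hn (hN ▸ h.mul_right N)
  set α := piRoot p n ^ N with hαdef
  have hαe : α ^ e = -(p : Qb) := by rw [hαdef, ← pow_mul, mul_comm, ← hN, piRoot_pow hn0]
  have hαv : VEQ p (1 / e) α := by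
    have h := (piRoot_veq (p := p) hn0).pow N
    have he : (N : ℝ) * (1 / (n : ℝ)) = 1 / (e : ℝ) := by
      have hn' : (n : ℝ) = e * N := by rw [hN]; push_cast; ring
      rw [hn']
      have : (N : ℝ) ≠ 0 := Nat.cast_ne_zero.mpr hN0.ne'
      field_simp
    rwa [he] at h
  have hωN : IsPrimitiveRoot (tchar p n τ ^ N) e := hω.pow hn0 (by rw [hN, mul_comm])
  have hroot : ∀ j : Fin e, ((tchar p n τ ^ N) ^ (j : ℕ)) ^ e = 1 := fun j => by
    rw [← pow_mul, mul_comm (j : ℕ), pow_mul, hωN.pow_eq_one, one_pow]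
  let z : Fin e → Qb := fun j => (tchar p n τ ^ N) ^ (j : ℕ) * α
  have hzv : ∀ j, VEQ p (1 / e) (z j) := fun j => by
    simpa using ((veq_zero_of_pow_eq_one he0.ne' hωN.pow_eq_one).pow (j : ℕ)).mul hαv
  have hzd : ∀ i j, i ≠ j → VEQ p (1 / e) (z i - z j) := by
    intro i j hij
    have h1 : VEQ p 0 ((tchar p n τ ^ N) ^ (i : ℕ) - (tchar p n τ ^ N) ^ (j : ℕ)) := by
      refine le_antisymm ((veq_zero_of_pow_eq_one he0.ne' (hroot i)).vge.sub
        (veq_zero_of_pow_eq_one he0.ne' (hroot j)).vge) (not_lt.mp fun hlt => hij ?_)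
      exact Fin.ext (hωN.pow_inj i.2 j.2 (eq_of_vgt hep (hroot i) (hroot j) hlt))
    simpa [z, sub_mul] using h1.mul hαv
  obtain ⟨eqv, heqv0, heqv1, heqvj⟩ :=
    exists_orbit_equiv (e := e) (N := N) hη.card hu0 he_def hN
  have hτα : ∀ j : Fin e, (τ ^ (j : ℕ)) α = z j := fun j => by
    rw [hαdef, map_pow, tchar_mul_piRoot hn0, mul_pow, tchar_pow_apply hn hτ, pow_right_comm]
  refine ⟨τ, e, N, inferInstance, inferInstance, eqv, z, hτ, hω, rfl, hN, heqv0, heqv1, heqvj,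
    fun j => rfl, ?_, fun i₀ => ?_⟩
  · rw [Matrix.det_submatrix_equiv_self]
    exact veq_orbitMatrix_det hzv hzd N
  have hf0 : InU p (R.E i₀ 0) := R.inU_apply_zero (R.equiv i₀)
  have hexp : ∀ o : Fin N, ∃ d : Fin e → Qb, (∀ i, VGE p 0 (d i)) ∧
      ∀ j : Fin e, R.E i₀ (eqv (Sum.inl (j, o))) - R.E i₀ 0 = ∑ i, d i * z j ^ ((i : ℕ) + 1) := by
    intro o
    set h₀ := eqv (Sum.inl (0, o)) with hh₀
    set y := R.E i₀ h₀ - R.E i₀ 0 with hy
    have hact : ∀ σ ∈ inert p, σ y = R.E i₀ (η σ * h₀) - R.E i₀ 0 := fun σ hσ => by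
      rw [hy, map_sub, ← R.equiv i₀ σ hσ h₀, hf0 σ hσ]; rfl
    have hyfix : ∀ σ ∈ inert p, σ α = α → σ y = y := by
      intro σ hσ hσα
      obtain ⟨k, -, hk⟩ := hω.eq_pow_of_pow_eq_one (tchar_pow (p := p) hn0 σ)
      have hk1 : η σ = η τ ^ k := by
        rw [← hη.map_pow hτ k]
        exact hη.eq_of_tchar_eq hσ (pow_mem hτ k) (by rw [tchar_pow_apply hn hτ, hk])
      rw [hαdef, map_pow, tchar_mul_piRoot hn0, mul_pow] at hσα
      have h1 : tchar p n σ ^ N = 1 :=
        mul_right_cancel₀ (pow_ne_zero N (piRoot_ne_zero (p := p) hn0))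
          (hσα.trans (one_mul _).symm)
      rw [← hk, ← pow_mul, hω.pow_eq_one_iff_dvd, hN] at h1
      have h2 : e ∣ k := Nat.dvd_of_mul_dvd_mul_right hN0 h1
      rw [hact σ hσ, hk1, orderOf_dvd_iff_pow_eq_one.mp (he_def ▸ h2), one_mul]
    have hyK : InK p n y := fun σ hσ => by
      obtain ⟨hσI, -⟩ := (mem_Kn_iff_tchar hn0).mp hσ
      rw [hact σ hσI, hη.ker σ hσ, one_mul]
    have hyv : VGE p (1 / n) y := by
      have h1 : VGT p 0 y := line_conn R hσ₁ hne₁ h₀ i₀
      simpa using hyK.vge_of_vgt hn (j := 0) (by simpa using h1)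
    obtain ⟨d, hdU, hd, hsum⟩ := exists_positive_expansion hep hαe hαv
      (fun ζ hζ => by
        obtain ⟨k, -, hk⟩ := hωN.eq_pow_of_pow_eq_one hζ
        refine ⟨τ ^ k, pow_mem hτ k, ?_⟩
        rw [hαdef, map_pow, tchar_mul_piRoot hn0, mul_pow, tchar_pow_apply hn hτ,
          pow_right_comm, hk])
      hyfix (one_div_pos.mpr (Nat.cast_pos.mpr hn0)) hyv
    refine ⟨d, hd, fun j => ?_⟩
    have hj : R.E i₀ (eqv (Sum.inl (j, o))) - R.E i₀ 0 = (τ ^ (j : ℕ)) y := by
      rw [hact _ (pow_mem hτ _), hη.map_pow hτ, ← heqvj]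
    rw [hj, hsum, map_sum]
    exact Finset.sum_congr rfl fun i _ => by
      rw [map_mul, map_pow, hτα, hdU i _ (pow_mem hτ _)]
  choose d hd hd' using hexp
  exact inSpan_orbitMatrix eqv heqv0 (R.integral i₀ 0) hd hd'

/-- Rigidity of line models. -/
theorem nonempty_lineCoord {η : Gal → F} {n : ℕ} (hη : IsLineChar p η n) {σ₁ : Gal}
    (hσ₁ : σ₁ ∈ inert p) (hne₁ : η σ₁ ≠ 1) (R : Model p F (mulAct η))
    (hdisc : R.disc ≤ ((n : ℝ) + 1) / 2) :
    Nonempty (LineCoord R n) ∧ R.disc = ((n : ℝ) + 1) / 2 := by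
  classical
  have hn := hη.not_dvd
  have hn0 := pos_of_not_dvd hn
  obtain ⟨τ, e, N, _, _, eqv, z, hτ, hω, he, hN, heqv0, heqv1, heqvj, hz, hΦdet, hspan⟩ :=
    exists_orbit_span hη hσ₁ hne₁ R
  set Φ := (orbitMatrix z N).submatrix eqv.symm eqv.symm with hΦ
  have hle := det_le hΦdet R.veq_disc hspan
  have hN' : (n : ℝ) = (e : ℝ) * N := by exact_mod_cast hN
  have he0 : 0 < e := NeZero.pos e
  have hN1 : N = 1 := by
    by_contra h
    have h2 : (2 : ℝ) ≤ N := by exact_mod_cast (by have := NeZero.pos N; omega : 2 ≤ N)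
    rw [hN'] at hdisc
    nlinarith
  subst hN1
  rw [mul_one] at hN
  subst hN
  rw [Nat.cast_one, one_mul] at hle
  have heq : R.disc = ((n : ℝ) + 1) / 2 := le_antisymm hdisc hle
  have hentry : ∀ a, Φ (eqv (Sum.inl (0, 0))) (eqv a) = orbitMatrix z 1 (Sum.inl (0, 0)) a :=
    fun a => by simp [hΦ]
  have hval : ∀ j o, Φ (eqv (Sum.inl (0, 0))) (eqv (Sum.inl (j, o))) =
      tchar p n τ ^ (j : ℕ) * piRoot p n := fun j o => by
    rw [hentry, orbitMatrix, Matrix.fromBlocks_apply₁₁, Matrix.blockDiagonal_apply,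
      if_pos (Subsingleton.elim _ _), Matrix.of_apply, hz, Fin.val_zero, zero_add, pow_one, pow_one,
      pow_one]
  have hzero : Φ (eqv (Sum.inl (0, 0))) 0 = 0 := by
    rw [← heqv0, hentry, orbitMatrix, Matrix.fromBlocks_apply₁₂, Matrix.zero_apply]
  have hsurj : ∀ c : F, c ≠ 0 → ∃ j : Fin n, c = η τ ^ (j : ℕ) ∧
      Φ (eqv (Sum.inl (0, 0))) c = tchar p n τ ^ (j : ℕ) * piRoot p n := by
    intro c hc
    obtain ⟨a, rfl⟩ := eqv.surjective c
    rcases a with ⟨j, o⟩ | w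
    · refine ⟨j, ?_, hval j o⟩
      rw [heqvj, Subsingleton.elim o 0, heqv1, mul_one]
    · exact absurd heqv0 hc
  refine ⟨⟨⟨Φ (eqv (Sum.inl (0, 0))), ?_, ?_, hzero, ?_, ?_⟩⟩, heq⟩
  · intro σ hσ x
    obtain ⟨k, -, hk⟩ := hω.eq_pow_of_pow_eq_one (tchar_pow (p := p) hn0 σ)
    have hk1 : η σ = η τ ^ k := by
      rw [← hη.map_pow hτ k]
      exact hη.eq_of_tchar_eq hσ (pow_mem hτ k) (by rw [tchar_pow_apply hn hτ, hk])
    by_cases hx : x = 0
    · subst hx
      rw [mulAct, mul_zero, hzero, map_zero]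
    obtain ⟨j, hj, hjv⟩ := hsurj x hx
    obtain ⟨i, hi, hiv⟩ := hsurj (η σ * x) (mul_ne_zero (hη.ne_zero hσ) hx)
    rw [mulAct, hiv, hjv, map_mul, tchar_mul_piRoot hn0 σ, map_pow,
      inU_tchar hn τ σ hσ, ← hk, ← mul_assoc, ← pow_add]
    congr 1
    rw [hk1, hj, ← pow_add] at hi
    have h1 : (k + (j : ℕ)) % n = (i : ℕ) % n := by
      have h0 := pow_eq_pow_iff_modEq (x := Units.mk0 (η τ) (hη.ne_zero hτ)) |>.mp
        (Units.ext (by simpa using hi))
      have hord : orderOf (Units.mk0 (η τ) (hη.ne_zero hτ)) = n := by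
        rw [← orderOf_units, Units.val_mk0]; exact he.symm
      rwa [hord] at h0
    rw [pow_eq_pow_mod (i : ℕ) hω.pow_eq_one, ← h1, ← pow_eq_pow_mod _ hω.pow_eq_one, add_comm]
  · refine inSpan_of_det_eq hΦdet ?_ hspan (inSpan_row _)
    convert R.veq_disc using 1
    rw [heq, Nat.cast_one, one_mul]
  · show Φ _ 1 = _
    rw [← heqv1, hval, Fin.val_zero, pow_zero, one_mul]
  · intro c hc
    obtain ⟨j, hj, -⟩ := hsurj c hc
    exact ⟨τ ^ (j : ℕ), pow_mem hτ _, by rw [hη.map_pow hτ, hj]⟩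

end Fermat.Agent.FlatTangent
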