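import Fermat.Agent.FlatTangent.Cyclo

/-!
# Integral models of finite inertia modules as square evaluation matrices

A model of a finite abelian group `M` with an action of inertia is an invertible matrix `E` whose rows
are equivariant integral functions on `M` such that the span over the valuation ring of its rows
contains `1`, is closed under products and under translation (comultiplication).
-/

set_option autoImplicit false
set_option linter.unusedSectionVars false
set_option linter.style.haveILetI false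

noncomputable section

namespace Fermat.Agent.FlatTangent

open Matrix

variable (p : ℕ) [Fact p.Prime] {M : Type} [AddCommGroup M]

/-- `act` is an additive action of inertia. -/
structure IsAct (act : Gal → M → M) : Prop where
  map_add : ∀ σ ∈ inert p, ∀ x y, act σ (x + y) = act σ x + act σ y
  map_one : ∀ x, act 1 x = x
  map_mul : ∀ σ ∈ inert p, ∀ τ ∈ inert p, ∀ x, act (σ * τ) x = act σ (act τ x)

/-- `f` commutes with inertia. -/
def IEquiv (act : Gal → M → M) (f : M → Qb) : Prop :=
  ∀ σ ∈ inert p, ∀ x, f (act σ x) = σ (f x)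

variable {p} {act : Gal → M → M}

theorem IsAct.map_zero (hA : IsAct p act) {σ : Gal} (hσ : σ ∈ inert p) : act σ 0 = 0 := by
  have h := hA.map_add σ hσ 0 0
  rw [add_zero] at h
  exact left_eq_add.mp h

theorem IsAct.surjective (hA : IsAct p act) {σ : Gal} (hσ : σ ∈ inert p) :
    Function.Surjective (act σ) := fun x =>
  ⟨act σ⁻¹ x, by rw [← hA.map_mul σ hσ σ⁻¹ (inv_mem hσ), mul_inv_cancel, hA.map_one]⟩

theorem IsAct.injective (hA : IsAct p act) {σ : Gal} (hσ : σ ∈ inert p) :
    Function.Injective (act σ) := fun x y h => by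
  rw [← hA.map_one x, ← hA.map_one y, ← inv_mul_cancel σ, hA.map_mul _ (inv_mem hσ) _ hσ,
    hA.map_mul _ (inv_mem hσ) _ hσ, h]

theorem IsAct.map_neg (hA : IsAct p act) {σ : Gal} (hσ : σ ∈ inert p) (x : M) :
    act σ (-x) = -act σ x := by
  refine eq_neg_of_add_eq_zero_left ?_
  rw [← hA.map_add σ hσ, neg_add_cancel, hA.map_zero hσ]

theorem IsAct.map_sub (hA : IsAct p act) {σ : Gal} (hσ : σ ∈ inert p) (x y : M) :
    act σ (x - y) = act σ x - act σ y := by
  rw [sub_eq_add_neg, hA.map_add σ hσ, hA.map_neg hσ, ← sub_eq_add_neg]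

section InSpan

variable (p) [Fintype M]

/-- `f` is an integral combination of the rows of `G`. -/
def InSpan (G : Matrix M M Qb) (f : M → Qb) : Prop :=
  ∃ c : M → Qb, (∀ i, VGE p 0 (c i)) ∧ ∀ x, f x = ∑ i, c i * G i x

variable {p} {G G' : Matrix M M Qb} {f g : M → Qb}

theorem inSpan_row [DecidableEq M] (i : M) : InSpan p G (G i) := by
  refine ⟨Pi.single i 1, fun j => ?_, fun x => by simp [Pi.single_apply]⟩
  by_cases h : j = i
  · subst h; simpa using veq_one.vge
  · simpa [h] using vge_zero 0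

theorem inSpan_zero : InSpan p G 0 := ⟨0, fun _ => vge_zero 0, by simp⟩

theorem InSpan.add (hf : InSpan p G f) (hg : InSpan p G g) : InSpan p G (f + g) := by
  obtain ⟨c, hc, hf⟩ := hf
  obtain ⟨d, hd, hg⟩ := hg
  exact ⟨c + d, fun i => (hc i).add (hd i), fun x => by
    simp [hf x, hg x, add_mul, Finset.sum_add_distrib]⟩

theorem InSpan.smul {a : Qb} (ha : VGE p 0 a) (hf : InSpan p G f) : InSpan p G (a • f) := by
  obtain ⟨c, hc, hf⟩ := hf
  exact ⟨a • c, fun i => by simpa using ha.mul (hc i), fun x => by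
    simp [hf x, Finset.mul_sum, mul_assoc]⟩

theorem InSpan.neg (hf : InSpan p G f) : InSpan p G (-f) := by
  have h := hf.smul (a := -1) veq_one.neg.vge
  rwa [neg_one_smul] at h

theorem InSpan.sub (hf : InSpan p G f) (hg : InSpan p G g) : InSpan p G (f - g) := by
  rw [sub_eq_add_neg]; exact hf.add hg.neg

theorem InSpan.sum {ι : Type*} {s : Finset ι} {f : ι → M → Qb}
    (h : ∀ i ∈ s, InSpan p G (f i)) : InSpan p G (∑ i ∈ s, f i) := by
  classical
  induction s using Finset.induction with
  | empty => simpa using inSpan_zero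
  | @insert a s has ih =>
    rw [Finset.sum_insert has]
    exact (h a (by simp)).add (ih fun i hi => h i (by simp [hi]))

theorem InSpan.sum_smul {ι : Type*} {s : Finset ι} {a : ι → Qb} {f : ι → M → Qb}
    (ha : ∀ i ∈ s, VGE p 0 (a i)) (h : ∀ i ∈ s, InSpan p G (f i)) :
    InSpan p G (∑ i ∈ s, a i • f i) :=
  InSpan.sum fun i hi => (h i hi).smul (ha i hi)

theorem InSpan.trans (hf : InSpan p G f) (hG : ∀ i, InSpan p G' (G i)) : InSpan p G' f := by
  obtain ⟨c, hc, hf⟩ := hf
  have : f = ∑ i, c i • G i := by funext x; simp [hf x, Finset.sum_apply]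
  rw [this]
  exact InSpan.sum_smul (fun i _ => hc i) fun i _ => hG i

variable [DecidableEq M]

/-- Independence of the rows. -/
theorem eq_zero_of_sum_rows (hdet : G.det ≠ 0) {c : M → Qb} (h : ∀ x, ∑ i, c i * G i x = 0) :
    c = 0 :=
  Matrix.eq_zero_of_vecMul_eq_zero hdet (funext h)

theorem eq_of_sum_rows (hdet : G.det ≠ 0) {c d : M → Qb}
    (h : ∀ x, ∑ i, c i * G i x = ∑ i, d i * G i x) : c = d := by
  rw [← sub_eq_zero]
  refine eq_zero_of_sum_rows hdet fun x => ?_
  simp [sub_mul, Finset.sum_sub_distrib, h x]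

theorem exists_sum_rows (hdet : G.det ≠ 0) (f : M → Qb) :
    ∃ c : M → Qb, ∀ x, f x = ∑ i, c i * G i x :=
  ⟨f ᵥ* G⁻¹, fun x => by
    have h : (f ᵥ* G⁻¹) ᵥ* G = f := by
      rw [Matrix.vecMul_vecMul, Matrix.nonsing_inv_mul _ (Ne.isUnit hdet), Matrix.vecMul_one]
    exact (congrFun h x).symm⟩

theorem vge_det {A : Matrix M M Qb} (hA : ∀ i j, VGE p 0 (A i j)) : VGE p 0 A.det := by
  rw [Matrix.det_apply]
  refine VGE.sum fun σ _ => ?_
  have h : VGE p 0 (∏ i, A (σ i) i) := by
    simpa using VGE.prod (p := p) (g := fun _ => 0) (s := Finset.univ) fun i _ => hA (σ i) i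
  rcases Int.units_eq_one_or (Equiv.Perm.sign σ) with h1 | h1 <;> rw [h1]
  · rwa [one_smul]
  · rw [Units.neg_smul, one_smul]; exact h.neg

/-- Comparison of determinants. -/
theorem det_le {a b : ℝ} (hG : VEQ p a G.det) (hG' : VEQ p b G'.det)
    (h : ∀ i, InSpan p G (G' i)) : a ≤ b := by
  choose A hA hA' using h
  have hmul : G' = Matrix.of A * G := by ext i x; exact hA' i x
  have h1 : VGE p (0 + a) G'.det := by
    rw [hmul, Matrix.det_mul]
    exact (vge_det hA).mul hG.vge
  rw [zero_add] at h1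
  exact hG'.le_of_vge h1

theorem inSpan_of_det_eq {a : ℝ} (hG : VEQ p a G.det) (hG' : VEQ p a G'.det)
    (h : ∀ i, InSpan p G (G' i)) (hf : InSpan p G f) : InSpan p G' f := by
  choose A hA hA' using h
  have hmul : G' = Matrix.of A * G := by ext i x; exact hA' i x
  have hdA : VEQ p 0 (Matrix.of A).det := by
    have h1 : (Matrix.of A).det = G'.det / G.det := by
      rw [hmul, Matrix.det_mul, mul_div_assoc, div_self hG.ne_zero, mul_one]
    rw [h1]
    simpa using hG'.div hG
  refine hf.trans fun i => ⟨fun j => (Matrix.of A)⁻¹ i j, fun j => ?_, fun x => ?_⟩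
  · show VGE p 0 ((Matrix.of A)⁻¹ i j)
    rw [Matrix.inv_def, Matrix.smul_apply, smul_eq_mul, Ring.inverse_eq_inv]
    have hadj : VGE p 0 ((Matrix.of A).adjugate i j) := by
      rw [Matrix.adjugate_apply]
      refine vge_det fun k l => ?_
      rw [Matrix.updateRow_apply]
      split_ifs
      · by_cases hl : l = i
        · subst hl; simpa using veq_one.vge
        · simpa [hl] using vge_zero 0
      · exact hA k l
    simpa using hdA.inv.vge.mul hadj
  · have h2 : (Matrix.of A)⁻¹ * G' = G := by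
      rw [hmul, ← Matrix.mul_assoc, Matrix.nonsing_inv_mul _ (Ne.isUnit hdA.ne_zero),
        Matrix.one_mul]
    exact (congrFun (congrFun h2 i) x).symm

end InSpan

variable [Fintype M] [DecidableEq M]

/-- Coefficients of equivariant functions are fixed by inertia. -/
theorem coeff_inU (hA : IsAct p act) {G : Matrix M M Qb} (hG : G.det ≠ 0)
    (hGe : ∀ i, IEquiv p act (G i)) {f : M → Qb} (hf : IEquiv p act f) {c : M → Qb}
    (hc : ∀ x, f x = ∑ i, c i * G i x) (i : M) : InU p (c i) := by
  intro σ hσ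
  have h : (fun j => σ (c j)) = c := by
    refine eq_of_sum_rows hG fun x => ?_
    obtain ⟨y, rfl⟩ := hA.surjective hσ x
    rw [← hc, hf σ hσ y, hc y, map_sum]
    exact Finset.sum_congr rfl fun j _ => by rw [map_mul, hGe j σ hσ]
  exact congrFun h i

/-- A set of equivariant integral functions spanning all functions has an integral basis. -/
theorem exists_min_family (hA : IsAct p act) (S : Set (M → Qb))
    (hSe : ∀ f ∈ S, IEquiv p act f) (hSi : ∀ f ∈ S, ∀ x, VGE p 0 (f x))
    (hfull : Submodule.span Qb S = ⊤) :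
    ∃ G : Matrix M M Qb, G.det ≠ 0 ∧ (∀ i, G i ∈ S) ∧ ∀ f ∈ S, InSpan p G f := by
  classical
  let good : ℕ → Prop := fun m => ∃ G : Matrix M M Qb, (∀ i, G i ∈ S) ∧ VEQ p m (G.det ^ 2)
  have hint : ∀ G : Matrix M M Qb, (∀ i, G i ∈ S) → G.det ≠ 0 →
      ∃ m : ℕ, VEQ p m (G.det ^ 2) := by
    intro G hG hdet
    have hU : InU p (G.det ^ 2) := by
      intro σ hσ
      let e : M ≃ M := Equiv.ofBijective (act σ) ⟨hA.injective hσ, hA.surjective hσ⟩
      have h1 : (σ.toRingEquiv.toRingHom.mapMatrix G) = G.submatrix id e := by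
        ext i x
        exact (hSe _ (hG i) σ hσ x).symm
      have h2 : σ G.det = (Equiv.Perm.sign e : Qb) * G.det := by
        rw [← Matrix.det_permute', ← h1, ← RingHom.map_det]
        rfl
      rw [map_pow, h2, mul_pow]
      rcases Int.units_eq_one_or (Equiv.Perm.sign e) with h3 | h3 <;> simp [h3]
    obtain ⟨m, hm⟩ := hU.exists_int (pow_ne_zero 2 hdet)
    have hpos : VGE p 0 (G.det ^ 2) := by
      simpa using (vge_det fun i x => hSi _ (hG i) x).pow 2
    have hm0 : 0 ≤ m := by exact_mod_cast hm.le_of_vge hpos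
    lift m to ℕ using hm0
    exact ⟨m, by simpa using hm⟩
  obtain ⟨G₀, hG₀S, hG₀⟩ : ∃ G : Matrix M M Qb, (∀ i, G i ∈ S) ∧ G.det ≠ 0 := by
    obtain ⟨t, htS, htspan, htli⟩ := exists_linearIndependent Qb S
    rw [hfull] at htspan
    let b : Module.Basis t Qb (M → Qb) := Module.Basis.mk htli (by simp [htspan])
    have : Fintype t := FiniteDimensional.fintypeBasisIndex b
    have hcard : Fintype.card M = Fintype.card t := by
      rw [← Module.finrank_eq_card_basis b, Module.finrank_fintype_fun_eq_card]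
    let e := Fintype.equivOfCardEq hcard
    refine ⟨Matrix.of fun i => (e i : M → Qb), fun i => htS (e i).2, ?_⟩
    refine IsUnit.ne_zero ((Matrix.isUnit_iff_isUnit_det _).mp ?_)
    rw [← Matrix.linearIndependent_rows_iff_isUnit]
    exact htli.comp e e.injective
  have hex : ∃ m, good m := by
    obtain ⟨m, hm⟩ := hint G₀ hG₀S hG₀
    exact ⟨m, G₀, hG₀S, hm⟩
  obtain ⟨G, hGS, hm⟩ := Nat.find_spec hex
  have hdet : G.det ≠ 0 := fun h => hm.ne_zero (by rw [h, zero_pow two_ne_zero])
  refine ⟨G, hdet, hGS, fun f hf => ?_⟩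
  obtain ⟨c, hc⟩ := exists_sum_rows hdet f
  refine ⟨c, fun i => ?_, hc⟩
  by_cases hci : c i = 0
  · rw [hci]; exact vge_zero 0
  let G' : Matrix M M Qb := G.updateRow i f
  have hG' : ∀ j, G' j ∈ S := by
    intro j
    by_cases hj : j = i
    · subst hj; simpa [G'] using hf
    · simpa [G', hj] using hGS j
  have hdet' : G'.det = c i * G.det := by
    have : f = ∑ j, c j • G j := by funext x; simp [hc x, Finset.sum_apply]
    simp only [G', this, Matrix.det_updateRow_sum, smul_eq_mul]
  obtain ⟨m', hm'⟩ := hint G' hG' (by rw [hdet']; exact mul_ne_zero hci hdet)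
  have hle : Nat.find hex ≤ m' := Nat.find_min' hex ⟨G', hG', hm'⟩
  rw [hdet', mul_pow] at hm'
  have h1 := hm'.div hm
  rw [mul_div_assoc, div_self (pow_ne_zero 2 hdet), mul_one] at h1
  obtain ⟨d, hd⟩ := exists_veq (p := p) hci
  have h2 := (hd.pow 2).unique h1
  refine hd.vge.mono ?_
  have h3 : (Nat.find hex : ℝ) ≤ m' := by exact_mod_cast hle
  push_cast at h2
  linarith

variable (p M act) in
/-- An integral model. -/
structure Model where
  /-- The evaluation matrix. -/
  E : Matrix M M Qb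
  isAct : IsAct p act
  det_ne : E.det ≠ 0
  equiv : ∀ i, IEquiv p act (E i)
  integral : ∀ i x, VGE p 0 (E i x)
  one : InSpan p E 1
  mul : ∀ i j, InSpan p E (E i * E j)
  comul : ∀ k, ∃ a : M → M → Qb, (∀ i j, VGE p 0 (a i j)) ∧
    ∀ x y, E k (x + y) = ∑ i, ∑ j, a i j * (E i x * E j y)

namespace Model

variable (R : Model p M act) {f g : M → Qb}

/-- Membership in the model. -/
def Mem (f : M → Qb) : Prop := IEquiv p act f ∧ InSpan p R.E f

theorem mem_row (i : M) : R.Mem (R.E i) := ⟨R.equiv i, inSpan_row i⟩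

theorem inSpan_mul (hf : InSpan p R.E f) (hg : InSpan p R.E g) : InSpan p R.E (f * g) := by
  obtain ⟨c, hc, hf⟩ := hf
  obtain ⟨d, hd, hg⟩ := hg
  have : f * g = ∑ i, c i • ∑ j, d j • (R.E i * R.E j) := by
    funext x
    simp only [Pi.mul_apply, hf x, hg x, Finset.sum_mul, Finset.mul_sum, Finset.sum_apply,
      Pi.smul_apply, smul_eq_mul]
    rw [Finset.sum_comm]
    exact Finset.sum_congr rfl fun i _ => Finset.sum_congr rfl fun j _ => by ring
  rw [this]
  exact InSpan.sum_smul (fun i _ => hc i) fun i _ =>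
    InSpan.sum_smul (fun j _ => hd j) fun j _ => R.mul i j

theorem inSpan_const {a : Qb} (ha : VGE p 0 a) : InSpan p R.E (fun _ => a) := by
  convert R.one.smul ha using 1
  funext x; simp

theorem inSpan_prod {ι : Type*} {s : Finset ι} {f : ι → M → Qb}
    (h : ∀ i ∈ s, InSpan p R.E (f i)) : InSpan p R.E (∏ i ∈ s, f i) := by
  classical
  induction s using Finset.induction with
  | empty => simpa using R.one
  | @insert a s has ih =>
    rw [Finset.prod_insert has]
    exact R.inSpan_mul (h a (by simp)) (ih fun i hi => h i (by simp [hi]))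

theorem vge_apply (hf : InSpan p R.E f) (x : M) : VGE p 0 (f x) := by
  obtain ⟨c, hc, hf⟩ := hf
  rw [hf x]
  exact VGE.sum fun i _ => by simpa using (hc i).mul (R.integral i x)

theorem exists_comul (hf : InSpan p R.E f) : ∃ a : M → M → Qb, (∀ i j, VGE p 0 (a i j)) ∧
    ∀ x y, f (x + y) = ∑ i, ∑ j, a i j * (R.E i x * R.E j y) := by
  obtain ⟨c, hc, hf⟩ := hf
  choose a ha ha' using R.comul
  refine ⟨fun i j => ∑ k, c k * a k i j,
    fun i j => VGE.sum fun k _ => by simpa using (hc k).mul (ha k i j), fun x y => ?_⟩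
  rw [hf]
  simp only [ha', Finset.mul_sum, Finset.sum_mul]
  rw [Finset.sum_comm]
  refine Finset.sum_congr rfl fun i _ => ?_
  rw [Finset.sum_comm]
  exact Finset.sum_congr rfl fun j _ => Finset.sum_congr rfl fun k _ => by ring

theorem inSpan_translate (hf : InSpan p R.E f) (y : M) : InSpan p R.E fun x => f (x + y) := by
  obtain ⟨a, ha, ha'⟩ := R.exists_comul hf
  refine ⟨fun i => ∑ j, a i j * R.E j y,
    fun i => VGE.sum fun j _ => by simpa using (ha i j).mul (R.integral j y), fun x => ?_⟩
  simp only [ha', Finset.sum_mul]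
  exact Finset.sum_congr rfl fun i _ => Finset.sum_congr rfl fun j _ => by ring

theorem inU_apply_zero (R : Model p M act) {f : M → Qb} (hf : IEquiv p act f) : InU p (f 0) := fun σ hσ => by
  rw [← hf σ hσ 0, R.isAct.map_zero hσ]

theorem vgt_sub_of_rows {c : ℝ} {x y : M} (h : ∀ i, VGT p c (R.E i x - R.E i y))
    (hf : InSpan p R.E f) : VGT p c (f x - f y) := by
  obtain ⟨a, ha, hf⟩ := hf
  rw [hf, hf, ← Finset.sum_sub_distrib]
  exact VGT.sum fun i _ => by rw [← mul_sub]; simpa using (ha i).mul_vgt (h i)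

theorem vge_sub_of_rows {c : ℝ} {x y : M} (h : ∀ i, VGE p c (R.E i x - R.E i y))
    (hf : InSpan p R.E f) : VGE p c (f x - f y) := by
  obtain ⟨a, ha, hf⟩ := hf
  rw [hf, hf, ← Finset.sum_sub_distrib]
  exact VGE.sum fun i _ => by rw [← mul_sub]; simpa using (ha i).mul (h i)

/-- The second order defect of additivity. -/
theorem exists_defect (hf : InSpan p R.E f) (hf0 : f 0 = 0) :
    ∃ a : M → M → Qb, (∀ i j, VGE p 0 (a i j)) ∧ ∀ x y, f (x + y) - f x - f y =
      ∑ i, ∑ j, a i j * ((R.E i x - R.E i 0) * (R.E j y - R.E j 0)) := by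
  obtain ⟨a, ha, ha'⟩ := R.exists_comul hf
  refine ⟨a, ha, fun x y => ?_⟩
  have h1 := ha' x y
  have h2 := ha' x 0
  have h3 := ha' 0 y
  have h4 := ha' 0 0
  rw [add_zero] at h2 h4
  rw [zero_add] at h3
  rw [hf0] at h4
  calc f (x + y) - f x - f y = f (x + y) - f x - f y + 0 := (add_zero _).symm
    _ = _ := by
      rw [h1, h2, h3, h4]
      simp only [← Finset.sum_sub_distrib, ← Finset.sum_add_distrib]
      exact Finset.sum_congr rfl fun i _ => Finset.sum_congr rfl fun j _ => by ring

theorem vge_defect {a b : ℝ} {x y : M} (hx : ∀ i, VGE p a (R.E i x - R.E i 0))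
    (hy : ∀ i, VGE p b (R.E i y - R.E i 0)) (hf : InSpan p R.E f) (hf0 : f 0 = 0) :
    VGE p (a + b) (f (x + y) - f x - f y) := by
  obtain ⟨c, hc, hc'⟩ := R.exists_defect hf hf0
  rw [hc']
  refine VGE.sum fun i _ => VGE.sum fun j _ => ?_
  simpa using (hc i j).mul ((hx i).mul (hy j))

theorem vgt_defect {a b : ℝ} {x y : M} (hx : ∀ i, VGT p a (R.E i x - R.E i 0))
    (hy : ∀ i, VGE p b (R.E i y - R.E i 0)) (hf : InSpan p R.E f) (hf0 : f 0 = 0) :
    VGT p (a + b) (f (x + y) - f x - f y) := by
  obtain ⟨c, hc, hc'⟩ := R.exists_defect hf hf0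
  rw [hc']
  refine VGT.sum fun i _ => VGT.sum fun j _ => ?_
  simpa using (hc i j).mul_vgt ((hx i).mul_vge (hy j))

/-! ### The connected part -/

/-- Points congruent to `0`. -/
def Conn (x : M) : Prop := ∀ i, VGT p 0 (R.E i x - R.E i 0)

theorem conn_zero : R.Conn 0 := fun i => by rw [sub_self]; exact vgt_zero 0

theorem conn_add {x y : M} (hx : R.Conn x) (hy : R.Conn y) : R.Conn (x + y) := by
  intro i
  have hg := (inSpan_row (p := p) (G := R.E) i).sub (R.inSpan_const (R.integral i 0))
  have h := vgt_defect R hx (fun j => (hy j).vge) hg (by simp)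
  rw [add_zero] at h
  have h' := (h.add (hx i)).add (hy i)
  simp only [Pi.sub_apply] at h'
  convert h' using 1
  ring

theorem conn_nsmul {x : M} (hx : R.Conn x) (n : ℕ) : R.Conn (n • x) := by
  induction n with
  | zero => rw [zero_nsmul]; exact R.conn_zero
  | succ n ih => rw [succ_nsmul]; exact R.conn_add ih hx

theorem conn_neg {x : M} (hx : R.Conn x) : R.Conn (-x) := by
  have hx' : x + (addOrderOf x - 1) • x = 0 := by
    rw [← succ_nsmul', Nat.sub_add_cancel (addOrderOf_pos x), addOrderOf_nsmul_eq_zero]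
  rw [neg_eq_of_add_eq_zero_right hx']
  exact R.conn_nsmul hx _

theorem conn_sub {x y : M} (hx : R.Conn x) (hy : R.Conn y) : R.Conn (x - y) := by
  rw [sub_eq_add_neg]; exact R.conn_add hx (R.conn_neg hy)

theorem conn_act_sub {σ : Gal} (hσ : σ ∈ inert p) (x : M) : R.Conn (act σ x - x) := by
  intro i
  have hg := R.inSpan_translate (inSpan_row (p := p) (G := R.E) i) (-x)
  have h := R.vgt_sub_of_rows (c := 0) (x := act σ x) (y := x)
    (fun j => by rw [R.equiv j σ hσ]; exact inert_sub hσ (R.integral j x)) hg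
  simpa [← sub_eq_add_neg] using h

/-! ### Characters -/

/-- The coordinates of a character multiply by the structure constants of translation. -/
theorem character_coeff_mul {χ : M → Qb} (hadd : ∀ x y, χ (x + y) = χ x * χ y) {c : M → Qb}
    (hc : ∀ x, χ x = ∑ i, c i * R.E i x) {a : M → M → M → Qb}
    (ha' : ∀ k x y, R.E k (x + y) = ∑ i, ∑ j, a k i j * (R.E i x * R.E j y)) (i j : M) :
    c i * c j = ∑ k, c k * a k i j := by
  have h1 : ∀ x y, ∑ i, (∑ j, (c i * c j - ∑ k, c k * a k i j) * R.E j y) * R.E i x = 0 := by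
    intro x y
    have h2 := hadd x y
    rw [hc (x + y), hc x, hc y] at h2
    simp only [ha', Finset.mul_sum, Finset.sum_mul] at h2
    simp only [sub_mul, Finset.sum_sub_distrib, Finset.sum_mul]
    rw [sub_eq_zero]
    refine Eq.trans ?_ (h2.symm.trans ?_)
    · rw [Finset.sum_comm]
      exact Finset.sum_congr rfl fun i _ => Finset.sum_congr rfl fun j _ => by ring
    · rw [Finset.sum_comm]
      refine Finset.sum_congr rfl fun i _ => ?_
      rw [Finset.sum_comm]
      exact Finset.sum_congr rfl fun j _ => Finset.sum_congr rfl fun k _ => by ring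
  have h3 : ∀ y, (fun i => ∑ j, (c i * c j - ∑ k, c k * a k i j) * R.E j y) = 0 := fun y =>
    eq_zero_of_sum_rows R.det_ne fun x => h1 x y
  have h4 := eq_zero_of_sum_rows R.det_ne (c := fun j => c i * c j - ∑ k, c k * a k i j)
    fun y => congrFun (h3 y) i
  exact sub_eq_zero.mp (congrFun h4 j)

/-- Coordinates of characters are integral. -/
theorem character_inSpan {χ : M → Qb} (hadd : ∀ x y, χ (x + y) = χ x * χ y) :
    InSpan p R.E χ := by
  obtain ⟨c, hc⟩ := exists_sum_rows R.det_ne χ
  refine ⟨c, fun k₀ => ?_, hc⟩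
  choose a ha ha' using R.comul
  have hprod := R.character_coeff_mul hadd hc ha'
  -- the largest coordinate is integral
  obtain ⟨i₀, -, hmax⟩ := Finset.exists_max_image Finset.univ (fun i => nrm p (c i)) ⟨k₀, by simp⟩
  refine le_trans (hmax k₀ (by simp)) ?_
  by_cases hi₀ : c i₀ = 0
  · rw [hi₀]; exact vge_zero 0
  obtain ⟨d, hd⟩ := exists_veq (p := p) hi₀
  have h2 : VGE p d (c i₀ * c i₀) := by
    rw [hprod]
    refine VGE.sum fun k _ => ?_
    have hk : VGE p d (c k) := le_trans (hmax k (by simp)) (le_of_eq hd)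
    simpa using hk.mul (ha k i₀ i₀)
  exact hd.vge.mono (by linarith [(hd.mul hd).le_of_vge h2])

/-- Distinct points are not too congruent. -/
theorem exists_not_vgt_diff [Module (ZMod p) M] {h : M} (hh : h ≠ 0) (P : M) :
    ∃ i, ¬ VGT p (1 / ((p : ℝ) - 1)) (R.E i (P + h) - R.E i P) := by
  obtain ⟨lam, hlam⟩ : ∃ l : Module.Dual (ZMod p) M, l h ≠ 0 := by
    by_contra! hall
    exact hh ((Module.forall_dual_apply_eq_zero_iff (ZMod p) h).mp hall)
  let lam' : Module.Dual (ZMod p) M := (lam h)⁻¹ • lam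
  have hlam' : lam' h = 1 := by simp [lam', hlam]
  let χ : M → Qb := fun x => zp p (lam' (x - P))
  have hχ : InSpan p R.E χ := by
    have h0 := R.character_inSpan (χ := fun x => zp p (lam' x))
      (fun x y => by rw [map_add, zp_add])
    have h1 := R.inSpan_translate h0 (-P)
    simpa [χ, ← sub_eq_add_neg] using h1
  by_contra! hall
  have h2 := R.vgt_sub_of_rows hall hχ
  simp only [χ, add_sub_cancel_left, sub_self, map_zero, zp_zero, hlam', zp_one] at h2
  exact lt_irrefl _ ((veq_zetaP_sub_one (p := p)).lt_of_vgt h2)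

/-- The connected part has no point fixed by inertia (`p` odd). -/
theorem eq_zero_of_conn_fixed [Module (ZMod p) M] (hp2 : p ≠ 2) {h : M} (hh : R.Conn h)
    (hfix : ∀ σ ∈ inert p, act σ h = h) : h = 0 := by
  by_contra h0
  obtain ⟨i, hi⟩ := R.exists_not_vgt_diff h0 0
  refine hi ?_
  rw [zero_add]
  have hU : InU p (R.E i h - R.E i 0) :=
    InU.sub (fun σ hσ => by rw [← R.equiv i σ hσ h, hfix σ hσ]) (R.inU_apply_zero (R.equiv i))
  refine (hU.vge_one_of_vgt (hh i)).vgt ?_
  have hp : (3 : ℝ) ≤ p := by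
    have := (Fact.out : p.Prime).two_le
    exact_mod_cast (by omega : 3 ≤ p)
  rw [div_lt_one (by linarith)]
  linarith

/-! ### The discriminant exponent -/

/-- The valuation of the determinant. -/
def disc : ℝ := (exists_veq (p := p) R.det_ne).choose

theorem veq_disc : VEQ p R.disc R.E.det := (exists_veq (p := p) R.det_ne).choose_spec

theorem disc_eq {d : ℝ} (h : VEQ p d R.E.det) : R.disc = d := R.veq_disc.unique h

end Model

end Fermat.Agent.FlatTangent
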