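import Fermat.Agent.FlatTangent.Model
import Fermat.Agent.FFG.Equivalence
import Fermat.Agent.FFG.RatLocal

/-!
# Models from flat Hopf algebras, subgroups, quotients and Cartier duals
-/

set_option autoImplicit false
set_option linter.unusedSectionVars false
set_option linter.style.haveILetI false

noncomputable section

namespace Fermat.Agent.FlatTangent

open Matrix

variable {p : ℕ} [Fact p.Prime]

/-- A model from a set of functions. -/
theorem exists_model_of_set {M : Type} [AddCommGroup M] [Fintype M] [DecidableEq M]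
    {act : Gal → M → M} (hA : IsAct p act) (S : Set (M → Qb))
    (hSe : ∀ f ∈ S, IEquiv p act f) (hSi : ∀ f ∈ S, ∀ x, VGE p 0 (f x))
    (hfull : Submodule.span Qb S = ⊤) (hone : (1 : M → Qb) ∈ S)
    (hmul : ∀ f ∈ S, ∀ g ∈ S, f * g ∈ S)
    (hcomul : ∀ G : Matrix M M Qb, G.det ≠ 0 → (∀ i, G i ∈ S) → (∀ f ∈ S, InSpan p G f) →
      ∀ f ∈ S, ∃ a : M → M → Qb, (∀ i j, VGE p 0 (a i j)) ∧
        ∀ x y, f (x + y) = ∑ i, ∑ j, a i j * (G i x * G j y)) :
    ∃ R : Model p M act, (∀ f ∈ S, InSpan p R.E f) ∧ ∀ i, R.E i ∈ S := by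
  obtain ⟨G, hdet, hGS, hspan⟩ := exists_min_family hA S hSe hSi hfull
  exact ⟨⟨G, hA, hdet, fun i => hSe _ (hGS i), fun i => hSi _ (hGS i), hspan _ hone,
    fun i j => hspan _ (hmul _ (hGS i) _ (hGS j)),
    fun k => hcomul G hdet hGS hspan _ (hGS k)⟩, hspan, hGS⟩

/-- A finite flat Hopf model gives an integral model. -/
theorem exists_model_of_hasFlatModel {M : Type} [AddCommGroup M] [Fintype M] [DecidableEq M]
    {act : Gal → M → M} (h : FFG.HasFlatModelAt p act) : Nonempty (Model p M act) := by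
  obtain ⟨B, hB⟩ := FFG.HasFlatModel.exists_isModel h
  have hA : IsAct p act :=
    ⟨fun σ _ x y => hB.act_add σ x y, hB.act_one, fun σ _ τ _ x => hB.act_mul σ τ x⟩
  have hR : ∀ r : GaloisRep.ratLocalizedAt p,
      algebraMap (GaloisRep.ratLocalizedAt p) Qb r ∈ plc p := fun r => by
    change (((r : ℚ) : Qb)) ∈ plc p
    rw [Galois.place_ratCast_mem_iff (plc_liesOverPrime p) Fact.out]
    exact ((Fact.out : p.Prime).coprime_iff_not_dvd).mp (Nat.Coprime.symm r.2)
  have hint : ∀ f ∈ B, ∀ x, VGE p 0 (f x) := by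
    intro f hf x
    have := hB.finite
    obtain ⟨g, hg, hroot⟩ := IsIntegral.of_finite (GaloisRep.ratLocalizedAt p) (⟨f, hf⟩ : B)
    let ev : B →ₐ[GaloisRep.ratLocalizedAt p] Qb :=
      (Pi.evalAlgHom (GaloisRep.ratLocalizedAt p) (fun _ : M => Qb) x).comp B.val
    have h1 : Polynomial.eval₂ (algebraMap (GaloisRep.ratLocalizedAt p) Qb) (f x) g = 0 := by
      have := congrArg ev hroot
      rwa [map_zero, ← Polynomial.aeval_def, ← Polynomial.aeval_algHom_apply] at this
    let φ : GaloisRep.ratLocalizedAt p →+* plc p :=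
      (algebraMap (GaloisRep.ratLocalizedAt p) Qb).codRestrict (plc p).toSubring hR
    have h2 : IsIntegral (plc p) (f x) := ⟨g.map φ, hg.map _, by
      rw [Polynomial.eval₂_map]
      exact h1⟩
    obtain ⟨y, hy⟩ := IsIntegrallyClosed.isIntegral_iff.mp h2
    exact mem_plc_iff.mp (hy ▸ y.2)
  refine Exists.elim (exists_model_of_set hA (B : Set (M → Qb))
    (fun f hf σ _ x => hB.equivariant f hf σ x) hint hB.span_eq_top B.one_mem
    (fun f hf g hg => B.mul_mem hf hg) ?_) fun R _ => ⟨R⟩
  intro G _ _ hspan f hf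
  obtain ⟨t, ht⟩ := hB.exists_tensor hf
  suffices key : ∃ a : M → M → Qb, (∀ i j, VGE p 0 (a i j)) ∧
      ∀ x y, FFG.tmap B.val B.val t (x, y) = ∑ i, ∑ j, a i j * (G i x * G j y) by
    obtain ⟨a, ha, ha'⟩ := key
    exact ⟨a, ha, fun x y => by rw [← ha', ht]⟩
  clear ht
  induction t using TensorProduct.induction_on with
  | zero => exact ⟨0, fun _ _ => vge_zero 0, fun x y => by simp⟩
  | tmul u v =>
    obtain ⟨c, hc, hc'⟩ := hspan _ u.2
    obtain ⟨d, hd, hd'⟩ := hspan _ v.2
    refine ⟨fun i j => c i * d j, fun i j => by simpa using (hc i).mul (hd j), fun x y => ?_⟩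
    rw [FFG.tmap_tmul]
    change (u : M → Qb) x * (v : M → Qb) y = _
    rw [hc' x, hd' y, Finset.sum_mul_sum]
    exact Finset.sum_congr rfl fun i _ => Finset.sum_congr rfl fun j _ => by ring
  | add u v hu hv =>
    obtain ⟨a, ha, ha'⟩ := hu
    obtain ⟨b, hb, hb'⟩ := hv
    refine ⟨a + b, fun i j => (ha i j).add (hb i j), fun x y => ?_⟩
    simp only [map_add, Pi.add_apply, ha', hb', add_mul, Finset.sum_add_distrib]

variable {M N Q : Type} [AddCommGroup M] [Fintype M] [DecidableEq M]
  [AddCommGroup N] [Fintype N] [DecidableEq N] [AddCommGroup Q] [Fintype Q] [DecidableEq Q]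
  {act : Gal → M → M} {actN : Gal → N → N} {actQ : Gal → Q → Q}

/-- Restriction of a model to a stable subgroup. -/
theorem Model.exists_restrict (R : Model p M act) (f : N →+ M) (hf : Function.Injective f)
    (hcompat : ∀ σ ∈ inert p, ∀ x, f (actN σ x) = act σ (f x)) (hN1 : ∀ x, actN 1 x = x) :
    ∃ R' : Model p N actN, (∀ g, R.Mem g → InSpan p R'.E fun x => g (f x)) ∧
      ∀ i, ∃ g, R.Mem g ∧ R'.E i = fun x => g (f x) := by
  have hA : IsAct p actN := ⟨fun σ hσ x y => hf (by
      rw [hcompat σ hσ, map_add, map_add, R.isAct.map_add σ hσ, hcompat σ hσ, hcompat σ hσ]), hN1,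
    fun σ hσ τ hτ x => hf (by
      rw [hcompat _ (mul_mem hσ hτ), R.isAct.map_mul σ hσ τ hτ, hcompat σ hσ, hcompat τ hτ])⟩
  let S : Set (N → Qb) := {h | ∃ g, R.Mem g ∧ h = fun x => g (f x)}
  have hS : ∀ i, (fun x => R.E i (f x)) ∈ S := fun i => ⟨R.E i, R.mem_row i, rfl⟩
  have hfull : Submodule.span Qb S = ⊤ := by
    rw [eq_top_iff]
    intro h _
    let g : M → Qb := Function.extend f h 0
    obtain ⟨c, hc⟩ := exists_sum_rows R.det_ne g
    have : h = ∑ i, c i • fun x => R.E i (f x) := by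
      funext x
      simp only [Finset.sum_apply, Pi.smul_apply, smul_eq_mul, ← hc]
      exact (hf.extend_apply h 0 x).symm
    rw [this]
    exact Submodule.sum_mem _ fun i _ => Submodule.smul_mem _ _ (Submodule.subset_span (hS i))
  refine Exists.elim (exists_model_of_set hA S
    (by
      rintro _ ⟨g, hg, rfl⟩ σ hσ x
      show g (f (actN σ x)) = σ (g (f x))
      rw [hcompat σ hσ, hg.1 σ hσ])
    (by rintro _ ⟨g, hg, rfl⟩ x; exact R.vge_apply hg.2 _)
    hfull ⟨1, ⟨fun σ _ _ => by simp, R.one⟩, rfl⟩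
    (by
      rintro _ ⟨g, hg, rfl⟩ _ ⟨g', hg', rfl⟩
      exact ⟨g * g', ⟨fun σ hσ x => by simp [hg.1 σ hσ, hg'.1 σ hσ], R.inSpan_mul hg.2 hg'.2⟩, rfl⟩)
    ?_) fun R' h => ⟨R', fun g hg => h.1 _ ⟨g, hg, rfl⟩, h.2⟩
  rintro G _ _ hspan _ ⟨g, hg, rfl⟩
  obtain ⟨a, ha, ha'⟩ := R.exists_comul hg.2
  choose c hc hc' using fun i => hspan _ (hS i)
  refine ⟨fun l m => ∑ i, ∑ j, a i j * (c i l * c j m), fun l m => VGE.sum fun i _ =>
    VGE.sum fun j _ => by simpa using (ha i j).mul ((hc i l).mul (hc j m)), fun x y => ?_⟩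
  show g (f (x + y)) = _
  rw [map_add, ha']
  have h1 : ∀ i, ∑ j, a i j * R.E j (f y) = ∑ m, (∑ j, a i j * c j m) * G m y := fun i => by
    simp only [hc', Finset.mul_sum, Finset.sum_mul]
    rw [Finset.sum_comm]
    exact Finset.sum_congr rfl fun m _ => Finset.sum_congr rfl fun j _ => by ring
  calc ∑ i, ∑ j, a i j * (R.E i (f x) * R.E j (f y))
      = ∑ i, R.E i (f x) * ∑ m, (∑ j, a i j * c j m) * G m y := by
        simp only [← h1, Finset.mul_sum]
        exact Finset.sum_congr rfl fun i _ => Finset.sum_congr rfl fun j _ => by ring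
    _ = ∑ i, ∑ l, ∑ m, (c i l * ∑ j, a i j * c j m) * (G l x * G m y) := by
        refine Finset.sum_congr rfl fun i _ => ?_
        rw [show R.E i (f x) = ∑ l, c i l * G l x from hc' i x, Finset.sum_mul_sum]
        exact Finset.sum_congr rfl fun l _ => Finset.sum_congr rfl fun m _ => by ring
    _ = ∑ l, ∑ m, ∑ i, (c i l * ∑ j, a i j * c j m) * (G l x * G m y) := by
        rw [Finset.sum_comm]
        exact Finset.sum_congr rfl fun l _ => Finset.sum_comm
    _ = _ := by
        refine Finset.sum_congr rfl fun l _ => Finset.sum_congr rfl fun m _ => ?_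
        simp only [Finset.mul_sum, Finset.sum_mul]
        exact Finset.sum_congr rfl fun i _ => Finset.sum_congr rfl fun j _ => by ring

/-- The quotient of a model. -/
theorem Model.exists_quotient (R : Model p M act) (π : M →+ Q) (hπ : Function.Surjective π)
    (hcompat : ∀ σ ∈ inert p, ∀ x, π (act σ x) = actQ σ (π x)) (hQ1 : ∀ x, actQ 1 x = x) :
    ∃ R' : Model p Q actQ, (∀ g, IEquiv p actQ g → InSpan p R.E (fun x => g (π x)) →
      InSpan p R'.E g) ∧ ∀ i, InSpan p R.E fun x => R'.E i (π x) := by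
  have hA : IsAct p actQ := by
    refine ⟨fun σ hσ x y => ?_, hQ1, fun σ hσ τ hτ x => ?_⟩
    · obtain ⟨x, rfl⟩ := hπ x
      obtain ⟨y, rfl⟩ := hπ y
      rw [← map_add, ← hcompat σ hσ, R.isAct.map_add σ hσ, map_add, hcompat σ hσ, hcompat σ hσ]
    · obtain ⟨x, rfl⟩ := hπ x
      rw [← hcompat _ (mul_mem hσ hτ), R.isAct.map_mul σ hσ τ hτ, hcompat σ hσ, hcompat τ hτ]
  let S : Set (Q → Qb) := {g | IEquiv p actQ g ∧ InSpan p R.E fun x => g (π x)}
  let K : Finset M := Finset.univ.filter fun w => π w = 0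
  have hsec : ∀ q, π (Function.surjInv hπ q) = q := Function.surjInv_eq hπ
  let t : (M → Qb) → Q → Qb := fun f q => ∑ w ∈ K, f (Function.surjInv hπ q + w)
  have ht : ∀ f x, t f (π x) = ∑ w ∈ K, f (x + w) := by
    intro f x
    refine Finset.sum_bij (fun w _ => Function.surjInv hπ (π x) - x + w) (fun w hw => ?_)
      (fun _ _ _ _ h => add_left_cancel h) (fun w hw => ?_) (fun w _ => ?_)
    · simp only [K, Finset.mem_filter, Finset.mem_univ, true_and] at hw ⊢
      rw [map_add, map_sub, hsec, sub_self, zero_add, hw]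
    · refine ⟨-(Function.surjInv hπ (π x) - x) + w, ?_, by abel⟩
      simp only [K, Finset.mem_filter, Finset.mem_univ, true_and] at hw ⊢
      rw [map_add, map_neg, map_sub, hsec, sub_self, neg_zero, zero_add, hw]
    · congr 1
      abel
  have hS : ∀ i, t (R.E i) ∈ S := by
    intro i
    refine ⟨fun σ hσ q => ?_, ?_⟩
    · obtain ⟨x, rfl⟩ := hπ q
      rw [← hcompat σ hσ, ht, ht, map_sum]
      refine (Finset.sum_bij (fun w _ => act σ w) (fun w hw => ?_)
        (fun _ _ _ _ h => R.isAct.injective hσ h) (fun w hw => ?_) (fun w _ => ?_)).symm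
      · simp only [K, Finset.mem_filter, Finset.mem_univ, true_and] at hw ⊢
        rw [hcompat σ hσ, hw, hA.map_zero hσ]
      · obtain ⟨v, rfl⟩ := R.isAct.surjective hσ w
        refine ⟨v, ?_, rfl⟩
        simp only [K, Finset.mem_filter, Finset.mem_univ, true_and] at hw ⊢
        rw [hcompat σ hσ] at hw
        exact hA.injective hσ (hw.trans (hA.map_zero hσ).symm)
      · rw [← R.equiv i σ hσ, R.isAct.map_add σ hσ]
    · have : (fun x => t (R.E i) (π x)) = ∑ w ∈ K, fun x => R.E i (x + w) := by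
        funext x; rw [ht, Finset.sum_apply]
      rw [this]
      exact InSpan.sum fun w _ => R.inSpan_translate (inSpan_row i) w
  have hfull : Submodule.span Qb S = ⊤ := by
    rw [eq_top_iff]
    intro g _
    -- lift `g` to a function supported on a section
    let f : M → Qb := fun x => if x = Function.surjInv hπ (π x) then g (π x) else 0
    obtain ⟨c, hc⟩ := exists_sum_rows R.det_ne f
    have hg : g = ∑ i, c i • t (R.E i) := by
      funext q
      simp only [Finset.sum_apply, Pi.smul_apply, smul_eq_mul, t, Finset.mul_sum]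
      rw [Finset.sum_comm]
      simp only [← hc]
      rw [Finset.sum_eq_single 0]
      · simp [f, hsec]
      · intro w hw hw0
        simp only [K, Finset.mem_filter, Finset.mem_univ, true_and] at hw
        simp [f, map_add, hsec, hw, hw0]
      · intro h; simp [K] at h
    rw [hg]
    exact Submodule.sum_mem _ fun i _ => Submodule.smul_mem _ _ (Submodule.subset_span (hS i))
  refine Exists.elim (exists_model_of_set hA S (fun g hg => hg.1)
    (fun g hg q => by obtain ⟨x, rfl⟩ := hπ q; exact R.vge_apply hg.2 x)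
    hfull ⟨fun σ _ _ => by simp, R.one⟩
    (fun g hg g' hg' => ⟨fun σ hσ x => by simp [hg.1 σ hσ, hg'.1 σ hσ],
      R.inSpan_mul hg.2 hg'.2⟩) ?_) fun R' h => ⟨R', fun g hg hg' => h.1 g ⟨hg, hg'⟩,
        fun i => (h.2 i).2⟩
  intro G hdet hGS hspan g hg
  obtain ⟨a, ha, ha'⟩ := R.exists_comul hg.2
  let γ : M → M → Qb := fun i y => ∑ j, a i j * R.E j y
  have hγ : ∀ x y, g (π x + π y) = ∑ i, γ i y * R.E i x := by
    intro x y
    rw [← map_add, ha']
    simp only [γ, Finset.sum_mul]
    exact Finset.sum_congr rfl fun i _ => Finset.sum_congr rfl fun j _ => by ring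
  have hγinv : ∀ y y', π y = π y' → ∀ i, γ i y = γ i y' := fun y y' h i =>
    congrFun (eq_of_sum_rows R.det_ne (c := fun i => γ i y) (d := fun i => γ i y') fun x => by
      rw [← hγ, ← hγ, h]) i
  let γQ : M → Q → Qb := fun i q => γ i (Function.surjInv hπ q)
  have hγQ : ∀ i y, γQ i (π y) = γ i y := fun i y => hγinv _ _ (hsec _) i
  have hγS : ∀ i, γQ i ∈ S := by
    intro i
    refine ⟨fun σ hσ q => ?_, ?_⟩
    · obtain ⟨y, rfl⟩ := hπ q
      rw [← hcompat σ hσ, hγQ, hγQ]
      refine congrFun (eq_of_sum_rows R.det_ne (c := fun i => γ i (act σ y))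
        (d := fun i => σ (γ i y)) fun x => ?_) i
      obtain ⟨x, rfl⟩ := R.isAct.surjective hσ x
      rw [← hγ, hcompat σ hσ, hcompat σ hσ, ← hA.map_add σ hσ, hg.1 σ hσ, hγ, map_sum]
      exact Finset.sum_congr rfl fun j _ => by rw [map_mul, R.equiv j σ hσ]
    · simp only [hγQ]
      exact ⟨a i, ha i, fun y => rfl⟩
  choose d hd hd' using fun i => hspan _ (hγS i)
  let η : Q → M → Qb := fun l x => ∑ i, d i l * R.E i x
  have hη : ∀ x q, g (π x + q) = ∑ l, η l x * G l q := by
    intro x q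
    obtain ⟨y, rfl⟩ := hπ q
    rw [hγ]
    simp only [η, Finset.sum_mul]
    rw [Finset.sum_comm]
    refine Finset.sum_congr rfl fun i _ => ?_
    rw [← hγQ, hd', Finset.sum_mul]
    exact Finset.sum_congr rfl fun l _ => by ring
  have hηinv : ∀ x x', π x = π x' → ∀ l, η l x = η l x' := fun x x' h l =>
    congrFun (eq_of_sum_rows hdet (c := fun l => η l x) (d := fun l => η l x') fun q => by
      rw [← hη, ← hη, h]) l
  let ηQ : Q → Q → Qb := fun l q => η l (Function.surjInv hπ q)
  have hηQ : ∀ l x, ηQ l (π x) = η l x := fun l x => hηinv _ _ (hsec _) l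
  have hηS : ∀ l, ηQ l ∈ S := by
    intro l
    refine ⟨fun σ hσ q => ?_, ?_⟩
    · obtain ⟨x, rfl⟩ := hπ q
      rw [← hcompat σ hσ, hηQ, hηQ]
      refine congrFun (eq_of_sum_rows hdet (c := fun l => η l (act σ x))
        (d := fun l => σ (η l x)) fun q => ?_) l
      obtain ⟨q, rfl⟩ := hA.surjective hσ q
      rw [← hη, hcompat σ hσ, ← hA.map_add σ hσ, hg.1 σ hσ, hη, map_sum]
      exact Finset.sum_congr rfl fun m _ => by rw [map_mul, (hGS m).1 σ hσ]
    · simp only [hηQ]
      exact ⟨fun i => d i l, fun i => hd i l, fun x => rfl⟩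
  choose b hb hb' using fun l => hspan _ (hηS l)
  refine ⟨fun m l => b l m, fun m l => hb l m, fun q q' => ?_⟩
  obtain ⟨x, rfl⟩ := hπ q
  rw [hη, Finset.sum_comm]
  refine Finset.sum_congr rfl fun l _ => ?_
  rw [← hηQ, hb', Finset.sum_mul]
  exact Finset.sum_congr rfl fun m _ => by ring

omit [DecidableEq Q] [DecidableEq N] in
theorem sum_zp_eq_zero (f : M →+ ZMod p) (hf : f ≠ 0) :
    ∑ x, zp p (f x) = 0 := by
  obtain ⟨x₀, hx₀⟩ := DFunLike.ne_iff.mp hf
  have h1 : ∑ x, zp p (f (x + x₀)) = ∑ x, zp p (f x) :=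
    Fintype.sum_equiv (Equiv.addRight x₀) _ _ fun x => rfl
  simp only [map_add, zp_add, ← Finset.sum_mul] at h1
  have h2 : zp p (f x₀) ≠ 1 := fun h => hx₀ (zp_injective (by rw [h]; exact zp_zero.symm))
  by_contra hne
  exact h2 (mul_left_cancel₀ hne (by rw [h1, mul_one]))

/-- The Cartier dual model, with the discriminant product formula. -/
theorem Model.exists_dual (R : Model p M act) {M' : Type} [AddCommGroup M'] [Fintype M']
    [DecidableEq M'] {act' : Gal → M' → M'} (hA' : IsAct p act') (β : M' →+ M →+ ZMod p)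
    (hβ : Function.Injective β)
    (hcard : Fintype.card M' = Fintype.card M)
    (hcompat : ∀ σ ∈ inert p, ∀ l x, β (act' σ l) (act σ x) = cyc p σ * β l x)
    {r : ℕ} (hr : Fintype.card M = p ^ r) :
    ∃ R' : Model p M' act', R.disc + R'.disc = (p : ℝ) ^ r * r / 2 := by
  classical
  let e : M' ≃ M := Fintype.equivOfCardEq hcard
  let C : M' → M → Qb := fun l => (fun x => zp p (β l x)) ᵥ* R.E⁻¹
  have hC : ∀ l x, zp p (β l x) = ∑ k, C l k * R.E k x := fun l x => by
    have h : C l ᵥ* R.E = fun x => zp p (β l x) := by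
      simp only [C]
      rw [Matrix.vecMul_vecMul, Matrix.nonsing_inv_mul _ (Ne.isUnit R.det_ne), Matrix.vecMul_one]
    exact (congrFun h x).symm
  have hCint : ∀ l k, VGE p 0 (C l k) := by
    intro l k
    obtain ⟨c, hc, hc'⟩ := R.character_inSpan (χ := fun x => zp p (β l x))
      (fun x y => by rw [map_add, zp_add])
    have : C l = c := eq_of_sum_rows R.det_ne fun x => by rw [← hC, ← hc']
    rw [this]; exact hc k
  have hCequiv : ∀ σ ∈ inert p, ∀ l k, C (act' σ l) k = σ (C l k) := by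
    intro σ hσ l k
    refine congrFun (eq_of_sum_rows R.det_ne (c := C (act' σ l)) (d := fun k => σ (C l k))
      fun x => ?_) k
    obtain ⟨x, rfl⟩ := R.isAct.surjective hσ x
    rw [← hC, hcompat σ hσ, ← apply_zp, hC, map_sum]
    exact Finset.sum_congr rfl fun j _ => by rw [map_mul, R.equiv j σ hσ]
  let E' : Matrix M' M' Qb := Matrix.of fun k l => C l (e k)
  let X : Matrix M' M' Qb := Matrix.of fun l k => zp p (β l (e k))
  have hX : X = E'ᵀ * R.E.submatrix e e := by
    ext l k
    simp only [X, E', Matrix.mul_apply, Matrix.transpose_apply, Matrix.submatrix_apply,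
      Matrix.of_apply]
    rw [hC]
    exact (Equiv.sum_comp e fun j => C l j * R.E j (e k)).symm
  -- orthogonality
  let Y : Matrix M' M' Qb := Matrix.of fun k l => zp p (-β l (e k))
  have hXY : X * Y = ((Fintype.card M : ℕ) : Qb) • (1 : Matrix M' M' Qb) := by
    ext l m
    simp only [X, Y, Matrix.mul_apply, Matrix.of_apply, Matrix.smul_apply, Matrix.one_apply,
      ← zp_add, smul_eq_mul]
    have hsum : (∑ k, zp p (β l (e k) + -β m (e k))) = ∑ x, zp p ((β l - β m) x) :=
      Fintype.sum_equiv e _ _ fun k => by simp [sub_eq_add_neg]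
    rw [hsum]
    split_ifs with h
    · subst h; simp [zp_zero]
    · rw [mul_zero, sum_zp_eq_zero _ (sub_ne_zero.mpr fun hlm => h (hβ hlm))]
  have hY : Y = (Xᵀ).submatrix id (Equiv.neg M') := by
    ext k l
    simp [X, Y]
  obtain ⟨dX, hdX⟩ : ∃ d, VEQ p d X.det := by
    refine exists_veq fun h0 => ?_
    have := congrArg Matrix.det hXY
    rw [Matrix.det_mul, h0, zero_mul, Matrix.det_smul, Matrix.det_one, mul_one] at this
    exact pow_ne_zero _ (Nat.cast_ne_zero.mpr Fintype.card_ne_zero) this.symm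
  have hdY : VEQ p dX Y.det := by
    rw [hY, Matrix.det_permute', Matrix.det_transpose]
    rcases Int.units_eq_one_or (Equiv.Perm.sign (Equiv.neg M')) with h | h
    · simpa [h] using hdX
    · simpa [h] using hdX.neg
  have hdX2 : dX + dX = (p : ℝ) ^ r * r := by
    have h := hdX.mul hdY
    rw [← Matrix.det_mul, hXY, Matrix.det_smul, Matrix.det_one, mul_one, hcard, hr] at h
    have h2 := ((veq_cast_self (p := p)).pow r).pow (p ^ r)
    push_cast at h
    have := h.unique h2
    rw [this]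
    push_cast
    ring
  have hdetE : VEQ p R.disc (R.E.submatrix e e).det := by
    rw [Matrix.det_submatrix_equiv_self]; exact R.veq_disc
  have hdetE' : VEQ p (dX - R.disc) E'.det := by
    have h : E'.det = X.det / (R.E.submatrix e e).det := by
      rw [hX, Matrix.det_mul, Matrix.det_transpose, mul_div_assoc, div_self hdetE.ne_zero, mul_one]
    rw [h]; exact hdX.div hdetE
  choose a ha ha' using R.comul
  choose m hm hm' using R.mul
  refine ⟨⟨E', hA', hdetE'.ne_zero, fun k σ hσ l => hCequiv σ hσ l _, fun k l => hCint l _,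
    ⟨fun k => R.E (e k) 0, fun k => R.integral _ _, fun l => ?_⟩,
    fun i j => ⟨fun k => a (e k) (e i) (e j), fun k => ha _ _ _, fun l => ?_⟩,
    fun k => ⟨fun i j => m (e i) (e j) (e k), fun i j => hm _ _ _, fun l l' => ?_⟩⟩, ?_⟩
  · show (1 : Qb) = _
    rw [← zp_zero (p := p), ← map_zero (β l), hC, ← Equiv.sum_comp e]
    exact Finset.sum_congr rfl fun k _ => mul_comm _ _
  · show C l (e i) * C l (e j) = _
    rw [R.character_coeff_mul (χ := fun x => zp p (β l x)) (fun x y => by rw [map_add, zp_add])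
      (hC l) ha', ← Equiv.sum_comp e]
    exact Finset.sum_congr rfl fun k _ => mul_comm _ _
  · show C (l + l') (e k) = ∑ i, ∑ j, m (e i) (e j) (e k) * (C l (e i) * C l' (e j))
    rw [Equiv.sum_comp e fun i => ∑ j, m i (e j) (e k) * (C l i * C l' (e j))]
    rw [Finset.sum_congr rfl fun i _ => Equiv.sum_comp e fun j => m i j (e k) * (C l i * C l' j)]
    refine congrFun (eq_of_sum_rows R.det_ne (c := C (l + l'))
      (d := fun k => ∑ i, ∑ j, m i j k * (C l i * C l' j)) fun x => ?_) (e k)
    rw [← hC, map_add, AddMonoidHom.add_apply, zp_add, hC, hC, Finset.sum_mul_sum]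
    simp only [Finset.sum_mul]
    symm
    rw [Finset.sum_comm]
    refine Finset.sum_congr rfl fun i _ => ?_
    rw [Finset.sum_comm]
    refine Finset.sum_congr rfl fun j _ => ?_
    have h := hm' i j x
    simp only [Pi.mul_apply] at h
    rw [mul_mul_mul_comm, h, Finset.mul_sum]
    exact Finset.sum_congr rfl fun k _ => by ring
  · have key : ∀ R'' : Model p M' act', R''.E = E' →
        R.disc + R''.disc = (p : ℝ) ^ r * r / 2 := fun R'' h => by
      rw [R''.disc_eq (d := dX - R.disc) (by rw [h]; exact hdetE')]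
      linarith
    exact key _ rfl

end Fermat.Agent.FlatTangent
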