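import Fermat.Agent.FlatTangent.LineExtra
import Mathlib.LinearAlgebra.Matrix.Kronecker

/-!
# Extensions of two tame lines of order `p ^ 2`

`PlaneData` records an extension of two lines and its Cartier dual. The model of such an extension
has coordinates `x` (from the quotient) and `y` (extending the coordinate of the sub-line) whose
monomials of degree `< p ^ 2` in each variable form a basis.
-/

set_option autoImplicit false
set_option linter.unusedSectionVars false
set_option linter.style.haveILetI false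

noncomputable section

namespace Fermat.Agent.FlatTangent

open Matrix
open scoped Kronecker

variable {p : ℕ} [Fact p.Prime] {F : Type} [Field F] [Fintype F] [DecidableEq F]
  [Algebra (ZMod p) F]

theorem IsLineChar.map_inv {η : Gal → F} {n : ℕ} (h : IsLineChar p η n) {σ : Gal}
    (hσ : σ ∈ inert p) : η σ⁻¹ = (η σ)⁻¹ := by
  refine eq_inv_of_mul_eq_one_left ?_
  rw [← h.map_mul _ (inv_mem hσ) _ hσ, inv_mul_cancel, h.map_one]

/-- An extension of the line with character `η₂` by the line with character `η₁`. -/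
structure PlaneData (p : ℕ) [Fact p.Prime] {M : Type} [AddCommGroup M] (act : Gal → M → M)
    {F : Type} [Field F] [Fintype F] [Algebra (ZMod p) F] (η₁ η₂ : Gal → F) (n : ℕ) where
  /-- The sub-line. -/
  ι : F →+ M
  /-- The quotient line. -/
  π : M →+ F
  ι_inj : Function.Injective ι
  π_surj : Function.Surjective π
  exact_ker : ∀ m, π m = 0 → ∃ d, ι d = m
  π_ι : ∀ d, π (ι d) = 0
  ι_act : ∀ σ ∈ inert p, ∀ d, ι (η₁ σ * d) = act σ (ι d)
  π_act : ∀ σ ∈ inert p, ∀ m, π (act σ m) = η₂ σ * π m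
  char₁ : IsLineChar p η₁ n
  char₂ : IsLineChar p η₂ n
  card_field : Fintype.card F = p ^ 2
  ne_one₁ : ∃ σ ∈ inert p, η₁ σ ≠ 1
  ne_cyc₁ : ∃ σ ∈ inert p, η₁ σ ≠ algebraMap (ZMod p) F (cyc p σ)
  ne_one₂ : ∃ σ ∈ inert p, η₂ σ ≠ 1
  ne_cyc₂ : ∃ σ ∈ inert p, η₂ σ ≠ algebraMap (ZMod p) F (cyc p σ)

namespace PlaneData

variable {M : Type} [AddCommGroup M] {act : Gal → M → M} {η₁ η₂ : Gal → F} {n : ℕ}
  (D : PlaneData p act η₁ η₂ n)

theorem q_eq (D : PlaneData p act η₁ η₂ n) : n + 1 = p ^ 2 :=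
  D.char₁.card.symm.trans D.card_field

theorem n_pos (D : PlaneData p act η₁ η₂ n) : 0 < n := pos_of_not_dvd D.char₁.not_dvd

theorem n_eq (D : PlaneData p act η₁ η₂ n) : n = (p - 1) * (p + 1) := by
  have h := D.q_eq
  have h1 : p ^ 2 - 1 = (p + 1) * (p - 1) := by simpa using Nat.sq_sub_sq p 1
  rw [mul_comm, ← h1, ← h, add_tsub_cancel_right]

/-- A section of the projection. -/
def s (c : F) : M := (D.π_surj c).choose

theorem π_s (c : F) : D.π (D.s c) = c := (D.π_surj c).choose_spec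

theorem exists_eq_s_add (m : M) : ∃ d, m = D.s (D.π m) + D.ι d := by
  obtain ⟨d, hd⟩ := D.exact_ker (m - D.s (D.π m)) (by rw [map_sub, π_s, sub_self])
  exact ⟨d, by rw [hd, add_sub_cancel]⟩

/-- Fibre and base coordinates. -/
def coordEquiv : F × F ≃ M :=
  Equiv.ofBijective (fun x => D.s x.2 + D.ι x.1) ⟨fun a b h => by
    have h2 := congrArg D.π h
    simp only [map_add, π_s, D.π_ι, add_zero] at h2
    simp only [h2, add_right_inj] at h
    exact Prod.ext (D.ι_inj h) h2, fun m => by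
    obtain ⟨d, hd⟩ := D.exists_eq_s_add m
    exact ⟨(d, D.π m), hd.symm⟩⟩

theorem coordEquiv_apply (x : F × F) : D.coordEquiv x = D.s x.2 + D.ι x.1 := rfl

variable [Fintype M] [DecidableEq M]

theorem card_eq (D : PlaneData p act η₁ η₂ n) : Fintype.card M = p ^ 4 := by
  rw [← Fintype.card_congr D.coordEquiv, Fintype.card_prod, D.card_field]
  ring

include D in
theorem conn_all (R : Model p M act) (m : M) : R.Conn m := by
  obtain ⟨σ₁, hσ₁, hne₁⟩ := D.ne_one₁
  obtain ⟨σ₂, hσ₂, hne₂⟩ := D.ne_one₂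
  have hsub : ∀ d, R.Conn (D.ι d) := fun d => by
    have h := R.conn_act_sub hσ₁ (D.ι (d / (η₁ σ₁ - 1)))
    rw [← D.ι_act σ₁ hσ₁, ← map_sub] at h
    convert h using 2
    field_simp [sub_ne_zero.mpr hne₁]
  obtain ⟨m', hm'⟩ := D.π_surj (D.π m / (η₂ σ₂ - 1))
  obtain ⟨d, hd⟩ := D.exact_ker (m - (act σ₂ m' - m')) (by
    rw [map_sub, map_sub, D.π_act σ₂ hσ₂, hm']
    field_simp [sub_ne_zero.mpr hne₂]
    ring)
  have : m = (act σ₂ m' - m') + D.ι d := by rw [hd]; abel
  rw [this]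
  exact R.conn_add (R.conn_act_sub hσ₂ m') (hsub d)

/-- Coordinates on a model of a plane. -/
structure Coords (R : Model p M act) where
  /-- The quotient model. -/
  R₂ : Model p F (mulAct η₂)
  /-- Its coordinate. -/
  L₂ : LineCoord R₂ n
  disc₂ : R₂.disc = ((n : ℝ) + 1) / 2
  descend : ∀ g, IEquiv p (mulAct η₂) g → InSpan p R.E (fun m => g (D.π m)) → InSpan p R₂.E g
  /-- The lifted coordinate. -/
  y : M → Qb
  mem_y : R.Mem y
  y_zero : y 0 = 0
  y_ι_pow : ∀ d, d ≠ 0 → y (D.ι d) ^ n = -(p : Qb)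
  veq_sub : ∀ m d, d ≠ 0 → VEQ p (1 / n) (y (m + D.ι d) - y m)
  x_mem : InSpan p R.E fun m => L₂.x (D.π m)

include D in
theorem nonempty_coords (R : Model p M act) : Nonempty (D.Coords R) := by
  obtain ⟨R₁, hR₁, hR₁'⟩ := R.exists_restrict (actN := mulAct η₁) D.ι D.ι_inj
    (fun σ hσ x => D.ι_act σ hσ x) D.char₁.isAct.map_one
  obtain ⟨R₂, hR₂, hR₂'⟩ := R.exists_quotient (actQ := mulAct η₂) D.π D.π_surj
    (fun σ hσ x => D.π_act σ hσ x) D.char₂.isAct.map_one
  obtain ⟨σ₁, hσ₁, hne₁⟩ := D.ne_one₁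
  obtain ⟨σ₂, hσ₂, hne₂⟩ := D.ne_one₂
  obtain ⟨τ₁, hτ₁, hcyc₁⟩ := D.ne_cyc₁
  obtain ⟨τ₂, hτ₂, hcyc₂⟩ := D.ne_cyc₂
  obtain ⟨⟨L₁⟩, hd₁⟩ :=
    lineCoord_of_card_sq D.char₁ D.card_field D.n_eq hσ₁ hne₁ hτ₁ hcyc₁ R₁
  obtain ⟨⟨L₂⟩, hd₂⟩ :=
    lineCoord_of_card_sq D.char₂ D.card_field D.n_eq hσ₂ hne₂ hτ₂ hcyc₂ R₂
  obtain ⟨c, hc, hc'⟩ := L₁.mem
  choose g hg hg' using hR₁'
  let y₀ : M → Qb := ∑ i, c i • g i
  have hcU : ∀ i, InU p (c i) := coeff_inU R₁.isAct R₁.det_ne R₁.equiv L₁.equiv hc'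
  have hy₀ : R.Mem y₀ := by
    refine ⟨fun σ hσ x => ?_, InSpan.sum_smul (fun i _ => hc i) fun i _ => (hg i).2⟩
    simp only [y₀, Finset.sum_apply, Pi.smul_apply, smul_eq_mul, map_sum, map_mul]
    exact Finset.sum_congr rfl fun i _ => by rw [hcU i σ hσ, (hg i).1 σ hσ]
  have hy₀ι : ∀ d, y₀ (D.ι d) = L₁.x d := fun d => by
    simp only [y₀, Finset.sum_apply, Pi.smul_apply, smul_eq_mul, hc' d]
    exact Finset.sum_congr rfl fun i _ => by rw [hg' i]
  have hy0 : y₀ 0 = 0 := by rw [← map_zero D.ι, hy₀ι, L₁.map_zero]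
  have hrow : ∀ d i, VGE p (1 / n) (R.E i (D.ι d) - R.E i 0) := fun d i => by
    have h := L₁.vge_sub_zero D.char₁ hd₁ (hR₁ _ (R.mem_row i)) d
    simpa using h
  have hx : InSpan p R.E fun m => L₂.x (D.π m) := by
    obtain ⟨c, hc, hc'⟩ := L₂.mem
    have : (fun m => L₂.x (D.π m)) = ∑ i, c i • fun m => R₂.E i (D.π m) := by
      funext m; simp [hc' (D.π m), Finset.sum_apply]
    rw [this]
    exact InSpan.sum_smul (fun i _ => hc i) fun i _ => hR₂' i
  refine ⟨⟨R₂, L₂, hd₂, hR₂, y₀, hy₀, hy0, fun d hd => ?_, fun m d hd => ?_, hx⟩⟩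
  · obtain ⟨σ, hσ, rfl⟩ := L₁.surj d hd
    rw [hy₀ι, L₁.apply_char D.n_pos hσ, mul_pow, tchar_pow D.n_pos, one_mul, piRoot_pow D.n_pos]
  · have h1 : VGT p (0 + 1 / n) (y₀ (m + D.ι d) - y₀ m - y₀ (D.ι d)) :=
      R.vgt_defect (D.conn_all R m) (hrow d) hy₀.2 hy0
    rw [zero_add] at h1
    have h2 : VEQ p (1 / n) (y₀ (D.ι d)) := by rw [hy₀ι]; exact L₁.veq_apply D.char₁ hd
    convert h2.add_vgt h1 using 1
    ring

namespace Coords

variable {D} {R : Model p M act} (C : D.Coords R)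

/-- The quotient coordinate on the plane. -/
def xh (m : M) : Qb := C.L₂.x (D.π m)

theorem xh_zero : C.xh 0 = 0 := by rw [xh, map_zero, C.L₂.map_zero]

theorem equiv_xh : IEquiv p act C.xh := fun σ hσ m => by
  rw [xh, D.π_act σ hσ]; exact C.L₂.equiv σ hσ _

theorem veq_sub' (m : M) {d d' : F} (h : d ≠ d') :
    VEQ p (1 / n) (C.y (m + D.ι d) - C.y (m + D.ι d')) := by
  have h1 := C.veq_sub (m + D.ι d') (d - d') (sub_ne_zero.mpr h)
  rwa [add_assoc, ← map_add, add_sub_cancel] at h1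

/-- An indexing of exponents. -/
def idx (D : PlaneData p act η₁ η₂ n) : F ≃ Fin (n + 1) :=
  Fintype.equivFinOfCardEq D.char₁.card

/-- The monomial matrix. -/
def mono : Matrix M M Qb := Matrix.of fun i m =>
  C.xh m ^ (idx D (D.coordEquiv.symm i).2 : ℕ) * C.y m ^ (idx D (D.coordEquiv.symm i).1 : ℕ)

/-- The index of a monomial. -/
def mi (D : PlaneData p act η₁ η₂ n) (a b : Fin (n + 1)) : M :=
  D.coordEquiv ((idx D).symm b, (idx D).symm a)

theorem mono_mi (a b : Fin (n + 1)) (m : M) :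
    C.mono (mi D a b) m = C.xh m ^ (a : ℕ) * C.y m ^ (b : ℕ) := by
  simp [mono, mi]

theorem mi_eq_iff {a b a' b' : Fin (n + 1)} :
    mi D a b = mi D a' b' ↔ a = a' ∧ b = b' := by
  simp [mi, and_comm]

theorem exists_mi (i : M) : ∃ a b, i = mi D a b :=
  ⟨idx D (D.coordEquiv.symm i).2, idx D (D.coordEquiv.symm i).1, by simp [mi]⟩

theorem veq_mono_det : VEQ p ((p : ℝ) ^ 4) C.mono.det := by
  let e := idx D
  let X : Matrix F F Qb := Matrix.of fun a c => C.L₂.x c ^ (e a : ℕ)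
  let Y : F → Matrix F F Qb := fun c => Matrix.of fun b d =>
    C.y (D.s c + D.ι d) ^ (e b : ℕ)
  have hvdm : ∀ v : F → Qb, (∀ i j, i ≠ j → VEQ p (1 / n) (v i - v j)) →
      VEQ p (((n : ℝ) + 1) / 2) (Matrix.of fun a c => v c ^ (e a : ℕ) : Matrix F F Qb).det := by
    intro v hv
    have hP : (Matrix.of fun a c => v c ^ (e a : ℕ) : Matrix F F Qb) =
        ((Matrix.vandermonde fun k => v (e.symm k))ᵀ).submatrix e e := by
      ext i c
      simp [Matrix.vandermonde]
    rw [hP, Matrix.det_submatrix_equiv_self, Matrix.det_transpose]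
    have h := veq_det_vandermonde (p := p) (v := fun k => v (e.symm k))
      fun i j hij => hv _ _ fun h => hij (e.symm.injective h)
    have hn' : (n : ℝ) ≠ 0 := Nat.cast_ne_zero.mpr D.n_pos.ne'
    have he : 1 / (n : ℝ) * (((n + 1 : ℕ) : ℝ) * (((n + 1 : ℕ) : ℝ) - 1) / 2) =
        ((n : ℝ) + 1) / 2 := by
      push_cast
      field_simp
      ring
    rwa [he] at h
  have hX := hvdm C.L₂.x fun i j h => C.L₂.veq_sub D.char₂ h
  have hY : ∀ c, VEQ p (((n : ℝ) + 1) / 2) (Y c).det := fun c =>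
    hvdm (fun d => C.y (D.s c + D.ι d)) fun i j h => C.veq_sub' _ h
  have hT : C.mono.submatrix D.coordEquiv D.coordEquiv =
      ((1 : Matrix F F Qb) ⊗ₖ X) * Matrix.blockDiagonal Y := by
    ext ⟨b, a⟩ ⟨d, c⟩
    simp only [Matrix.submatrix_apply, mono, Matrix.of_apply, Equiv.symm_apply_apply]
    simp only [D.coordEquiv_apply, xh, map_add, D.π_ι, D.π_s, add_zero, Matrix.mul_apply,
      Fintype.sum_prod_type, Matrix.kroneckerMap_apply, Matrix.one_apply,
      Matrix.blockDiagonal_apply, X, Y, e]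
    simp [ite_mul, Finset.sum_ite_eq, Finset.sum_ite_eq']
  rw [← Matrix.det_submatrix_equiv_self D.coordEquiv, hT, Matrix.det_mul,
    Matrix.det_kronecker, Matrix.det_one, one_pow, one_mul, Matrix.det_blockDiagonal]
  have h := (hX.pow (Fintype.card F)).mul
    (VEQ.prod (p := p) (s := (Finset.univ : Finset F)) fun c _ => hY c)
  rw [Finset.sum_const, Finset.card_univ, nsmul_eq_mul, D.char₁.card] at h
  have hq : ((p : ℝ)) ^ 2 = (n : ℝ) + 1 := by exact_mod_cast D.q_eq.symm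
  rw [D.char₁.card]
  convert h using 1
  rw [show (p : ℝ) ^ 4 = ((p : ℝ) ^ 2) ^ 2 by ring, hq]
  push_cast
  ring

theorem inSpan_pow {f : M → Qb} (hf : InSpan p R.E f) (k : ℕ) :
    InSpan p R.E fun m => f m ^ k := by
  induction k with
  | zero => simpa using R.inSpan_const veq_one.vge
  | succ k ih =>
    have := R.inSpan_mul ih hf
    convert this using 1
    funext m
    simp [pow_succ]

theorem inSpan_mono (i : M) : InSpan p R.E (C.mono i) :=
  R.inSpan_mul (inSpan_pow C.x_mem _) (inSpan_pow C.mem_y.2 _)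

include C in
theorem disc_le : R.disc ≤ (p : ℝ) ^ 4 := det_le R.veq_disc C.veq_mono_det C.inSpan_mono

end Coords

/-! ### The dual plane -/

variable [Module (ZMod p) M]

open Classical in
/-- The Cartier dual action. -/
def dualAct (R : Model p M act) (σ : Gal) (l : Module.Dual (ZMod p) M) : Module.Dual (ZMod p) M :=
  if hσ : σ ∈ inert p then
    cyc p σ • l ∘ₗ (AddMonoidHom.mk' (act σ⁻¹) (R.isAct.map_add _ (inv_mem hσ))).toZModLinearMap p
  else l

theorem dualAct_apply (R : Model p M act) {σ : Gal} (hσ : σ ∈ inert p)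
    (l : Module.Dual (ZMod p) M) (x : M) :
    dualAct R σ l x = cyc p σ * l (act σ⁻¹ x) := by
  rw [dualAct, dif_pos hσ]; rfl

theorem isAct_dualAct (R : Model p M act) : IsAct p (dualAct R) where
  map_add σ hσ l l' := by
    ext x
    simp [dualAct_apply R hσ, mul_add]
  map_one l := by
    ext x
    rw [dualAct_apply R (one_mem _), cyc_one, inv_one, R.isAct.map_one, one_mul]
  map_mul σ hσ τ hτ l := by
    ext x
    rw [dualAct_apply R (mul_mem hσ hτ), dualAct_apply R hσ, dualAct_apply R hτ, cyc_mul,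
      _root_.mul_inv_rev, R.isAct.map_mul _ (inv_mem hτ) _ (inv_mem hσ), mul_assoc]

/-- The identification of a field with its dual by the trace. -/
def traceDual (p : ℕ) [Fact p.Prime] (F : Type) [Field F] [Fintype F] [Algebra (ZMod p) F] :
    F ≃ₗ[ZMod p] Module.Dual (ZMod p) F :=
  haveI : Module.Finite (ZMod p) F := Module.Finite.of_finite
  (Algebra.traceForm (ZMod p) F).toDual (traceForm_nondegenerate (ZMod p) F)

theorem traceDual_apply (c x : F) :
    traceDual p F c x = Algebra.trace (ZMod p) F (c * x) := by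
  haveI : Module.Finite (ZMod p) F := Module.Finite.of_finite
  rw [traceDual, LinearMap.BilinForm.toDual_def, Algebra.traceForm_apply]

theorem trace_cyc_mul (σ : Gal) (z : F) :
    Algebra.trace (ZMod p) F (algebraMap (ZMod p) F (cyc p σ) * z) =
      cyc p σ * Algebra.trace (ZMod p) F z := by
  rw [← Algebra.smul_def, map_smul, smul_eq_mul]

include D in
theorem exists_dual_data (R : Model p M act) :
    Nonempty (PlaneData p (dualAct R) (dualChar η₂ p) (dualChar η₁ p) n) := by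
  let ιl : F →ₗ[ZMod p] M := D.ι.toZModLinearMap p
  let πl : M →ₗ[ZMod p] F := D.π.toZModLinearMap p
  let ι' : F →ₗ[ZMod p] Module.Dual (ZMod p) M :=
    πl.dualMap ∘ₗ (traceDual p F).toLinearMap
  let π' : Module.Dual (ZMod p) M →ₗ[ZMod p] F :=
    (traceDual p F).symm.toLinearMap ∘ₗ ιl.dualMap
  have hι : ∀ c m, ι' c m = Algebra.trace (ZMod p) F (c * D.π m) := fun c m => by
    simp [ι', πl, traceDual_apply]
  have hπ : ∀ l x, Algebra.trace (ZMod p) F (π' l * x) = l (D.ι x) := fun l x => by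
    rw [← traceDual_apply]
    simp [π', ιl]
  refine ⟨⟨ι'.toAddMonoidHom, π'.toAddMonoidHom, ?_, ?_, ?_, ?_, ?_, ?_,
    isLineChar_dualChar D.char₂ D.n_eq, isLineChar_dualChar D.char₁ D.n_eq, D.card_field,
    ?_, ?_, ?_, ?_⟩⟩
  · intro a b h
    refine (traceDual p F).injective (LinearMap.ext fun x => ?_)
    obtain ⟨m, rfl⟩ := D.π_surj x
    rw [traceDual_apply, traceDual_apply, ← hι, ← hι]
    exact LinearMap.congr_fun h m
  · exact (traceDual p F).symm.surjective.comp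
      (LinearMap.dualMap_surjective_of_injective (f := ιl) D.ι_inj)
  · intro l (hl : π' l = 0)
    have hl' : ∀ d, l (D.ι d) = 0 := fun d => by rw [← hπ, hl, zero_mul, map_zero]
    let φ : F →+ ZMod p := AddMonoidHom.mk' (fun c => l (D.s c)) fun a b => by
      obtain ⟨d, hd⟩ := D.exists_eq_s_add (D.s a + D.s b)
      rw [map_add, D.π_s, D.π_s] at hd
      rw [← map_add, hd, map_add, hl', add_zero]
    refine ⟨(traceDual p F).symm (φ.toZModLinearMap p), LinearMap.ext fun m => ?_⟩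
    show ι' _ m = l m
    obtain ⟨d, hd⟩ := D.exists_eq_s_add m
    rw [hι, ← traceDual_apply, LinearEquiv.apply_symm_apply]
    show l (D.s (D.π m)) = l m
    conv_rhs => rw [hd, map_add, hl', add_zero]
  · intro c
    refine (traceDual p F).injective (LinearMap.ext fun x => ?_)
    show traceDual p F (π' (ι' c)) x = _
    rw [traceDual_apply, hπ, hι, D.π_ι, mul_zero, map_zero, map_zero, LinearMap.zero_apply]
  · intro σ hσ c
    ext m
    show ι' _ m = dualAct R σ (ι' c) m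
    rw [dualAct_apply R hσ, hι, hι, D.π_act _ (inv_mem hσ), D.char₂.map_inv hσ, dualChar,
      ← trace_cyc_mul]
    congr 1
    ring
  · intro σ hσ l
    refine (traceDual p F).injective (LinearMap.ext fun x => ?_)
    show traceDual p F (π' (dualAct R σ l)) x = traceDual p F (dualChar η₁ p σ * π' l) x
    rw [traceDual_apply, traceDual_apply, hπ, dualAct_apply R hσ, dualChar, ← D.ι_act _ (inv_mem hσ),
      ← hπ, D.char₁.map_inv hσ, ← trace_cyc_mul]
    congr 1
    ring
  · obtain ⟨σ, hσ, hne⟩ := D.ne_cyc₂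
    exact ⟨σ, hσ, fun h => hne ((mul_inv_eq_one₀ (D.char₂.ne_zero hσ)).mp h).symm⟩
  · obtain ⟨σ, hσ, hne⟩ := D.ne_one₂
    refine ⟨σ, hσ, fun h => hne ?_⟩
    have := mul_eq_left₀ (show algebraMap (ZMod p) F (cyc p σ) ≠ 0 by
      simpa using cyc_ne_zero σ) |>.mp h
    exact inv_eq_one.mp this
  · obtain ⟨σ, hσ, hne⟩ := D.ne_cyc₁
    exact ⟨σ, hσ, fun h => hne ((mul_inv_eq_one₀ (D.char₁.ne_zero hσ)).mp h).symm⟩
  · obtain ⟨σ, hσ, hne⟩ := D.ne_one₁
    refine ⟨σ, hσ, fun h => hne ?_⟩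
    have := mul_eq_left₀ (show algebraMap (ZMod p) F (cyc p σ) ≠ 0 by
      simpa using cyc_ne_zero σ) |>.mp h
    exact inv_eq_one.mp this

theorem disc_eq (D : PlaneData p act η₁ η₂ n) (R : Model p M act) :
    R.disc = (p : ℝ) ^ 4 := by
  classical
  obtain ⟨C⟩ := D.nonempty_coords R
  obtain ⟨D'⟩ := D.exists_dual_data R
  haveI : Finite (Module.Dual (ZMod p) M) := Module.finite_of_finite (ZMod p)
  let _ : Fintype (Module.Dual (ZMod p) M) := Fintype.ofFinite _
  let β : Module.Dual (ZMod p) M →+ M →+ ZMod p :=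
    AddMonoidHom.mk' (fun l => l.toAddMonoidHom) fun l l' => rfl
  obtain ⟨R', hR'⟩ := R.exists_dual (isAct_dualAct R) β
    (fun l l' h => LinearMap.ext fun x => DFunLike.congr_fun h x)
    (D'.card_eq.trans D.card_eq.symm)
    (fun σ hσ l x => by
      show dualAct R σ l (act σ x) = cyc p σ * l x
      rw [dualAct_apply R hσ, ← R.isAct.map_mul _ (inv_mem hσ) _ hσ, inv_mul_cancel,
        R.isAct.map_one]) D.card_eq
  obtain ⟨C'⟩ := D'.nonempty_coords R'
  have h1 := C.disc_le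
  have h2 := C'.disc_le
  push_cast at hR'
  linarith

theorem Coords.inSpan_mono_of {R : Model p M act} (C : D.Coords R) {f : M → Qb}
    (hf : InSpan p R.E f) : InSpan p C.mono f :=
  inSpan_of_det_eq (D.disc_eq R ▸ R.veq_disc) C.veq_mono_det C.inSpan_mono hf

end PlaneData

end Fermat.Agent.FlatTangent
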