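import Fermat.Agent.FlatTangent.Unram

/-!
# Tame radicals `(-p)^(1/n)`, tame characters and the `p`-th cyclotomic character on inertia
-/

set_option autoImplicit false

noncomputable section

namespace Fermat.Agent.FlatTangent

open Polynomial

variable (p : ℕ) [Fact p.Prime]

/-- A chosen `n`-th root of `-p`. -/
def piRoot (n : ℕ) : Qb :=
  if h : 0 < n then (IsAlgClosed.exists_pow_nat_eq (-(p : Qb)) h).choose else 1

/-- The tame character attached to `piRoot p n`. -/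
def tchar (n : ℕ) (σ : Gal) : Qb := σ (piRoot p n) / piRoot p n

/-- Elements of inertia fixing `piRoot p n`. -/
def Kn (n : ℕ) : Subgroup Gal := inert p ⊓ MulAction.stabilizer Gal (piRoot p n)

/-- `x` is fixed by `Kn p n`. -/
def InK (n : ℕ) (x : Qb) : Prop := ∀ σ ∈ Kn p n, σ x = x

set_option linter.unusedSectionVars false

variable {p} {n : ℕ} {σ τ : Gal} {x y : Qb}

theorem pos_of_not_dvd (hn : ¬ p ∣ n) : 0 < n :=
  Nat.pos_of_ne_zero fun h => hn (h ▸ dvd_zero p)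

theorem mem_Kn : σ ∈ Kn p n ↔ σ ∈ inert p ∧ σ (piRoot p n) = piRoot p n := Iff.rfl

theorem piRoot_pow (hn : 0 < n) : piRoot p n ^ n = -(p : Qb) := by
  rw [piRoot, dif_pos hn]
  exact (IsAlgClosed.exists_pow_nat_eq (-(p : Qb)) hn).choose_spec

theorem piRoot_veq (hn : 0 < n) : VEQ p (1 / n) (piRoot p n) := by
  apply VEQ.of_pow hn.ne'
  rw [piRoot_pow hn, mul_one_div_cancel (Nat.cast_ne_zero.mpr hn.ne')]
  exact veq_cast_self.neg

theorem piRoot_ne_zero (hn : 0 < n) : piRoot p n ≠ 0 := (piRoot_veq hn).ne_zero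

theorem piRoot_zpow_veq (hn : 0 < n) (j : ℤ) : VEQ p (j / n) (piRoot p n ^ j) := by
  have h := (piRoot_veq (p := p) hn).zpow j
  rwa [mul_one_div] at h

theorem tchar_pow (hn : 0 < n) (σ : Gal) : tchar p n σ ^ n = 1 := by
  rw [tchar, div_pow, ← map_pow, piRoot_pow hn, map_neg, map_natCast, div_self]
  exact neg_ne_zero.mpr (Nat.cast_ne_zero.mpr (Fact.out : p.Prime).ne_zero)

theorem tchar_mul_piRoot (hn : 0 < n) (σ : Gal) :
    σ (piRoot p n) = tchar p n σ * piRoot p n := by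
  rw [tchar, div_mul_cancel₀ _ (piRoot_ne_zero hn)]

theorem inU_tchar (hn : ¬ p ∣ n) (σ : Gal) : InU p (tchar p n σ) :=
  inU_of_pow_eq_one hn (tchar_pow (pos_of_not_dvd hn) σ)

theorem tchar_mul (hn : ¬ p ∣ n) (hσ : σ ∈ inert p) (τ : Gal) :
    tchar p n (σ * τ) = tchar p n σ * tchar p n τ := by
  have hn0 := pos_of_not_dvd hn
  rw [tchar, AlgEquiv.mul_apply, tchar_mul_piRoot hn0 τ, map_mul, inU_tchar hn τ σ hσ,
    tchar_mul_piRoot hn0 σ, mul_comm (tchar p n τ), mul_right_comm,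
    mul_div_assoc, div_self (piRoot_ne_zero hn0), mul_one]

theorem tchar_one (hn : 0 < n) : tchar p n 1 = 1 := by
  rw [tchar, AlgEquiv.one_apply, div_self (piRoot_ne_zero hn)]

theorem tchar_eq_one_iff (hn : 0 < n) : tchar p n σ = 1 ↔ σ (piRoot p n) = piRoot p n := by
  rw [tchar, div_eq_one_iff_eq (piRoot_ne_zero hn)]

theorem mem_Kn_iff_tchar (hn : 0 < n) : σ ∈ Kn p n ↔ σ ∈ inert p ∧ tchar p n σ = 1 := by
  rw [mem_Kn, tchar_eq_one_iff hn]

theorem tchar_pow_apply (hn : ¬ p ∣ n) (hσ : σ ∈ inert p) (k : ℕ) :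
    tchar p n (σ ^ k) = tchar p n σ ^ k := by
  induction k with
  | zero => simp [tchar_one (pos_of_not_dvd hn)]
  | succ k ih => rw [pow_succ, tchar_mul hn (pow_mem hσ k), ih, pow_succ]

theorem tchar_inv (hn : ¬ p ∣ n) (hσ : σ ∈ inert p) : tchar p n σ⁻¹ = (tchar p n σ)⁻¹ := by
  have h := tchar_mul hn hσ σ⁻¹
  rw [mul_inv_cancel, tchar_one (pos_of_not_dvd hn)] at h
  exact eq_inv_of_mul_eq_one_right h.symm

/-- Inertia surjects onto the `n`-th roots of unity through `tchar`. -/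
theorem exists_tchar_eq (hn : ¬ p ∣ n) {ζ : Qb} (hζ : ζ ^ n = 1) :
    ∃ σ ∈ inert p, tchar p n σ = ζ := by
  have hn0 := pos_of_not_dvd hn
  let T : inert p →* Qb :=
    { toFun := fun σ => tchar p n σ.1
      map_one' := tchar_one hn0
      map_mul' := fun σ τ => tchar_mul hn σ.2 τ.1 }
  let S : Subgroup Qbˣ := T.toHomUnits.range
  have hsub : S ≤ rootsOfUnity n Qb := by
    rintro _ ⟨σ, rfl⟩
    rw [mem_rootsOfUnity, Units.ext_iff, Units.val_pow_eq_pow_val]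
    exact tchar_pow hn0 σ.1
  have : NeZero n := ⟨hn0.ne'⟩
  have : Finite S := Finite.of_injective (Subgroup.inclusion hsub) (Subgroup.inclusion_injective hsub)
  have hfix : InU p (piRoot p n ^ Nat.card S) := by
    intro σ hσ
    have h1 : (⟨T.toHomUnits ⟨σ, hσ⟩, ⟨σ, hσ⟩, rfl⟩ : S) ^ Nat.card S = 1 := pow_card_eq_one'
    have h2 : tchar p n σ ^ Nat.card S = 1 := by
      have h3 : T.toHomUnits ⟨σ, hσ⟩ ^ Nat.card S = 1 := congrArg Subtype.val h1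
      have h4 := congrArg (fun u : Qbˣ => (u : Qb)) h3
      simp only [Units.val_pow_eq_pow_val, Units.val_one, MonoidHom.coe_toHomUnits] at h4
      exact h4
    rw [map_pow, tchar_mul_piRoot hn0, mul_pow, h2, one_mul]
  obtain ⟨m, hm⟩ := hfix.exists_int (pow_ne_zero _ (piRoot_ne_zero hn0))
  have he := ((piRoot_veq (p := p) hn0).pow (Nat.card S)).unique hm
  have hcard_pos : 0 < Nat.card S := Nat.card_pos
  have hle : Nat.card S ≤ n := by
    have h1 := Subgroup.card_le_of_le hsub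
    rwa [HasEnoughRootsOfUnity.natCard_rootsOfUnity] at h1
  have hS : Nat.card S = n := by
    rw [mul_one_div, div_eq_iff (Nat.cast_ne_zero.mpr hn0.ne')] at he
    have h2 : (Nat.card S : ℤ) = m * n := by exact_mod_cast he
    have h3 : 0 < m := by
      by_contra hm0
      have : m * (n : ℤ) ≤ 0 := mul_nonpos_of_nonpos_of_nonneg (not_lt.mp hm0) (by positivity)
      omega
    have h4 : (n : ℤ) ≤ m * n := le_mul_of_one_le_left (by positivity) h3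
    omega
  have heq : S = rootsOfUnity n Qb :=
    Subgroup.eq_of_le_of_card_ge hsub (by rw [hS, HasEnoughRootsOfUnity.natCard_rootsOfUnity])
  have hu : (rootsOfUnity.mkOfPowEq ζ hζ : Qbˣ) ∈ S := by
    rw [heq]; exact (rootsOfUnity.mkOfPowEq ζ hζ).2
  obtain ⟨σ, hσ⟩ := hu
  refine ⟨σ.1, σ.2, ?_⟩
  have := congrArg (fun u : Qbˣ => (u : Qb)) hσ
  simpa [T] using this

theorem exists_tchar_prim (hn : ¬ p ∣ n) : ∃ σ ∈ inert p, IsPrimitiveRoot (tchar p n σ) n := by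
  have : NeZero (n : Qb) := ⟨Nat.cast_ne_zero.mpr (pos_of_not_dvd hn).ne'⟩
  obtain ⟨ζ, hζ⟩ := HasEnoughRootsOfUnity.exists_primitiveRoot Qb n
  obtain ⟨σ, hσ, hσζ⟩ := exists_tchar_eq hn hζ.pow_eq_one
  exact ⟨σ, hσ, hσζ ▸ hζ⟩

/-- Frobenius acts on tame inertia by `ω ↦ ω ^ p`. -/
theorem tchar_frob_conj {φ : Gal} (hφ : (plc p).IsFrobeniusAt φ p) (hn : ¬ p ∣ n)
    (hσ : σ ∈ inert p) : tchar p n (φ * σ * φ⁻¹) = tchar p n σ ^ p := by
  have hn0 := pos_of_not_dvd hn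
  have h0 := piRoot_ne_zero (p := p) hn0
  have h1 : φ⁻¹ (piRoot p n) = tchar p n φ⁻¹ * piRoot p n := tchar_mul_piRoot hn0 φ⁻¹
  have h2 : σ (φ⁻¹ (piRoot p n)) = tchar p n σ * φ⁻¹ (piRoot p n) := by
    rw [h1, map_mul, inU_tchar hn _ σ hσ, tchar_mul_piRoot hn0 σ]
    ring
  rw [tchar, AlgEquiv.mul_apply, AlgEquiv.mul_apply, h2, map_mul,
    ← AlgEquiv.mul_apply φ φ⁻¹, mul_inv_cancel, AlgEquiv.one_apply, mul_div_assoc, div_self h0,
    mul_one, frob_apply_of_pow_eq_one hφ hn (tchar_pow hn0 σ)]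

theorem exists_frobenius_fix (hn : ¬ p ∣ n) :
    ∃ φ : Gal, (plc p).IsFrobeniusAt φ p ∧ φ (piRoot p n) = piRoot p n := by
  obtain ⟨φ, hφ⟩ := exists_frobenius (p := p)
  have hn0 := pos_of_not_dvd hn
  obtain ⟨τ, hτ, hτζ⟩ := exists_tchar_eq hn (ζ := (tchar p n φ)⁻¹)
    (by rw [inv_pow, tchar_pow hn0, inv_one])
  refine ⟨τ * φ, Galois.isFrobeniusAt_inertia_mul hφ hτ, ?_⟩
  rw [← tchar_eq_one_iff hn0, tchar_mul hn hτ, hτζ, inv_mul_cancel₀]
  intro h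
  have := tchar_pow (p := p) hn0 φ
  rw [h, zero_pow hn0.ne'] at this
  exact zero_ne_one this

theorem Kn_le_of_dvd {N : ℕ} (hN : ¬ p ∣ N) (hd : n ∣ N) : Kn p N ≤ Kn p n := by
  intro σ hσ
  obtain ⟨hσI, hσN⟩ := mem_Kn.mp hσ
  refine mem_Kn.mpr ⟨hσI, ?_⟩
  obtain ⟨d, rfl⟩ := hd
  have hn : ¬ p ∣ n := fun h => hN (h.mul_right d)
  have hn0 := pos_of_not_dvd hn
  have hu : (piRoot p n / piRoot p (n * d) ^ d) ^ n = 1 := by
    rw [div_pow, ← pow_mul, mul_comm d n, piRoot_pow hn0, piRoot_pow (pos_of_not_dvd hN), div_self]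
    exact neg_ne_zero.mpr (Nat.cast_ne_zero.mpr (Fact.out : p.Prime).ne_zero)
  have h0 : piRoot p (n * d) ^ d ≠ 0 := pow_ne_zero _ (piRoot_ne_zero (pos_of_not_dvd hN))
  have h := inU_of_pow_eq_one hn hu σ hσI
  rw [map_div₀, map_pow, hσN] at h
  field_simp at h
  exact h

/-! ### Elements fixed by `Kn` -/

theorem InU.inK (hx : InU p x) : InK p n x := fun σ hσ => hx σ (mem_Kn.mp hσ).1

theorem inK_piRoot : InK p n (piRoot p n) := fun _ hσ => (mem_Kn.mp hσ).2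

theorem InK.add (hx : InK p n x) (hy : InK p n y) : InK p n (x + y) := fun σ hσ => by
  rw [map_add, hx σ hσ, hy σ hσ]

theorem InK.sub (hx : InK p n x) (hy : InK p n y) : InK p n (x - y) := fun σ hσ => by
  rw [map_sub, hx σ hσ, hy σ hσ]

theorem InK.mul (hx : InK p n x) (hy : InK p n y) : InK p n (x * y) := fun σ hσ => by
  rw [map_mul, hx σ hσ, hy σ hσ]

theorem InK.div (hx : InK p n x) (hy : InK p n y) : InK p n (x / y) := fun σ hσ => by
  rw [map_div₀, hx σ hσ, hy σ hσ]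

theorem InK.pow (hx : InK p n x) (k : ℕ) : InK p n (x ^ k) := fun σ hσ => by
  rw [map_pow, hx σ hσ]

theorem InK.zpow (hx : InK p n x) (k : ℤ) : InK p n (x ^ k) := fun σ hσ => by
  rw [map_zpow₀, hx σ hσ]

theorem InK.sum {ι : Type*} {s : Finset ι} {f : ι → Qb} (h : ∀ i ∈ s, InK p n (f i)) :
    InK p n (∑ i ∈ s, f i) := fun σ hσ => by
  rw [map_sum]; exact Finset.sum_congr rfl fun i hi => h i hi σ hσ

/-- Expansion along a radical: averaging against the powers of a radical `α`. -/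
theorem exists_radical_expansion (H : Subgroup Gal) {α : Qb} (hα : α ≠ 0) {m : ℕ} [NeZero m]
    (hμ : ∀ ζ : Qb, ζ ^ m = 1 → ∀ σ ∈ H, σ ζ = ζ)
    (hchar : ∀ σ ∈ H, (σ α / α) ^ m = 1)
    (hsurj : ∀ ζ : Qb, ζ ^ m = 1 → ∃ σ ∈ H, σ α = ζ * α)
    (hx : ∀ σ ∈ H, σ α = α → σ x = x) :
    ∃ c : Fin m → Qb, (∀ i, ∀ σ ∈ H, σ (c i) = c i) ∧ x = ∑ i, c i * α ^ (i : ℕ) ∧
      ∀ (r a b : ℝ), (∀ σ ∈ H, VGE p r (σ x)) → VEQ p a α → VEQ p b (m : Qb) →
        ∀ i, VGE p (r - b) (c i * α ^ (i : ℕ)) := by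
  classical
  let μ := nthRootsFinset m (1 : Qb)
  have hmem : ∀ {ζ : Qb}, ζ ∈ μ ↔ ζ ^ m = 1 := fun {ζ} => mem_nthRootsFinset (NeZero.pos m) 1
  have hex : ∀ ζ : μ, ∃ σ : Gal, σ ∈ H ∧ σ α = (ζ : Qb) * α := fun ζ => hsurj ζ (hmem.mp ζ.2)
  choose s hsH hsα using hex
  have hwell : ∀ (ζ : μ) (σ : Gal), σ ∈ H → σ α = (ζ : Qb) * α → σ x = s ζ x := by
    intro ζ σ hσ hσα
    have h1 : ((s ζ)⁻¹ * σ) α = α := by
      rw [AlgEquiv.mul_apply, hσα, ← hsα ζ, ← AlgEquiv.mul_apply, inv_mul_cancel,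
        AlgEquiv.one_apply]
    have h2 := hx _ (mul_mem (inv_mem (hsH ζ)) hσ) h1
    have h3 := congrArg (s ζ) h2
    rwa [← AlgEquiv.mul_apply, mul_inv_cancel_left] at h3
  let c : Fin m → Qb := fun i => (∑ ζ : μ, s ζ x / (s ζ α) ^ (i : ℕ)) / m
  have hci : ∀ i : Fin m, c i * α ^ (i : ℕ) =
      (∑ ζ : μ, s ζ x / (s ζ α) ^ (i : ℕ) * α ^ (i : ℕ)) / m := fun i => by
    rw [div_mul_eq_mul_div, Finset.sum_mul]
  refine ⟨c, fun i σ hσ => ?_, ?_, fun r a b hr ha hb i => ?_⟩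
  · obtain ⟨ω, hω⟩ : ∃ ω : μ, σ α = (ω : Qb) * α :=
      ⟨⟨σ α / α, hmem.mpr (hchar σ hσ)⟩, (div_mul_cancel₀ _ hα).symm⟩
    have hω0 : (ω : Qb) ≠ 0 := fun h0 => by
      rw [h0, zero_mul, map_eq_zero] at hω; exact hα hω
    let e : μ ≃ μ :=
      { toFun := fun ζ => ⟨ω * ζ, hmem.mpr (by rw [mul_pow, hmem.mp ω.2, hmem.mp ζ.2, one_mul])⟩
        invFun := fun ζ => ⟨(ω : Qb)⁻¹ * ζ,
          hmem.mpr (by rw [mul_pow, inv_pow, hmem.mp ω.2, hmem.mp ζ.2, inv_one, one_mul])⟩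
        left_inv := fun ζ => Subtype.ext (inv_mul_cancel_left₀ hω0 _)
        right_inv := fun ζ => Subtype.ext (mul_inv_cancel_left₀ hω0 _) }
    simp only [c, map_div₀, map_natCast, map_sum, map_pow]
    congr 1
    refine Finset.sum_bij (fun ζ _ => e ζ) (fun _ _ => Finset.mem_univ _)
      (fun _ _ _ _ h => e.injective h) (fun ζ _ => ⟨e.symm ζ, Finset.mem_univ _, by simp⟩) ?_
    intro ζ _
    have h1 : (σ * s ζ) α = ((e ζ : μ) : Qb) * α := by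
      rw [AlgEquiv.mul_apply, hsα ζ, map_mul, hμ _ (hmem.mp ζ.2) σ hσ, hω]
      show _ = (ω : Qb) * ζ * α
      ring
    rw [← hwell _ _ (mul_mem hσ (hsH ζ)) h1, hsα (e ζ), ← h1]
    rfl
  · have hm0 : (m : Qb) ≠ 0 := Nat.cast_ne_zero.mpr (NeZero.ne m)
    have h1mem : (1 : Qb) ∈ μ := hmem.mpr (one_pow m)
    simp only [hci, ← Finset.sum_div]
    rw [Finset.sum_comm, eq_div_iff hm0, Finset.sum_eq_single ⟨1, h1mem⟩ ?_ (by simp)]
    · have h1 : s ⟨1, h1mem⟩ x = x := (hwell ⟨1, h1mem⟩ 1 H.one_mem (by simp)).symm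
      have h2 : ∀ i : Fin m, x / α ^ (i : ℕ) * α ^ (i : ℕ) = x := fun i =>
        div_mul_cancel₀ _ (pow_ne_zero _ hα)
      simp [h1, hsα, h2, mul_comm x]
    · intro ζ _ hζ
      have hζ0 : (ζ : Qb) ≠ 0 := fun h0 => by
        have := hmem.mp ζ.2
        rw [h0, zero_pow (NeZero.ne m)] at this
        exact zero_ne_one this
      have hne : (ζ : Qb)⁻¹ ≠ 1 := fun h => hζ (Subtype.ext (inv_eq_one.mp h))
      have hterm : ∀ i : Fin m, s ζ x / (s ζ α) ^ (i : ℕ) * α ^ (i : ℕ) =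
          s ζ x * ((ζ : Qb)⁻¹) ^ (i : ℕ) := fun i => by
        rw [hsα, mul_pow, inv_pow]
        field_simp
      rw [Finset.sum_congr rfl (fun i _ => hterm i), ← Finset.mul_sum,
        Fin.sum_univ_eq_sum_range (fun i => ((ζ : Qb)⁻¹) ^ i) m, geom_sum_eq hne, inv_pow,
        hmem.mp ζ.2, inv_one, sub_self, zero_div, mul_zero]
  · rw [hci]
    refine VGE.div (VGE.sum fun ζ _ => ?_) hb
    have hterm : s ζ x / (s ζ α) ^ (i : ℕ) * α ^ (i : ℕ) = s ζ x / (ζ : Qb) ^ (i : ℕ) := by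
      rw [hsα, mul_pow]
      field_simp
    rw [hterm]
    have hv : VEQ p 0 ((ζ : Qb) ^ (i : ℕ)) := by
      simpa using (veq_zero_of_pow_eq_one (NeZero.ne m) (hmem.mp ζ.2)).pow (i : ℕ)
    simpa using (hr _ (hsH ζ)).div hv

theorem InK.exists_expansion (hn : ¬ p ∣ n) (hx : InK p n x) :
    ∃ c : Fin n → Qb, (∀ i, InU p (c i)) ∧ x = ∑ i, c i * piRoot p n ^ (i : ℕ) ∧
      ∀ r : ℝ, VGE p r x → ∀ i, VGE p r (c i * piRoot p n ^ (i : ℕ)) := by
  have hn0 := pos_of_not_dvd hn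
  have : NeZero n := ⟨hn0.ne'⟩
  obtain ⟨c, hc, hsum, hb⟩ := exists_radical_expansion (p := p) (inert p) (piRoot_ne_zero hn0)
    (fun ζ hζ σ hσ => inU_of_pow_eq_one hn hζ σ hσ)
    (fun σ _ => tchar_pow hn0 σ)
    (fun ζ hζ => by
      obtain ⟨σ, hσ, hσζ⟩ := exists_tchar_eq hn hζ
      exact ⟨σ, hσ, by rw [tchar_mul_piRoot hn0, hσζ]⟩)
    (fun σ hσ h => hx σ (mem_Kn.mpr ⟨hσ, h⟩))
  refine ⟨c, hc, hsum, fun r hr i => ?_⟩
  simpa using hb r _ 0 (fun σ hσ => hr.dec (inert_le_dec hσ)) (piRoot_veq hn0)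
    (veq_natCast_of_not_dvd hn) i

theorem InK.exists_veq (hn : ¬ p ∣ n) (hx : InK p n x) (h0 : x ≠ 0) :
    ∃ j : ℤ, VEQ p (j / n) x := by
  classical
  have hn0 := pos_of_not_dvd hn
  obtain ⟨c, hc, rfl, -⟩ := hx.exists_expansion hn
  obtain ⟨i₁, hi₁⟩ : ∃ i, c i ≠ 0 := by
    by_contra! h
    exact h0 (by simp [h])
  obtain ⟨i₀, -, hmax⟩ := Finset.exists_max_image Finset.univ
    (fun i => nrm p (c i * piRoot p n ^ (i : ℕ))) ⟨i₁, by simp⟩
  have hc0 : c i₀ ≠ 0 := fun hz => by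
    have h1 := hmax i₁ (by simp)
    rw [hz, zero_mul, nrm_zero] at h1
    exact mul_ne_zero hi₁ (pow_ne_zero _ (piRoot_ne_zero hn0))
      (nrm_eq_zero.mp (le_antisymm h1 (nrm_nonneg _)))
  obtain ⟨m, hm⟩ := (hc i₀).exists_int hc0
  refine ⟨m * n + i₀, ?_⟩
  have hv : VEQ p (((m * n + i₀ : ℤ) : ℝ) / n) (c i₀ * piRoot p n ^ (i₀ : ℕ)) := by
    convert hm.mul ((piRoot_veq (p := p) hn0).pow (i₀ : ℕ)) using 1
    have : (n : ℝ) ≠ 0 := Nat.cast_ne_zero.mpr hn0.ne'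
    push_cast
    field_simp
  refine VEQ.sum_of_lt (Finset.mem_univ i₀) hv fun j _ hj => ?_
  by_cases hcj : c j = 0
  · rw [hcj, zero_mul]; exact vgt_zero _
  refine lt_of_le_of_ne (le_of_le_of_eq (hmax j (by simp)) hv) fun heq => hj ?_
  obtain ⟨m', hm'⟩ := (hc j).exists_int hcj
  have h1 := (hm'.mul ((piRoot_veq (p := p) hn0).pow (j : ℕ))).unique heq
  have hn' : (n : ℝ) ≠ 0 := Nat.cast_ne_zero.mpr hn0.ne'
  have h2 : (m' * n + j : ℤ) = m * n + i₀ := by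
    have : ((m' * n + j : ℤ) : ℝ) = ((m * n + i₀ : ℤ) : ℝ) := by
      field_simp at h1
      push_cast at h1 ⊢
      linarith
    exact_mod_cast this
  have h3 : (j : ℤ) % n = (i₀ : ℤ) % n := by
    have := congrArg (· % (n : ℤ)) h2
    simpa [Int.add_emod] using this
  rw [Int.emod_eq_of_lt (by positivity) (by exact_mod_cast j.2),
    Int.emod_eq_of_lt (by positivity) (by exact_mod_cast i₀.2)] at h3
  exact Fin.ext (by exact_mod_cast h3)

theorem InK.vge_of_vgt (hn : ¬ p ∣ n) (hx : InK p n x) {j : ℤ} (h : VGT p (j / n) x) :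
    VGE p ((j + 1) / n) x := by
  by_cases h0 : x = 0
  · rw [h0]; exact vge_zero _
  obtain ⟨k, hk⟩ := hx.exists_veq hn h0
  refine hk.vge.mono ?_
  have h1 := hk.lt_of_vgt h
  have hn' : (0 : ℝ) < n := Nat.cast_pos.mpr (pos_of_not_dvd hn)
  rw [div_lt_div_iff_of_pos_right hn'] at h1
  have h2 : j + 1 ≤ k := by exact_mod_cast h1
  have h3 : (j : ℝ) + 1 ≤ k := by exact_mod_cast h2
  gcongr

theorem InK.exists_leading (hn : ¬ p ∣ n) {j : ℤ} (hx : VGE p (j / n) x) :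
    ∃ u : Qb, InU p u ∧ VGE p 0 u ∧ VGT p (j / n) (x - u * piRoot p n ^ j) := by
  have hn0 := pos_of_not_dvd hn
  have hπ := piRoot_zpow_veq (p := p) hn0 j
  obtain ⟨u, hu, hu0, hlt⟩ := exists_inU_sub (p := p) (x := x / piRoot p n ^ j) (by
    simpa using hx.div hπ)
  refine ⟨u, hu, hu0, ?_⟩
  have h1 := hlt.mul_vge hπ.vge
  rw [zero_add, sub_mul, div_mul_cancel₀ _ hπ.ne_zero] at h1
  exact h1

end Fermat.Agent.FlatTangent
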