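import Fermat.Agent.FlatTangent.Val
import Fermat.Agent.FlatTangent.Descent

/-!
# The fixed field of inertia at the chosen place has integer valuations and all residues
-/

set_option autoImplicit false

noncomputable section

namespace Fermat.Agent.FlatTangent

open Polynomial

local instance isAlgebraicQb : Algebra.IsAlgebraic ℚ Qb := AlgebraicClosure.isAlgebraic ℚ

variable (p : ℕ) [Fact p.Prime]

/-- `x` is fixed by inertia. -/
def InU (x : Qb) : Prop := ∀ σ ∈ inert p, σ x = x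

/-- `x` is fixed by the decomposition group. -/
def DFixed (x : Qb) : Prop := ∀ σ ∈ dec p, σ x = x

variable {p}
variable {x y : Qb} {c : ℝ}

theorem InU.add (hx : InU p x) (hy : InU p y) : InU p (x + y) := fun σ hσ => by
  rw [map_add, hx σ hσ, hy σ hσ]

theorem InU.sub (hx : InU p x) (hy : InU p y) : InU p (x - y) := fun σ hσ => by
  rw [map_sub, hx σ hσ, hy σ hσ]

theorem InU.mul (hx : InU p x) (hy : InU p y) : InU p (x * y) := fun σ hσ => by
  rw [map_mul, hx σ hσ, hy σ hσ]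

theorem InU.neg (hx : InU p x) : InU p (-x) := fun σ hσ => by rw [map_neg, hx σ hσ]

theorem InU.inv (hx : InU p x) : InU p x⁻¹ := fun σ hσ => by rw [map_inv₀, hx σ hσ]

theorem InU.div (hx : InU p x) (hy : InU p y) : InU p (x / y) := fun σ hσ => by
  rw [map_div₀, hx σ hσ, hy σ hσ]

theorem InU.pow (hx : InU p x) (n : ℕ) : InU p (x ^ n) := fun σ hσ => by
  rw [map_pow, hx σ hσ]

theorem InU.zpow (hx : InU p x) (n : ℤ) : InU p (x ^ n) := fun σ hσ => by
  rw [map_zpow₀, hx σ hσ]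

theorem InU.sum {ι : Type*} {s : Finset ι} {f : ι → Qb} (h : ∀ i ∈ s, InU p (f i)) :
    InU p (∑ i ∈ s, f i) := fun σ hσ => by
  rw [map_sum]; exact Finset.sum_congr rfl fun i hi => h i hi σ hσ

theorem inU_natCast (n : ℕ) : InU p (n : Qb) := fun σ _ => map_natCast σ n

theorem inU_zero : InU p (0 : Qb) := fun σ _ => map_zero σ

theorem inU_one : InU p (1 : Qb) := fun σ _ => map_one σ

theorem DFixed.inU (hx : DFixed p x) : InU p x := fun σ hσ => hx σ (inert_le_dec hσ)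

/-! ### Elements fixed by the decomposition group are `p`-adic numbers -/

theorem DFixed.exists_padic (hx : DFixed p x) :
    ∃ z : ℚ_[p], padicEmbedding p x = algebraMap ℚ_[p] (PadicAlgCl p) z := by
  obtain ⟨z, hz⟩ := (InfiniteGalois.mem_range_algebraMap_iff_fixed (k := ℚ_[p])
    (padicEmbedding p x)).mpr fun τ => by
      rw [← padicEmbedding_localGaloisToGlobal,
        hx _ (localGaloisToGlobal_mem_decompositionSubgroup p τ)]
  exact ⟨z, hz.symm⟩

theorem DFixed.exists_int (hx : DFixed p x) (h0 : x ≠ 0) : ∃ m : ℤ, VEQ p m x := by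
  obtain ⟨z, hz⟩ := hx.exists_padic
  have hz0 : z ≠ 0 := by
    rintro rfl
    rw [map_zero, map_eq_zero] at hz
    exact h0 hz
  refine ⟨z.valuation, ?_⟩
  rw [VEQ, nrm, hz, PadicAlgCl.norm_extends, Padic.norm_eq_zpow_neg_valuation hz0,
    ← Real.rpow_intCast, Int.cast_neg]

theorem DFixed.exists_natCast_sub (hx : DFixed p x) (h : VGE p 0 x) :
    ∃ n : ℕ, VGT p 0 (x - n) := by
  obtain ⟨z, hz⟩ := hx.exists_padic
  rw [VGE, neg_zero, Real.rpow_zero, nrm, hz, PadicAlgCl.norm_extends] at h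
  let w : ℤ_[p] := ⟨z, h⟩
  refine ⟨PadicInt.zmodRepr w, ?_⟩
  rw [VGT, neg_zero, Real.rpow_zero, nrm, map_sub, map_natCast, hz,
    ← map_natCast (algebraMap ℚ_[p] (PadicAlgCl p)), ← map_sub, PadicAlgCl.norm_extends]
  have := PadicInt.sub_zmodRepr_mem w
  rw [IsLocalRing.mem_maximalIdeal, PadicInt.mem_nonunits, PadicInt.norm_def, PadicInt.coe_sub,
    PadicInt.coe_natCast] at this
  exact this

/-! ### Roots of unity of order prime to `p` -/

theorem veq_zero_of_pow_eq_one {m : ℕ} (hm : m ≠ 0) (hx : x ^ m = 1) : VEQ p 0 x := by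
  apply VEQ.of_pow hm
  rw [mul_zero, hx]; exact veq_one

/-- Congruent roots of unity of order prime to `p` are equal. -/
theorem eq_one_of_vgt {m : ℕ} (hm : ¬ p ∣ m) (hx : x ^ m = 1) (h : VGT p 0 (x - 1)) : x = 1 := by
  by_contra hne
  have hm0 : m ≠ 0 := fun h0 => hm (h0 ▸ dvd_zero p)
  have hsum : ∑ i ∈ Finset.range m, x ^ i = 0 := by
    rw [geom_sum_eq hne, hx, sub_self, zero_div]
  have hterm : ∀ i, VGT p 0 (x ^ i - 1) := by
    intro i
    rw [← geom_sum_mul]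
    simpa using (VGE.sum (p := p) (s := Finset.range i) (c := 0) fun j _ => by
      simpa using ((veq_zero_of_pow_eq_one hm0 hx).pow j).vge).mul_vgt h
  have hv : VGT p 0 (m : Qb) := by
    have h1 := (VGT.sum (p := p) (s := Finset.range m) fun i _ => hterm i).neg
    simpa [Finset.sum_sub_distrib, hsum] using h1
  exact lt_irrefl _ ((veq_natCast_of_not_dvd hm).lt_of_vgt hv)

theorem eq_of_vgt {m : ℕ} (hm : ¬ p ∣ m) (hx : x ^ m = 1) (hy : y ^ m = 1)
    (h : VGT p 0 (x - y)) : x = y := by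
  have hy0 : VEQ p 0 y := veq_zero_of_pow_eq_one (fun h0 : m = 0 => hm (h0 ▸ dvd_zero p)) hy
  refine (div_eq_one_iff_eq hy0.ne_zero).mp (eq_one_of_vgt hm (by rw [div_pow, hx, hy, div_one]) ?_)
  rw [div_sub_one hy0.ne_zero]
  simpa using h.div hy0

theorem inU_of_pow_eq_one {m : ℕ} (hm : ¬ p ∣ m) (hx : x ^ m = 1) : InU p x := fun σ hσ => by
  have hm0 : m ≠ 0 := fun h0 => hm (h0 ▸ dvd_zero p)
  exact eq_of_vgt hm (by rw [← map_pow, hx, map_one]) hx
    (inert_sub hσ (veq_zero_of_pow_eq_one hm0 hx).vge)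

theorem frob_apply_of_pow_eq_one {φ : Gal} (hφ : (plc p).IsFrobeniusAt φ p) {m : ℕ}
    (hm : ¬ p ∣ m) (hx : x ^ m = 1) : φ x = x ^ p := by
  have hm0 : m ≠ 0 := fun h0 => hm (h0 ▸ dvd_zero p)
  refine eq_of_vgt hm (by rw [← map_pow, hx, map_one]) (by rw [pow_right_comm, hx, one_pow]) ?_
  exact mem_plc_nonunits_iff.mp (Galois.isFrobeniusAt_sub_mem_nonunits hφ
    (mem_plc_iff.mpr (veq_zero_of_pow_eq_one hm0 hx).vge))

theorem exists_rootOfUnity_sub {m : ℕ} (hm : ¬ p ∣ m) (hx : VGE p 0 x)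
    (h : VGT p 0 (x ^ m - 1)) : ∃ ζ : Qb, ζ ^ m = 1 ∧ VGT p 0 (x - ζ) := by
  have hm0 : 0 < m := Nat.pos_of_ne_zero fun h0 => hm (h0 ▸ dvd_zero p)
  have : NeZero (m : Qb) := ⟨Nat.cast_ne_zero.mpr hm0.ne'⟩
  obtain ⟨η, hη⟩ := HasEnoughRootsOfUnity.exists_primitiveRoot Qb m
  by_contra! hne
  have hprod : (∏ ζ ∈ nthRootsFinset m (1 : Qb), (x - ζ)) = x ^ m - 1 := by
    have := congrArg (Polynomial.eval x) (X_pow_sub_one_eq_prod hm0 hη)
    simpa [eval_prod] using this.symm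
  have hv : VEQ p 0 (x ^ m - 1) := by
    rw [← hprod]
    simpa using VEQ.prod (p := p) (g := fun _ => 0) (s := nthRootsFinset m (1 : Qb))
      (f := fun ζ => x - ζ) fun ζ hζ => by
        have hζ1 := (mem_nthRootsFinset hm0 1).mp hζ
        exact le_antisymm (hx.sub (veq_zero_of_pow_eq_one hm0.ne' hζ1).vge)
          (not_lt.mp (hne ζ hζ1))
  exact lt_irrefl _ (hv.lt_of_vgt h)

theorem natCast_pow_sub_one_not_dvd {k : ℕ} (hk : 0 < k) : ¬ p ∣ p ^ k - 1 := by
  intro h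
  have h1 : p ∣ p ^ k := dvd_pow_self p hk.ne'
  have h2 : p ^ k - (p ^ k - 1) = 1 :=
    Nat.sub_sub_self (Nat.one_le_pow _ _ (Fact.out : p.Prime).pos)
  exact (Fact.out : p.Prime).one_lt.ne' (Nat.dvd_one.mp (h2 ▸ Nat.dvd_sub h1 h))

theorem exists_teich (hx : VEQ p 0 x) :
    ∃ ζ : Qb, ∃ m : ℕ, ¬ p ∣ m ∧ ζ ^ m = 1 ∧ VGT p 0 (x - ζ) := by
  have hp := (Fact.out : p.Prime)
  obtain ⟨k, hk, hxk⟩ := Galois.place_exists_pow_eq (plc_liesOverPrime p) hp
    (IsLocalRing.residue (plc p) ⟨x, mem_plc_iff.mpr hx.vge⟩)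
  have h1 : VGT p 0 (x ^ p ^ k - x) := by
    rw [← map_pow, ← sub_eq_zero, ← map_sub, IsLocalRing.residue_eq_zero_iff,
      ← ValuationSubring.coe_mem_nonunits_iff, mem_plc_nonunits_iff] at hxk
    exact hxk
  have h2 : VGT p 0 (x ^ (p ^ k - 1) - 1) := by
    have h3 := h1.div hx
    rw [sub_self, sub_div, div_self hx.ne_zero] at h3
    rwa [eq_div_iff hx.ne_zero |>.mpr (?_ : x ^ (p ^ k - 1) * x = x ^ p ^ k)]
    rw [← pow_succ, Nat.sub_add_cancel (Nat.one_le_pow _ _ hp.pos)]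
  obtain ⟨ζ, hζ, hζx⟩ := exists_rootOfUnity_sub (natCast_pow_sub_one_not_dvd hk) hx.vge h2
  exact ⟨ζ, _, natCast_pow_sub_one_not_dvd hk, hζ, hζx⟩

/-! ### Valuations on the fixed field of inertia are integers -/

theorem exists_frobenius : ∃ φ : Gal, (plc p).IsFrobeniusAt φ p :=
  Galois.exists_isFrobeniusAt (plc_liesOverPrime p) Fact.out

/-- On a finite set of elements fixed by inertia, decomposition elements act as Frobenius powers. -/
theorem exists_frob_pow_eq {φ : Gal} (hφ : (plc p).IsFrobeniusAt φ p) {σ : Gal} (hσ : σ ∈ dec p)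
    (hx : InU p x) (hy : InU p y) : ∃ k : ℕ, σ x = (φ ^ k) x ∧ σ y = (φ ^ k) y := by
  let F : IntermediateField ℚ Qb := IntermediateField.adjoin ℚ ({x, y} : Set Qb)
  have : FiniteDimensional ℚ F :=
    IntermediateField.finiteDimensional_adjoin fun z _ => Algebra.IsIntegral.isIntegral z
  obtain ⟨k, i, hi, hfix⟩ :=
    Galois.exists_pow_inertia_fixing (plc_liesOverPrime p) Fact.out F hφ hσ
  have hkey : ∀ z ∈ ({x, y} : Set Qb), InU p z → σ z = (φ ^ k) z := by
    intro z hz hzU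
    have h1 := (IntermediateField.mem_fixingSubgroup_iff _ _).mp hfix z
      (IntermediateField.subset_adjoin ℚ _ hz)
    have h2 := congrArg (φ ^ k * i) h1
    rw [← AlgEquiv.mul_apply, mul_inv_cancel_left, AlgEquiv.mul_apply, hzU i hi] at h2
    exact h2
  exact ⟨k, hkey x (by simp) hx, hkey y (by simp) hy⟩

theorem exists_pow_apply_eq (φ : Gal) (x : Qb) : ∃ k : ℕ, 0 < k ∧ (φ ^ k) x = x := by
  classical
  have hint : IsIntegral ℚ x := Algebra.IsIntegral.isIntegral x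
  have hfin : ((minpoly ℚ x).rootSet Qb).Finite := Polynomial.rootSet_finite _ _
  obtain ⟨a, -, b, -, hab, heq⟩ := Set.Infinite.exists_ne_map_eq_of_mapsTo
    (f := fun k : ℕ => (φ ^ k) x) (Set.infinite_univ) (fun k _ => by
      rw [Polynomial.mem_rootSet]
      refine ⟨minpoly.ne_zero hint, ?_⟩
      show aeval (((φ ^ k : Gal) : Qb →ₐ[ℚ] Qb) x) (minpoly ℚ x) = 0
      rw [Polynomial.aeval_algHom_apply, minpoly.aeval, map_zero]) hfin
  wlog hlt : a < b generalizing a b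
  · exact this b a hab.symm heq.symm (lt_of_le_of_ne (not_lt.mp hlt) hab.symm)
  refine ⟨b - a, Nat.sub_pos_of_lt hlt, (φ ^ a).injective ?_⟩
  rw [← AlgEquiv.mul_apply, ← pow_add, Nat.add_sub_cancel' hlt.le]
  exact heq.symm

/-- A combination of the first `f` powers of a primitive `p^f - 1`-st root of unity, with coefficients
fixed by the decomposition group, has integral valuation. -/
theorem veq_teich_sum {f : ℕ} {θ : Qb} (hf : 0 < f) (hθ : IsPrimitiveRoot θ (p ^ f - 1))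
    {c : Fin f → Qb} (hc : ∀ i, DFixed p (c i)) (hne : c ≠ 0) :
    ∃ m : ℤ, VEQ p m (∑ i, c i * θ ^ (i : ℕ)) := by
  classical
  have hp := (Fact.out : p.Prime)
  have hm := natCast_pow_sub_one_not_dvd (p := p) hf
  have hm0 : p ^ f - 1 ≠ 0 := fun h => hm (h ▸ dvd_zero p)
  have hθ0 : VEQ p 0 θ := veq_zero_of_pow_eq_one hm0 hθ.pow_eq_one
  obtain ⟨j, hj⟩ := Function.ne_iff.mp hne
  obtain ⟨i₀, -, hi₀⟩ := Finset.exists_max_image Finset.univ (fun i => nrm p (c i)) ⟨j, by simp⟩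
  have hc0 : c i₀ ≠ 0 := fun h0 => by
    have := hi₀ j (by simp)
    rw [h0, nrm_zero] at this
    exact hj (nrm_eq_zero.mp (le_antisymm this (nrm_nonneg _)))
  obtain ⟨m, hcm⟩ := (hc i₀).exists_int hc0
  refine ⟨m, ?_⟩
  have hd : ∀ i, VGE p 0 (c i / c i₀) := fun i => by
    have h1 : VGE p m (c i) := le_of_le_of_eq (hi₀ i (by simp)) hcm
    simpa using h1.div hcm
  have hdD : ∀ i, DFixed p (c i / c i₀) := fun i σ hσ => by
    rw [map_div₀, hc i σ hσ, hc i₀ σ hσ]
  choose n hn using fun i => (hdD i).exists_natCast_sub (hd i)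
  -- the combination divided by `c i₀` is a unit
  suffices hunit : VEQ p 0 (∑ i, c i / c i₀ * θ ^ (i : ℕ)) by
    have h := hcm.mul hunit
    rw [add_zero, Finset.mul_sum] at h
    convert h using 2
    field_simp
  have hsum : VGE p 0 (∑ i, c i / c i₀ * θ ^ (i : ℕ)) :=
    VGE.sum fun i _ => by simpa using (hd i).mul (hθ0.vge.pow i)
  refine le_antisymm hsum (not_lt.mp fun hlt => ?_)
  let A := plc p
  have hθA : θ ∈ A := mem_plc_iff.mpr hθ0.vge
  let κ := IsLocalRing.ResidueField A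
  let t : κ := IsLocalRing.residue A ⟨θ, hθA⟩
  have hnat : VGT p 0 (∑ i, (n i : Qb) * θ ^ (i : ℕ)) := by
    have h1 : VGT p 0 (∑ i, (c i / c i₀ - n i) * θ ^ (i : ℕ)) :=
      VGT.sum fun i _ => by simpa using (hn i).mul_vge (hθ0.vge.pow i)
    have h2 := VGT.sub (p := p) hlt h1
    simpa [← Finset.sum_sub_distrib, sub_mul] using h2
  let g : Polynomial κ := ∑ i : Fin f, Polynomial.C (n i : κ) * Polynomial.X ^ (i : ℕ)
  have hgdeg : g.degree < f := Polynomial.degree_sum_fin_lt _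
  have hg0 : g ≠ 0 := by
    intro h
    have hcoef : g.coeff i₀ = (n i₀ : κ) := by
      simp [g, Polynomial.finsetSum_coeff, Polynomial.coeff_X_pow, Fin.val_inj]
    rw [h, Polynomial.coeff_zero] at hcoef
    have h1 : ((⟨(n i₀ : Qb), natCast_mem _ _⟩ : A)) ∈ IsLocalRing.maximalIdeal A := by
      rw [← IsLocalRing.residue_eq_zero_iff]
      exact (map_natCast (IsLocalRing.residue A) (n i₀)).trans hcoef.symm
    rw [← ValuationSubring.coe_mem_nonunits_iff, mem_plc_nonunits_iff] at h1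
    have h2 := (hn i₀).add h1
    rw [sub_add_cancel, div_self hc0] at h2
    exact lt_irrefl _ (veq_one.lt_of_vgt h2)
  have hroot : g.eval t = 0 := by
    simp only [g, Polynomial.eval_finsetSum, Polynomial.eval_mul, Polynomial.eval_C,
      Polynomial.eval_pow, Polynomial.eval_X, t]
    have hmem : (∑ i, (n i : Qb) * θ ^ (i : ℕ)) ∈ A := mem_plc_iff.mpr hnat.vge
    have h3 : IsLocalRing.residue A ⟨_, hmem⟩ = 0 := by
      rw [IsLocalRing.residue_eq_zero_iff, ← ValuationSubring.coe_mem_nonunits_iff,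
        mem_plc_nonunits_iff]
      exact hnat
    rw [show (⟨_, hmem⟩ : A) = ∑ i, (n i : A) * (⟨θ, hθA⟩ : A) ^ (i : ℕ) from
      Subtype.ext (by simp)] at h3
    simp only [map_sum, map_mul, map_pow, map_natCast] at h3
    exact h3
  have : CharP κ p := Galois.place_charP_residueField (plc_liesOverPrime p) hp
  have hpow : ∀ k : ℕ, g.eval (t ^ p ^ k) = 0 := by
    intro k
    have : ExpChar κ p := ExpChar.prime hp
    have h1 := congrArg (iterateFrobenius κ p k) hroot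
    have hn' : ∀ i : Fin f, iterateFrobenius κ p k (n i : κ) = (n i : κ) := fun i =>
      map_natCast _ _
    simp only [g, Polynomial.eval_finsetSum, Polynomial.eval_mul, Polynomial.eval_C,
      Polynomial.eval_pow, Polynomial.eval_X, map_sum, map_mul, map_pow, hn',
      map_zero] at h1 ⊢
    rw [iterateFrobenius_def] at h1
    exact h1
  have hinj : Function.Injective fun k : Fin f => t ^ p ^ (k : ℕ) := by
    intro a b hab
    have hp1 := hp.one_lt
    have hlt : ∀ k : Fin f, p ^ (k : ℕ) ≤ p ^ f - 1 := fun k =>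
      Nat.le_sub_one_of_lt (Nat.pow_lt_pow_right hp1 k.2)
    have h1 : θ ^ p ^ (a : ℕ) = θ ^ p ^ (b : ℕ) := by
      refine eq_of_vgt hm (by rw [pow_right_comm, hθ.pow_eq_one, one_pow])
        (by rw [pow_right_comm, hθ.pow_eq_one, one_pow]) ?_
      have h2 : ((⟨θ, hθA⟩ : A) ^ p ^ (a : ℕ) - (⟨θ, hθA⟩ : A) ^ p ^ (b : ℕ)) ∈
          IsLocalRing.maximalIdeal A := by
        rw [← IsLocalRing.residue_eq_zero_iff, map_sub, map_pow, map_pow, sub_eq_zero]
        exact hab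
      rw [← ValuationSubring.coe_mem_nonunits_iff, mem_plc_nonunits_iff] at h2
      simpa using h2
    have h3 : p ^ (a : ℕ) % (p ^ f - 1) = p ^ (b : ℕ) % (p ^ f - 1) := by
      refine hθ.pow_inj (Nat.mod_lt _ (Nat.pos_of_ne_zero hm0))
        (Nat.mod_lt _ (Nat.pos_of_ne_zero hm0)) ?_
      rwa [← pow_eq_pow_mod _ hθ.pow_eq_one, ← pow_eq_pow_mod _ hθ.pow_eq_one]
    rcases eq_or_ne (p ^ f - 1) 1 with h1' | h1'
    · have hf1 : f = 1 := by
        by_contra hne1
        have h4 : p ^ 2 ≤ p ^ f := Nat.pow_le_pow_right hp.pos (by omega)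
        have h5 : 2 ^ 2 ≤ p ^ 2 := Nat.pow_le_pow_left hp.two_le 2
        omega
      subst hf1
      exact Subsingleton.elim a b
    · have hlt' : ∀ k : Fin f, p ^ (k : ℕ) < p ^ f - 1 := fun k => by
        refine lt_of_le_of_ne (hlt k) fun heq => ?_
        rcases Nat.eq_zero_or_pos (k : ℕ) with hk0 | hk0
        · rw [hk0, pow_zero] at heq; exact h1' heq.symm
        · exact hm (heq ▸ dvd_pow_self p hk0.ne')
      rw [Nat.mod_eq_of_lt (hlt' a), Nat.mod_eq_of_lt (hlt' b)] at h3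
      exact Fin.ext (Nat.pow_right_injective hp.two_le h3)
  exact hg0 (Polynomial.eq_zero_of_natDegree_lt_card_of_eval_eq_zero g hinj
    (fun k => hpow k) (by simpa using (Polynomial.natDegree_lt_iff_degree_lt hg0).mpr hgdeg))

theorem InU.exists_int (hx : InU p x) (h0 : x ≠ 0) : ∃ m : ℤ, VEQ p m x := by
  classical
  have hp := (Fact.out : p.Prime)
  obtain ⟨φ, hφ⟩ := exists_frobenius (p := p)
  obtain ⟨f, hf, hfx⟩ := exists_pow_apply_eq φ x
  have hφd : φ ∈ dec p := (Galois.isFrobeniusAt_iff.mp hφ).1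
  set m := p ^ f - 1 with hmdef
  have hm : ¬ p ∣ m := natCast_pow_sub_one_not_dvd hf
  have hm0 : m ≠ 0 := fun h => hm (h ▸ dvd_zero p)
  have : NeZero (m : Qb) := ⟨Nat.cast_ne_zero.mpr hm0⟩
  obtain ⟨θ, hθ⟩ := HasEnoughRootsOfUnity.exists_primitiveRoot Qb m
  have hθU : InU p θ := inU_of_pow_eq_one hm hθ.pow_eq_one
  have hθk : ∀ k : ℕ, (φ ^ k) θ = θ ^ p ^ k := by
    intro k
    induction k with
    | zero => simp
    | succ k ih =>
      rw [pow_succ, AlgEquiv.mul_apply, frob_apply_of_pow_eq_one hφ hm hθ.pow_eq_one, map_pow, ih,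
        ← pow_mul, pow_succ]
  have hfθ : (φ ^ f) θ = θ := by
    rw [hθk, ← Nat.sub_add_cancel (Nat.one_le_pow f p hp.pos), pow_succ, hθ.pow_eq_one, one_mul]
  have hper : ∀ z : Qb, (φ ^ f) z = z → ∀ k, (φ ^ k) z = (φ ^ (k % f)) z := by
    intro z hz k
    have h1 : ∀ n : ℕ, (φ ^ (f * n)) z = z := by
      intro n
      induction n with
      | zero => simp
      | succ n ih => rw [Nat.mul_succ, pow_add, AlgEquiv.mul_apply, hz, ih]
    conv_lhs => rw [← Nat.mod_add_div k f, pow_add, AlgEquiv.mul_apply, h1]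
  let X : Finset (Qb × Qb) := (Finset.range f).image fun k => ((φ ^ k) x, (φ ^ k) θ)
  have hmem : ∀ σ ∈ dec p, ∀ z ∈ X, (σ z.1, σ z.2) ∈ X := by
    intro σ hσ z hz
    obtain ⟨k, -, rfl⟩ := Finset.mem_image.mp hz
    obtain ⟨l, hl1, hl2⟩ := exists_frob_pow_eq hφ (σ := σ * φ ^ k)
      (mul_mem hσ (pow_mem hφd k)) hx hθU
    refine Finset.mem_image.mpr ⟨l % f, Finset.mem_range.mpr (Nat.mod_lt _ hf), ?_⟩
    rw [AlgEquiv.mul_apply] at hl1 hl2
    exact Prod.ext ((hper x hfx l).symm.trans hl1.symm) ((hper θ hfθ l).symm.trans hl2.symm)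
  let act : dec p → X → X := fun σ z => ⟨(σ.1 z.1.1, σ.1 z.1.2), hmem σ.1 σ.2 z.1 z.2⟩
  have hsurj : ∀ σ, Function.Surjective (act σ) := by
    intro σ z
    refine ⟨act σ⁻¹ z, Subtype.ext (Prod.ext ?_ ?_)⟩ <;>
      simp [act, AlgEquiv.aut_inv]
  let v : Fin f × Fin 2 → X → Qb := fun ij z => z.1.2 ^ (ij.1 : ℕ) * z.1.1 ^ (ij.2 : ℕ)
  have hcard : Fintype.card X < Fintype.card (Fin f × Fin 2) := by
    rw [Fintype.card_coe, Fintype.card_prod, Fintype.card_fin, Fintype.card_fin]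
    calc X.card ≤ f := le_trans Finset.card_image_le (by simp)
      _ < f * 2 := by omega
  obtain ⟨d, hd0, hdfix, hd⟩ := exists_fixed_relation_of_card_lt
    (fun σ : dec p => (σ.1 : Qb →+* Qb)) act hsurj v
    (fun σ ij z => by simp [v, act, map_mul, map_pow]) hcard
  have h0X : (x, θ) ∈ X := Finset.mem_image.mpr ⟨0, Finset.mem_range.mpr hf, by simp⟩
  have hrel := hd ⟨(x, θ), h0X⟩
  simp only [v, Fintype.sum_prod_type, Fin.sum_univ_two] at hrel
  simp only [Fin.val_zero, pow_zero, mul_one, Fin.val_one, pow_one, Finset.sum_add_distrib,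
    ← mul_assoc, ← Finset.sum_mul] at hrel
  have hD : ∀ ij, DFixed p (d ij) := fun ij σ hσ => hdfix ⟨σ, hσ⟩ ij
  by_cases h1 : (fun i => d (i, 1)) = 0
  · have h1' : ∀ i, d (i, 1) = 0 := fun i => congrFun h1 i
    have hne : (fun i => d (i, 0)) ≠ 0 := by
      intro h0'
      refine hd0 (funext fun ⟨i, j⟩ => ?_)
      fin_cases j
      · exact congrFun h0' i
      · exact h1' i
    obtain ⟨m₀, hm₀⟩ := veq_teich_sum hf hθ (fun i => hD _) hne
    exact absurd (by simpa [h1'] using hrel) hm₀.ne_zero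
  · obtain ⟨m₁, hm₁⟩ := veq_teich_sum hf hθ (fun i => hD _) h1
    have hne : (fun i => d (i, 0)) ≠ 0 := by
      intro h0'
      have h0'' : ∀ i, d (i, 0) = 0 := fun i => congrFun h0' i
      exact mul_ne_zero hm₁.ne_zero h0 (by simpa [h0''] using hrel)
    obtain ⟨m₀, hm₀⟩ := veq_teich_sum hf hθ (fun i => hD _) hne
    refine ⟨m₀ - m₁, ?_⟩
    have hxeq : x = -(∑ i, d (i, 0) * θ ^ (i : ℕ)) / ∑ i, d (i, 1) * θ ^ (i : ℕ) := by
      rw [eq_div_iff hm₁.ne_zero]
      linear_combination hrel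
    rw [hxeq]
    simpa using hm₀.neg.div hm₁

theorem InU.vge_intCast (hx : InU p x) {a : ℤ} {b : ℝ} (h : VGE p b x) (hb : (a : ℝ) - 1 < b) :
    VGE p a x := by
  by_cases h0 : x = 0
  · rw [h0]; exact vge_zero _
  obtain ⟨m, hm⟩ := hx.exists_int h0
  refine hm.vge.mono ?_
  have h1 : a - 1 < m := by exact_mod_cast lt_of_lt_of_le hb (hm.le_of_vge h)
  exact_mod_cast (show a ≤ m by omega)

theorem InU.vge_one_of_vgt (hx : InU p x) (h : VGT p 0 x) : VGE p 1 x := by
  by_cases h0 : x = 0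
  · rw [h0]; exact vge_zero _
  obtain ⟨m, hm⟩ := hx.exists_int h0
  refine hm.vge.mono ?_
  have h1 : 0 < m := by exact_mod_cast hm.lt_of_vgt h
  exact_mod_cast (show 1 ≤ m by omega)

/-- Every element of the residue field has a representative fixed by inertia. -/
theorem exists_inU_sub (hx : VGE p 0 x) : ∃ u : Qb, InU p u ∧ VGE p 0 u ∧ VGT p 0 (x - u) := by
  by_cases h : VGT p 0 x
  · exact ⟨0, inU_zero, vge_zero _, by simpa using h⟩
  obtain ⟨ζ, m, hm, hζ, hζx⟩ := exists_teich (le_antisymm hx (not_lt.mp h))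
  exact ⟨ζ, inU_of_pow_eq_one hm hζ,
    (veq_zero_of_pow_eq_one (fun h0 : m = 0 => hm (h0 ▸ dvd_zero p)) hζ).vge, hζx⟩

end Fermat.Agent.FlatTangent
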