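import Fermat.Agent.Galois.Decomposition
import Fermat.Prelude.Def_GaloisRep_CompletionBridge

/-!
# The norm of the chosen `p`-adic place of `ℚ̄`, with exponents in `ℝ`

`VGE p c x` says `v(x) ≥ c`, `VGT p c x` says `v(x) > c` and `VEQ p c x` says `v(x) = c`, for the
valuation `v` of `padicPlace p` normalised by `v(p) = 1`.
-/

set_option autoImplicit false

noncomputable section

namespace Fermat.Agent.FlatTangent

open scoped NNReal

/-- The algebraic closure of `ℚ`. -/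
abbrev Qb : Type := AlgebraicClosure ℚ

/-- The absolute Galois group of `ℚ`. -/
abbrev Gal : Type := AlgebraicClosure ℚ ≃ₐ[ℚ] AlgebraicClosure ℚ

variable (p : ℕ) [Fact p.Prime]

/-- The chosen place over `p`. -/
abbrev plc : ValuationSubring Qb := padicPlace p

/-- Its decomposition group. -/
abbrev dec : Subgroup Gal := (padicPlace p).decompositionSubgroup ℚ

/-- Its inertia group. -/
abbrev inert : Subgroup Gal := (padicPlace p).inertiaSubgroupIn ℚ

/-- The absolute value of the chosen place. -/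
def nrm (x : Qb) : ℝ := ‖padicEmbedding p x‖

/-- `v(x) ≥ c`. -/
def VGE (c : ℝ) (x : Qb) : Prop := nrm p x ≤ (p : ℝ) ^ (-c)

/-- `v(x) > c`. -/
def VGT (c : ℝ) (x : Qb) : Prop := nrm p x < (p : ℝ) ^ (-c)

/-- `v(x) = c`. -/
def VEQ (c : ℝ) (x : Qb) : Prop := nrm p x = (p : ℝ) ^ (-c)

variable {p}
variable {x y : Qb} {c d : ℝ}

theorem one_lt_cast : (1 : ℝ) < (p : ℝ) := by exact_mod_cast (Fact.out : p.Prime).one_lt

theorem cast_pos' : (0 : ℝ) < (p : ℝ) := lt_trans zero_lt_one one_lt_cast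

theorem pw_pos (c : ℝ) : 0 < (p : ℝ) ^ (-c) := Real.rpow_pos_of_pos cast_pos' _

theorem pw_le_pw_iff : (p : ℝ) ^ (-c) ≤ (p : ℝ) ^ (-d) ↔ d ≤ c := by
  rw [Real.rpow_le_rpow_left_iff one_lt_cast]; exact neg_le_neg_iff

theorem pw_lt_pw_iff : (p : ℝ) ^ (-c) < (p : ℝ) ^ (-d) ↔ d < c := by
  rw [Real.rpow_lt_rpow_left_iff one_lt_cast]; exact neg_lt_neg_iff

theorem pw_add : (p : ℝ) ^ (-(c + d)) = (p : ℝ) ^ (-c) * (p : ℝ) ^ (-d) := by
  rw [← Real.rpow_add cast_pos']; ring_nf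

theorem nrm_mul (x y : Qb) : nrm p (x * y) = nrm p x * nrm p y := by
  rw [nrm, map_mul, norm_mul]; rfl

theorem nrm_zero : nrm p (0 : Qb) = 0 := by rw [nrm, map_zero, norm_zero]

theorem nrm_one : nrm p (1 : Qb) = 1 := by rw [nrm, map_one, norm_one]

theorem nrm_nonneg (x : Qb) : 0 ≤ nrm p x := norm_nonneg _

theorem nrm_eq_zero : nrm p x = 0 ↔ x = 0 := by
  rw [nrm, norm_eq_zero, map_eq_zero]

theorem nrm_pos (hx : x ≠ 0) : 0 < nrm p x :=
  lt_of_le_of_ne (nrm_nonneg x) (Ne.symm (mt nrm_eq_zero.mp hx))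

theorem nrm_pow (x : Qb) (n : ℕ) : nrm p (x ^ n) = nrm p x ^ n := by
  rw [nrm, map_pow, norm_pow]; rfl

theorem nrm_inv (x : Qb) : nrm p x⁻¹ = (nrm p x)⁻¹ := by
  rw [nrm, map_inv₀, norm_inv]; rfl

theorem nrm_neg (x : Qb) : nrm p (-x) = nrm p x := by rw [nrm, map_neg, norm_neg]; rfl

theorem nrm_add_le (x y : Qb) : nrm p (x + y) ≤ max (nrm p x) (nrm p y) := by
  rw [nrm, map_add]; exact IsUltrametricDist.norm_add_le_max _ _

theorem nrm_natCast_self : nrm p (p : Qb) = (p : ℝ)⁻¹ := by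
  rw [nrm, map_natCast, ← map_natCast (algebraMap ℚ_[p] (PadicAlgCl p)) p,
    PadicAlgCl.norm_extends, Padic.norm_p]

theorem mem_plc_iff : x ∈ plc p ↔ VGE p 0 x := by
  rw [VGE, neg_zero, Real.rpow_zero]
  exact (mem_padicPlace_iff p).trans (by rw [← NNReal.coe_le_coe]; rfl)

theorem mem_plc_nonunits_iff : x ∈ (plc p).nonunits ↔ VGT p 0 x := by
  rw [VGT, neg_zero, Real.rpow_zero, ValuationSubring.mem_nonunits_iff_or]
  constructor
  · rintro (rfl | h)
    · rw [nrm_zero]; exact zero_lt_one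
    · rw [mem_plc_iff, VGE, neg_zero, Real.rpow_zero, not_le, nrm_inv] at h
      exact (one_lt_inv_iff₀.mp h).2
  · intro h
    by_cases hx : x = 0
    · exact Or.inl hx
    · right
      rw [mem_plc_iff, VGE, neg_zero, Real.rpow_zero, not_le, nrm_inv]
      exact (one_lt_inv_iff₀.mpr ⟨nrm_pos hx, h⟩)

theorem plc_liesOverPrime (p : ℕ) [Fact p.Prime] : (plc p).LiesOverPrime p := by
  rw [ValuationSubring.LiesOverPrime, mem_plc_nonunits_iff, VGT, neg_zero, Real.rpow_zero,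
    nrm_natCast_self]
  exact inv_lt_one_of_one_lt₀ one_lt_cast

/-! ### Basic rules -/

theorem VGE.mono (h : VGE p c x) (hd : d ≤ c) : VGE p d x := le_trans h (pw_le_pw_iff.mpr hd)

theorem VGT.mono (h : VGT p c x) (hd : d ≤ c) : VGT p d x :=
  lt_of_lt_of_le h (pw_le_pw_iff.mpr hd)

theorem VGT.vge (h : VGT p c x) : VGE p c x := le_of_lt h

theorem VGE.vgt (h : VGE p c x) (hd : d < c) : VGT p d x :=
  lt_of_le_of_lt h (pw_lt_pw_iff.mpr hd)

theorem VEQ.vge (h : VEQ p c x) : VGE p c x := le_of_eq h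

theorem VEQ.ne_zero (h : VEQ p c x) : x ≠ 0 := by
  rintro rfl
  rw [VEQ, nrm_zero] at h
  exact (pw_pos (p := p) c).ne h

theorem VEQ.le_of_vge (h : VEQ p c x) (h' : VGE p d x) : d ≤ c := by
  rw [VGE, h, pw_le_pw_iff] at h'; exact h'

theorem VEQ.lt_of_vgt (h : VEQ p c x) (h' : VGT p d x) : d < c := by
  rw [VGT, h, pw_lt_pw_iff] at h'; exact h'

theorem VEQ.unique (h : VEQ p c x) (h' : VEQ p d x) : c = d :=
  le_antisymm (h'.le_of_vge h.vge) (h.le_of_vge h'.vge)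

theorem vge_zero (c : ℝ) : VGE p c (0 : Qb) := by rw [VGE, nrm_zero]; exact (pw_pos c).le

theorem vgt_zero (c : ℝ) : VGT p c (0 : Qb) := by rw [VGT, nrm_zero]; exact pw_pos c

theorem veq_one : VEQ p 0 (1 : Qb) := by rw [VEQ, neg_zero, Real.rpow_zero, nrm_one]

theorem exists_veq (hx : x ≠ 0) : ∃ c, VEQ p c x :=
  ⟨-Real.logb p (nrm p x), by
    rw [VEQ, neg_neg, Real.rpow_logb cast_pos' one_lt_cast.ne' (nrm_pos hx)]⟩

theorem VGE.neg (h : VGE p c x) : VGE p c (-x) := by rwa [VGE, nrm_neg]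

theorem VGT.neg (h : VGT p c x) : VGT p c (-x) := by rwa [VGT, nrm_neg]

theorem VEQ.neg (h : VEQ p c x) : VEQ p c (-x) := by rwa [VEQ, nrm_neg]

theorem VGE.add (hx : VGE p c x) (hy : VGE p c y) : VGE p c (x + y) :=
  le_trans (nrm_add_le x y) (max_le hx hy)

theorem VGT.add (hx : VGT p c x) (hy : VGT p c y) : VGT p c (x + y) :=
  lt_of_le_of_lt (nrm_add_le x y) (max_lt hx hy)

theorem VGE.sub (hx : VGE p c x) (hy : VGE p c y) : VGE p c (x - y) := by
  rw [sub_eq_add_neg]; exact hx.add hy.neg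

theorem VGT.sub (hx : VGT p c x) (hy : VGT p c y) : VGT p c (x - y) := by
  rw [sub_eq_add_neg]; exact hx.add hy.neg

theorem VEQ.add_vgt (hx : VEQ p c x) (hy : VGT p c y) : VEQ p c (x + y) := by
  refine le_antisymm (hx.vge.add hy.vge) ?_
  by_contra h
  rw [not_le] at h
  have h1 : VGT p c x := by simpa using VGT.sub (x := x + y) (y := y) h hy
  exact lt_irrefl c (hx.lt_of_vgt h1)

theorem VGE.mul (hx : VGE p c x) (hy : VGE p d y) : VGE p (c + d) (x * y) := by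
  rw [VGE, nrm_mul, pw_add]
  exact mul_le_mul hx hy (nrm_nonneg y) (pw_pos c).le

theorem VEQ.mul (hx : VEQ p c x) (hy : VEQ p d y) : VEQ p (c + d) (x * y) := by
  rw [VEQ, nrm_mul, pw_add, hx, hy]

theorem VGT.mul_vge (hx : VGT p c x) (hy : VGE p d y) : VGT p (c + d) (x * y) := by
  rw [VGT, nrm_mul, pw_add]
  exact lt_of_le_of_lt (mul_le_mul_of_nonneg_left hy (nrm_nonneg x))
    (mul_lt_mul_of_pos_right hx (pw_pos d))

theorem VGE.mul_vgt (hx : VGE p c x) (hy : VGT p d y) : VGT p (c + d) (x * y) := by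
  rw [mul_comm, add_comm]; exact hy.mul_vge hx

theorem VEQ.inv (hx : VEQ p c x) : VEQ p (-c) x⁻¹ := by
  rw [VEQ, nrm_inv, hx, ← Real.rpow_neg cast_pos'.le]

theorem VEQ.div (hx : VEQ p c x) (hy : VEQ p d y) : VEQ p (c - d) (x / y) := by
  rw [div_eq_mul_inv, sub_eq_add_neg]; exact hx.mul hy.inv

theorem VGE.div (hx : VGE p c x) (hy : VEQ p d y) : VGE p (c - d) (x / y) := by
  rw [div_eq_mul_inv, sub_eq_add_neg]; exact hx.mul hy.inv.vge

theorem VGT.div (hx : VGT p c x) (hy : VEQ p d y) : VGT p (c - d) (x / y) := by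
  rw [div_eq_mul_inv, sub_eq_add_neg]; exact hx.mul_vge hy.inv.vge

theorem VGE.pow (hx : VGE p c x) (n : ℕ) : VGE p (n * c) (x ^ n) := by
  induction n with
  | zero => simpa using veq_one.vge
  | succ n ih =>
    rw [pow_succ, Nat.cast_succ, add_mul, one_mul]; exact ih.mul hx

theorem VEQ.pow (hx : VEQ p c x) (n : ℕ) : VEQ p (n * c) (x ^ n) := by
  induction n with
  | zero => simpa using veq_one
  | succ n ih =>
    rw [pow_succ, Nat.cast_succ, add_mul, one_mul]; exact ih.mul hx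

theorem VEQ.zpow (hx : VEQ p c x) (n : ℤ) : VEQ p (n * c) (x ^ n) := by
  obtain ⟨m, rfl | rfl⟩ := n.eq_nat_or_neg
  · simpa using hx.pow m
  · simpa [zpow_neg] using (hx.pow m).inv

theorem VEQ.of_pow {n : ℕ} (hn : n ≠ 0) (hx : VEQ p (n * c) (x ^ n)) : VEQ p c x := by
  rw [VEQ, nrm_pow] at hx
  rw [VEQ]
  refine (pow_left_inj₀ (nrm_nonneg x) (pw_pos c).le hn).mp ?_
  rw [hx, ← Real.rpow_natCast ((p : ℝ) ^ (-c)) n, ← Real.rpow_mul cast_pos'.le]
  ring_nf

theorem veq_cast_self : VEQ p 1 (p : Qb) := by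
  rw [VEQ, nrm_natCast_self, Real.rpow_neg_one]

theorem vge_natCast (n : ℕ) : VGE p 0 (n : Qb) := mem_plc_iff.mp (natCast_mem _ n)

theorem vge_intCast (n : ℤ) : VGE p 0 (n : Qb) := mem_plc_iff.mp (intCast_mem _ n)

theorem vge_natCast_of_dvd {n : ℕ} (h : p ∣ n) : VGE p 1 (n : Qb) := by
  obtain ⟨m, rfl⟩ := h
  simpa using (veq_cast_self (p := p)).vge.mul (vge_natCast (p := p) m)

theorem veq_intCast_of_not_dvd {n : ℤ} (h : ¬ (p : ℤ) ∣ n) : VEQ p 0 (n : Qb) := by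
  refine le_antisymm (vge_intCast n) ?_
  rw [neg_zero, Real.rpow_zero]
  by_contra hlt
  rw [not_le] at hlt
  refine h ((Galois.place_intCast_mem_nonunits_iff (plc_liesOverPrime p) Fact.out n).mp ?_)
  rw [mem_plc_nonunits_iff, VGT, neg_zero, Real.rpow_zero]
  exact hlt

theorem veq_natCast_of_not_dvd {n : ℕ} (h : ¬ p ∣ n) : VEQ p 0 (n : Qb) := by
  simpa using veq_intCast_of_not_dvd (p := p) (n := n) (by exact_mod_cast h)

theorem VGE.sum {ι : Type*} {s : Finset ι} {f : ι → Qb} (h : ∀ i ∈ s, VGE p c (f i)) :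
    VGE p c (∑ i ∈ s, f i) := by
  classical
  induction s using Finset.induction with
  | empty => simpa using vge_zero c
  | @insert a s has ih =>
    rw [Finset.sum_insert has]
    exact (h a (by simp)).add (ih fun i hi => h i (by simp [hi]))

theorem VGT.sum {ι : Type*} {s : Finset ι} {f : ι → Qb} (h : ∀ i ∈ s, VGT p c (f i)) :
    VGT p c (∑ i ∈ s, f i) := by
  classical
  induction s using Finset.induction with
  | empty => simpa using vgt_zero c
  | @insert a s has ih =>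
    rw [Finset.sum_insert has]
    exact (h a (by simp)).add (ih fun i hi => h i (by simp [hi]))

theorem VEQ.prod {ι : Type*} {s : Finset ι} {f : ι → Qb} {g : ι → ℝ}
    (h : ∀ i ∈ s, VEQ p (g i) (f i)) : VEQ p (∑ i ∈ s, g i) (∏ i ∈ s, f i) := by
  classical
  induction s using Finset.induction with
  | empty => simpa using veq_one
  | @insert a s has ih =>
    rw [Finset.prod_insert has, Finset.sum_insert has]
    exact (h a (by simp)).mul (ih fun i hi => h i (by simp [hi]))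

theorem VGE.prod {ι : Type*} {s : Finset ι} {f : ι → Qb} {g : ι → ℝ}
    (h : ∀ i ∈ s, VGE p (g i) (f i)) : VGE p (∑ i ∈ s, g i) (∏ i ∈ s, f i) := by
  classical
  induction s using Finset.induction with
  | empty => simpa using veq_one.vge
  | @insert a s has ih =>
    rw [Finset.prod_insert has, Finset.sum_insert has]
    exact (h a (by simp)).mul (ih fun i hi => h i (by simp [hi]))

/-- A term with strictly smallest valuation dominates a sum. -/
theorem VEQ.sum_of_lt {ι : Type*} {s : Finset ι} {f : ι → Qb} {i : ι} (hi : i ∈ s)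
    (h : VEQ p c (f i)) (hj : ∀ j ∈ s, j ≠ i → VGT p c (f j)) : VEQ p c (∑ j ∈ s, f j) := by
  classical
  rw [← Finset.add_sum_erase s f hi]
  exact h.add_vgt (VGT.sum fun j hj' => hj j (Finset.mem_of_mem_erase hj')
    (Finset.ne_of_mem_erase hj'))

/-! ### Invariance under the decomposition group -/

theorem dec_mem_iff {σ : Gal} (hσ : σ ∈ dec p) (x : Qb) : σ x ∈ plc p ↔ x ∈ plc p :=
  Galois.mem_decomposition_iff.mp hσ x

theorem nrm_le_of_rat {a : ℤ} {b : ℕ} (hb : b ≠ 0) :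
    nrm p x ≤ (p : ℝ) ^ (-((a : ℝ) / b)) ↔ x ^ b / (p : Qb) ^ a ∈ plc p := by
  rw [mem_plc_iff, VGE, neg_zero, Real.rpow_zero, div_eq_mul_inv (x ^ b), nrm_mul, nrm_inv, nrm_pow,
    show nrm p ((p : Qb) ^ a) = (p : ℝ) ^ (-(a : ℝ)) by
      simpa [VEQ] using (veq_cast_self (p := p)).zpow a,
    ← div_eq_mul_inv, div_le_one (pw_pos _),
    show (p : ℝ) ^ (-(a : ℝ)) = ((p : ℝ) ^ (-((a : ℝ) / b))) ^ b by
      rw [← Real.rpow_natCast _ b, ← Real.rpow_mul cast_pos'.le]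
      congr 1
      field_simp]
  exact (pow_le_pow_iff_left₀ (nrm_nonneg x) (pw_pos _).le hb).symm

theorem nrm_dec_le {σ : Gal} (hσ : σ ∈ dec p) (hx : x ≠ 0) : nrm p (σ x) ≤ nrm p x := by
  by_contra hlt
  rw [not_le] at hlt
  obtain ⟨c, hc⟩ := exists_veq (p := p) hx
  obtain ⟨d, hd⟩ := exists_veq (p := p) (x := σ x) (by simpa using hx)
  rw [hc, hd, pw_lt_pw_iff] at hlt
  obtain ⟨q, hq1, hq2⟩ := exists_rat_btwn hlt
  have hq : (q : ℝ) = (q.num : ℝ) / (q.den : ℝ) := by rw [Rat.cast_def]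
  have h1 : nrm p x ≤ (p : ℝ) ^ (-((q.num : ℝ) / q.den)) := by
    rw [hc, pw_le_pw_iff, ← hq]; exact hq2.le
  rw [nrm_le_of_rat q.den_nz, ← dec_mem_iff hσ] at h1
  have h2 : nrm p (σ x) ≤ (p : ℝ) ^ (-((q.num : ℝ) / q.den)) := by
    rw [nrm_le_of_rat q.den_nz]
    simpa [map_div₀, map_pow, map_zpow₀] using h1
  rw [hd, pw_le_pw_iff, ← hq] at h2
  exact absurd h2 (not_le.mpr hq1)

theorem nrm_dec {σ : Gal} (hσ : σ ∈ dec p) (x : Qb) : nrm p (σ x) = nrm p x := by
  by_cases hx : x = 0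
  · simp [hx]
  refine le_antisymm (nrm_dec_le hσ hx) ?_
  have h := nrm_dec_le (x := σ x) (inv_mem hσ) (by simpa using hx)
  simpa [AlgEquiv.aut_inv] using h

theorem VGE.dec {σ : Gal} (hσ : σ ∈ dec p) (h : VGE p c x) : VGE p c (σ x) := by
  rwa [VGE, nrm_dec hσ]

theorem VGT.dec {σ : Gal} (hσ : σ ∈ dec p) (h : VGT p c x) : VGT p c (σ x) := by
  rwa [VGT, nrm_dec hσ]

theorem VEQ.dec {σ : Gal} (hσ : σ ∈ dec p) (h : VEQ p c x) : VEQ p c (σ x) := by
  rwa [VEQ, nrm_dec hσ]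

theorem inert_le_dec : inert p ≤ dec p := Galois.inertia_le_decomposition _

theorem inert_sub {σ : Gal} (hσ : σ ∈ inert p) (hx : VGE p 0 x) : VGT p 0 (σ x - x) :=
  mem_plc_nonunits_iff.mp (Galois.inertia_sub_mem_nonunits hσ (mem_plc_iff.mpr hx))

end Fermat.Agent.FlatTangent
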